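import Fermat.Agent.LT.T4.QSum

set_option autoImplicit false

/-! # Binary quadratic Gauss sums over a principal ideal domain -/

namespace Fermat.Agent.LT.T4

open Ideal

section field

variable {F : Type*} [Field F] [Fintype F] [DecidableEq F]

/-- the quadratic character with complex values -/
noncomputable def qch (F : Type*) [Field F] [Fintype F] [DecidableEq F] : MulChar F ℂ :=
  (quadraticChar F).ringHomComp (Int.castRingHom ℂ)

theorem qch_apply (x : F) : qch F x = ((quadraticChar F x : ℤ) : ℂ) := rfl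

theorem sum_sq (hF : ringChar F ≠ 2) (ψ : AddChar F ℂ) (hψ : ψ.IsPrimitive) {a : F} (ha : a ≠ 0) :
    ∑ x : F, ψ (a * x ^ 2) = qch F a * gaussSum (qch F) ψ := by
  have h1 : ∑ x : F, ψ (a * x ^ 2) = ∑ t : F, ((quadraticChar F t : ℤ) + 1 : ℂ) * ψ (a * t) := by
    rw [← Finset.sum_fiberwise (s := Finset.univ) (g := fun x : F => x ^ 2)]
    apply Finset.sum_congr rfl
    intro t _
    have h2 : ∀ x ∈ Finset.univ.filter (fun x : F => x ^ 2 = t), ψ (a * x ^ 2) = ψ (a * t) := by
      intro x hx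
      rw [(Finset.mem_filter.mp hx).2]
    rw [Finset.sum_congr rfl h2, Finset.sum_const, nsmul_eq_mul]
    congr 1
    have h3 := quadraticChar_card_sqrts hF t
    have h4 : (Finset.univ.filter (fun x : F => x ^ 2 = t)).card =
        ({x : F | x ^ 2 = t}.toFinset).card := by
      congr 1
      ext x
      simp
    rw [h4]
    exact_mod_cast h3
  have h5 : ∑ t : F, ψ (a * t) = 0 := by
    have := AddChar.sum_eq_zero_of_ne_one (hψ ha)
    simpa [AddChar.mulShift_apply] using this
  rw [h1]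
  simp only [add_mul, Finset.sum_add_distrib, one_mul, h5, add_zero]
  have h6 : ∑ t : F, ((quadraticChar F t : ℤ) : ℂ) * ψ (a * t) =
      gaussSum (qch F) (ψ.mulShift a) := rfl
  have h7 := gaussSum_mulShift (qch F) ψ (Units.mk0 a ha)
  rw [h6]
  have h8 : qch F a * qch F a = 1 := by
    rw [← map_mul, ← sq, qch_apply, quadraticChar_sq_one' ha]
    simp
  rw [← h7, Units.val_mk0, ← mul_assoc, h8, one_mul]

theorem sum_sq_mul (hF : ringChar F ≠ 2) (ψ : AddChar F ℂ) (hψ : ψ.IsPrimitive) {a b : F}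
    (ha : a ≠ 0) (hb : b ≠ 0) :
    (∑ x : F, ψ (a * x ^ 2)) * (∑ x : F, ψ (b * x ^ 2)) = qch F (-(a * b)) * Fintype.card F := by
  rw [sum_sq hF ψ hψ ha, sum_sq hF ψ hψ hb]
  have h1 : qch F ≠ 1 := by
    intro h
    obtain ⟨u, hu⟩ := quadraticChar_exists_neg_one hF
    have h2 : qch F u = -1 := by rw [qch_apply, hu]; simp
    have hu0 : u ≠ 0 := by
      rintro rfl
      simp at hu
    rw [h, MulChar.one_apply (isUnit_iff_ne_zero.mpr hu0)] at h2
    norm_num at h2
  have h2 : (qch F).IsQuadratic := (quadraticChar_isQuadratic F).comp _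
  have h3 := gaussSum_sq h1 h2 hψ
  have h4 : qch F (-(a * b)) = qch F (-1) * qch F a * qch F b := by
    rw [← map_mul, ← map_mul]; congr 1; ring
  rw [h4]
  linear_combination qch F a * qch F b * h3

end field

/-- Data for Gauss sums over a principal ideal domain `R` with fraction field `E`: an additive
character of `E / R` which is perfect, a unit `D` and the quadratic symbol `χ` of `D`. -/
structure GD (R E : Type*) [CommRing R] [IsDomain R] [IsPrincipalIdealRing R] [Field E]
    [Algebra R E] [IsFractionRing R E] where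
  ψ : AddChar E ℂ
  triv : ∀ r : R, ψ (algebraMap R E r) = 1
  perf : ∀ π : R, Prime π → ∃ r : R, ψ (algebraMap R E r / algebraMap R E π) ≠ 1
  fin : ∀ l : R, l ≠ 0 → Finite (R ⧸ span {l})
  two : IsUnit (2 : R)
  D : R
  hD : IsUnit D
  χ : R → ℂ
  χ_mul : ∀ x y, χ (x * y) = χ x * χ y
  χ_unit : ∀ u, IsUnit u → χ u = 1
  χ_split : ∀ π, Prime π → (∃ x, π ∣ x ^ 2 - D) → χ π = 1
  χ_inert : ∀ π, Prime π → (¬ ∃ x, π ∣ x ^ 2 - D) → χ π = -1

namespace GD

variable {R E : Type*} [CommRing R] [IsDomain R] [IsPrincipalIdealRing R] [Field E]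
    [Algebra R E] [IsFractionRing R E] (g : GD R E)

/-- the additive character `r ↦ ψ (r / l)` -/
noncomputable def ch (l r : R) : ℂ := g.ψ (algebraMap R E r / algebraMap R E l)

theorem ch_add (l x y : R) : g.ch l (x + y) = g.ch l x * g.ch l y := by
  unfold ch
  rw [map_add, add_div, AddChar.map_add_eq_mul]

theorem ch_zero (l : R) : g.ch l 0 = 1 := by
  unfold ch
  rw [map_zero, zero_div, AddChar.map_zero_eq_one]

omit [IsDomain R] [IsPrincipalIdealRing R] in
theorem map_ne {l : R} (hl : l ≠ 0) : algebraMap R E l ≠ 0 :=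
  (map_ne_zero_iff _ (IsFractionRing.injective R E)).mpr hl

theorem ch_mul_left {l : R} (hl : l ≠ 0) (x : R) : g.ch l (l * x) = 1 := by
  unfold ch
  rw [map_mul, mul_div_cancel_left₀ _ (map_ne (E := E) hl)]
  exact g.triv x

theorem ch_dvd {l : R} (hl : l ≠ 0) {x : R} (h : l ∣ x) : g.ch l x = 1 := by
  obtain ⟨y, rfl⟩ := h
  exact g.ch_mul_left hl y

theorem ch_congr {l : R} (hl : l ≠ 0) {x y : R} (h : l ∣ x - y) : g.ch l x = g.ch l y := by
  have : x = y + (x - y) := by ring
  rw [this, g.ch_add, g.ch_dvd hl h, mul_one]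

theorem ch_mul_mul {l m : R} (hm : m ≠ 0) (x : R) : g.ch (l * m) (x * m) = g.ch l x := by
  unfold ch
  rw [map_mul, map_mul, mul_div_mul_right _ _ (map_ne (E := E) hm)]

theorem perM_lin {l : R} (hl : l ≠ 0) (a : R) : PerM l (fun x => g.ch l (a * x)) := by
  intro x y
  apply g.ch_congr hl
  exact ⟨a * y, by ring⟩

theorem perM_sq {l : R} (hl : l ≠ 0) (a : R) : PerM l (fun x => g.ch l (a * x ^ 2)) := by
  intro x y
  apply g.ch_congr hl
  exact ⟨a * (2 * x * y + l * y ^ 2), by ring⟩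

/-- orthogonality modulo a prime -/
theorem sum_lin_prime {π : R} (hπ : Prime π) {a : R} (ha : ¬ π ∣ a) :
    qs π (fun x => g.ch π (a * x)) = 0 := by
  obtain ⟨r, hr⟩ := g.perf π hπ
  have hc : IsCoprime a π := ((hπ.irreducible.coprime_iff_not_dvd).mpr ha).symm
  obtain ⟨u, v, huv⟩ := hc
  have h1 := qs_add (g.perM_lin hπ.ne_zero a) (g.fin π hπ.ne_zero) (u * r)
  have h2 : ∀ x, g.ch π (a * (x + u * r)) = g.ch π (a * x) * g.ch π r := by
    intro x
    rw [← g.ch_add]
    apply g.ch_congr hπ.ne_zero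
    exact ⟨-(v * r), by linear_combination r * huv⟩
  rw [qs_congr h2, qs_mul_right _ _ (g.fin π hπ.ne_zero)] at h1
  have h3 : qs π (fun x => g.ch π (a * x)) * (g.ch π r - 1) = 0 := by
    rw [mul_sub, h1]; ring
  rcases mul_eq_zero.mp h3 with h | h
  · exact h
  · exact absurd (sub_eq_zero.mp h) hr

/-- the one-dimensional quadratic Gauss sum -/
noncomputable def G (a l : R) : ℂ := qs l (fun x => g.ch l (a * x ^ 2))

theorem G_mul {l m : R} (hl : l ≠ 0) (hm : m ≠ 0) (hc : IsCoprime l m) (a : R) :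
    g.G a (l * m) = g.G (a * m) l * g.G (a * l) m := by
  unfold G
  rw [qs_crt hc (g.perM_sq (mul_ne_zero hl hm) a) (g.fin l hl) (g.fin m hm)]
  have h1 : ∀ x y, g.ch (l * m) (a * (m * x + l * y) ^ 2) =
      g.ch l (a * m * x ^ 2) * g.ch m (a * l * y ^ 2) := by
    intro x y
    rw [← g.ch_mul_mul hm (l := l) (a * m * x ^ 2), ← g.ch_mul_mul hl (l := m) (a * l * y ^ 2),
      mul_comm m l, ← g.ch_add]
    apply g.ch_congr (mul_ne_zero hl hm)
    exact ⟨2 * a * x * y, by ring⟩
  have h2 : ∀ x, qs m (fun y => g.ch (l * m) (a * (m * x + l * y) ^ 2)) =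
      g.ch l (a * m * x ^ 2) * qs m (fun y => g.ch m (a * l * y ^ 2)) := by
    intro x
    rw [← qs_mul_left _ _ (g.fin m hm)]
    exact qs_congr (h1 x)
  rw [qs_congr h2, qs_mul_right _ _ (g.fin l hl)]

theorem G_sq_mul {l : R} (hl : l ≠ 0) (a : R) {u v : R} (huv : l ∣ u * v - 1) :
    g.G (a * u ^ 2) l = g.G a l := by
  unfold G
  have hu : IsCoprime u l := by
    obtain ⟨w, hw⟩ := huv
    exact ⟨v, -w, by linear_combination hw⟩
  rw [← qs_smul (g.perM_sq hl a) (g.fin l hl) hu]
  apply qs_congr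
  intro x
  congr 1
  ring

theorem G_step {π : R} (hπ : Prime π) {a : R} (ha : ¬ π ∣ a) (n : ℕ) :
    g.G a (π ^ (n + 2)) = Nat.card (R ⧸ span {π}) * g.G a (π ^ n) := by
  classical
  have h0 := hπ.ne_zero
  have hp : ∀ k, π ^ k ≠ 0 := fun k => pow_ne_zero k h0
  have hf := g.fin π h0
  have hfp : ∀ k, Finite (R ⧸ span {π ^ k}) := fun k => g.fin _ (hp k)
  set q : ℂ := (Nat.card (R ⧸ span {π}) : ℂ) with hq
  have h2 : ¬ π ∣ 2 := fun h => hπ.not_isUnit (isUnit_of_dvd_unit h g.two)
  -- first tower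
  have e1 : π ^ (n + 2) = π ^ (n + 1) * π := by ring
  have s1 : g.G a (π ^ (n + 2)) = qs (π ^ (n + 1))
      (fun x => qs π (fun y => g.ch (π ^ (n + 2)) (a * (x + π ^ (n + 1) * y) ^ 2))) := by
    unfold G
    have := qs_tower (hp (n + 1)) (l' := π) (f := fun x => g.ch (π ^ (n + 2)) (a * x ^ 2))
      (by rw [← e1]; exact g.perM_sq (hp _) a) (hfp _) hf
    rw [← e1] at this
    exact this
  have s2 : ∀ x y, g.ch (π ^ (n + 2)) (a * (x + π ^ (n + 1) * y) ^ 2) =
      g.ch (π ^ (n + 2)) (a * x ^ 2) * g.ch π (2 * a * x * y) := by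
    intro x y
    rw [← g.ch_mul_mul (hp (n + 1)) (l := π) (2 * a * x * y)]
    have e2 : π * π ^ (n + 1) = π ^ (n + 2) := by ring
    rw [e2, ← g.ch_add]
    apply g.ch_congr (hp _)
    exact ⟨π ^ n * a * y ^ 2, by ring⟩
  set h : R → ℂ := fun x => if π ∣ x then g.ch (π ^ (n + 2)) (a * x ^ 2) * q else 0 with hh
  have s3 : ∀ x, qs π (fun y => g.ch (π ^ (n + 2)) (a * (x + π ^ (n + 1) * y) ^ 2)) = h x := by
    intro x
    rw [qs_congr (s2 x), qs_mul_left _ _ hf]
    by_cases hx : π ∣ x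
    · have : ∀ y, g.ch π (2 * a * x * y) = 1 := by
        intro y
        apply g.ch_dvd h0
        exact Dvd.dvd.mul_right (Dvd.dvd.mul_left hx _) _
      rw [qs_congr this, qs_const _ hf, hh]
      simp only [if_pos hx, mul_one]
      rfl
    · have h4 : ¬ π ∣ 2 * a * x := by
        intro hd
        rcases hπ.dvd_or_dvd hd with h | h
        · rcases hπ.dvd_or_dvd h with h | h
          · exact h2 h
          · exact ha h
        · exact hx h
      rw [g.sum_lin_prime hπ h4, mul_zero, hh]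
      simp only [if_neg hx]
  rw [s1, qs_congr s3]
  have s4 : ∀ y, h (π * y) = q * g.ch (π ^ n) (a * y ^ 2) := by
    intro y
    rw [hh]
    simp only [if_pos (Dvd.intro y rfl : π ∣ π * y)]
    rw [mul_comm]
    congr 1
    rw [← g.ch_mul_mul (hp 2) (l := π ^ n)]
    congr 1
    · ring
    · ring
  have hper : PerM (π * π ^ n) h := by
    intro x y
    by_cases hx : π ∣ x
    · obtain ⟨z, rfl⟩ := hx
      have : π * z + π * π ^ n * y = π * (z + π ^ n * y) := by ring
      rw [this, s4, s4]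
      congr 1
      exact g.perM_sq (hp n) a z y
    · have hx' : ¬ π ∣ x + π * π ^ n * y := by
        intro hd
        apply hx
        have : π ∣ π * π ^ n * y := ⟨π ^ n * y, by ring⟩
        exact (dvd_add_left this).mp hd
      rw [hh]
      simp only [if_neg hx, if_neg hx']
  have e3 : π ^ (n + 1) = π * π ^ n := by ring
  rw [e3, qs_tower h0 hper hf (hfp n)]
  rw [qs_supp hf]
  · simp only [zero_add]
    rw [qs_congr s4, qs_mul_left _ _ (hfp n)]
    rfl
  · intro x y
    have e4 : ∀ z, h (x + π * y + π * z) = h (x + π * (z + y)) := by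
      intro z; congr 1; ring
    show qs (π ^ n) (fun z => h (x + π * y + π * z)) = qs (π ^ n) (fun z => h (x + π * z))
    rw [qs_congr e4]
    refine qs_add (f := fun z => h (x + π * z)) ?_ (hfp n) y
    intro z w
    have : x + π * (z + π ^ n * w) = (x + π * z) + π * π ^ n * w := by ring
    show h (x + π * (z + π ^ n * w)) = h (x + π * z)
    rw [this, hper]
  · intro x hx
    have : ∀ y, h (x + π * y) = 0 := by
      intro y
      have hx' : ¬ π ∣ x + π * y := by
        intro hd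
        apply hx
        exact (dvd_add_left (Dvd.intro y rfl)).mp hd
      rw [hh]
      simp only [if_neg hx']
    rw [qs_congr this, qs_const _ (hfp n), mul_zero]

theorem G_unit {l : R} (hl : IsUnit l) (a : R) : g.G a l = 1 := by
  have hl0 : l ≠ 0 := hl.ne_zero
  have hf := g.fin l hl0
  unfold G
  rw [qs_supp hf (g.perM_sq hl0 a)]
  · have : a * (0 : R) ^ 2 = 0 := by ring
    rw [this, g.ch_zero]
  · intro x hx
    exact absurd (hl.dvd) hx

include g in
theorem card_unit {l : R} (hl : IsUnit l) : (Nat.card (R ⧸ span {l}) : ℂ) = 1 := by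
  have h := g.fin l hl.ne_zero
  have h1 := qs_supp (l := l) h (f := fun _ => (1 : ℂ)) (fun _ _ => rfl)
    (fun x hx => absurd hl.dvd hx)
  rw [qs_const _ h, mul_one] at h1
  exact h1

theorem χ_sq {π : R} (hπ : Prime π) : g.χ π * g.χ π = 1 := by
  by_cases h : ∃ x, π ∣ x ^ 2 - g.D
  · rw [g.χ_split π hπ h, one_mul]
  · rw [g.χ_inert π hπ h]; norm_num

/-- the binary Gauss sum at a prime -/
theorem GG_prime {π : R} (hπ : Prime π) {a : R} (ha : ¬ π ∣ a) :
    g.G a π * g.G (-(a * g.D)) π = Nat.card (R ⧸ span {π}) * g.χ π := by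
  classical
  have h0 := hπ.ne_zero
  have hf := g.fin π h0
  have hmax : (span {π} : Ideal R).IsMaximal :=
    PrincipalIdealRing.isMaximal_of_irreducible hπ.irreducible
  let _ : Field (R ⧸ span {π}) := Ideal.Quotient.field _
  let _ : Fintype (R ⧸ span {π}) := Fintype.ofFinite _
  -- the additive character of the residue field
  have hψ' : ∀ x y : R ⧸ span {π}, g.ch π (x + y).out = g.ch π x.out * g.ch π y.out := by
    intro x y
    rw [← g.ch_add]
    apply g.ch_congr h0
    rw [← mk_eq_mk, map_add, mk_out, mk_out, mk_out]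
  let ψ : AddChar (R ⧸ span {π}) ℂ :=
    { toFun := fun x => g.ch π x.out
      map_zero_eq_one' := by
        rw [← g.ch_zero π]
        apply g.ch_congr h0
        rw [← mk_eq_mk, mk_out, map_zero]
      map_add_eq_mul' := hψ' }
  have hψ : ∀ x : R, ψ (Ideal.Quotient.mk _ x) = g.ch π x := by
    intro x
    show g.ch π (Ideal.Quotient.mk (span {π}) x).out = _
    apply g.ch_congr h0
    rw [← mk_eq_mk, mk_out]
  have hne : ψ ≠ 1 := by
    intro h
    obtain ⟨r, hr⟩ := g.perf π hπ
    apply hr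
    have := hψ r
    rw [h] at this
    exact this.symm
  have hprim : ψ.IsPrimitive := AddChar.IsPrimitive.of_ne_one hne
  have hG : ∀ b : R, g.G b π = ∑ x : R ⧸ span {π}, ψ (Ideal.Quotient.mk _ b * x ^ 2) := by
    intro b
    unfold G
    rw [qs_eq_univ]
    apply Finset.sum_congr rfl
    intro x _
    rw [← hψ, map_mul, map_pow, mk_out]
  have hz : ∀ x : R, Ideal.Quotient.mk (span {π}) x = 0 ↔ π ∣ x := by
    intro x
    rw [Ideal.Quotient.eq_zero_iff_dvd]
  have hchar : ringChar (R ⧸ span {π}) ≠ 2 := by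
    intro h
    have h2 : ((2 : ℕ) : R ⧸ span {π}) = 0 := by
      rw [← h]; exact ringChar.Nat.cast_ringChar
    have h3 : Ideal.Quotient.mk (span {π}) (2 : R) = 0 := by
      rw [← h2, map_ofNat]; rfl
    rw [hz] at h3
    exact hπ.not_isUnit (isUnit_of_dvd_unit h3 g.two)
  have hD : ¬ π ∣ g.D := fun h => hπ.not_isUnit (isUnit_of_dvd_unit h g.hD)
  have ha' : Ideal.Quotient.mk (span {π}) a ≠ 0 := fun h => ha ((hz a).mp h)
  have hb' : Ideal.Quotient.mk (span {π}) (-(a * g.D)) ≠ 0 := by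
    intro h
    rw [hz, dvd_neg] at h
    rcases hπ.dvd_or_dvd h with h | h
    · exact ha h
    · exact hD h
  rw [hG, hG, sum_sq_mul hchar ψ hprim ha' hb', Nat.card_eq_fintype_card, mul_comm]
  congr 1
  have e1 : -(Ideal.Quotient.mk (span {π}) a * Ideal.Quotient.mk (span {π}) (-(a * g.D))) =
      Ideal.Quotient.mk (span {π}) a ^ 2 * Ideal.Quotient.mk (span {π}) g.D := by
    rw [map_neg, map_mul]; ring
  rw [e1, qch_apply, map_mul, quadraticChar_sq_one' ha', one_mul]
  by_cases h : ∃ x, π ∣ x ^ 2 - g.D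
  · rw [g.χ_split π hπ h]
    obtain ⟨x, hx⟩ := h
    have : quadraticChar (R ⧸ span {π}) (Ideal.Quotient.mk (span {π}) g.D) = 1 := by
      rw [quadraticChar_one_iff_isSquare]
      · refine ⟨Ideal.Quotient.mk _ x, ?_⟩
        rw [← map_mul, eq_comm, mk_eq_mk, ← sq]
        exact hx
      · exact fun h => hD ((hz _).mp h)
    rw [this]; norm_num
  · rw [g.χ_inert π hπ h]
    have : quadraticChar (R ⧸ span {π}) (Ideal.Quotient.mk (span {π}) g.D) = -1 := by
      rw [quadraticChar_neg_one_iff_not_isSquare]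
      rintro ⟨y, hy⟩
      apply h
      obtain ⟨x, rfl⟩ := Ideal.Quotient.mk_surjective y
      refine ⟨x, ?_⟩
      rw [← mk_eq_mk, sq, map_mul, ← hy]
    rw [this]; norm_num

theorem GG_prime_pow {π : R} (hπ : Prime π) {a : R} (ha : ¬ π ∣ a) (n : ℕ) :
    g.G a (π ^ n) * g.G (-(a * g.D)) (π ^ n) =
      Nat.card (R ⧸ span {π ^ n}) * g.χ (π ^ n) := by
  have h0 := hπ.ne_zero
  have hD : ¬ π ∣ g.D := fun h => hπ.not_isUnit (isUnit_of_dvd_unit h g.hD)
  have hb : ¬ π ∣ -(a * g.D) := by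
    intro h
    rw [dvd_neg] at h
    rcases hπ.dvd_or_dvd h with h | h
    · exact ha h
    · exact hD h
  induction n using Nat.twoStepInduction with
  | zero =>
    rw [pow_zero, g.G_unit isUnit_one, g.G_unit isUnit_one, g.card_unit isUnit_one,
      g.χ_unit 1 isUnit_one]
  | one => rw [pow_one]; exact g.GG_prime hπ ha
  | more n ih _ =>
    rw [g.G_step hπ ha, g.G_step hπ hb]
    have e1 : π ^ (n + 2) = π ^ n * (π * π) := by ring
    have hf := g.fin π h0
    have hfp := g.fin (π ^ n) (pow_ne_zero n h0)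
    rw [e1, card_mul (pow_ne_zero n h0) hfp (finite_mul hf hf), card_mul h0 hf hf, g.χ_mul,
      g.χ_mul π π, g.χ_sq hπ]
    linear_combination (Nat.card (R ⧸ span {π}) : ℂ) ^ 2 * ih

omit [IsDomain R] [IsPrincipalIdealRing R] in
theorem not_dvd_of_coprime {π a l : R} (hπ : Prime π) (hl : π ∣ l) (h : IsCoprime a l) :
    ¬ π ∣ a := by
  intro h1
  obtain ⟨u, v, huv⟩ := h
  apply hπ.not_isUnit
  apply isUnit_of_dvd_one
  rw [← huv]
  exact dvd_add (Dvd.dvd.mul_left h1 _) (Dvd.dvd.mul_left hl _)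

/-- **The binary Gauss sum.** -/
theorem GG {l : R} (hl : l ≠ 0) : ∀ {a : R}, IsCoprime a l →
    g.G a l * g.G (-(a * g.D)) l = Nat.card (R ⧸ span {l}) * g.χ l := by
  induction l using UniqueFactorizationMonoid.induction_on_coprime with
  | h0 => exact absurd rfl hl
  | @h1 u hu =>
    intro a _
    rw [g.G_unit hu, g.G_unit hu, g.card_unit hu, g.χ_unit u hu]
  | @hpr π i hπ =>
    intro a ha
    rcases Nat.eq_zero_or_pos i with rfl | hi
    · rw [pow_zero, g.G_unit isUnit_one, g.G_unit isUnit_one, g.card_unit isUnit_one,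
        g.χ_unit 1 isUnit_one]
    · exact g.GG_prime_pow hπ (not_dvd_of_coprime hπ (dvd_pow_self π hi.ne') ha) i
  | @hcp x y hxy ihx ihy =>
    intro a ha
    have hx : x ≠ 0 := left_ne_zero_of_mul hl
    have hy : y ≠ 0 := right_ne_zero_of_mul hl
    have hc : IsCoprime x y := isRelPrime_iff_isCoprime.mp hxy
    have hax : IsCoprime a x := ha.of_mul_right_left
    have hay : IsCoprime a y := ha.of_mul_right_right
    rw [g.G_mul hx hy hc, g.G_mul hx hy hc, card_mul hx (g.fin x hx) (g.fin y hy), g.χ_mul]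
    have e1 := ihx hx (a := a * y) (IsCoprime.mul_left hax hc.symm)
    have e2 := ihy hy (a := a * x) (IsCoprime.mul_left hay hc)
    have e3 : -(a * y * g.D) = -(a * g.D) * y := by ring
    have e4 : -(a * x * g.D) = -(a * g.D) * x := by ring
    rw [e3] at e1
    rw [e4] at e2
    linear_combination (g.G (a * x) y * g.G (-(a * g.D) * x) y) * e1 +
      (Nat.card (R ⧸ span {x}) * g.χ x : ℂ) * e2

end GD

end Fermat.Agent.LT.T4
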