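import Fermat.Agent.LT.T4.MeanF
import Fermat.Agent.LT.T4.Gauss
import Fermat.Agent.LT.Theta.Series

set_option autoImplicit false

/-!
# Data and definitions for the dihedral theta form

`T4D E L` collects the arithmetic data: a quadratic extension `L/E` of number fields, a natural
number `N` (the bad places are those above `N`), and the quartic Hecke character `psi`, seen as a
multiplicative function on `L` trivial on the units of `𝓞_L[1/N]`.
-/

namespace Fermat.Agent.LT.T4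

open Fermat.Agent.LT.Theta NumberField

section groups

/-- the units of `𝓞_K[1/N]` -/
def US (N : ℕ) (K : Type*) [Field K] : Subgroup Kˣ where
  carrier := {u | (u : K) ∈ SI N K ∧ ((u⁻¹ : Kˣ) : K) ∈ SI N K}
  mul_mem' := by
    rintro a b ⟨h1, h2⟩ ⟨h3, h4⟩
    refine ⟨by rw [Units.val_mul]; exact (SI N K).mul_mem h1 h3, ?_⟩
    rw [mul_inv, Units.val_mul]
    exact (SI N K).mul_mem h2 h4
  one_mem' := ⟨by rw [Units.val_one]; exact (SI N K).one_mem, by
    rw [inv_one, Units.val_one]; exact (SI N K).one_mem⟩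
  inv_mem' := by
    rintro a ⟨h1, h2⟩
    exact ⟨h2, by rw [inv_inv]; exact h1⟩

/-- the units of `𝓞_(N)` -/
def UL (N : ℕ) (K : Type*) [Field K] : Subgroup Kˣ where
  carrier := {u | (u : K) ∈ LI N K ∧ ((u⁻¹ : Kˣ) : K) ∈ LI N K}
  mul_mem' := by
    rintro a b ⟨h1, h2⟩ ⟨h3, h4⟩
    refine ⟨by rw [Units.val_mul]; exact (LI N K).mul_mem h1 h3, ?_⟩
    rw [mul_inv, Units.val_mul]
    exact (LI N K).mul_mem h2 h4
  one_mem' := ⟨by rw [Units.val_one]; exact (LI N K).one_mem, by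
    rw [inv_one, Units.val_one]; exact (LI N K).one_mem⟩
  inv_mem' := by
    rintro a ⟨h1, h2⟩
    exact ⟨h2, by rw [inv_inv]; exact h1⟩

theorem mem_US {N : ℕ} {K : Type*} [Field K] {u : Kˣ} :
    u ∈ US N K ↔ (u : K) ∈ SI N K ∧ ((u⁻¹ : Kˣ) : K) ∈ SI N K := Iff.rfl

theorem mem_UL {N : ℕ} {K : Type*} [Field K] {u : Kˣ} :
    u ∈ UL N K ↔ (u : K) ∈ LI N K ∧ ((u⁻¹ : Kˣ) : K) ∈ LI N K := Iff.rfl

/-- the group of fractional ideals of the principal ideal domain `𝓞_K[1/N]` -/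
abbrev Idl (N : ℕ) (K : Type*) [Field K] := Kˣ ⧸ US N K

/-- `b x ⊆ 𝓞_K[1/N]` -/
def InS {N : ℕ} {K : Type*} [Field K] (b : Idl N K) (x : K) : Prop :=
  ∃ β : Kˣ, (QuotientGroup.mk β : Idl N K) = b ∧ (β : K) * x ∈ SI N K

theorem inS_mk {N : ℕ} {K : Type*} [Field K] (β : Kˣ) (x : K) :
    InS (QuotientGroup.mk β : Idl N K) x ↔ (β : K) * x ∈ SI N K := by
  constructor
  · rintro ⟨γ, h, hx⟩
    rw [QuotientGroup.eq] at h
    have := (SI N K).mul_mem h.1 hx
    rw [Units.val_mul, mul_comm ((γ⁻¹ : Kˣ) : K), mul_assoc, ← mul_assoc ((γ⁻¹ : Kˣ) : K),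
      Units.inv_mul, one_mul] at this
    exact this
  · intro h
    exact ⟨β, rfl, h⟩

end groups

section norm

variable {E L : Type*} [Field E] [NumberField E] [Field L] [NumberField L] [Algebra E L]

/-- the relative norm on units -/
noncomputable def nmU (E L : Type*) [Field E] [Field L] [Algebra E L] : Lˣ →* Eˣ :=
  Units.map (Algebra.norm E : L →* E)

@[simp] theorem nmU_coe {E L : Type*} [Field E] [Field L] [Algebra E L] (x : Lˣ) :
    ((nmU E L x : Eˣ) : E) = Algebra.norm E (x : L) := rfl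

theorem norm_mem_SI {N : ℕ} {x : L} (hx : x ∈ SI N L) : Algebra.norm E x ∈ SI N E := by
  obtain ⟨k, hk⟩ := hx
  have h1 := Algebra.isIntegral_norm E hk
  have e : Algebra.norm E ((N : L) ^ k * x) =
      (N : E) ^ (k * Module.finrank E L) * Algebra.norm E x := by
    rw [map_mul]
    congr 1
    have : ((N : L) ^ k) = algebraMap E L ((N : E) ^ k) := by simp
    rw [this, Algebra.norm_algebraMap, pow_mul]
  rw [e] at h1
  exact ⟨_, h1⟩

/-- the norm of ideals -/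
noncomputable def nmI (N : ℕ) (E L : Type*) [Field E] [NumberField E] [Field L]
    [NumberField L] [Algebra E L] : Idl N L →* Idl N E :=
  QuotientGroup.map _ _ (nmU E L) (fun u hu =>
    ⟨norm_mem_SI hu.1, by
      rw [← map_inv]; exact norm_mem_SI hu.2⟩)

@[simp] theorem nmI_mk (N : ℕ) (x : Lˣ) :
    nmI N E L (QuotientGroup.mk x) = QuotientGroup.mk (nmU E L x) := rfl

end norm

/-- **The data.** -/
structure T4D (E L : Type*) [Field E] [NumberField E] [Field L] [NumberField L]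
    [Algebra E L] where
  q : QD E L
  N : ℕ
  hN : 0 < N
  pidE : IsPrincipalIdealRing (SI N E)
  pidL : IsPrincipalIdealRing (SI N L)
  two : (2 : E)⁻¹ ∈ SI N E
  /-- the different is supported at `N` -/
  dual : ∀ x : E, (∀ y : E, IsIntegral ℤ y → ∃ n : ℤ, Algebra.trace ℚ E (x * y) = n) → x ∈ SI N E
  δ : L
  D : E
  D_mem : D ∈ SI N E
  D_inv : D⁻¹ ∈ SI N E
  D_ne : D ≠ 0
  δ_sq : δ ^ 2 = algebraMap E L D
  c_δ : q.c δ = -δ
  psi : L →*₀ ℂ
  psi_unit : ∀ u : L, u ≠ 0 → u ∈ SI N L → u⁻¹ ∈ SI N L → psi u = 1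
  k0 : ℕ
  psi_cong : ∀ y ∈ LI N L, 1 + (N : L) ^ k0 * y ≠ 0 → psi (1 + (N : L) ^ k0 * y) = 1
  psi_c : ∀ x : L, x ≠ 0 → psi (q.c x) * psi x = 1
  psi_norm : ∀ x : L, x ≠ 0 → ‖psi x‖ = 1
  psi_split : ∀ π : SI N E, Prime π → (∃ x : SI N E, π ∣ x ^ 2 - ⟨D, D_mem⟩) →
    psi (algebraMap E L π) = 1
  psi_inert : ∀ π : SI N E, Prime π → (¬ ∃ x : SI N E, π ∣ x ^ 2 - ⟨D, D_mem⟩) →
    psi (algebraMap E L π) = -1
  psi_ne : ∃ x : L, x ≠ 0 ∧ psi x ^ 2 ≠ 1

/-- the additive character `x ↦ exp(-2πi Tr x)` -/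
noncomputable def e0 (E : Type*) [Field E] [NumberField E] : AddChar E ℂ where
  toFun := fun x => Complex.exp (-(2 * Real.pi * Complex.I * (Algebra.trace ℚ E x : ℚ)))
  map_zero_eq_one' := by simp
  map_add_eq_mul' := by
    intro x y
    rw [map_add, ← Complex.exp_add]
    congr 1
    push_cast
    ring

theorem e0_apply {E : Type*} [Field E] [NumberField E] (x : E) :
    e0 E x = Complex.exp (-(2 * Real.pi * Complex.I * (Algebra.trace ℚ E x : ℚ))) := rfl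

theorem e0_integral {E : Type*} [Field E] [NumberField E] (x : E) (hx : IsIntegral ℤ x) :
    e0 E x = 1 := by
  obtain ⟨n, hn⟩ := isIntegral_rat (Algebra.isIntegral_trace (L := ℚ) hx)
  rw [e0_apply, Complex.exp_neg, inv_eq_one, exp_eq_one_iff_rat]
  exact ⟨n, hn⟩

/-- **The discrete set away from `N`**: `Ω = GL₂(E) / E^* GL₂(𝓞_E[1/N])`. -/
structure Om (N : ℕ) (E : Type*) [Field E] [NumberField E] (Ω : Type*)
    [MulAction (GL (Fin 2) E) Ω] where
  base : Ω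
  stab : ∀ g : GL (Fin 2) E, g • base = base ↔ ∃ z : Eˣ, ∀ i j,
    (z : E) * g i j ∈ SI N E ∧ ((z⁻¹ : Eˣ) : E) * g⁻¹ i j ∈ SI N E
  iwa : ∀ ω : Ω, ∃ (c : Eˣ) (s : E), ω = nMat s • Sp.aMat c • base

namespace T4D

variable {E L : Type*} [Field E] [NumberField E] [Field L] [NumberField L] [Algebra E L]
  (T : T4D E L)

/-- the away part `ψ^B` of `e0` -/
noncomputable def ψ : AddChar E ℂ := awayChar (N := T.N) (e0 E) e0_integral T.hN

/-- the part `ψ_B` of `e0` at `N` -/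
noncomputable def ψB : AddChar E ℂ := atChar (N := T.N) (e0 E) e0_integral T.hN

theorem ψ_mul_ψB (x : E) : T.ψ x * T.ψB x = e0 E x := away_mul_at _ _ _ x

/-- the norm one units at `N` -/
noncomputable def H : Subgroup Lˣ := (nmU E L).ker ⊓ UL T.N L

theorem mem_H {u : Lˣ} : u ∈ T.H ↔ nmU E L u = 1 ∧ u ∈ UL T.N L := Iff.rfl

/-- the character on ideals of `𝓞_L[1/N]` -/
noncomputable def psiI : Idl T.N L →* ℂˣ :=
  QuotientGroup.lift _ (Units.map T.psi.toMonoidHom) (by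
    intro u hu
    apply Units.ext
    exact T.psi_unit u u.ne_zero hu.1 (by rw [← Units.val_inv_eq_inv_val]; exact hu.2))

@[simp] theorem psiI_mk (β : Lˣ) : ((T.psiI (QuotientGroup.mk β) : ℂˣ) : ℂ) = T.psi (β : L) := rfl

/-- the set of ideals of `𝓞_L[1/N]` of norm `c` -/
def SS (c : Eˣ) : Type _ := {b : Idl T.N L // nmI T.N E L b = QuotientGroup.mk c}

noncomputable instance (c : Eˣ) : MulAction T.H (T.SS c) where
  smul g b := ⟨QuotientGroup.mk (g : Lˣ) * b.1, by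
    have h1 : (QuotientGroup.mk (nmU E L (g : Lˣ)) : Idl T.N E) = 1 := by
      rw [(T.mem_H.mp g.2).1]; rfl
    rw [map_mul, b.2, nmI_mk, h1]
    exact one_mul (M := Idl T.N E) _⟩
  one_smul b := Subtype.ext (by
    show (QuotientGroup.mk ((1 : T.H) : Lˣ) : Idl T.N L) * b.1 = b.1
    exact one_mul (M := Idl T.N L) _)
  mul_smul g h b := Subtype.ext (by
    show (QuotientGroup.mk ((g * h : T.H) : Lˣ) : Idl T.N L) * b.1 =
      QuotientGroup.mk (g : Lˣ) * (QuotientGroup.mk (h : Lˣ) * b.1)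
    exact mul_assoc (G := Idl T.N L) (QuotientGroup.mk (g : Lˣ)) (QuotientGroup.mk (h : Lˣ)) b.1)

theorem smul_SS_val {c : Eˣ} (g : T.H) (b : T.SS c) :
    (g • b).1 = QuotientGroup.mk (g : Lˣ) * b.1 := rfl

/-- the Schwartz–Bruhat function `x ↦ psi(b) Φ(x) 1[b x ⊆ S] ψ(s N(x))` -/
noncomputable def Psi (Φ : L → ℂ) (s : E) {c : Eˣ} (b : T.SS c) (x : L) : ℂ := by
  classical
  exact (T.psiI b.1 : ℂ) * (Φ x * ((if InS b.1 x then 1 else 0) * T.ψ (s * Algebra.norm E x)))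

/-- `Φ (u x) = psi(u) Φ(x)` for `u` of norm one and a unit at `N` -/
def Eqv (Φ : L → ℂ) : Prop := ∀ u ∈ T.H, ∀ x, Φ ((u : L) * x) = T.psi (u : L) * Φ x

/-- **The theta functions** attached to a Schwartz–Bruhat function `Φ` at `N`, at the point
`(p, n(s) a(c) base)`. -/
noncomputable def fPhi (Φ : L → ℂ) (p : HF E) (c : Eˣ) (s : E) : ℂ :=
  ((nrm T.N (c : E) : ℝ) : ℂ) ^ (-(1 / 2) : ℂ) *
    ser T.H.subtype (fun b : T.SS c => T.Psi Φ s b) p

/-- the coefficients of the theta form: the sum of `psi(b)` over the integral ideals `b` of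
`𝓞_L[1/N]` of norm `c` -/
noncomputable def A (c : Eˣ) : ℂ :=
  ∑ᶠ b : {b : Idl T.N L // nmI T.N E L b = QuotientGroup.mk c ∧ InS b 1}, (T.psiI b.1 : ℂ)

/-- the group `E^* ∩ (1 + N^n 𝓞_(N))` -/
def A1 (n : ℕ) : Set Eˣ := {ξ | ∃ y ∈ LI T.N E, (ξ : E) = 1 + (T.N : E) ^ n * y}

/-- **The theta form** at the point `(p, n(s) a(c) base)`. -/
noncomputable def f (n : ℕ) (p : HF E) (c : Eˣ) (s : E) : ℂ :=
  ((nrm T.N (c : E) : ℝ) : ℂ) ^ (-(1 / 2) : ℂ) *
    ∑' ξ : T.A1 n, T.A (ξ * c) * T.ψ ((ξ : Eˣ) * s) * bw p ((ξ : Eˣ) : E)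

end T4D

end Fermat.Agent.LT.T4
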