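import Fermat.Agent.LT.T4.OmB
import Fermat.Agent.LT.T4.Iface
import Fermat.Agent.LT.Fou.LChar

set_option autoImplicit false

/-!
# The points away from `N`, the product formula, and the places above `N`
-/

namespace Fermat.Agent.LT.T4

open Matrix Filter IsDedekindDomain IsDedekindDomain.HeightOneSpectrum WithZero NumberField
open Fermat.Agent.LT.Glob
open Fermat.Agent.LT.Glob.LocFam
open scoped MatrixGroups

universe w u i

section om

variable {F : Type u} [Field F] [NumberField F] {ι : Type i} {L : LocFam.{w} F ι} {B : Finset ι}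
  {N : ℕ} {U : L.Level}

/-- **`Ω_B` is `GL₂(E) / E^* GL₂(𝓞_E[1/N])`** -/
noncomputable def omB (hA : Adic L B N) (hB : ClassOne L B) (hU : ∀ v ∉ B, U.U v = PO (L.O v)) :
    Om N F (OmB U B) where
  base := OmB.base U B
  stab g := by
    rw [OmB.smul_base_iff hA hB hU g]
    refine exists_congr fun z => ?_
    have h1 : ∀ i j, (sc z * g) i j = (z : F) * g i j := by
      intro i j

      rw [Units.val_mul, sc_coe]
      fin_cases i <;> fin_cases j <;> simp [Matrix.mul_apply, Fin.sum_univ_two]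
    have h2 : ∀ i j, (sc z * g)⁻¹ i j = ((z⁻¹ : Fˣ) : F) * g⁻¹ i j := by
      intro i j
      rw [_root_.mul_inv_rev, show (sc z)⁻¹ = sc z⁻¹ from (map_inv _ z).symm, ← sc_comm]
      change ((sc z⁻¹ * g⁻¹ : GL (Fin 2) F) : Matrix (Fin 2) (Fin 2) F) i j = _
      rw [Units.val_mul, sc_coe]
      fin_cases i <;> fin_cases j <;> simp [Matrix.mul_apply, Fin.sum_univ_two]
    simp only [h1, h2]
    exact ⟨fun h i j => ⟨h.1 i j, h.2 i j⟩, fun h => ⟨fun i j => (h i j).1, fun i j => (h i j).2⟩⟩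
  iwa x := OmB.exists_iwa hB hU x

@[simp] theorem omB_base (hA : Adic L B N) (hB : ClassOne L B)
    (hU : ∀ v ∉ B, U.U v = PO (L.O v)) : (omB hA hB hU).base = OmB.base U B := rfl

end om

section prod

variable {F : Type u} [Field F] [NumberField F] [IsTotallyComplex F] {ι : Type i}
  {L : LocFam.{w} F ι} {B : Finset ι} {N : ℕ}

theorem e0_eq_ev (b : F) : e0 F b = Fou.ev (1 : F) (Fou.emb (-b)) := by
  rw [e0_apply, Fou.ev, ← Fou.emb_mul, one_mul, Fou.trV_emb, map_neg]
  congr 1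
  push_cast
  ring

/-- **The product formula**: the component of `e0` at `N` is the product of the local characters
at the places above `N`. -/
theorem atChar_eq_prod (hA : Adic L B N) (hN : 0 < N) (x : F) :
    atChar (N := N) (e0 F) e0_integral hN x = ∏ v ∈ B, Fou.lchar L v (L.loc v x) := by
  have h1 := sub_lpart_mem hN x
  have h2 := lpart_mem hN x
  have h3 : atChar (N := N) (e0 F) e0_integral hN x =
      atChar (N := N) (e0 F) e0_integral hN (x - lpart N x) := by
    have : x = (x - lpart N x) + lpart N x := by ring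
    conv_lhs => rw [this, AddChar.map_add_eq_mul, at_LI (e0 F) e0_integral hN h2, mul_one]
  rw [h3, at_SI (e0 F) e0_integral hN h1, e0_eq_ev,
    Fou.ev_eq_prod (L := L) B _ (hA.mem_SI_iff.mp h1)]
  refine Finset.prod_congr rfl fun v hv => ?_
  have h4 : L.loc v x = L.loc v (x - lpart N x) + L.loc v (lpart N x) := by
    rw [← map_add, sub_add_cancel]
  rw [h4, Fou.lchar_add, Fou.lchar_of_mem (hA.mem_LI_iff.mp h2 v hv), mul_one]

end prod

/-! ### the places above `N` -/

section places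

variable {k : Type*} [Field k] [NumberField k]

theorem finite_plN (N : ℕ) (hN : 0 < N) :
    {v : HeightOneSpectrum (𝓞 k) | ((N : ℕ) : 𝓞 k) ∈ v.asIdeal}.Finite := by
  have h0 : (algebraMap (𝓞 k) k ((N : ℕ) : 𝓞 k))⁻¹ ≠ 0 := by
    rw [map_natCast]
    exact inv_ne_zero (by exact_mod_cast hN.ne')
  refine (HeightOneSpectrum.Support.finite (𝓞 k) ((N : k)⁻¹)).subset fun v hv => ?_
  change 1 < v.valuation k ((N : k)⁻¹)
  rw [map_inv₀, ← map_natCast (algebraMap (𝓞 k) k), valuation_of_algebraMap]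
  have h1 : v.intValuation ((N : ℕ) : 𝓞 k) < 1 := (v.intValuation_lt_one_iff_mem _).2 hv
  have h2 : v.intValuation ((N : ℕ) : 𝓞 k) ≠ 0 :=
    v.intValuation_ne_zero _ (by exact_mod_cast hN.ne')
  exact (one_lt_inv₀ (zero_lt_iff.2 h2)).2 h1

/-- the places above `N` -/
noncomputable def plN (k : Type*) [Field k] [NumberField k] (N : ℕ) :
    Finset (HeightOneSpectrum (𝓞 k)) := by
  classical
  exact if hN : 0 < N then (finite_plN (k := k) N hN).toFinset else ∅

theorem mem_plN {N : ℕ} (hN : 0 < N) {v : HeightOneSpectrum (𝓞 k)} :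
    v ∈ plN k N ↔ ((N : ℕ) : 𝓞 k) ∈ v.asIdeal := by
  unfold plN
  rw [dif_pos hN]
  simp

theorem plN_mono {N M : ℕ} (hM : 0 < M) (h : N ∣ M) : plN k N ⊆ plN k M := by
  have hN : 0 < N := Nat.pos_of_dvd_of_pos h hM
  intro v hv
  rw [mem_plN hM]
  rw [mem_plN hN] at hv
  obtain ⟨c, rfl⟩ := h
  push_cast
  exact v.asIdeal.mul_mem_right _ hv

variable {E : Type*} [Field E] [NumberField E] [Algebra k E]

theorem natCast_mem_fib {N : ℕ} {v : HeightOneSpectrum (𝓞 k)} (w : Fib E v) :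
    ((N : ℕ) : 𝓞 E) ∈ w.1.asIdeal ↔ ((N : ℕ) : 𝓞 k) ∈ v.asIdeal := by
  have h : ((N : ℕ) : 𝓞 k) ∈ v.asIdeal ↔ ((N : ℕ) : 𝓞 k) ∈ w.1.asIdeal.under (𝓞 k) := by
    rw [← w.2.over]
  rw [h, Ideal.mem_comap, map_natCast]

theorem valued_natCast_lt {N : ℕ} {w : HeightOneSpectrum (𝓞 E)} :
    Valued.v ((N : ℕ) : w.adicCompletion E) < 1 ↔ ((N : ℕ) : 𝓞 E) ∈ w.asIdeal := by
  rw [← map_natCast (algebraMap E (w.adicCompletion E)), valued_algebraMap,
    ← map_natCast (algebraMap (𝓞 E) E), valuation_of_algebraMap, w.intValuation_lt_one_iff_mem]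

theorem exists_pow_mul_mem_Oc {N : ℕ} {w : HeightOneSpectrum (𝓞 E)}
    (h : ((N : ℕ) : 𝓞 E) ∈ w.asIdeal) (x : w.adicCompletion E) :
    ∃ n : ℕ, ∀ m ≥ n, (N : w.adicCompletion E) ^ m * x ∈ Oc w := by
  have hv : Valued.v ((N : ℕ) : w.adicCompletion E) ≤ exp (-1 : ℤ) := by
    rw [← map_natCast (algebraMap E (w.adicCompletion E)), valued_algebraMap,
      ← map_natCast (algebraMap (𝓞 E) E), valuation_of_algebraMap]
    have h1 := (w.intValuation_le_pow_iff_mem ((N : ℕ) : 𝓞 E) 1).2 (by rw [pow_one]; exact h)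
    simpa using h1
  by_cases hx : x = 0
  · exact ⟨0, fun m _ => by rw [hx, mul_zero]; exact zero_mem _⟩
  have hx0 : Valued.v x ≠ 0 := (Valuation.ne_zero_iff _).2 hx
  refine ⟨(log (Valued.v x)).toNat, fun m hm => ?_⟩
  rw [mem_Oc, map_mul, map_pow]
  calc Valued.v (N : w.adicCompletion E) ^ m * Valued.v x
      ≤ exp (-1 : ℤ) ^ m * exp (log (Valued.v x)) := by
        rw [exp_log hx0]
        gcongr
    _ = exp (m • (-1 : ℤ) + log (Valued.v x)) := by
        rw [exp_add, WithZero.exp_nsmul]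
    _ ≤ 1 := by
        rw [← exp_zero, exp_le_exp]
        have := Int.self_le_toNat (log (Valued.v x))
        simp only [smul_neg, nsmul_eq_mul, mul_one]
        omega

variable (k E) in
/-- **the places above `N` on the `E` side** -/
theorem adic_locE {N : ℕ} (hN : 0 < N) : Adic (locE k E) (plN k N) N where
  pos := hN
  unit v hv w := by
    rw [locHom_apply, mem_Oc, map_inv₀, map_natCast, map_inv₀]
    have h1 : ¬ Valued.v ((N : ℕ) : w.1.adicCompletion E) < 1 := by
      rw [valued_natCast_lt, natCast_mem_fib, ← mem_plN hN]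
      exact hv
    have h2 : Valued.v ((N : ℕ) : w.1.adicCompletion E) ≤ 1 := natCast_mem (Oc w.1) N
    have h3 : Valued.v ((N : ℕ) : w.1.adicCompletion E) = 1 := le_antisymm h2 (not_lt.1 h1)
    rw [h3, inv_one]
  nil v hv x := by
    classical
    have := Fintype.ofFinite (Fib E v)
    have h1 : ∀ w : Fib E v, ∃ n : ℕ, ∀ m ≥ n, (N : w.1.adicCompletion E) ^ m * x w ∈ Oc w.1 :=
      fun w => exists_pow_mul_mem_Oc ((natCast_mem_fib w).2 ((mem_plN hN).1 hv)) (x w)
    choose n hn using h1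
    exact ⟨Finset.univ.sup n, fun w => hn w _ (Finset.le_sup (Finset.mem_univ w))⟩
  deep v hv x hx := by
    have h : ∀ w : Fib E v, ∃ y ∈ Oc w.1, (1 + (N : w.1.adicCompletion E) * x w) * y = 1 := by
      intro w
      refine exists_inv_Oc w.1 ?_
      rw [map_mul]
      exact mul_lt_one_of_nonneg_of_lt_one_left zero_le
        (valued_natCast_lt.2 ((natCast_mem_fib w).2 ((mem_plN hN).1 hv))) (mem_Oc.1 (hx w))
    choose y hy hy' using h
    exact ⟨y, hy, funext fun w => hy' w⟩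
  nt v hv := by
    obtain ⟨w⟩ := (inferInstance : Nonempty (Fib E v))
    exact ⟨⟨0, 1, fun h => zero_ne_one (congrFun h w)⟩⟩

variable (k E) in
/-- for all sufficiently divisible `N`, the class number away from `N` is one -/
theorem exists_classOne_plN : ∃ N0 : ℕ, 0 < N0 ∧ ∀ N : ℕ, 0 < N → N0 ∣ N →
    ClassOne (locE k E) (plN k N) := by
  classical
  obtain ⟨B, hB⟩ := exists_classOne (L := locE k E)
  refine ⟨∏ v ∈ B, Ideal.absNorm v.asIdeal, Finset.prod_pos fun v _ => Nat.pos_of_ne_zero ?_,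
    fun N hN hd => ClassOne.mono (locE k E) hB fun v hv => ?_⟩
  · rw [Ne, Ideal.absNorm_eq_zero_iff]
    exact v.ne_bot
  · rw [mem_plN hN]
    obtain ⟨c, hc⟩ := (Finset.dvd_prod_of_mem (fun v : HeightOneSpectrum (𝓞 k) =>
      Ideal.absNorm v.asIdeal) hv).trans hd
    rw [hc]
    push_cast
    exact v.asIdeal.mul_mem_right _ (Ideal.absNorm_mem v.asIdeal)

end places

end Fermat.Agent.LT.T4
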