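import Fermat.Agent.LT.T4.Main1
import Fermat.Agent.LT.Glob.Good

set_option autoImplicit false
set_option linter.unusedSectionVars false

/-!
# The theta form over `locE k E`: statement and conditional construction
-/

namespace Fermat.Agent.LT.T4

open Matrix Filter NumberField IsDedekindDomain IsDedekindDomain.HeightOneSpectrum WithZero
open Fermat.Agent.LT.Glob
open Fermat.Agent.LT.Glob.LocFam
open Fermat.Agent.LT.Fou Fermat.Agent.LT.Theta
open Fermat.Agent.LT.Ty
open scoped MatrixGroups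

variable {k E L' : Type} [Field k] [NumberField k] [Field E] [NumberField E] [Algebra k E]
  [Field L'] [NumberField L'] [Algebra E L'] [IsTotallyComplex E]

/-- some place lies above `N` -/
theorem plN_nonempty {N : ℕ} (hN : 1 < N) : (plN k N).Nonempty := by
  have hN0 : 0 < N := by omega
  by_contra hne
  rw [Finset.not_nonempty_iff_eq_empty] at hne
  have h1 : (N : k)⁻¹ ∈ SI N k ∧ (N : k)⁻¹ ∈ LI N k := by
    have hA := adic_locE k k hN0
    rw [hne] at hA
    exact ⟨inv_mem_SI hN0, hA.mem_LI_iff.mpr (by simp)⟩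
  have h2 : IsIntegral ℤ ((N : k)⁻¹) := isIntegral_of_SI_LI h1.1 h1.2
  have h3 : IsIntegral ℤ ((N : ℚ)⁻¹) := by
    rw [← isIntegral_algebraMap_iff (algebraMap ℚ k).injective]
    simpa using h2
  obtain ⟨m, hm⟩ := isIntegral_rat h3
  have h4 : (N : ℚ) * m = 1 := by
    rw [← hm]
    exact mul_inv_cancel₀ (by exact_mod_cast hN0.ne')
  have h5 : (N : ℤ) * m = 1 := by exact_mod_cast h4
  have h6 : (N : ℤ) ∣ 1 := ⟨m, h5.symm⟩
  have h7 := Int.natAbs_dvd_natAbs.mpr h6
  simp at h7
  omega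

/-- **The output of T4**: an automorphic form on `HF E × D U`, of the type `(J, psi)` at the places
above `N`, with Hecke eigenvalues `√(N w) A(π_w)` at the other places `w`, and with nonzero first
Fourier coefficient. -/
structure T4Out (T : T4D E L') (P : Par E) (U : (locE k E).Level) (φ : HF E × D U → ℂ) :
    Prop where
  aut : AutForm φ
  eqv : ∀ v ∈ plN k T.N, Fou.EqvAt v (P.J (locE k E) v) (P.psi (locE k E) v) φ
  hecke : ∀ v ∉ plN k T.N, ∀ (w : Fib E v) (π : Eˣ), IsGen (plN k T.N) (HE w) π →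
    HeckeAt (HE w) (((√((Ideal.absNorm w.1.asIdeal : ℕ) : ℝ) : ℝ) : ℂ) * T.A π) φ
  cof : ∀ p : HF E, Fou.cof φ (P.a0 : E) p (D.base U) ≠ 0

/-- the construction, from (I3) and the Whittaker expansions at all cusps -/
theorem t4Out_of (T : T4D E L') {P : Par E} (hPN : P.N = T.N) (hj : P.j ≠ 0)
    (hcl : ClassOne (locE k E) (plN k T.N)) {U : (locE k E).Level}
    (hU : ∀ v ∉ plN k T.N, U.U v = PO (OE E v)) {m : ℕ} (hm : 3 * P.j + P.δ ≤ m)
    (hU' : ∀ v ∈ plN k T.N, U.U v ≤ PK (OE E v) (P.N ^ m))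
    (I3 : ∀ c : E, (∃ y ∈ LI T.N E, c = (T.N : E) ^ (4 * P.j + P.δ) * y) → ∀ x,
      tf T (adic_locE k E T.hN) hcl hU (2 * P.j) (nLow c • x) =
        tf T (adic_locE k E T.hN) hcl hU (2 * P.j) x)
    (hW : ∀ (γ : GL (Fin 2) E) (ω : OmB U (plN k T.N)),
      WSF fun p : HF E => tf T (adic_locE k E T.hN) hcl hU (2 * P.j) (γ • (p, ω))) :
    T4Out T P U (form P (tf T (adic_locE k E T.hN) hcl hU (2 * P.j))) := by
  have hN : 0 < P.N := Nat.pos_of_ne_zero P.hN
  have hA := adic_locE k E T.hN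
  have hA' : Adic (locE k E) (plN k T.N) P.N := by rw [hPN]; exact hA
  have hBn : (plN k T.N).Nonempty := plN_nonempty T.one_lt_N
  have hl := laws_tf T hPN hj hA hcl hU I3 hN
  refine ⟨form_autForm hl hA' hBn hj hm hU' hW,
    fun v hv => form_eqvAt_le hl hA' hBn hj hm hU' hv, fun v hv w π hπ => ?_,
    fun p => form_cof T hPN hA hcl hU hl hBn hj hm hU' p⟩
  have h1 := heckeB_f T hA hcl hU hv (unif_OE w) hπ (2 * P.j)
  rw [show (HE w).S = repsE w from rfl, card_repsE] at h1
  exact form_heckeAt hl hA' hBn hj hm hU' hv h1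

open Classical in
/-- the global meaning of `IsGen`: `π` generates `w` away from `N` -/
theorem IsGen.valuation {N : ℕ} (hN : 0 < N) {v : HeightOneSpectrum (𝓞 k)} {w : Fib E v}
    {π : Eˣ} (hπ : IsGen (plN k N) (HE w) π) (w' : HeightOneSpectrum (𝓞 E))
    (hw' : ((N : ℕ) : 𝓞 E) ∉ w'.asIdeal) :
    w'.valuation E (π : E) = if w' = w.1 then exp (-1 : ℤ) else 1 := by
  set v' := below k w' with hv'
  set f : Fib E v' := ⟨w', liesOver_below w'⟩ with hf
  have hv'N : v' ∉ plN k N := by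
    rw [mem_plN hN, ← natCast_mem_fib f]
    exact hw'
  by_cases hvv : v' = v
  · have hw0 : ∃ f' : Fib E v, f'.1 = w' := by
      refine ⟨⟨w', ?_⟩, rfl⟩
      rw [← hvv]; exact liesOver_below w'
    obtain ⟨f', hf'⟩ := hw0
    have h1 := mem_OU_OE.mp hπ.same f'
    have h2 : ((((locE k E).un v π * (HE w).ϖ⁻¹ : (RE E v)ˣ) : RE E v)) f' =
        algebraMap E (f'.1.adicCompletion E) (π : E) *
          (((unifE w)⁻¹ : (RE E v)ˣ) : RE E v) f' := rfl
    rw [h2, map_mul, valued_algebraMap] at h1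
    rw [← hf']
    by_cases hww : f' = w
    · subst hww
      rw [unifE_inv_same, valued_unif_inv] at h1
      rw [if_pos rfl]
      have h3 : f'.1.valuation E (π : E) * exp (1 : ℤ) * exp (-1 : ℤ) = exp (-1 : ℤ) := by
        rw [h1, one_mul]
      rw [mul_assoc, ← exp_add, show (1 : ℤ) + -1 = 0 by ring, exp_zero, mul_one] at h3
      exact h3
    · rw [unifE_inv_ne hww, map_one, mul_one] at h1
      rw [if_neg (fun h => hww (Subtype.ext h))]
      exact h1
  · have h1 := mem_OU_OE.mp (hπ.other v' hv'N hvv) f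
    have h2 : (((locE k E).un v' π : (RE E v')ˣ) : RE E v') f =
        algebraMap E (w'.adicCompletion E) (π : E) := rfl
    rw [h2, valued_algebraMap] at h1
    rw [h1, if_neg]
    rintro rfl
    exact hvv w.below_eq

end Fermat.Agent.LT.T4
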