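import Fermat.Agent.LT.T4.Dich

set_option autoImplicit false

/-!
# The coefficients of the dihedral theta form are Hecke eigenvectors
-/

namespace Fermat.Agent.LT.T4

open Fermat.Agent.LT.Theta

section

variable {N : ℕ} {K : Type*} [Field K]

/-- the group of ideals is commutative -/
instance (priority := high) idlCommGroup {N : ℕ} {K : Type*} [Field K] : CommGroup (Idl N K) :=
  { QuotientGroup.Quotient.group (US N K) with
    mul_comm := fun a b => by
      induction a using QuotientGroup.induction_on with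
      | H a =>
      induction b using QuotientGroup.induction_on with
      | H b =>
        change (QuotientGroup.mk (a * b) : Idl N K) = QuotientGroup.mk (b * a)
        rw [mul_comm] }

/-- the unit of the field defined by a nonzero element of the ring -/
def uS (x : SI N K) (hx : x ≠ 0) : Kˣ := Units.mk0 (x : K) (coe_ne_zero hx)

@[simp] theorem uS_coe (x : SI N K) (hx : x ≠ 0) : ((uS x hx : Kˣ) : K) = x := rfl

theorem mk_eq_iff {a b : Kˣ} : (QuotientGroup.mk a : Idl N K) = QuotientGroup.mk b ↔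
    ∃ u : Kˣ, u ∈ US N K ∧ b = a * u := by
  rw [QuotientGroup.eq]
  constructor
  · intro h
    exact ⟨a⁻¹ * b, h, by group⟩
  · rintro ⟨u, hu, rfl⟩
    have : a⁻¹ * (a * u) = u := by group
    rwa [this]

theorem US_of_isUnit {x : SI N K} (h : IsUnit x) (hx : x ≠ 0) : uS x hx ∈ US N K := by
  refine ⟨x.2, ?_⟩
  obtain ⟨y, hy⟩ := h.exists_right_inv
  have hy' : (x : K) * (y : K) = 1 := congrArg Subtype.val hy
  have : (((uS x hx)⁻¹ : Kˣ) : K) = y := by
    rw [Units.val_inv_eq_inv_val, uS_coe]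
    exact (eq_inv_of_mul_eq_one_right hy').symm
  rw [this]
  exact y.2

theorem mk_eq_of_associated {x y : SI N K} (h : Associated x y) (hx : x ≠ 0) (hy : y ≠ 0) :
    (QuotientGroup.mk (uS x hx) : Idl N K) = QuotientGroup.mk (uS y hy) := by
  obtain ⟨u, hu⟩ := h
  rw [mk_eq_iff]
  refine ⟨uS (u : SI N K) u.ne_zero, US_of_isUnit u.isUnit _, Units.ext ?_⟩
  rw [Units.val_mul, uS_coe, uS_coe, uS_coe, ← hu]
  rfl

theorem associated_of_mk_eq {x y : SI N K} (hx : x ≠ 0) (hy : y ≠ 0)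
    (h : (QuotientGroup.mk (uS x hx) : Idl N K) = QuotientGroup.mk (uS y hy)) :
    Associated x y := by
  obtain ⟨u, hu, h⟩ := mk_eq_iff.1 h
  refine ⟨⟨⟨(u : K), hu.1⟩, ⟨((u⁻¹ : Kˣ) : K), hu.2⟩, Subtype.ext u.mul_inv,
    Subtype.ext u.inv_mul⟩, Subtype.ext ?_⟩
  exact (congrArg Units.val h).symm

/-- the integral ideals -/
theorem inS_one_iff {b : Idl N K} : InS b 1 ↔ ∃ (x : SI N K) (hx : x ≠ 0),
    b = QuotientGroup.mk (uS x hx) := by
  constructor
  · rintro ⟨β, rfl, h⟩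
    rw [mul_one] at h
    refine ⟨⟨β, h⟩, fun h0 => β.ne_zero (congrArg Subtype.val h0), ?_⟩
    congr 1
    exact Units.ext rfl
  · rintro ⟨x, hx, rfl⟩
    rw [inS_mk, mul_one]
    exact x.2

end

namespace T4D

variable {E L : Type*} [Field E] [NumberField E] [Field L] [NumberField L] [Algebra E L]
  (T : T4D E L)

/-- the set of integral ideals of norm `c` -/
def II (c : Eˣ) : Set (Idl T.N L) := {b | nmI T.N E L b = QuotientGroup.mk c ∧ InS b 1}

theorem A_eq (c : Eˣ) : T.A c = ∑ᶠ b ∈ T.II c, ((T.psiI b : ℂˣ) : ℂ) :=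
  finsum_set_coe_eq_finsum_mem (T.II c) (f := fun b => ((T.psiI b : ℂˣ) : ℂ))

theorem nS_ne_zero {x : SI T.N L} (hx : x ≠ 0) : nS T.N E L x ≠ 0 := by
  intro h
  have h1 := inc_nS (E := E) T.q x
  rw [h, map_zero] at h1
  rcases mul_eq_zero.1 h1.symm with h2 | h2
  · exact hx h2
  · apply hx
    have := congrArg (cS T.N T.q) h2
    rwa [cS_cS, map_zero] at this

theorem nmU_uS {x : SI T.N L} (hx : x ≠ 0) :
    nmU E L (uS x hx) = uS (nS T.N E L x) (T.nS_ne_zero hx) := Units.ext rfl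

theorem nmI_uS {x : SI T.N L} (hx : x ≠ 0) :
    nmI T.N E L (QuotientGroup.mk (uS x hx)) =
      QuotientGroup.mk (uS (nS T.N E L x) (T.nS_ne_zero hx)) := by
  rw [nmI_mk, nmU_uS]

theorem mem_of_mk_eq {x : SI T.N E} (hx : x ≠ 0) {c : Eˣ}
    (h : (QuotientGroup.mk (uS x hx) : Idl T.N E) = QuotientGroup.mk c) : (c : E) ∈ SI T.N E := by
  obtain ⟨u, hu, rfl⟩ := mk_eq_iff.1 h
  exact (SI T.N E).mul_mem x.2 hu.1

theorem II_eq_empty {c : Eˣ} (hc : (c : E) ∉ SI T.N E) : T.II c = ∅ := by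
  rw [Set.eq_empty_iff_forall_notMem]
  rintro b ⟨h1, h2⟩
  obtain ⟨x, hx, rfl⟩ := inS_one_iff.1 h2
  rw [nmI_uS] at h1
  exact hc (T.mem_of_mk_eq _ h1)

/-- elements of `II c` -/
theorem mem_II_iff {c : SI T.N E} (hc : c ≠ 0) {x : SI T.N L} (hx : x ≠ 0) :
    (QuotientGroup.mk (uS x hx) : Idl T.N L) ∈ T.II (uS c hc) ↔
      Associated (nS T.N E L x) c := by
  constructor
  · rintro ⟨h1, -⟩
    rw [nmI_uS] at h1
    exact associated_of_mk_eq _ _ h1
  · intro h
    refine ⟨?_, inS_one_iff.2 ⟨x, hx, rfl⟩⟩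
    rw [nmI_uS]
    exact mk_eq_of_associated h _ _

/-- **finiteness** -/
theorem finite_II (c : Eˣ) : (T.II c).Finite := by
  classical
  by_cases hc : (c : E) ∈ SI T.N E
  swap
  · rw [T.II_eq_empty hc]; exact Set.finite_empty
  set c' : SI T.N E := ⟨c, hc⟩ with hc'
  have hc0 : c' ≠ 0 := fun h => c.ne_zero (congrArg Subtype.val h)
  have hcu : c = uS c' hc0 := Units.ext rfl
  set d := inc T.N E L c' with hd
  have hd0 : d ≠ 0 := by
    rw [hd, Ne, map_eq_zero_iff _ inc_injective]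
    exact hc0
  have hfin : Finite (SI T.N L ⧸ Ideal.span {d}) := finite_quot T.hN d hd0
  have hfin2 : Finite (Ideal (SI T.N L ⧸ Ideal.span {d})) :=
    Finite.of_injective (fun I => (I : Set (SI T.N L ⧸ Ideal.span {d}))) SetLike.coe_injective
  choose! r hr hr' using fun (b : Idl T.N L) (hb : b ∈ T.II c) => inS_one_iff.1 hb.2
  have hmap : ∀ b ∈ T.II c, r b ∣ d := by
    intro b hb
    have h1 : b = QuotientGroup.mk (uS (r b) (hr b hb)) := hr' b hb
    have h2 : (QuotientGroup.mk (uS (r b) (hr b hb)) : Idl T.N L) ∈ T.II (uS c' hc0) := by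
      rw [← h1, ← hcu]; exact hb
    have h3 := (T.mem_II_iff hc0 (hr b hb)).1 h2
    have h4 := map_dvd (inc T.N E L) h3.dvd
    rw [inc_nS T.q] at h4
    exact (dvd_mul_right _ _).trans h4
  refine Set.Finite.of_injOn (f := fun b => (Ideal.span {r b}).map
    (Ideal.Quotient.mk (Ideal.span {d}))) (t := Set.univ) (fun _ _ => Set.mem_univ _) ?_
    Set.finite_univ
  intro b hb b' hb' h
  have hle : ∀ b ∈ T.II c, Ideal.span {d} ≤ Ideal.span {r b} := fun b hb =>
    Ideal.span_singleton_le_span_singleton.2 (hmap b hb)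
  have h1 := congrArg (Ideal.comap (Ideal.Quotient.mk (Ideal.span {d}))) h
  simp only [Ideal.comap_map_mk (hle b hb), Ideal.comap_map_mk (hle b' hb')] at h1
  rw [Ideal.span_singleton_eq_span_singleton] at h1
  rw [hr' b hb, hr' b' hb']
  exact mk_eq_of_associated h1 _ _

/-- **the coefficients at non-integral elements vanish** -/
theorem A_eq_zero {c : Eˣ} (hc : (c : E) ∉ SI T.N E) : T.A c = 0 := by
  rw [A_eq, T.II_eq_empty hc, finsum_mem_empty]

theorem norm_psiI_coe (b : Idl T.N L) : ‖((T.psiI b : ℂˣ) : ℂ)‖ = 1 := by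
  induction b using QuotientGroup.induction_on with
  | H β =>
    rw [psiI_mk]
    exact T.psi_norm _ β.ne_zero

theorem norm_A_le (c : Eˣ) : ‖T.A c‖ ≤ (T.finite_II c).toFinset.card := by
  rw [A_eq, finsum_mem_eq_finite_toFinset_sum _ (T.finite_II c)]
  refine (norm_sum_le _ _).trans ?_
  simp [norm_psiI_coe]

theorem A_congr {c c' : Eˣ} (h : (QuotientGroup.mk c : Idl T.N E) = QuotientGroup.mk c') :
    T.A c = T.A c' := by
  rw [A_eq, A_eq, II, II, h]

theorem II_one : T.II 1 = {1} := by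
  ext b
  rw [Set.mem_singleton_iff]
  constructor
  · intro hb
    obtain ⟨x, hx, rfl⟩ := inS_one_iff.1 hb.2
    have h1 : (1 : Eˣ) = uS (1 : SI T.N E) one_ne_zero := Units.ext rfl
    rw [h1] at hb
    have h2 := (T.mem_II_iff one_ne_zero hx).1 hb
    rw [associated_one_iff_isUnit] at h2
    have h3 := isUnit_of_nS (q := T.q) h2
    have := US_of_isUnit h3 hx
    exact (QuotientGroup.eq_one_iff _).2 this
  · rintro rfl
    refine ⟨?_, ?_⟩
    · rw [map_one]; rfl
    · refine ⟨1, rfl, ?_⟩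
      rw [Units.val_one, mul_one]
      exact (SI T.N L).one_mem

theorem A_one : T.A 1 = 1 := by
  rw [A_eq, II_one, finsum_mem_singleton, map_one, Units.val_one]

/-- integral ideals are stable under products -/
theorem InS.mul_int {N : ℕ} {K : Type*} [Field K] {b b' : Idl N K} (h : InS b 1)
    (h' : InS b' 1) : InS (b * b') 1 := by
  obtain ⟨x, hx, rfl⟩ := inS_one_iff.1 h
  obtain ⟨y, hy, rfl⟩ := inS_one_iff.1 h'
  refine inS_one_iff.2 ⟨x * y, mul_ne_zero hx hy, ?_⟩
  rw [← QuotientGroup.mk_mul]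
  congr 1
  exact Units.ext rfl

theorem mk_uS_mul {N : ℕ} {K : Type*} [Field K] {x y : SI N K} (hx : x ≠ 0) (hy : y ≠ 0)
    (hxy : x * y ≠ 0) : (QuotientGroup.mk (uS (x * y) hxy) : Idl N K) =
      QuotientGroup.mk (uS x hx) * QuotientGroup.mk (uS y hy) := by
  rw [← QuotientGroup.mk_mul]
  congr 1
  exact Units.ext rfl

/-- sums over translates -/
theorem sum_image (m : Idl T.N L) (c : Eˣ) :
    ∑ᶠ b ∈ (fun b => m * b) '' T.II c, ((T.psiI b : ℂˣ) : ℂ) =
      ((T.psiI m : ℂˣ) : ℂ) * T.A c := by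
  rw [finsum_mem_image (fun a _ b _ h => mul_left_cancel h), A_eq,
    mul_finsum_mem' _ _ (T.finite_II c)]
  exact finsum_mem_congr rfl fun b _ => by rw [map_mul, Units.val_mul]

variable {T}

/-- the Hecke relation at the split primes -/
theorem A_split {π : SI T.N E} (hπ : Prime π) {P : SI T.N L} (hP : Prime P)
    (hn : Associated (nS T.N E L P) π) {c : Eˣ} (hc : (c : E) ∈ SI T.N E) :
    T.A (c * uS π hπ.ne_zero) + T.A (c * (uS π hπ.ne_zero)⁻¹) =
      (T.psi (P : L) + T.psi (T.q.c (P : L))) * T.A c := by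
  set πu := uS π hπ.ne_zero with hπu
  have hP' := prime_cS T.q hP
  set P' := cS T.N T.q P with hP'def
  have hnas : ¬ Associated P P' := T.not_associated hπ hP hn
  set m : Idl T.N L := QuotientGroup.mk (uS P hP.ne_zero) with hm
  set m' : Idl T.N L := QuotientGroup.mk (uS P' hP'.ne_zero) with hm'
  set ν : Idl T.N E := QuotientGroup.mk πu with hν
  have hnm : nmI T.N E L m = ν := by
    rw [hm, nmI_uS]
    exact mk_eq_of_associated hn _ _
  have hn' : nS T.N E L P' = nS T.N E L P := by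
    apply inc_injective (L := L)
    rw [inc_nS T.q, inc_nS T.q, hP'def, cS_cS, mul_comm]
  have hnm' : nmI T.N E L m' = ν := by
    rw [hm', nmI_uS]
    exact mk_eq_of_associated (by rw [hn']; exact hn) _ _
  have hmi : InS m 1 := inS_one_iff.2 ⟨P, hP.ne_zero, rfl⟩
  have hmi' : InS m' 1 := inS_one_iff.2 ⟨P', hP'.ne_zero, rfl⟩
  have hPπ : P ∣ inc T.N E L π := by
    have h1 : Associated (inc T.N E L (nS T.N E L P)) (inc T.N E L π) := hn.map (inc T.N E L)
    rw [inc_nS T.q] at h1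
    exact (dvd_mul_right _ _).trans h1.dvd
  -- the union
  have hXY : T.II (c * πu) = (fun b => m * b) '' T.II c ∪ (fun b => m' * b) '' T.II c := by
    apply Set.Subset.antisymm
    · intro b hb
      obtain ⟨x, hx, rfl⟩ := inS_one_iff.1 hb.2
      have h1 := hb.1
      rw [nmI_uS] at h1
      obtain ⟨u, hu, hu'⟩ := mk_eq_iff.1 h1
      have h2 : π ∣ nS T.N E L x := by
        refine ⟨⟨(c : E) * ((u⁻¹ : Eˣ) : E), (SI T.N E).mul_mem hc hu.2⟩, Subtype.ext ?_⟩
        have h3 := congrArg Units.val hu'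
        rw [Units.val_mul, Units.val_mul] at h3
        change ((nS T.N E L x : SI T.N E) : E) = (π : E) * ((c : E) * ((u⁻¹ : Eˣ) : E))
        change (c : E) * (π : E) = ((nS T.N E L x : SI T.N E) : E) * (u : E) at h3
        rw [← mul_assoc, mul_comm (π : E), h3, mul_assoc, Units.mul_inv, mul_one]
      have h4 : P ∣ x * cS T.N T.q x := by
        rw [← inc_nS]
        exact hPπ.trans (map_dvd (inc T.N E L) h2)
      have key : ∀ {Q y : SI T.N L} (hQ : Q ≠ 0) (hy : y ≠ 0)
          (_ : nmI T.N E L (QuotientGroup.mk (uS Q hQ)) = ν) (_ : x = Q * y),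
          (QuotientGroup.mk (uS y hy) : Idl T.N L) ∈ T.II c := by
        intro Q y hQ hy hQn hxy
        refine ⟨?_, inS_one_iff.2 ⟨y, hy, rfl⟩⟩
        have h5 := hb.1
        subst hxy
        rw [mk_uS_mul hQ hy, map_mul, hQn, QuotientGroup.mk_mul, mul_comm] at h5
        exact mul_right_cancel h5
      rcases hP.dvd_or_dvd h4 with h5 | h5
      · left
        obtain ⟨y, hy⟩ := h5
        have hy0 : y ≠ 0 := right_ne_zero_of_mul (hy ▸ hx)
        refine ⟨_, key hP.ne_zero hy0 hnm hy, ?_⟩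
        subst hy
        exact (mk_uS_mul hP.ne_zero hy0 _).symm
      · right
        rw [dvd_cS_iff] at h5
        obtain ⟨y, hy⟩ := h5
        have hy0 : y ≠ 0 := right_ne_zero_of_mul (hy ▸ hx)
        refine ⟨_, key hP'.ne_zero hy0 hnm' hy, ?_⟩
        subst hy
        exact (mk_uS_mul hP'.ne_zero hy0 _).symm
    · rintro _ (⟨b, hb, rfl⟩ | ⟨b, hb, rfl⟩)
      · refine ⟨?_, InS.mul_int hmi hb.2⟩
        change nmI T.N E L (m * b) = _
        rw [map_mul, hnm, hb.1, QuotientGroup.mk_mul, mul_comm]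
      · refine ⟨?_, InS.mul_int hmi' hb.2⟩
        change nmI T.N E L (m' * b) = _
        rw [map_mul, hnm', hb.1, QuotientGroup.mk_mul, mul_comm]
  have hZ : (fun b => m * b) '' T.II c ∩ (fun b => m' * b) '' T.II c =
      (fun b => (m * m') * b) '' T.II (c * πu⁻¹) := by
    apply Set.Subset.antisymm
    · rintro _ ⟨⟨b, hb, rfl⟩, ⟨b', hb', hbb⟩⟩
      change m' * b' = m * b at hbb
      obtain ⟨x, hx, rfl⟩ := inS_one_iff.1 hb.2
      obtain ⟨x', hx', rfl⟩ := inS_one_iff.1 hb'.2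
      have h1 : Associated (P' * x') (P * x) := by
        apply associated_of_mk_eq (mul_ne_zero hP'.ne_zero hx') (mul_ne_zero hP.ne_zero hx)
        rw [mk_uS_mul hP'.ne_zero hx', mk_uS_mul hP.ne_zero hx]
        exact hbb
      have h2 : P ∣ P' * x' := (dvd_mul_right _ _).trans h1.symm.dvd
      have h3 : P ∣ x' := by
        rcases hP.dvd_or_dvd h2 with h3 | h3
        · exact absurd ((hP.dvd_prime_iff_associated hP').1 h3) hnas
        · exact h3
      obtain ⟨y, rfl⟩ := h3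
      have hy0 : y ≠ 0 := right_ne_zero_of_mul hx'
      have e : m' * (QuotientGroup.mk (uS (P * y) hx') : Idl T.N L) =
          (m * m') * QuotientGroup.mk (uS y hy0) := by
        rw [mk_uS_mul hP.ne_zero hy0, ← mul_assoc, mul_comm m']
      refine ⟨QuotientGroup.mk (uS y hy0), ⟨?_, inS_one_iff.2 ⟨y, hy0, rfl⟩⟩, ?_⟩
      · have h4 := hb'.1
        rw [mk_uS_mul hP.ne_zero hy0, map_mul, hnm] at h4
        rw [QuotientGroup.mk_mul, QuotientGroup.mk_inv, ← hν, ← h4]
        group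
        rw [mul_comm ν, mul_assoc]
        simp
      · change (m * m') * _ = m * _
        rw [← e, hbb]
    · rintro _ ⟨b, hb, rfl⟩
      have h1 : nmI T.N E L b * ν = QuotientGroup.mk c := by
        rw [hb.1, QuotientGroup.mk_mul, QuotientGroup.mk_inv, ← hν, inv_mul_cancel_right]
      refine ⟨⟨m' * b, ⟨?_, InS.mul_int hmi' hb.2⟩, ?_⟩, ⟨m * b, ⟨?_, InS.mul_int hmi hb.2⟩, ?_⟩⟩
      · rw [map_mul, hnm', mul_comm, h1]
      · change m * (m' * b) = m * m' * b
        rw [mul_assoc]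
      · rw [map_mul, hnm, mul_comm, h1]
      · change m' * (m * b) = m * m' * b
        rw [mul_left_comm, mul_assoc]
  have hfin : ∀ m : Idl T.N L, ((fun b => m * b) '' T.II c).Finite := fun m =>
    (T.finite_II c).image _
  have h := finsum_mem_union_inter (f := fun b => ((T.psiI b : ℂˣ) : ℂ)) (hfin m) (hfin m')
  rw [← hXY, hZ, ← A_eq, T.sum_image, T.sum_image, T.sum_image] at h
  have h1 : ((T.psiI (m * m') : ℂˣ) : ℂ) = 1 := by
    rw [map_mul, Units.val_mul, hm, hm', psiI_mk, psiI_mk, mul_comm]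
    exact T.psi_c _ (coe_ne_zero hP.ne_zero)
  rw [h1, one_mul, hm, hm', psiI_mk, psiI_mk] at h
  rw [h, add_mul]
  rfl

/-- the Hecke relation at the inert primes -/
theorem A_inert {π : SI T.N E} (hπ : Prime π) (hP : Prime (inc T.N E L π)) {c : Eˣ}
    (hc : (c : E) ∈ SI T.N E) :
    T.A (c * uS π hπ.ne_zero) + T.A (c * (uS π hπ.ne_zero)⁻¹) = 0 := by
  set πu := uS π hπ.ne_zero with hπu
  set P := inc T.N E L π with hPdef
  set m : Idl T.N L := QuotientGroup.mk (uS P hP.ne_zero) with hm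
  set ν : Idl T.N E := QuotientGroup.mk πu with hν
  have hmi : InS m 1 := inS_one_iff.2 ⟨P, hP.ne_zero, rfl⟩
  have hnm : nmI T.N E L m = ν * ν := by
    rw [hm, nmI_uS, hν, ← QuotientGroup.mk_mul]
    congr 1
    apply Units.ext
    rw [uS_coe, Units.val_mul, hπu, uS_coe, hPdef]
    have := congrArg Subtype.val (nS_inc (E := E) (L := L) T.q π)
    rw [this]
    change (π : E) ^ 2 = _
    ring
  have hX : T.II (c * πu) = (fun b => m * b) '' T.II (c * πu⁻¹) := by
    apply Set.Subset.antisymm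
    · intro b hb
      obtain ⟨x, hx, rfl⟩ := inS_one_iff.1 hb.2
      have h1 := hb.1
      rw [nmI_uS] at h1
      obtain ⟨u, hu, hu'⟩ := mk_eq_iff.1 h1
      have h2 : π ∣ nS T.N E L x := by
        refine ⟨⟨(c : E) * ((u⁻¹ : Eˣ) : E), (SI T.N E).mul_mem hc hu.2⟩, Subtype.ext ?_⟩
        have h3 := congrArg Units.val hu'
        rw [Units.val_mul, Units.val_mul] at h3
        change ((nS T.N E L x : SI T.N E) : E) = (π : E) * ((c : E) * ((u⁻¹ : Eˣ) : E))
        change (c : E) * (π : E) = ((nS T.N E L x : SI T.N E) : E) * (u : E) at h3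
        rw [← mul_assoc, mul_comm (π : E), h3, mul_assoc, Units.mul_inv, mul_one]
      have h4 : P ∣ x * cS T.N T.q x := by
        rw [← inc_nS]
        exact map_dvd (inc T.N E L) h2
      have h5 : P ∣ x := by
        rcases hP.dvd_or_dvd h4 with h5 | h5
        · exact h5
        · rwa [dvd_cS_iff, hPdef, cS_inc] at h5
      obtain ⟨y, rfl⟩ := h5
      have hy0 : y ≠ 0 := right_ne_zero_of_mul hx
      refine ⟨QuotientGroup.mk (uS y hy0), ⟨?_, inS_one_iff.2 ⟨y, hy0, rfl⟩⟩,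
        (mk_uS_mul hP.ne_zero hy0 _).symm⟩
      have h6 := hb.1
      rw [mk_uS_mul hP.ne_zero hy0, map_mul, hnm, QuotientGroup.mk_mul] at h6
      rw [QuotientGroup.mk_mul, QuotientGroup.mk_inv, ← hν]
      apply eq_mul_inv_of_mul_eq
      apply mul_right_cancel (b := ν)
      rw [hν, ← h6, mul_comm, mul_comm (nmI T.N E L _), mul_assoc]
    · rintro _ ⟨b, hb, rfl⟩
      refine ⟨?_, InS.mul_int hmi hb.2⟩
      change nmI T.N E L (m * b) = _
      rw [map_mul, hnm, hb.1, QuotientGroup.mk_mul, QuotientGroup.mk_mul, QuotientGroup.mk_inv,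
        ← hν, mul_comm (QuotientGroup.mk c : Idl T.N E) ν⁻¹, ← mul_assoc, mul_inv_cancel_right,
        mul_comm]
  have h1 : T.A (c * πu) = -T.A (c * πu⁻¹) := by
    rw [A_eq, hX, T.sum_image, hm, psiI_mk, uS_coe, hPdef, inc_coe, T.psi_of_prime hπ hP]
    ring
  rw [h1]
  ring

/-- the Hecke eigenvalue at a prime of `𝓞_E[1/N]` -/
def IsLam (T : T4D E L) (π : SI T.N E) (lam : ℂ) : Prop :=
  (∃ P : SI T.N L, Prime P ∧ Associated (nS T.N E L P) π ∧
      lam = T.psi (P : L) + T.psi (T.q.c (P : L))) ∨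
    (Prime (inc T.N E L π) ∧ lam = 0)

theorem exists_isLam {π : SI T.N E} (hπ : Prime π) : ∃ lam, T.IsLam π lam := by
  by_cases h : Prime (inc T.N E L π)
  · exact ⟨0, Or.inr ⟨h, rfl⟩⟩
  · obtain ⟨P, hP, hn⟩ := T.split_of_not_prime hπ h
    exact ⟨_, Or.inl ⟨P, hP, hn, rfl⟩⟩

/-- **The Hecke relations for the coefficients.** -/
theorem A_hecke {π : SI T.N E} (hπ : Prime π) {lam : ℂ} (hl : T.IsLam π lam) {c : Eˣ}
    (hc : (c : E) ∈ SI T.N E) :
    T.A (c * uS π hπ.ne_zero) + T.A (c * (uS π hπ.ne_zero)⁻¹) = lam * T.A c := by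
  rcases hl with ⟨P, hP, hn, rfl⟩ | ⟨hP, rfl⟩
  · exact A_split hπ hP hn hc
  · rw [A_inert hπ hP hc, zero_mul]

theorem IsLam.norm_le {π : SI T.N E} {lam : ℂ} (hl : T.IsLam π lam) : ‖lam‖ ≤ 2 := by
  rcases hl with ⟨P, hP, -, rfl⟩ | ⟨-, rfl⟩
  · have h0 := coe_ne_zero hP.ne_zero
    have h1 : T.q.c (P : L) ≠ 0 := by rwa [Ne, map_eq_zero]
    refine (norm_add_le _ _).trans ?_
    rw [T.psi_norm _ h0, T.psi_norm _ h1]
    norm_num
  · simp

end T4D

end Fermat.Agent.LT.T4
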