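import Fermat.Agent.LT.T4.Gen
import Fermat.Agent.LT.Fou.Unique

set_option autoImplicit false

/-!
# Automorphic functions from functions away from the bad places

`OmB U B`: the part away from `B` of `D U`. A function on `HF F × OmB U B` which is equivariant
under the elements of `GL₂(F)` which are in `J v` for all `v ∈ B` extends to a `GL₂(F)`-invariant
function on `HF F × D U`.
-/

namespace Fermat.Agent.LT.T4

open Matrix Filter
open Fermat.Agent.LT.Glob
open Fermat.Agent.LT.Glob.LocFam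
open scoped MatrixGroups

universe w u i

variable {F : Type u} [Field F] {ι : Type i} {L : LocFam.{w} F ι}

/-- **The part of `D U` away from `B`.** -/
def OmB (U : L.Level) (B : Finset ι) : Type _ :=
  {x : ∀ v : {v : ι // v ∉ B}, X U v.1 // ∀ᶠ v in cofinite, x v = X.base U v.1}

variable {U : L.Level} {B : Finset ι}

theorem OmB.ext {x y : OmB U B} (h : ∀ v, x.1 v = y.1 v) : x = y := Subtype.ext (funext h)

theorem eventually_away {p : ι → Prop} (h : ∀ᶠ v in cofinite, p v) :
    ∀ᶠ v : {v : ι // v ∉ B} in cofinite, p v.1 :=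
  (Subtype.val_injective.tendsto_cofinite).eventually h

instance : MulAction (GL (Fin 2) F) (OmB U B) where
  smul g x := ⟨fun v => L.emb v.1 g • x.1 v, by
    filter_upwards [eventually_away (L.eventually_emb_mem g), x.2,
      eventually_away U.eventually_eq] with v h1 h2 h3
    rw [h2]
    exact smul_base (by rw [h3]; exact h1)⟩
  one_smul x := by
    apply OmB.ext; intro v
    show L.emb v.1 1 • x.1 v = x.1 v
    rw [map_one, one_smul]
  mul_smul g h x := by
    apply OmB.ext; intro v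
    show L.emb v.1 (g * h) • x.1 v = L.emb v.1 g • L.emb v.1 h • x.1 v
    rw [map_mul, mul_smul]

theorem OmB.smul_apply (g : GL (Fin 2) F) (x : OmB U B) (v : {v : ι // v ∉ B}) :
    (g • x).1 v = L.emb v.1 g • x.1 v := rfl

variable (B) in
/-- the restriction -/
def away (d : D U) : OmB U B := ⟨fun v => d v.1, eventually_away d.2⟩

theorem away_smul (g : GL (Fin 2) F) (d : D U) : away B (g • d) = g • away B d := rfl

theorem away_setv (d : D U) {v : ι} (hv : v ∈ B) (x : X U v) :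
    away B (Fou.setv d v x) = away B d := by
  apply OmB.ext
  intro v'
  show Fou.setv d v x v'.1 = d v'.1
  exact Fou.setv_ne d (fun h => v'.2 (by rw [h]; exact hv)) x

variable (U B) in
/-- the base point -/
def OmB.base : OmB U B := away B (D.base U)

theorem away_surjective : Function.Surjective (away B : D U → OmB U B) := by
  classical
  intro x
  refine ⟨⟨fun v => if h : v ∉ B then x.1 ⟨v, h⟩ else X.base U v, ?_⟩, ?_⟩
  · rw [eventually_cofinite]
    have h1 : {v : ι | ¬ (if h : v ∉ B then x.1 ⟨v, h⟩ else X.base U v) = X.base U v} ⊆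
        Subtype.val '' {v : {v : ι // v ∉ B} | ¬ x.1 v = X.base U v.1} := by
      intro v hv
      by_cases h : v ∉ B
      · refine ⟨⟨v, h⟩, ?_, rfl⟩
        have hv' : ¬ (if h : v ∉ B then x.1 ⟨v, h⟩ else X.base U v) = X.base U v := hv
        rw [dif_pos h] at hv'
        exact hv'
      · have hv' : ¬ (if h : v ∉ B then x.1 ⟨v, h⟩ else X.base U v) = X.base U v := hv
        rw [dif_neg h] at hv'
        exact absurd rfl hv'
    exact ((eventually_cofinite.mp x.2).image _).subset h1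
  · apply OmB.ext
    intro v
    show (if h : v.1 ∉ B then x.1 ⟨v.1, h⟩ else X.base U v.1) = x.1 v
    rw [dif_pos v.2]

/-! ### weak approximation in the form needed -/

/-- the places in `B` are radical: `1 + N O_v` consists of units -/
structure BadPlaces (L : LocFam.{w} F ι) (B : Finset ι) : Prop where
  deep : ∀ v ∈ B, UnitDeep (L.O v)
  nt : ∀ v ∈ B, Nontrivial (L.R v)

theorem BadPlaces.exists_base (hB : BadPlaces L B) (d : D U) :
    ∃ γ : GL (Fin 2) F, ∀ v ∈ B, L.emb v γ • d v = X.base U v := by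
  classical
  have h1 : ∀ v, ∃ g : L.G v, (g : L.G v ⧸ U.U v) = d v := fun v => QuotientGroup.mk_surjective _
  choose g hg using h1
  have h2 : ∀ v, ∃ N : ℕ, N ≠ 0 ∧ PK (L.O v) N ≤ U.U v := U.deep
  choose N hN hN' using h2
  obtain ⟨γ, hγ⟩ := exists_near hB.deep hB.nt g (K := ∏ v ∈ B, N v)
    (Finset.prod_ne_zero_iff.mpr fun v _ => hN v)
  refine ⟨γ, fun v hv => ?_⟩
  have h3 : L.emb v γ * g v ∈ U.U v :=
    hN' v (PK_mono (Finset.dvd_prod_of_mem N hv) (hγ v hv))
  rw [← hg v, ← smul_base_mk, ← mul_smul]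
  exact smul_base h3

/-! ### the extension -/

/-- characters of level groups -/
structure LevChar (U : L.Level) (B : Finset ι) (J : ∀ v, Subgroup (L.G v)) (χ : ∀ v, L.G v → ℂ) :
    Prop where
  le : ∀ v ∈ B, U.U v ≤ J v
  triv : ∀ v ∈ B, ∀ g ∈ U.U v, χ v g = 1
  mul : ∀ v ∈ B, ∀ g ∈ J v, ∀ h ∈ J v, χ v (g * h) = χ v g * χ v h

theorem LevChar.inv {J : ∀ v, Subgroup (L.G v)} {χ : ∀ v, L.G v → ℂ} (h : LevChar U B J χ)
    {v : ι} (hv : v ∈ B) {g : L.G v} (hg : g ∈ J v) : χ v g⁻¹ = (χ v g)⁻¹ := by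
  have h1 := h.mul v hv g hg g⁻¹ (inv_mem hg)
  rw [mul_inv_cancel, h.triv v hv 1 (one_mem _)] at h1
  exact (inv_eq_of_mul_eq_one_right h1.symm).symm

/-- the equivariance of a function away from `B` -/
def AwayEqv (B : Finset ι) (J : ∀ v, Subgroup (L.G v)) (χ : ∀ v, L.G v → ℂ)
    (f : HF F × OmB U B → ℂ) : Prop :=
  ∀ g : GL (Fin 2) F, (∀ v ∈ B, L.emb v g ∈ J v) → ∀ x,
    f (g • x) = (∏ v ∈ B, χ v (L.emb v g)) * f x

open Classical in
/-- **The extension.** -/
noncomputable def autExt (B : Finset ι) (f : HF F × OmB U B → ℂ) (x : HF F × D U) : ℂ :=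
  if h : ∃ γ : GL (Fin 2) F, ∀ v ∈ B, L.emb v γ • x.2 v = X.base U v then
    f (h.choose • (x.1, away B x.2)) else 0

variable {J : ∀ v, Subgroup (L.G v)} {χ : ∀ v, L.G v → ℂ} {f : HF F × OmB U B → ℂ}

theorem autExt_eq (hc : LevChar U B J χ) (hf : AwayEqv B J χ f) {p : HF F} {d : D U}
    {γ : GL (Fin 2) F} (hγ : ∀ v ∈ B, L.emb v γ • d v = X.base U v) :
    autExt B f (p, d) = f (γ • (p, away B d)) := by
  have h : ∃ γ : GL (Fin 2) F, ∀ v ∈ B, L.emb v γ • (p, d).2 v = X.base U v := ⟨γ, hγ⟩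
  rw [autExt, dif_pos h]
  set γ' := h.choose with hγ'
  have h1 : ∀ v ∈ B, L.emb v γ' • d v = X.base U v := h.choose_spec
  have h2 : ∀ v ∈ B, L.emb v (γ' * γ⁻¹) ∈ U.U v := by
    intro v hv
    rw [← smul_base_iff (U := U), ← hγ v hv, ← mul_smul, ← map_mul, inv_mul_cancel_right]
    rw [h1 v hv, hγ v hv]
  have h3 : γ' • ((p, away B d) : HF F × OmB U B) = (γ' * γ⁻¹) • γ • (p, away B d) := by
    rw [← mul_smul, inv_mul_cancel_right]
  show f (γ' • (p, away B d)) = _
  rw [h3, hf _ (fun v hv => hc.le v hv (h2 v hv)), Finset.prod_eq_one, one_mul]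
  exact fun v hv => hc.triv v hv _ (h2 v hv)

theorem autExt_base (hc : LevChar U B J χ) (hf : AwayEqv B J χ f) {p : HF F} {d : D U}
    (hd : ∀ v ∈ B, d v = X.base U v) : autExt B f (p, d) = f (p, away B d) := by
  rw [autExt_eq hc hf (γ := 1), one_smul]
  intro v hv
  rw [map_one, one_smul]
  exact hd v hv

/-- for every `d` the function `p ↦ φ (p, d)` is a translate of `f` -/
theorem exists_autExt_eq (hB : BadPlaces L B) (hc : LevChar U B J χ) (hf : AwayEqv B J χ f)
    (d : D U) : ∃ γ : GL (Fin 2) F, ∀ p, autExt B f (p, d) = f (γ • (p, away B d)) := by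
  obtain ⟨γ, hγ⟩ := hB.exists_base d
  exact ⟨γ, fun p => autExt_eq hc hf hγ⟩

/-- more precisely: the same translate works whenever the components at `B` are the same -/
theorem exists_autExt_eq' (hB : BadPlaces L B) (hc : LevChar U B J χ) (hf : AwayEqv B J χ f)
    (d : D U) : ∃ γ : GL (Fin 2) F, ∀ d' : D U, (∀ v ∈ B, d' v = d v) →
      ∀ p, autExt B f (p, d') = f (γ • (p, away B d')) := by
  obtain ⟨γ, hγ⟩ := hB.exists_base d
  refine ⟨γ, fun d' hd' p => autExt_eq hc hf fun v hv => ?_⟩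
  rw [hd' v hv]; exact hγ v hv

/-- **Invariance.** -/
theorem autExt_smul (hB : BadPlaces L B) (hc : LevChar U B J χ) (hf : AwayEqv B J χ f)
    (g : GL (Fin 2) F) (x : HF F × D U) : autExt B f (g • x) = autExt B f x := by
  obtain ⟨p, d⟩ := x
  obtain ⟨γ, hγ⟩ := hB.exists_base d
  rw [autExt_eq hc hf hγ]
  have h1 : ∀ v ∈ B, L.emb v (γ * g⁻¹) • (g • d) v = X.base U v := by
    intro v hv
    rw [LocFam.smul_apply, ← mul_smul, ← map_mul, inv_mul_cancel_right]
    exact hγ v hv
  show autExt B f (g • p, g • d) = _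
  rw [autExt_eq hc hf h1, away_smul]
  have h2 : ((g • p, g • away B d) : HF F × OmB U B) = g • (p, away B d) := rfl
  rw [h2, ← mul_smul, inv_mul_cancel_right]

/-- **Equivariance at the bad places.** -/
theorem autExt_eqvAt (hB : BadPlaces L B) (hc : LevChar U B J χ) (hf : AwayEqv B J χ f)
    {v : ι} (hv : v ∈ B) : Fou.EqvAt v (J v) (fun j => (χ v j)⁻¹) (autExt B f) := by
  intro p d g j hj hd
  set d' : D U := Fou.setv d v ((g * j : L.G v) : L.G v ⧸ U.U v) with hd'
  obtain ⟨γ, hγ⟩ := hB.exists_base d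
  obtain ⟨γ', hγ'⟩ := hB.exists_base d'
  rw [autExt_eq hc hf hγ, autExt_eq hc hf hγ', hd', away_setv d hv]
  have h3 : γ' • ((p, away B d) : HF F × OmB U B) = (γ' * γ⁻¹) • γ • (p, away B d) := by
    rw [← mul_smul, inv_mul_cancel_right]
  -- at the other places
  have h4 : ∀ u ∈ B, u ≠ v → L.emb u (γ' * γ⁻¹) ∈ U.U u := by
    intro u hu huv
    rw [← smul_base_iff (U := U), ← hγ u hu, ← mul_smul, ← map_mul, inv_mul_cancel_right]
    have := hγ' u hu
    rw [hd', Fou.setv_ne d huv] at this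
    rw [this, hγ u hu]
  -- at `v`
  have h5 : L.emb v γ * g ∈ U.U v := by
    have := hγ v hv
    rw [hd, ← smul_base_mk, ← mul_smul] at this
    exact smul_base_iff.mp this
  have h6 : L.emb v γ' * (g * j) ∈ U.U v := by
    have := hγ' v hv
    rw [hd', Fou.setv_same, ← smul_base_mk, ← mul_smul] at this
    exact smul_base_iff.mp this
  have h7 : L.emb v (γ' * γ⁻¹) = (L.emb v γ' * (g * j)) * (j⁻¹ * (L.emb v γ * g)⁻¹) := by
    rw [map_mul, map_inv]
    group
  have hJ1 : L.emb v γ' * (g * j) ∈ J v := hc.le v hv h6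
  have hJ2 : (L.emb v γ * g)⁻¹ ∈ J v := inv_mem (hc.le v hv h5)
  have h8 : χ v (L.emb v (γ' * γ⁻¹)) = (χ v j)⁻¹ := by
    rw [h7, hc.mul v hv _ hJ1 _ (mul_mem (inv_mem hj) hJ2), hc.mul v hv _ (inv_mem hj) _ hJ2,
      hc.triv v hv _ h6, hc.triv v hv _ (inv_mem h5), hc.inv hv hj, one_mul, mul_one]
  have h9 : ∀ u ∈ B, L.emb u (γ' * γ⁻¹) ∈ J u := by
    intro u hu
    by_cases huv : u = v
    · subst huv
      rw [h7]
      exact mul_mem hJ1 (mul_mem (inv_mem hj) hJ2)
    · exact hc.le u hu (h4 u hu huv)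
  rw [h3, hf _ h9, Finset.prod_eq_single_of_mem v hv, h8]
  intro u hu huv
  exact hc.triv u hu _ (h4 u hu huv)

end Fermat.Agent.LT.T4
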