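import Fermat.Agent.LT.T4.WS
import Fermat.Agent.LT.T4.Iface

set_option autoImplicit false

/-! # Convergence and polynomial bounds for the dihedral theta series -/

namespace Fermat.Agent.LT.T4

open Complex MeasureTheory NumberField Module Matrix Filter Topology
open Fermat.Agent.LT.Fou Fermat.Agent.LT.Theta
open scoped Real ComplexConjugate ENNReal ContDiff

set_option linter.unusedSectionVars false

section coe

variable {E L : Type*} [Field E] [NumberField E] [Field L] [NumberField L] [Algebra E L]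
  [IsTotallyComplex E] {G S : Type*} [Group G] [Countable G] [Countable S]
  [MulAction G S] {i : G →* Lˣ}

/-- the coefficients of a theta series are of polynomial growth -/
theorem isW_coe (hf : FiniteDimensional E L) {Ψ : S → L → ℂ} {a : Orb i S → Ideal (𝓞 L)} {M : ℕ}
    {C1 : ℝ} (hM : 0 < M) (hC1 : 0 ≤ C1)
    (h1 : ∀ o o' : Orb i S, Ψ (rep o).1 (rep o).2.val ≠ 0 → Ψ (rep o').1 (rep o').2.val ≠ 0 →
        Algebra.norm E (rep o).2.val = Algebra.norm E (rep o').2.val → a o = a o' → o = o')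
    (h2 : ∀ o : Orb i S, Ψ (rep o).1 (rep o).2.val ≠ 0 →
        IsIntegral ℤ ((M : E) * Algebra.norm E (rep o).2.val))
    (h3 : ∀ o : Orb i S, Ψ (rep o).1 (rep o).2.val ≠ 0 → (Ideal.absNorm (a o) : ℝ) ≤
        C1 * |((Algebra.norm ℚ (Algebra.norm E (rep o).2.val) : ℚ) : ℝ)| ^ 2)
    {C2 : ℝ} (hC2 : ∀ s x, ‖Ψ s x‖ ≤ C2) : IsW (coe E i Ψ) := by
  classical
  obtain ⟨Cc, hCc, hcard⟩ := exists_card_ideals_le L
  set K : ℝ := (M : ℝ) ^ finrank ℚ E with hK
  have hMr : (0 : ℝ) < M := by exact_mod_cast hM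
  have hKpos : 0 < K := by positivity
  have hsupp : ∀ ξ, coe E i Ψ ξ ≠ 0 → IsIntegral ℤ ((M : E) * ξ) := by
    intro ξ hξ
    obtain ⟨o, ho, hne⟩ := Theta.coe_ne_zero hξ
    rw [← ho]
    exact h2 o hne
  refine ⟨coe_zero hf Ψ, M, Cc * (C1 + K ^ 2) * |C2|, 2, hM, by positivity, hsupp, fun ξ => ?_⟩
  by_cases hξ : coe E i Ψ ξ = 0
  · rw [hξ, norm_zero]
    have := an_nonneg ξ
    positivity
  have hξ0 : ξ ≠ 0 := by
    rintro rfl
    exact hξ (coe_zero hf Ψ)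
  have hpos := an_pos hξ0
  have hlow : K⁻¹ ≤ an ξ := norm_lower hM hξ0 (hsupp ξ hξ)
  have hone : 1 ≤ K * an ξ := by
    rw [inv_le_iff_one_le_mul₀ hKpos, mul_comm] at hlow
    exact hlow
  let F : Set (Orb i S) := {o | Algebra.norm E (rep o).2.val = ξ ∧ Ψ (rep o).1 (rep o).2.val ≠ 0}
  have hfin := finite_ideals L (C1 * an ξ ^ 2)
  let g : F → {I : Ideal (𝓞 L) // (Ideal.absNorm I : ℝ) ≤ C1 * an ξ ^ 2} := fun o =>
    ⟨a o.1, by
      have := h3 o.1 o.2.2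
      rw [o.2.1] at this
      exact this⟩
  have hg : Function.Injective g := by
    intro o o' h
    have h' : a o.1 = a o'.1 := congrArg (fun x => x.1) h
    exact Subtype.ext (h1 _ _ o.2.2 o'.2.2 (o.2.1.trans o'.2.1.symm) h')
  have hF : Finite F := Finite.of_injective g hg
  have hFf : F.Finite := F.toFinite
  have hcF : (hFf.toFinset.card : ℝ) ≤ Cc * (C1 * an ξ ^ 2 + 1) := by
    have e1 : hFf.toFinset.card = Nat.card F := by
      rw [Nat.card_coe_set_eq, Set.ncard_eq_toFinset_card F hFf]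
    rw [e1]
    refine le_trans ?_ (hcard (C1 * an ξ ^ 2) (by positivity))
    exact Nat.cast_le.mpr (Nat.card_le_card_of_injective g hg)
  have hsum : coe E i Ψ ξ = ∑ o ∈ hFf.toFinset,
      (if Algebra.norm E (rep o).2.val = ξ then Ψ (rep o).1 (rep o).2.val else 0) := by
    unfold coe
    apply tsum_eq_sum
    intro o ho
    split_ifs with h
    · by_contra hne
      apply ho
      rw [Set.Finite.mem_toFinset]
      exact ⟨h, hne⟩
    · rfl
  rw [hsum]
  have hterm : ∀ o ∈ hFf.toFinset,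
      ‖(if Algebra.norm E (rep o).2.val = ξ then Ψ (rep o).1 (rep o).2.val else 0 : ℂ)‖ ≤ |C2| := by
    intro o _
    split_ifs
    · exact (hC2 _ _).trans (le_abs_self _)
    · rw [norm_zero]; exact abs_nonneg _
  refine (norm_sum_le_of_le _ hterm).trans ?_
  rw [Finset.sum_const, nsmul_eq_mul]
  have h5 : C1 * an ξ ^ 2 + 1 ≤ (C1 + K ^ 2) * an ξ ^ 2 := by
    have : 1 ≤ (K * an ξ) ^ 2 := one_le_pow₀ hone
    rw [add_mul]
    rw [mul_pow] at this
    linarith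
  calc (hFf.toFinset.card : ℝ) * |C2| ≤ Cc * (C1 * an ξ ^ 2 + 1) * |C2| :=
        mul_le_mul_of_nonneg_right hcF (abs_nonneg _)
    _ ≤ Cc * ((C1 + K ^ 2) * an ξ ^ 2) * |C2| := by gcongr
    _ = _ := by ring

end coe

section bsch

variable {N : ℕ} {L : Type*} [Field L] [NumberField L]

/-- Schwartz–Bruhat functions at `N` are bounded -/
theorem BSch.bdd (hN : 0 < N) {k : ℕ} {Φ : L → ℂ} (h : BSch N k Φ) : ∃ C : ℝ, ∀ x, ‖Φ x‖ ≤ C := by
  classical
  have hN' : (N : L) ≠ 0 := by exact_mod_cast hN.ne'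
  have hfin : Finite (𝓞 L ⧸ Ideal.span {((N ^ (2 * k) : ℕ) : 𝓞 L)}) := by
    apply Ideal.finiteQuotientOfFreeOfNeBot
    rw [Ne, Ideal.span_singleton_eq_bot]
    exact_mod_cast (pow_pos hN _).ne'
  have := Fintype.ofFinite (𝓞 L ⧸ Ideal.span {((N ^ (2 * k) : ℕ) : 𝓞 L)})
  let f : (𝓞 L ⧸ Ideal.span {((N ^ (2 * k) : ℕ) : 𝓞 L)}) → ℝ := fun r =>
    ‖Φ (((N : L) ^ k)⁻¹ * ((r.out : 𝓞 L) : L))‖
  refine ⟨∑ r, f r, fun x => ?_⟩
  have hf0 : ∀ r, 0 ≤ f r := fun r => norm_nonneg _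
  by_cases hx : Φ x = 0
  · rw [hx, norm_zero]
    exact Finset.sum_nonneg fun r _ => hf0 r
  have h1 := h.2 x hx
  obtain ⟨y, hy, h2⟩ := exists_decomp_deep hN (2 * k) (one_ne_zero (α := L)) ((N : L) ^ k * x)
  rw [div_one] at h2
  have h3 : IsIntegral ℤ ((N : L) ^ k * x - (N : L) ^ (2 * k) * y) := by
    apply isIntegral_of_SI_LI h2
    exact (LI N L).sub_mem h1 ((LI N L).mul_mem
      (LI_of_isIntegral ((isIntegral_natCast' N).pow _)) hy)
  let t : 𝓞 L := ⟨_, h3⟩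
  set r : (𝓞 L ⧸ Ideal.span {((N ^ (2 * k) : ℕ) : 𝓞 L)}) := Ideal.Quotient.mk _ t with hr
  have h4 : Ideal.Quotient.mk (Ideal.span {((N ^ (2 * k) : ℕ) : 𝓞 L)}) r.out =
      Ideal.Quotient.mk (Ideal.span {((N ^ (2 * k) : ℕ) : 𝓞 L)}) t := Quotient.out_eq _
  rw [Ideal.Quotient.eq, Ideal.mem_span_singleton] at h4
  obtain ⟨z, hz⟩ := h4
  have h5 : ((r.out : 𝓞 L) : L) = (N : L) ^ k * x + (N : L) ^ (2 * k) * (z - y) := by
    have e := congrArg (fun w : 𝓞 L => (w : L)) hz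
    simp only [map_sub, map_mul, map_natCast, Nat.cast_pow, map_pow] at e
    have e2 : ((r.out : 𝓞 L) : L) - ((N : L) ^ k * x - (N : L) ^ (2 * k) * y) =
      (N : L) ^ (2 * k) * z := e
    linear_combination e2
  have h6 : ((N : L) ^ k)⁻¹ * ((r.out : 𝓞 L) : L) = x + (N : L) ^ k * (z - y) := by
    rw [h5, two_mul, pow_add]
    field_simp
  have h7 : Φ (((N : L) ^ k)⁻¹ * ((r.out : 𝓞 L) : L)) = Φ x := by
    rw [h6]
    exact h.1 x _ ((LI N L).sub_mem (LI_of_isIntegral z.isIntegral_coe) hy)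
  calc ‖Φ x‖ = f r := by
        show _ = ‖Φ (((N : L) ^ k)⁻¹ * ((r.out : 𝓞 L) : L))‖
        rw [h7]
    _ ≤ _ := Finset.single_le_sum (f := f) (fun r _ => hf0 r) (Finset.mem_univ r)

end bsch

namespace T4D

variable {E L : Type*} [Field E] [NumberField E] [Field L] [NumberField L] [Algebra E L]
  (T : T4D E L)

theorem norm_e0 (x : E) : ‖e0 E x‖ = 1 := by
  rw [e0_apply]
  have : -(2 * (π : ℂ) * I * ((Algebra.trace ℚ E x : ℚ) : ℂ)) =
    ((-(2 * π * ((Algebra.trace ℚ E x : ℚ) : ℝ)) : ℝ) : ℂ) * I := by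
    push_cast; ring
  rw [this, Complex.norm_exp_ofReal_mul_I]

theorem norm_ψ (x : E) : ‖T.ψ x‖ = 1 := by
  have h : T.ψ x = e0 E (lpart T.N x) := rfl
  rw [h, norm_e0]

theorem norm_ψB (x : E) : ‖T.ψB x‖ = 1 := by
  have h : T.ψB x = e0 E (x - lpart T.N x) := rfl
  rw [h, norm_e0]

theorem bd_norm_psiI (b : Idl T.N L) : ‖((T.psiI b : ℂˣ) : ℂ)‖ = 1 := by
  induction b using QuotientGroup.induction_on with
  | H β => rw [psiI_mk]; exact T.psi_norm _ β.ne_zero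

instance : Countable Lˣ := by
  have : Countable L :=
    Countable.of_equiv _ (Module.finBasis ℚ L).equivFun.toEquiv.symm
  exact (Units.val_injective (α := L)).countable

instance : Countable T.H := inferInstance

instance (c : Eˣ) : Countable (T.SS c) := by
  have h1 : Countable (Idl T.N L) := by
    unfold Idl
    exact (QuotientGroup.mk_surjective (s := US T.N L)).countable
  exact Subtype.countable

/-- a generator of the ideal `b` -/
noncomputable def bd_gen (b : Idl T.N L) : Lˣ := Quotient.out b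

theorem bd_mk_gen (b : Idl T.N L) : (QuotientGroup.mk (T.bd_gen b) : Idl T.N L) = b :=
  Quotient.out_eq b

theorem div_mem_SI {K : Type*} [Field K] {N : ℕ} {β γ : Kˣ}
    (h : (QuotientGroup.mk β : Idl N K) = QuotientGroup.mk γ) : (β : K) / γ ∈ SI N K := by
  rw [QuotientGroup.eq] at h
  have := h.2
  rw [_root_.mul_inv_rev, inv_inv, Units.val_mul, Units.val_inv_eq_inv_val] at this
  rw [div_eq_mul_inv, mul_comm]
  exact this

theorem mk_eq_mk_of_div {K : Type*} [Field K] {N : ℕ} {β γ : Kˣ}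
    (h : (β : K) / γ ∈ SI N K) (h' : (γ : K) / β ∈ SI N K) :
    (QuotientGroup.mk β : Idl N K) = QuotientGroup.mk γ := by
  rw [QuotientGroup.eq]
  constructor
  · rw [Units.val_mul, Units.val_inv_eq_inv_val, mul_comm, ← div_eq_mul_inv]
    exact h'
  · rw [_root_.mul_inv_rev, inv_inv, Units.val_mul, Units.val_inv_eq_inv_val, mul_comm,
      ← div_eq_mul_inv]
    exact h

theorem bd_InS_one_gen {b : Idl T.N L} (h : InS b 1) : (T.bd_gen b : L) ∈ SI T.N L := by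
  rw [← T.bd_mk_gen b, inS_mk, mul_one] at h
  exact h

theorem Psi_ne {Φ : L → ℂ} {s : E} {c : Eˣ} {b : T.SS c} {x : L} (h : T.Psi Φ s b x ≠ 0) :
    Φ x ≠ 0 ∧ (T.bd_gen b.1 : L) * x ∈ SI T.N L := by
  classical
  unfold Psi at h
  have h1 := right_ne_zero_of_mul h
  refine ⟨left_ne_zero_of_mul h1, ?_⟩
  have h2 := left_ne_zero_of_mul (right_ne_zero_of_mul h1)
  by_contra hne
  apply h2
  rw [if_neg]
  rw [← T.bd_mk_gen b.1, inS_mk]
  exact hne

theorem norm_Psi_le {Φ : L → ℂ} {C : ℝ} (hC : ∀ x, ‖Φ x‖ ≤ C) {s : E} {c : Eˣ} (b : T.SS c)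
    (x : L) : ‖T.Psi Φ s b x‖ ≤ C := by
  classical
  unfold Psi
  rw [norm_mul, bd_norm_psiI, one_mul, norm_mul, norm_mul, norm_ψ, mul_one]
  have hC0 : 0 ≤ C := (norm_nonneg _).trans (hC 0)
  split_ifs
  · rw [norm_one, mul_one]; exact hC x
  · rw [norm_zero, mul_zero]; exact hC0

variable [IsTotallyComplex E]

/-- the orbit data for the functions `Psi` -/
theorem ideal_data_Psi {k : ℕ} {Φ : L → ℂ} (hΦ : BSch T.N k Φ) (c : Eˣ) (s : E) :
    ∃ (a : Orb T.H.subtype (T.SS c) → Ideal (𝓞 L)) (M : ℕ) (C1 : ℝ), 0 < M ∧ 0 ≤ C1 ∧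
      (∀ o o' : Orb T.H.subtype (T.SS c), T.Psi Φ s (rep o).1 (rep o).2.val ≠ 0 →
        T.Psi Φ s (rep o').1 (rep o').2.val ≠ 0 →
        Algebra.norm E (rep o).2.val = Algebra.norm E (rep o').2.val → a o = a o' → o = o') ∧
      (∀ o : Orb T.H.subtype (T.SS c), T.Psi Φ s (rep o).1 (rep o).2.val ≠ 0 →
        IsIntegral ℤ ((M : E) * Algebra.norm E (rep o).2.val)) ∧
      (∀ o : Orb T.H.subtype (T.SS c), T.Psi Φ s (rep o).1 (rep o).2.val ≠ 0 →
        (Ideal.absNorm (a o) : ℝ) ≤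
        C1 * |((Algebra.norm ℚ (Algebra.norm E (rep o).2.val) : ℚ) : ℝ)| ^ 2) := by
  refine exists_ideal_data T.q T.H.subtype T.hN ?_ (b := fun b : T.SS c => (T.bd_gen b.1 : L))
    (fun b => (T.bd_gen b.1).ne_zero) ?_ ?_ c.ne_zero ?_ (Ψ := fun b : T.SS c => T.Psi Φ s b) k
    (fun b x h => (T.Psi_ne h).2) (fun b x h => hΦ.2 x (T.Psi_ne h).1)
  · intro u h1 h2 h3
    refine ⟨⟨u, ?_⟩, rfl⟩
    rw [T.mem_H]
    refine ⟨Units.ext h1, h2, ?_⟩
    rw [Units.val_inv_eq_inv_val]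
    exact h3
  · intro b b' h h'
    apply Subtype.ext
    rw [← T.bd_mk_gen b.1, ← T.bd_mk_gen b'.1]
    exact mk_eq_mk_of_div h h'
  · intro g b
    have e1 : (QuotientGroup.mk (T.bd_gen (g • b).1) : Idl T.N L) =
        QuotientGroup.mk ((g : Lˣ) * T.bd_gen b.1) := by
      rw [T.bd_mk_gen, T.smul_SS_val, QuotientGroup.mk_mul, T.bd_mk_gen]
    constructor
    · have := div_mem_SI e1
      rw [Units.val_mul] at this
      exact this
    · have := div_mem_SI e1.symm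
      rw [Units.val_mul] at this
      exact this
  · intro b
    have e1 : (QuotientGroup.mk c : Idl T.N E) = QuotientGroup.mk (nmU E L (T.bd_gen b.1)) := by
      rw [← nmI_mk, T.bd_mk_gen]
      exact b.2.symm
    exact div_mem_SI e1

/-- **Convergence of the theta series.** -/
theorem maj_Psi {k : ℕ} {Φ : L → ℂ} (hΦ : BSch T.N k Φ) (c : Eˣ) (s : E) :
    Maj E T.H.subtype (fun b : T.SS c => T.Psi Φ s b) := by
  intro ε hε j hj
  have hfin := T.q.finDim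
  obtain ⟨C, hC⟩ := hΦ.bdd T.hN
  obtain ⟨a, M, C1, hM, hC1, h1, h2, h3⟩ := T.ideal_data_Psi hΦ c s
  refine conv_main (ξ := fun o : Orb T.H.subtype (T.SS c) => Algebra.norm E (rep o).2.val)
    (𝔞 := a) (A := fun o => ‖T.Psi Φ s (rep o).1 (rep o).2.val‖) ?_ hM ?_ ?_
    (C1 := C1) hC1 (m := 2) ?_ (le_max_right C 0) ?_ hε hj
  · intro o o' h h' hξ ha
    exact h1 o o' (norm_ne_zero_iff.mp h) (norm_ne_zero_iff.mp h') hξ ha
  · intro o h
    exact h2 o (norm_ne_zero_iff.mp h)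
  · intro o _
    exact Algebra.norm_ne_zero_iff.mpr (XL.val_ne _ _)
  · intro o h
    exact h3 o (norm_ne_zero_iff.mp h)
  · intro o
    exact (T.norm_Psi_le hC _ _).trans (le_max_left _ _)

theorem serConv_Psi {k : ℕ} {Φ : L → ℂ} (hΦ : BSch T.N k Φ) (c : Eˣ) (s : E) (p : HF E) :
    SerConv T.H.subtype (fun b : T.SS c => T.Psi Φ s b) p := (T.maj_Psi hΦ c s).serConv p

theorem isW_Psi {k : ℕ} {Φ : L → ℂ} (hΦ : BSch T.N k Φ) (c : Eˣ) (s : E) :
    IsW (coe E T.H.subtype (fun b : T.SS c => T.Psi Φ s b)) := by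
  have hfin := T.q.finDim
  obtain ⟨C, hC⟩ := hΦ.bdd T.hN
  obtain ⟨a, M, C1, hM, hC1, h1, h2, h3⟩ := T.ideal_data_Psi hΦ c s
  exact isW_coe hfin hM hC1 h1 h2 h3 (fun b x => T.norm_Psi_le hC b x)

/-- **The theta functions are Whittaker series.** -/
theorem wsf_fPhi {k : ℕ} {Φ : L → ℂ} (hΦ : BSch T.N k Φ) (c : Eˣ) (s : E) :
    WSF fun p : HF E => T.fPhi Φ p c s := by
  unfold fPhi
  exact (WSF_ser (T.isW_Psi hΦ c s) (T.serConv_Psi hΦ c s)).const_mul _

/-! ### The theta form -/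

/-- the coefficients of the theta form -/
noncomputable def Af (n : ℕ) (c : Eˣ) (s : E) (ξ : E) : ℂ := by
  classical
  exact if h : ∃ u : Eˣ, u ∈ T.A1 n ∧ (u : E) = ξ then T.A (h.choose * c) * T.ψ (ξ * s) else 0

theorem Af_coe (n : ℕ) (c : Eˣ) (s : E) (u : Eˣ) (hu : u ∈ T.A1 n) :
    T.Af n c s (u : E) = T.A (u * c) * T.ψ ((u : E) * s) := by
  classical
  unfold Af
  have h : ∃ u' : Eˣ, u' ∈ T.A1 n ∧ (u' : E) = (u : E) := ⟨u, hu, rfl⟩
  rw [dif_pos h]
  have : h.choose = u := Units.ext h.choose_spec.2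
  rw [this]

theorem Af_ne {n : ℕ} {c : Eˣ} {s : E} {ξ : E} (h : T.Af n c s ξ ≠ 0) :
    ∃ u : Eˣ, u ∈ T.A1 n ∧ (u : E) = ξ := by
  classical
  by_contra hne
  apply h
  unfold Af
  rw [dif_neg hne]

theorem bd_A1_LI {n : ℕ} {u : Eˣ} (hu : u ∈ T.A1 n) : (u : E) ∈ LI T.N E := by
  obtain ⟨y, hy, h⟩ := hu
  rw [h]
  exact (LI T.N E).add_mem (LI T.N E).one_mem ((LI T.N E).mul_mem
    (LI_of_isIntegral ((isIntegral_natCast' T.N).pow _)) hy)

/-- bounds for the number of ideals of given norm -/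
theorem exists_A_bd (c : Eˣ) : ∃ (M : ℕ) (C : ℝ), 0 < M ∧ 0 ≤ C ∧ ∀ ξ : Eˣ, (ξ : E) ∈ LI T.N E →
    Finite {b : Idl T.N L // nmI T.N E L b = QuotientGroup.mk (ξ * c) ∧ InS b 1} ∧
    (T.A (ξ * c) ≠ 0 → IsIntegral ℤ ((M : E) * ξ)) ∧ ‖T.A (ξ * c)‖ ≤ C * an (ξ : E) ^ 2 := by
  classical
  have hfd := T.q.finDim
  obtain ⟨Cc, hCc, hcard⟩ := exists_card_ideals_le L
  obtain ⟨m0, hm0, hm0i⟩ := exists_nat_integral ((c : E)⁻¹)
  have hm0' : (m0 : E) ≠ 0 := by exact_mod_cast hm0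
  have hm0r : (0 : ℝ) < m0 := by exact_mod_cast Nat.pos_of_ne_zero hm0
  set C1 : ℝ := (m0 : ℝ) ^ finrank ℚ L with hC1
  set K : ℝ := (m0 : ℝ) ^ finrank ℚ E with hK
  have hKpos : 0 < K := by positivity
  refine ⟨m0, Cc * (C1 + K ^ 2), Nat.pos_of_ne_zero hm0, by positivity, fun ξ hξ => ?_⟩
  set B := {b : Idl T.N L // nmI T.N E L b = QuotientGroup.mk (ξ * c) ∧ InS b 1} with hB
  -- basic facts for `b ∈ B`
  have hβ : ∀ b : B, (T.bd_gen b.1 : L) ∈ SI T.N L := fun b => T.bd_InS_one_gen b.2.2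
  have hnorm : ∀ b : B, ((ξ * c : Eˣ) : E) / Algebra.norm E (T.bd_gen b.1 : L) ∈ SI T.N E := by
    intro b
    have e1 : (QuotientGroup.mk (ξ * c) : Idl T.N E) =
        QuotientGroup.mk (nmU E L (T.bd_gen b.1)) := by
      rw [← nmI_mk, T.bd_mk_gen]
      exact b.2.1.symm
    exact div_mem_SI e1
  have hcne : ((c : Eˣ) : E) ≠ 0 := c.ne_zero
  have hξne : ((ξ : Eˣ) : E) ≠ 0 := ξ.ne_zero
  -- integrality of `m0 ξ`
  have hint : ∀ b : B, IsIntegral ℤ ((m0 : E) * ξ) := by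
    intro b
    apply isIntegral_of_SI_LI (N := T.N)
    · have h1 : ((ξ * c : Eˣ) : E) ∈ SI T.N E := by
        have := (SI T.N E).mul_mem (hnorm b) (norm_mem_SI (E := E) (hβ b))
        rwa [div_mul_cancel₀] at this
        exact Algebra.norm_ne_zero_iff.mpr (T.bd_gen b.1).ne_zero
      have h2 : (m0 : E) * ξ = ((m0 : E) * (c : E)⁻¹) * ((ξ * c : Eˣ) : E) := by
        rw [Units.val_mul]; field_simp
      rw [h2]
      exact (SI T.N E).mul_mem (SI_of_isIntegral hm0i) h1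
    · exact (LI T.N E).mul_mem (LI_of_isIntegral (isIntegral_natCast' m0)) hξ
  -- the element of the ideal
  have hmem : ∀ b : B, ∃ t : 𝓞 L, (t : L) = algebraMap E L ((m0 : E) * ξ) ∧
      t ∈ mixId T.N (T.bd_gen b.1 : L) 1 := by
    intro b
    have hi : IsIntegral ℤ (algebraMap E L ((m0 : E) * ξ)) := by
      have := (hint b).map (algebraMap E L).toIntAlgHom
      simpa using this
    refine ⟨⟨_, hi⟩, rfl, ?_, ?_⟩
    · show algebraMap E L ((m0 : E) * ξ) / (T.bd_gen b.1 : L) ∈ _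
      set β : L := (T.bd_gen b.1 : L) with hβdef
      have hβ0 : β ≠ 0 := (T.bd_gen b.1).ne_zero
      have hn0 : Algebra.norm E β ≠ 0 := Algebra.norm_ne_zero_iff.mpr hβ0
      have hn0' : algebraMap E L (Algebra.norm E β) ≠ 0 := by rw [Ne, map_eq_zero]; exact hn0
      have e1 : algebraMap E L ((m0 : E) * ξ) / β = algebraMap E L ((m0 : E) * (c : E)⁻¹) *
          algebraMap E L (((ξ * c : Eˣ) : E) / Algebra.norm E β) * T.q.c β := by
        have e2 : (m0 : E) * ξ = ((m0 : E) * (c : E)⁻¹) *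
            (((ξ * c : Eˣ) : E) / Algebra.norm E β) * Algebra.norm E β := by
          rw [Units.val_mul]; field_simp
        rw [e2, map_mul, map_mul, T.q.norm_eq]
        field_simp
      rw [e1]
      exact (SI T.N L).mul_mem ((SI T.N L).mul_mem
        (SI_algebraMap (SI_of_isIntegral hm0i)) (SI_algebraMap (hnorm b))) (SI_c T.q (hβ b))
    · show algebraMap E L ((m0 : E) * ξ) / 1 ∈ _
      rw [div_one]
      exact LI_of_isIntegral hi
  have hnb : ∀ b : B, (Ideal.absNorm (mixId T.N (T.bd_gen b.1 : L) 1) : ℝ) ≤ C1 * an (ξ : E) ^ 2 := by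
    intro b
    obtain ⟨t, ht, htm⟩ := hmem b
    have ht0 : t ≠ 0 := by
      intro h
      have h3 : algebraMap E L ((m0 : E) * ξ) = 0 := by rw [← ht, h]; rfl
      rw [map_eq_zero] at h3
      exact mul_ne_zero hm0' hξne h3
    refine (absNorm_mixId_le htm ht0).trans (le_of_eq ?_)
    have e0 : (t : L) = algebraMap E L (((m0 : ℚ) : E) * ξ) := by
      rw [ht]; congr 1; push_cast; rfl
    rw [e0, ← Algebra.norm_norm (S := E), Algebra.norm_algebraMap, T.q.two, mul_pow, map_mul]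
    have e7 : Algebra.norm ℚ ((((m0 : ℚ) : E)) ^ 2) = ((m0 : ℚ) ^ finrank ℚ L) := by
      rw [map_pow]
      have : Algebra.norm ℚ (((m0 : ℚ) : E)) = (m0 : ℚ) ^ finrank ℚ E := by
        have := Algebra.norm_algebraMap (S := E) (m0 : ℚ)
        rw [← this]
        simp
      rw [this, ← pow_mul]
      congr 1
      rw [← T.q.two, Module.finrank_mul_finrank]
    rw [e7, map_pow]
    unfold an
    push_cast
    rw [abs_mul, abs_pow, abs_pow, Nat.abs_cast]
  let g : B → {I : Ideal (𝓞 L) // (Ideal.absNorm I : ℝ) ≤ C1 * an (ξ : E) ^ 2} := fun b =>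
    ⟨mixId T.N (T.bd_gen b.1 : L) 1, hnb b⟩
  have hg : Function.Injective g := by
    intro b b' h
    have h' : mixId T.N (T.bd_gen b.1 : L) 1 = mixId T.N (T.bd_gen b'.1 : L) 1 :=
      congrArg (fun x => x.1) h
    have e1 := mixId_SI T.hN (T.bd_gen b.1).ne_zero (hβ b) h'.le
    have e2 := mixId_SI T.hN (T.bd_gen b'.1).ne_zero (hβ b') h'.ge
    apply Subtype.ext
    rw [← T.bd_mk_gen b.1, ← T.bd_mk_gen b'.1]
    exact mk_eq_mk_of_div e1 e2
  have hfin := finite_ideals L (C1 * an (ξ : E) ^ 2)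
  have hBfin : Finite B := Finite.of_injective g hg
  have hA0 : T.A (ξ * c) ≠ 0 → Nonempty B := by
    intro h
    by_contra hne
    rw [not_nonempty_iff] at hne
    apply h
    unfold A
    exact finsum_of_isEmpty _
  refine ⟨hBfin, fun h => ?_, ?_⟩
  · obtain ⟨b⟩ := hA0 h
    exact hint b
  · by_cases h : T.A (ξ * c) = 0
    · rw [h, norm_zero]
      have := an_nonneg (ξ : E)
      positivity
    obtain ⟨b0⟩ := hA0 h
    have hlow : K⁻¹ ≤ an (ξ : E) := norm_lower (Nat.pos_of_ne_zero hm0) hξne (hint b0)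
    have hone : 1 ≤ K * an (ξ : E) := by
      rw [inv_le_iff_one_le_mul₀ hKpos, mul_comm] at hlow
      exact hlow
    have := Fintype.ofFinite B
    have hcB : (Nat.card B : ℝ) ≤ Cc * (C1 * an (ξ : E) ^ 2 + 1) := by
      refine le_trans ?_ (hcard (C1 * an (ξ : E) ^ 2) (by positivity))
      exact Nat.cast_le.mpr (Nat.card_le_card_of_injective g hg)
    have h1 : ‖T.A (ξ * c)‖ ≤ Nat.card B := by
      unfold A
      rw [finsum_eq_sum_of_fintype]
      refine (norm_sum_le_of_le _ (fun b _ => (T.bd_norm_psiI b.1).le)).trans ?_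
      rw [Finset.sum_const, nsmul_eq_mul, mul_one, Finset.card_univ, Nat.card_eq_fintype_card]
    have h5 : C1 * an (ξ : E) ^ 2 + 1 ≤ (C1 + K ^ 2) * an (ξ : E) ^ 2 := by
      have : 1 ≤ (K * an (ξ : E)) ^ 2 := one_le_pow₀ hone
      rw [add_mul]
      rw [mul_pow] at this
      linarith
    calc ‖T.A (ξ * c)‖ ≤ Cc * (C1 * an (ξ : E) ^ 2 + 1) := h1.trans hcB
      _ ≤ Cc * ((C1 + K ^ 2) * an (ξ : E) ^ 2) := by gcongr
      _ = _ := by ring

theorem isW_Af (n : ℕ) (c : Eˣ) (s : E) : IsW (T.Af n c s) := by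
  obtain ⟨M, C, hM, hC, h⟩ := T.exists_A_bd c
  refine ⟨?_, M, C, 2, hM, hC, fun ξ hξ => ?_, fun ξ => ?_⟩
  · by_contra h0
    obtain ⟨u, _, hu⟩ := T.Af_ne h0
    exact u.ne_zero hu
  · obtain ⟨u, hu, rfl⟩ := T.Af_ne hξ
    rw [T.Af_coe n c s u hu] at hξ
    exact (h u (T.bd_A1_LI hu)).2.1 (left_ne_zero_of_mul hξ)
  · by_cases h0 : T.Af n c s ξ = 0
    · rw [h0, norm_zero]
      have := an_nonneg ξ
      positivity
    · obtain ⟨u, hu, rfl⟩ := T.Af_ne h0
      rw [T.Af_coe n c s u hu, norm_mul, norm_ψ, mul_one]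
      exact (h u (T.bd_A1_LI hu)).2.2

theorem tsum_A1 (n : ℕ) (c : Eˣ) (s : E) (F : E → ℂ) :
    ∑' ξ : E, T.Af n c s ξ * F ξ =
      ∑' ξ : T.A1 n, T.A (ξ * c) * T.ψ ((ξ : Eˣ) * s) * F ((ξ : Eˣ) : E) := by
  have hinj : Function.Injective (fun ξ : T.A1 n => (((ξ : T.A1 n) : Eˣ) : E)) := by
    intro a b h
    exact Subtype.ext (Units.ext h)
  rw [← hinj.tsum_eq]
  · apply tsum_congr
    intro ξ
    rw [T.Af_coe n c s ξ ξ.2]
  · intro ξ hξ
    obtain ⟨u, hu, h⟩ := T.Af_ne (left_ne_zero_of_mul hξ)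
    exact ⟨⟨u, hu⟩, h⟩

/-- **The theta form is a Whittaker series.** -/
theorem f_eq (n : ℕ) (p : HF E) (c : Eˣ) (s : E) :
    T.f n p c s = ((nrm T.N (c : E) : ℝ) : ℂ) ^ (-(1 / 2) : ℂ) * wser (T.Af n c s) p := by
  unfold f wser
  rw [T.tsum_A1]

theorem wsf_f (n : ℕ) (c : Eˣ) (s : E) : WSF fun p : HF E => T.f n p c s := by
  have h : WSF fun p : HF E => wser (T.Af n c s) p := ⟨_, T.isW_Af n c s, fun p => rfl⟩
  exact (h.const_mul (((nrm T.N (c : E) : ℝ) : ℂ) ^ (-(1 / 2) : ℂ))).of_eq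
    fun p => T.f_eq n p c s

theorem summable_f (n : ℕ) (p : HF E) (c : Eˣ) (s : E) :
    Summable fun ξ : T.A1 n => T.A (ξ * c) * T.ψ ((ξ : Eˣ) * s) * bw p ((ξ : Eˣ) : E) := by
  have hinj : Function.Injective (fun ξ : T.A1 n => (((ξ : T.A1 n) : Eˣ) : E)) := by
    intro a b h
    exact Subtype.ext (Units.ext h)
  have := ((T.isW_Af n c s).summable p).comp_injective hinj
  refine this.congr fun ξ => ?_
  show T.Af n c s _ * _ = _
  rw [T.Af_coe n c s ξ ξ.2]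

end T4D

end Fermat.Agent.LT.T4
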