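import Fermat.Agent.LT.T4.SInt

set_option autoImplicit false

/-! # Splitting an additive character of a number field at a finite set of primes -/

namespace Fermat.Agent.LT.T4

section

variable {N : ℕ} {K : Type*} [Field K] [NumberField K]

/-- the `𝓞_(N)`-part of `x` -/
noncomputable def lpart (N : ℕ) {K : Type*} [Field K] [NumberField K] (x : K) : K := by
  classical
  exact if h : ∃ y ∈ LI N K, x - y ∈ SI N K then h.choose else 0

theorem lpart_mem (hN : 0 < N) (x : K) : lpart N x ∈ LI N K := by
  classical
  unfold lpart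
  rw [dif_pos (exists_decomp hN x)]
  exact (exists_decomp hN x).choose_spec.1

theorem sub_lpart_mem (hN : 0 < N) (x : K) : x - lpart N x ∈ SI N K := by
  classical
  unfold lpart
  rw [dif_pos (exists_decomp hN x)]
  exact (exists_decomp hN x).choose_spec.2

variable (e : AddChar K ℂ) (he : ∀ x, IsIntegral ℤ x → e x = 1)

omit [NumberField K] in
include he in
theorem char_eq_of_sub {x y : K} (h : IsIntegral ℤ (x - y)) : e x = e y := by
  have : x = (x - y) + y := by ring
  rw [this, AddChar.map_add_eq_mul, he _ h, one_mul]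

/-- the component of `e` away from `N` -/
noncomputable def awayChar (hN : 0 < N) : AddChar K ℂ where
  toFun := fun x => e (lpart N x)
  map_zero_eq_one' := by
    apply he
    apply isIntegral_of_SI_LI (N := N) _ (lpart_mem hN 0)
    have := sub_lpart_mem hN (0 : K)
    rw [zero_sub] at this
    simpa using (SI N K).neg_mem this
  map_add_eq_mul' := by
    intro x y
    rw [← AddChar.map_add_eq_mul]
    apply char_eq_of_sub e he
    apply isIntegral_of_SI_LI (N := N)
    · have : lpart N (x + y) - (lpart N x + lpart N y) =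
        (x - lpart N x) + (y - lpart N y) - (x + y - lpart N (x + y)) := by ring
      rw [this]
      exact (SI N K).sub_mem ((SI N K).add_mem (sub_lpart_mem hN x) (sub_lpart_mem hN y))
        (sub_lpart_mem hN _)
    · exact (LI N K).sub_mem (lpart_mem hN _) ((LI N K).add_mem (lpart_mem hN _) (lpart_mem hN _))

/-- the component of `e` at `N` -/
noncomputable def atChar (hN : 0 < N) : AddChar K ℂ where
  toFun := fun x => e (x - lpart N x)
  map_zero_eq_one' := by
    apply he
    apply isIntegral_of_SI_LI (N := N) (sub_lpart_mem hN 0)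
    rw [zero_sub]
    exact (LI N K).neg_mem (lpart_mem hN 0)
  map_add_eq_mul' := by
    intro x y
    rw [← AddChar.map_add_eq_mul]
    apply char_eq_of_sub e he
    apply isIntegral_of_SI_LI (N := N)
    · exact (SI N K).sub_mem (sub_lpart_mem hN _)
        ((SI N K).add_mem (sub_lpart_mem hN x) (sub_lpart_mem hN y))
    · have : x + y - lpart N (x + y) - (x - lpart N x + (y - lpart N y)) =
        lpart N x + lpart N y - lpart N (x + y) := by ring
      rw [this]
      exact (LI N K).sub_mem ((LI N K).add_mem (lpart_mem hN _) (lpart_mem hN _)) (lpart_mem hN _)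

theorem away_mul_at (hN : 0 < N) (x : K) : awayChar e he hN x * atChar e he hN x = e x := by
  show e (lpart N x) * e (x - lpart N x) = e x
  rw [← AddChar.map_add_eq_mul]
  congr 1
  ring

theorem away_SI (hN : 0 < N) {x : K} (hx : x ∈ SI N K) : awayChar e he hN x = 1 := by
  apply he
  apply isIntegral_of_SI_LI (N := N) _ (lpart_mem hN x)
  have : lpart N x = x - (x - lpart N x) := by ring
  rw [this]
  exact (SI N K).sub_mem hx (sub_lpart_mem hN x)

theorem at_LI (hN : 0 < N) {x : K} (hx : x ∈ LI N K) : atChar e he hN x = 1 := by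
  apply he
  exact isIntegral_of_SI_LI (N := N) (sub_lpart_mem hN x) ((LI N K).sub_mem hx (lpart_mem hN x))

theorem away_LI (hN : 0 < N) {x : K} (hx : x ∈ LI N K) : awayChar e he hN x = e x := by
  rw [← away_mul_at e he hN x, at_LI e he hN hx, mul_one]

theorem at_SI (hN : 0 < N) {x : K} (hx : x ∈ SI N K) : atChar e he hN x = e x := by
  rw [← away_mul_at e he hN x, away_SI e he hN hx, one_mul]

omit [NumberField K] in
theorem pow_mul_mem_LI [NumberField K] (hN : 0 < N) (t : K) : ∃ k : ℕ, (N : K) ^ k * t ∈ LI N K := by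
  obtain ⟨m, hm, hx⟩ := exists_nat_integral t
  obtain ⟨m₁, m₂, k, h1, h2, c, h3⟩ := exists_coprime_part hN m hm
  refine ⟨k, m₁, h2, ?_⟩
  have e' : (N : K) ^ k = m₂ * c := by exact_mod_cast congrArg (fun z : ℕ => (z : K)) h3
  have : (m₁ : K) * ((N : K) ^ k * t) = c * ((m : K) * t) := by
    rw [e', h1]; push_cast; ring
  rw [this]
  exact (isIntegral_natCast' c).mul hx

/-- perfectness of the away part -/
theorem away_perfect (hN : 0 < N) (hdual : ∀ x : K, (∀ y, IsIntegral ℤ y → e (x * y) = 1) →
    x ∈ SI N K) {t : K} (ht : ∀ r ∈ SI N K, awayChar e he hN (r * t) = 1) : t ∈ SI N K := by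
  obtain ⟨k, hk⟩ := pow_mul_mem_LI hN t
  have hN' : (N : K) ≠ 0 := by exact_mod_cast hN.ne'
  have h1 : (N : K) ^ k * t ∈ SI N K := by
    apply hdual
    intro y hy
    have h2 := ht ((N : K) ^ k * y) ((SI N K).mul_mem (SI_of_isIntegral
      ((isIntegral_natCast' N).pow k)) (SI_of_isIntegral hy))
    rw [away_LI] at h2
    · rw [← h2]; congr 1; ring
    · have : (N : K) ^ k * y * t = y * ((N : K) ^ k * t) := by ring
      rw [this]
      exact (LI N K).mul_mem (LI_of_isIntegral hy) hk
  have : t = ((N : K)⁻¹) ^ k * ((N : K) ^ k * t) := by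
    rw [← mul_assoc, ← mul_pow, inv_mul_cancel₀ hN', one_pow, one_mul]
  rw [this]
  exact (SI N K).mul_mem ((SI N K).pow_mem (inv_mem_SI hN) k) h1

end

end Fermat.Agent.LT.T4
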