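import Fermat.Agent.LT.T4.Iface

set_option autoImplicit false

/-!
# Split and inert primes in the quadratic extension `L/E`
-/

namespace Fermat.Agent.LT.T4

open Fermat.Agent.LT.Theta

section ring

variable {N : ℕ} {E L : Type*} [Field E] [Field L] [Algebra E L]

theorem incl_mem_SI {x : E} (h : x ∈ SI N E) : algebraMap E L x ∈ SI N L := by
  obtain ⟨k, hk⟩ := h
  refine ⟨k, ?_⟩
  have := map_isIntegral_int (algebraMap E L) hk
  simpa using this

theorem mem_SI_of_map {x : E} (h : algebraMap E L x ∈ SI N L) : x ∈ SI N E := by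
  obtain ⟨k, hk⟩ := h
  refine ⟨k, ?_⟩
  rw [← isIntegral_algHom_iff (algebraMap E L).toIntAlgHom (algebraMap E L).injective]
  simpa using hk

theorem aut_mem_SI (c : L ≃ₐ[E] L) {x : L} (h : x ∈ SI N L) : c x ∈ SI N L := by
  obtain ⟨k, hk⟩ := h
  refine ⟨k, ?_⟩
  have := map_isIntegral_int c hk
  simpa using this

theorem mem_SI_of_sq {x : L} (h : x ^ 2 ∈ SI N L) : x ∈ SI N L := by
  obtain ⟨k, hk⟩ := h
  refine ⟨k, ?_⟩
  have h1 : IsIntegral ℤ (((N : L) ^ k * x) ^ 2) := by
    have e : ((N : L) ^ k * x) ^ 2 = (N : L) ^ k * ((N : L) ^ k * x ^ 2) := by ring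
    rw [e]
    exact ((isIntegral_natCast' N).pow k).mul hk
  exact h1.of_pow (by norm_num)

/-- the inclusion of the rings of `S`-integers -/
def inc (N : ℕ) (E L : Type*) [Field E] [Field L] [Algebra E L] : SI N E →+* SI N L :=
  ((algebraMap E L).comp (SI N E).subtype).codRestrict (SI N L) fun x => incl_mem_SI x.2

@[simp] theorem inc_coe (x : SI N E) : ((inc N E L x : SI N L) : L) = algebraMap E L x := rfl

theorem inc_injective : Function.Injective (inc N E L) := fun _ _ h =>
  Subtype.ext ((algebraMap E L).injective (congrArg Subtype.val h))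

/-- the conjugation on the ring of `S`-integers -/
def cS (N : ℕ) (q : QD E L) : SI N L →+* SI N L :=
  ((q.c : L →+* L).comp (SI N L).subtype).codRestrict (SI N L) fun x => aut_mem_SI q.c x.2

@[simp] theorem cS_coe (q : QD E L) (x : SI N L) : ((cS N q x : SI N L) : L) = q.c x := rfl

@[simp] theorem cS_cS (q : QD E L) (x : SI N L) : cS N q (cS N q x) = x :=
  Subtype.ext (q.c_c x)

@[simp] theorem cS_inc (q : QD E L) (x : SI N E) : cS N q (inc N E L x) = inc N E L x :=
  Subtype.ext (q.c.commutes x)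

theorem prime_cS (q : QD E L) {x : SI N L} (h : Prime x) : Prime (cS N q x) := by
  have h1 := (MulEquiv.prime_iff ((RingEquiv.ofRingHom (cS N q) (cS N q)
    (RingHom.ext fun x => cS_cS q x) (RingHom.ext fun x => cS_cS q x) :
      SI N L ≃+* SI N L) : SI N L ≃* SI N L) (p := x)).2 h
  exact h1

theorem dvd_cS_iff (q : QD E L) {x y : SI N L} : x ∣ cS N q y ↔ cS N q x ∣ y := by
  constructor
  · intro h
    have := map_dvd (cS N q) h
    rwa [cS_cS] at this
  · intro h
    have := map_dvd (cS N q) h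
    rwa [cS_cS] at this

theorem isUnit_inc_iff {x : SI N E} : IsUnit (inc N E L x) ↔ IsUnit x := by
  constructor
  · intro h
    obtain ⟨y, hy⟩ := h.exists_right_inv
    have hy' : algebraMap E L x * (y : L) = 1 := congrArg Subtype.val hy
    have hx : (x : E) ≠ 0 := by
      intro h0
      rw [h0, map_zero, zero_mul] at hy'
      exact zero_ne_one hy'
    have hy2 : (y : L) = algebraMap E L (x : E)⁻¹ := by
      rw [map_inv₀]
      exact eq_inv_of_mul_eq_one_right hy'
    refine IsUnit.of_mul_eq_one ⟨(x : E)⁻¹, mem_SI_of_map (L := L) (by rw [← hy2]; exact y.2)⟩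
      (Subtype.ext ?_)
    exact mul_inv_cancel₀ hx
  · exact fun h => h.map (inc N E L)

end ring

section norm

variable {N : ℕ} {E L : Type*} [Field E] [NumberField E] [Field L] [NumberField L] [Algebra E L]

/-- the norm on the rings of `S`-integers -/
noncomputable def nS (N : ℕ) (E L : Type*) [Field E] [NumberField E] [Field L] [NumberField L]
    [Algebra E L] : SI N L →* SI N E where
  toFun x := ⟨Algebra.norm E (x : L), norm_mem_SI x.2⟩
  map_one' := Subtype.ext (by simp)
  map_mul' x y := Subtype.ext (by simp)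

@[simp] theorem nS_coe (x : SI N L) : ((nS N E L x : SI N E) : E) = Algebra.norm E (x : L) := rfl

theorem inc_nS (q : QD E L) (x : SI N L) : inc N E L (nS N E L x) = x * cS N q x :=
  Subtype.ext (q.norm_eq x)

theorem nS_inc (q : QD E L) (x : SI N E) : nS N E L (inc N E L x) = x ^ 2 := by
  apply inc_injective (L := L)
  rw [inc_nS q, cS_inc, map_pow]
  ring

/-- the trace on the rings of `S`-integers -/
noncomputable def tS (q : QD E L) (x : SI N L) : SI N E :=
  ⟨Algebra.trace E L (x : L), mem_SI_of_map (L := L) (by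
    rw [q.trace_eq]
    exact (SI N L).add_mem x.2 (aut_mem_SI q.c x.2))⟩

omit [NumberField E] [NumberField L] in
theorem inc_tS (q : QD E L) (x : SI N L) : inc N E L (tS q x) = x + cS N q x :=
  Subtype.ext (q.trace_eq x)

theorem isUnit_of_nS {q : QD E L} {x : SI N L} (h : IsUnit (nS N E L x)) : IsUnit x := by
  have h1 := h.map (inc N E L)
  rw [inc_nS q] at h1
  exact isUnit_of_mul_isUnit_left h1

end norm

namespace T4D

variable {E L : Type*} [Field E] [NumberField E] [Field L] [NumberField L] [Algebra E L]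
  (T : T4D E L)

/-- `δ` as an element of the ring of `S`-integers -/
def δS : SI T.N L := ⟨T.δ, mem_SI_of_sq (by rw [T.δ_sq]; exact incl_mem_SI T.D_mem)⟩

theorem δS_sq : T.δS ^ 2 = inc T.N E L ⟨T.D, T.D_mem⟩ := Subtype.ext T.δ_sq

theorem c_δS : cS T.N T.q T.δS = - T.δS := Subtype.ext T.c_δ

theorem isUnit_D : IsUnit (⟨T.D, T.D_mem⟩ : SI T.N E) :=
  IsUnit.of_mul_eq_one ⟨T.D⁻¹, T.D_inv⟩ (Subtype.ext (mul_inv_cancel₀ T.D_ne))

theorem isUnit_δS : IsUnit T.δS := by
  have h := T.isUnit_D.map (inc T.N E L)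
  rw [← T.δS_sq] at h
  exact (isUnit_pow_iff two_ne_zero).1 h

theorem isUnit_two : IsUnit (2 : SI T.N L) := by
  have h1 : IsUnit (2 : SI T.N E) :=
    IsUnit.of_mul_eq_one ⟨(2 : E)⁻¹, T.two⟩ (Subtype.ext (mul_inv_cancel₀ two_ne_zero))
  have h2 := h1.map (inc T.N E L)
  rwa [map_ofNat] at h2

/-- **a prime which stays prime is inert** -/
theorem psi_of_prime {π : SI T.N E} (hπ : Prime π) (h : Prime (inc T.N E L π)) :
    T.psi (algebraMap E L π) = -1 := by
  apply T.psi_inert π hπ
  rintro ⟨x, hx⟩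
  have h1 := map_dvd (inc T.N E L) hx
  rw [map_sub, map_pow, ← T.δS_sq] at h1
  have h2 : inc T.N E L x ^ 2 - T.δS ^ 2 = (inc T.N E L x - T.δS) * (inc T.N E L x + T.δS) := by
    ring
  rw [h2] at h1
  have key : inc T.N E L π ∣ 2 * T.δS := by
    rcases h.dvd_or_dvd h1 with h3 | h3
    · have h4 := map_dvd (cS T.N T.q) h3
      rw [cS_inc, map_sub, cS_inc, c_δS] at h4
      have h5 := dvd_sub h4 h3
      have e : inc T.N E L x - -T.δS - (inc T.N E L x - T.δS) = 2 * T.δS := by ring
      rwa [e] at h5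
    · have h4 := map_dvd (cS T.N T.q) h3
      rw [cS_inc, map_add, cS_inc, c_δS] at h4
      have h5 := dvd_sub h3 h4
      have e : inc T.N E L x + T.δS - (inc T.N E L x + -T.δS) = 2 * T.δS := by ring
      rwa [e] at h5
  exact h.not_isUnit (isUnit_of_dvd_unit key (T.isUnit_two.mul T.isUnit_δS))

/-- **primes which do not stay prime are split** -/
theorem split_of_not_prime {π : SI T.N E} (hπ : Prime π) (h : ¬ Prime (inc T.N E L π)) :
    ∃ P : SI T.N L, Prime P ∧ Associated (nS T.N E L P) π := by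
  have := T.pidL
  have := T.pidE
  have hne : inc T.N E L π ≠ 0 := by
    rw [Ne, map_eq_zero_iff _ inc_injective]
    exact hπ.ne_zero
  have hnu : ¬ IsUnit (inc T.N E L π) := by
    rw [isUnit_inc_iff]
    exact hπ.not_isUnit
  obtain ⟨P, hP, z, hz⟩ := WfDvdMonoid.exists_irreducible_factor hnu hne
  have hP' : Prime P := hP.prime
  have hz' : ¬ IsUnit z := by
    intro hu
    apply h
    rw [hz]
    exact (associated_mul_unit_left _ _ hu).symm.prime hP'
  refine ⟨P, hP', ?_⟩
  have h1 := congrArg (nS T.N E L) hz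
  rw [nS_inc T.q, map_mul] at h1
  obtain ⟨i, hi, hi'⟩ := (dvd_prime_pow hπ 2).1 ⟨_, h1⟩
  have hi0 : i ≠ 0 := by
    rintro rfl
    rw [pow_zero, associated_one_iff_isUnit] at hi'
    exact hP'.not_isUnit (isUnit_of_nS (q := T.q) hi')
  have hi2 : i ≠ 2 := by
    rintro rfl
    apply hz'
    apply isUnit_of_nS (q := T.q)
    obtain ⟨u, hu⟩ := hi'
    rw [← hu] at h1
    have h0 : nS T.N E L P ≠ 0 := by
      intro h0
      rw [h0, zero_mul] at hu
      exact pow_ne_zero 2 hπ.ne_zero hu.symm
    have h2 := mul_left_cancel₀ h0 h1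
    rw [← h2]
    exact u.isUnit
  have : i = 1 := by omega
  rwa [this, pow_one] at hi'

/-- the primes above a split prime are not associated -/
theorem not_associated {π : SI T.N E} (hπ : Prime π) {P : SI T.N L} (hP : Prime P)
    (hn : Associated (nS T.N E L P) π) : ¬ Associated P (cS T.N T.q P) := by
  have := T.pidL
  have := T.pidE
  intro ha
  have h1 : P ∣ cS T.N T.q P := ha.dvd
  -- both traces are divisible by `P`
  have key : ∀ x : SI T.N L, P ∣ x → π ∣ tS T.q x := by
    intro x hx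
    have h2 : P ∣ cS T.N T.q x := by
      have := map_dvd (cS T.N T.q) hx
      exact h1.trans this
    have h3 : P ∣ inc T.N E L (tS T.q x) := by
      rw [inc_tS]
      exact dvd_add hx h2
    have h4 := map_dvd (nS T.N E L) h3
    rw [nS_inc T.q] at h4
    exact hπ.dvd_of_dvd_pow (hn.symm.dvd.trans h4)
  have k1 := map_dvd (inc T.N E L) (key P dvd_rfl)
  have k2 := map_dvd (inc T.N E L) (key (T.δS * P) (dvd_mul_left _ _))
  rw [inc_tS] at k1 k2
  rw [map_mul, c_δS] at k2
  have k3 : inc T.N E L π ∣ (2 * T.δS) * P := by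
    have e : (2 * T.δS) * P = T.δS * (P + cS T.N T.q P) +
        (T.δS * P + -T.δS * cS T.N T.q P) := by ring
    rw [e]
    exact dvd_add (k1.mul_left _) k2
  have k4 : inc T.N E L π ∣ P :=
    ((T.isUnit_two.mul T.isUnit_δS).dvd_mul_left).1 k3
  have k5 : P * cS T.N T.q P ∣ P * 1 := by
    rw [← inc_nS, mul_one]
    exact (map_dvd (inc T.N E L) hn.dvd).trans k4
  have k6 := (mul_dvd_mul_iff_left hP.ne_zero).1 k5
  exact (prime_cS T.q hP).not_isUnit (isUnit_of_dvd_one k6)

end T4D

end Fermat.Agent.LT.T4
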