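import Fermat.Agent.LT.T4.FFM

set_option autoImplicit false
set_option linter.unusedSectionVars false

/-! # Uniqueness of the mean, dilations by elements of norm one -/

namespace Fermat.Agent.LT.T4

open Fermat.Agent.LT.Theta NumberField Ideal

section decomp

variable {N : ℕ} {L : Type*} [Field L] [NumberField L]

/-- the decomposition of a locally constant function into indicator functions -/
theorem ASch.decomp {a : L} (ha : a ≠ 0) {l : SI N L} (hl : l ≠ 0) {F : L → ℂ}
    (hF : ASch N a (l : L) F) [Fintype (SI N L ⧸ span {l})] (x : L) :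
    F x = ∑ r : SI N L ⧸ span {l}, F (a * (r.out : SI N L)) *
      ind N (a * l) (a * (r.out : SI N L)) x := by
  classical
  have hl' : (l : L) ≠ 0 := coe_ne_zero hl
  by_cases hx : x / a ∈ SI N L
  · set s : SI N L := ⟨x / a, hx⟩ with hs
    rw [Finset.sum_eq_single (Ideal.Quotient.mk (span {l}) s)]
    · obtain ⟨t, ht⟩ := exists_out l s
      set o := (Ideal.Quotient.mk (span {l}) s).out with ho
      have ht' : x / a = (o : L) + l * t := by
        have := congrArg (fun z : SI N L => (z : L)) ht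
        simpa [hs] using this
      have hxe : x = a * o + a * l * t := by
        field_simp at ht'
        linear_combination ht'
      have e1 : F x = F (a * o) := by
        rw [hxe]; exact hF.1 _ _ t.2
      have e2 : ind N (a * l) (a * (o : L)) x = 1 := by
        apply ind_pos
        have : (x - a * o) / (a * l) = t := by
          rw [hxe]; field_simp; ring
        rw [this]; exact t.2
      rw [e1, e2, mul_one]
    · intro r _ hr
      have : ind N (a * l) (a * (r.out : SI N L)) x = 0 := by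
        apply ind_neg
        intro h
        apply hr
        rw [← mk_out l r, eq_comm, mk_eq_mk]
        refine ⟨⟨_, h⟩, ?_⟩
        apply Subtype.ext
        show x / a - (r.out : SI N L) = l * ((x - a * (r.out : SI N L)) / (a * l))
        field_simp
      rw [this, mul_zero]
    · intro h; exact absurd (Finset.mem_univ _) h
  · have e1 : F x = 0 := by
      by_contra h
      exact hx (hF.2 x h)
    rw [e1]
    symm
    apply Finset.sum_eq_zero
    intro r _
    have : ind N (a * l) (a * (r.out : SI N L)) x = 0 := by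
      apply ind_neg
      intro h
      apply hx
      have : x / a = (x - a * (r.out : SI N L)) / (a * l) * l + (r.out : SI N L) := by
        field_simp; ring
      rw [this]
      exact (SI N L).add_mem ((SI N L).mul_mem h l.2) (r.out : SI N L).2
    rw [this, mul_zero]

theorem SI_one {x : L} : x ∈ SI 1 L ↔ IsIntegral ℤ x := by
  constructor
  · rintro ⟨k, hk⟩
    simpa using hk
  · intro h
    exact SI_of_isIntegral h

theorem BSch_const (c : ℂ) : BSch 1 0 (fun _ : L => c) :=
  ⟨fun _ _ _ => rfl, fun x _ => by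
    refine ⟨0 + ?_, ?_, ?_⟩
    · exact (exists_nat_integral (((1 : ℕ) : L) ^ 0 * x)).choose
    · simp
    · rw [zero_add]
      exact (exists_nat_integral (((1 : ℕ) : L) ^ 0 * x)).choose_spec.2⟩

/-- a function periodic modulo `n 𝓞` and supported on `n⁻¹ 𝓞` -/
theorem SBn.toASch {n : ℕ} (hn : 0 < n) {Ψ : L → ℂ} (h : SBn n Ψ) :
    ASch 1 ((n : L)⁻¹) (((n : SI 1 L) ^ 2 : SI 1 L) : L) Ψ := by
  have hn' : (n : L) ≠ 0 := by exact_mod_cast hn.ne'
  constructor
  · intro x y hy
    rw [SI_one] at hy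
    have := h.2 x y hy
    rw [← this]
    congr 2
    push_cast
    field_simp
  · intro x hx
    rw [SI_one, div_inv_eq_mul, mul_comm]
    exact h.1 x hx

/-- indicator of the integers -/
noncomputable abbrev i0 (L : Type*) [Field L] [NumberField L] : L → ℂ := ind 1 (1 : L) 0

theorem i0_SBn {n : ℕ} (hn : 0 < n) : SBn n (i0 L) := by
  constructor
  · intro x hx
    have : (x - 0) / 1 ∈ SI 1 L := by
      by_contra h
      exact hx (ind_neg h)
    rw [sub_zero, div_one, SI_one] at this
    exact (isIntegral_natCast' n).mul this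
  · intro x y hy
    apply ind_congr
    rw [sub_zero, sub_zero, div_one, div_one, SI_one, SI_one]
    have hny := (isIntegral_natCast' (K := L) n).mul hy
    exact ⟨fun h => by have := h.sub hny; rwa [add_sub_cancel_right] at this, fun h => h.add hny⟩

theorem mean_i0 : mean (i0 L) = 1 := by
  rw [mean_eq one_pos (i0_SBn one_pos)]
  unfold meanN boxSum
  rw [one_pow]
  have : ∀ r : IB L → Fin 1, i0 L (el0 (fun i => ((r i : ℕ) : ℤ)) / ((1 : ℕ) : L)) = 1 := by
    intro r
    apply ind_pos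
    rw [sub_zero, div_one, SI_one, Nat.cast_one, div_one]
    exact isIntegral_el0 _
  rw [Finset.sum_congr rfl fun r _ => this r]
  simp

/-- **Uniqueness of the mean.** -/
theorem mean_comp (A : L ≃+ L) (hA : ∀ Ψ : L → ℂ, SB Ψ → SB (fun x => Ψ (A x))) {Ψ : L → ℂ}
    (h : SB Ψ) : mean (fun x => Ψ (A x)) = mean (fun x => i0 L (A x)) * mean Ψ := by
  obtain ⟨n, hn, hΨ⟩ := h
  have hn' : (n : L) ≠ 0 := by exact_mod_cast hn.ne'
  have hnn : (n : SI 1 L) ≠ 0 := by
    intro h
    have := congrArg (fun z : SI 1 L => (z : L)) h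
    exact hn' (by simpa using this)
  have hl : ((n : SI 1 L) ^ 2 : SI 1 L) ≠ 0 := pow_ne_zero 2 hnn
  have hfin := finite_quot one_pos _ hl
  have := Fintype.ofFinite (SI 1 L ⧸ span {((n : SI 1 L) ^ 2 : SI 1 L)})
  set l : SI 1 L := (n : SI 1 L) ^ 2 with hlDef
  set a : L := (n : L)⁻¹ with haDef
  have ha : a ≠ 0 := inv_ne_zero hn'
  have hal : a * (l : L) = n := by rw [haDef, hlDef]; push_cast; field_simp
  have hB : BSch 1 0 (fun _ : L => (1 : ℂ)) := BSch_const 1
  have hl' : (l : L) ≠ 0 := coe_ne_zero hl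
  -- general formula
  have key : ∀ Θ : L → ℂ, SBn n Θ → mean (fun x => Θ (A x)) =
      mean (fun x => ind 1 (a * l) 0 (A x)) * qs l (fun r : SI 1 L => Θ (a * r)) := by
    intro Θ hΘ
    have hD := (SBn.toASch hn hΘ).decomp ha hl
    have h1 : (fun x => Θ (A x)) = fun x => ∑ r : SI 1 L ⧸ span {l},
        Θ (a * (r.out : SI 1 L)) * ind 1 (a * l) (a * (r.out : SI 1 L)) (A x) :=
      funext fun x => hD (A x)
    have hsb : ∀ c : L, SB (fun x => ind 1 (a * l) c x) := by
      intro c
      have h2 := SB_mul (N := 1) one_pos (mul_ne_zero ha hl') one_ne_zero hB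
        (ind_ASch (l := 1) (c := 0) (mul_ne_zero ha hl') (SI 1 L).one_mem (by
          rw [zero_div]; exact (SI 1 L).zero_mem))
      have h3 := h2.comp_add (-c)
      refine (congrArg SB ?_).mp h3
      funext x
      rw [one_mul]
      apply ind_congr
      rw [sub_zero, ← sub_eq_add_neg]
    have hsb' : ∀ c : L, SB (fun x => ind 1 (a * l) c (A x)) := fun c => hA _ (hsb c)
    rw [h1, mean_sum _ fun r _ => (hsb' _).const_mul _, qs_eq_univ, Finset.mul_sum]
    apply Finset.sum_congr rfl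
    intro r _
    rw [mean_const_mul (hsb' _), mul_comm]
    congr 1
    -- translation
    rw [← mean_comp_add (hsb' 0) (-(A.symm (a * (r.out : SI 1 L))))]
    congr 1
    funext x
    apply ind_congr
    rw [map_add, map_neg, A.apply_symm_apply, sub_zero, sub_eq_add_neg]
  have hsbI : SB (fun x : L => i0 L (A x)) := hA _ ⟨1, one_pos, i0_SBn one_pos⟩
  have k1 := key Ψ hΨ
  have k2 := key (i0 L) (i0_SBn hn)
  have k3 : mean Ψ = mean (fun x => ind 1 (a * l) 0 x) * qs l (fun r : SI 1 L => Ψ (a * r)) := by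
    have h2 := mean_mul (N := 1) one_pos hB ha hl (SBn.toASch hn hΨ)
    simp only [one_mul] at h2
    rw [h2, mB]
    simp only [one_mul]
  have k4 : (1 : ℂ) = mean (fun x : L => ind 1 (a * l) 0 x) *
      qs l (fun r : SI 1 L => i0 L (a * r)) := by
    have h2 := mean_mul (N := 1) one_pos hB ha hl (SBn.toASch hn (i0_SBn hn))
    simp only [one_mul] at h2
    rw [← mean_i0 (L := L), h2, mB]
    simp only [one_mul]
  rw [k1, k2, k3]
  linear_combination (mean (fun x => ind 1 (a * l) 0 (A x)) *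
    qs l (fun r : SI 1 L => Ψ (a * r))) * k4

end decomp

section dil

variable {L : Type*} [Field L] [NumberField L]

/-- multiplication by a unit -/
def mulE (u : Lˣ) : L ≃+ L where
  toFun x := u * x
  invFun x := ((u⁻¹ : Lˣ) : L) * x
  left_inv x := by
    show ((u⁻¹ : Lˣ) : L) * (u * x) = x
    rw [← mul_assoc, Units.inv_mul, one_mul]
  right_inv x := by
    show (u : L) * (((u⁻¹ : Lˣ) : L) * x) = x
    rw [← mul_assoc, Units.mul_inv, one_mul]
  map_add' x y := mul_add _ _ _

@[simp] theorem mulE_apply (u : Lˣ) (x : L) : mulE u x = u * x := rfl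

theorem SB_mulE (u : Lˣ) {Ψ : L → ℂ} (h : SB Ψ) : SB (fun x => Ψ (mulE u x)) := by
  obtain ⟨n, hn, h⟩ := h
  obtain ⟨m, hm, hmu⟩ := exists_nat_integral ((u⁻¹ : Lˣ) : L)
  obtain ⟨m', hm', hmu'⟩ := exists_nat_integral (u : L)
  refine ⟨m * m' * n, by positivity, fun x hx => ?_, fun x y hy => ?_⟩
  · have h1 := h.1 _ hx
    have e : ((m * m' * n : ℕ) : L) * x = m' * ((m * ((u⁻¹ : Lˣ) : L)) * ((n : L) * mulE u x)) := by
      rw [mulE_apply, Units.val_inv_eq_inv_val]
      have := u.ne_zero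
      push_cast
      field_simp
    rw [e]
    exact (isIntegral_natCast' m').mul (hmu.mul h1)
  · have e : mulE u (x + ((m * m' * n : ℕ) : L) * y) = mulE u x + (n : L) * (m * ((m' * u) * y)) := by
      rw [mulE_apply, mulE_apply]
      push_cast
      ring
    show Ψ (mulE u _) = Ψ (mulE u x)
    rw [e]
    exact h.2 _ _ ((isIntegral_natCast' m).mul (hmu'.mul hy))

theorem SB_i0 : SB (i0 L) := ⟨1, one_pos, i0_SBn one_pos⟩

/-- the modulus -/
noncomputable def lam (u : Lˣ) : ℂ := mean (fun x => i0 L (mulE u x))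

theorem mean_mulE (u : Lˣ) {Ψ : L → ℂ} (h : SB Ψ) :
    mean (fun x => Ψ (mulE u x)) = lam u * mean Ψ :=
  mean_comp (mulE u) (fun _ h => SB_mulE u h) h

theorem lam_one : lam (1 : Lˣ) = 1 := by
  unfold lam
  have : (fun x => i0 L (mulE 1 x)) = i0 L := by
    funext x; rw [mulE_apply, Units.val_one, one_mul]
  rw [this, mean_i0]

theorem lam_mul (u v : Lˣ) : lam (u * v) = lam u * lam v := by
  have h := mean_mulE v (SB_mulE u SB_i0)
  have e : (fun x => i0 L (mulE u (mulE v x))) = fun x => i0 L (mulE (u * v) x) := by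
    funext x
    rw [mulE_apply, mulE_apply, mulE_apply, Units.val_mul, mul_assoc]
  rw [e] at h
  unfold lam at h ⊢
  rw [h, mul_comm]

theorem lam_nonneg (u : Lˣ) : ∃ r : ℝ, 0 ≤ r ∧ lam u = r := by
  obtain ⟨n, hn, h⟩ := SB_mulE u (SB_i0 (L := L))
  unfold lam
  rw [mean_eq hn h]
  unfold meanN boxSum
  have h1 : ∀ x : L, ∃ r : ℝ, 0 ≤ r ∧ i0 L (mulE u x) = r := by
    intro x
    by_cases hx : (mulE u x - 0) / 1 ∈ SI 1 L
    · exact ⟨1, zero_le_one, by rw [i0, ind_pos hx]; norm_num⟩
    · exact ⟨0, le_refl _, by rw [i0, ind_neg hx]; norm_num⟩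
  choose r hr0 hr using h1
  refine ⟨((n : ℝ) ^ Module.finrank ℚ L)⁻¹ * ∑ k : IB L → Fin (n ^ 2),
    r (el0 (fun i => ((k i : ℕ) : ℤ)) / n), ?_, ?_⟩
  · apply mul_nonneg (by positivity)
    exact Finset.sum_nonneg fun k _ => hr0 _
  · push_cast
    congr 1
    apply Finset.sum_congr rfl
    intro k _
    exact hr _

/-- ring automorphisms preserve the mean -/
theorem mean_comp_aut (c : L ≃+* L) {Ψ : L → ℂ} (h : SB Ψ) :
    mean (fun x => Ψ (c x)) = mean Ψ := by
  have hint : ∀ x : L, IsIntegral ℤ (c x) ↔ IsIntegral ℤ x := by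
    intro x
    constructor
    · intro h
      have := h.map ((c.symm : L →+* L).toIntAlgHom)
      simpa using this
    · intro h
      exact h.map ((c : L →+* L).toIntAlgHom)
  have hSB : ∀ Ψ : L → ℂ, SB Ψ → SB (fun x => Ψ (c.toAddEquiv x)) := by
    rintro Ψ ⟨n, hn, h⟩
    refine ⟨n, hn, fun x hx => ?_, fun x y hy => ?_⟩
    · rw [← hint, map_mul, map_natCast]
      exact h.1 _ hx
    · show Ψ (c _) = Ψ (c x)
      rw [map_add, map_mul, map_natCast]
      exact h.2 _ _ ((hint y).mpr hy)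
  have h1 := mean_comp c.toAddEquiv hSB h
  have h2 : (fun x => i0 L (c.toAddEquiv x)) = i0 L := by
    funext x
    apply ind_congr
    rw [sub_zero, sub_zero, div_one, div_one, SI_one, SI_one]
    exact hint x
  rw [h2, mean_i0, one_mul] at h1
  exact h1

theorem lam_aut (c : L ≃+* L) (u : Lˣ) : lam (Units.map (c : L →* L) u) = lam u := by
  have h := mean_comp_aut c (SB_mulE (Units.map (c : L →* L) u) (SB_i0 (L := L)))
  have e : (fun x => i0 L (mulE (Units.map (c : L →* L) u) (c x))) =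
      fun x => i0 L (c (mulE u x)) := by
    funext x
    rw [mulE_apply, mulE_apply, map_mul]; rfl
  rw [e] at h
  have h2 := mean_mulE u (Ψ := fun x => i0 L (c x)) ?_
  · rw [h2] at h
    rw [mean_comp_aut c SB_i0, mean_i0, mul_one] at h
    exact h.symm
  · have hint : ∀ x : L, IsIntegral ℤ (c x) ↔ IsIntegral ℤ x := by
      intro x
      constructor
      · intro h
        have := h.map ((c.symm : L →+* L).toIntAlgHom)
        simpa using this
      · intro h
        exact h.map ((c : L →+* L).toIntAlgHom)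
    have : (fun x => i0 L (c x)) = i0 L := by
      funext x
      apply ind_congr
      rw [sub_zero, sub_zero, div_one, div_one, SI_one, SI_one]
      exact hint x
    rw [this]
    exact SB_i0

end dil

namespace T4D

variable {E L : Type*} [Field E] [NumberField E] [Field L] [NumberField L] [Algebra E L]
  (T : T4D E L)

local notation "tr" => Algebra.trace E L
local notation "nm" => Algebra.norm E (S := L)

theorem c_of_norm_one {u : Lˣ} (hu : nmU E L u = 1) : T.q.c (u : L) = ((u⁻¹ : Lˣ) : L) := by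
  have h1 := T.nm_eq (u : L)
  have h2 : nm (u : L) = 1 := congrArg Units.val hu
  rw [h2, map_one] at h1
  rw [Units.val_inv_eq_inv_val]
  exact eq_inv_of_mul_eq_one_right h1.symm

include T in
theorem lam_norm_one {u : Lˣ} (hu : nmU E L u = 1) : lam u = 1 := by
  have h1 := lam_aut (T.q.c.toRingEquiv) u
  have h2 : Units.map ((T.q.c.toRingEquiv : L ≃+* L) : L →* L) u = u⁻¹ := by
    apply Units.ext
    exact T.c_of_norm_one hu
  rw [h2] at h1
  have h3 := lam_mul u u⁻¹
  rw [mul_inv_cancel, lam_one, h1] at h3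
  obtain ⟨r, hr, he⟩ := lam_nonneg u
  rw [he] at h3 ⊢
  have h4 : (1 : ℝ) = r * r := by exact_mod_cast h3
  have h5 : r = 1 := by nlinarith
  rw [h5]; norm_num

/-- indicator of `𝓞_(N)` -/
noncomputable def iL (x : L) : ℂ := by
  classical
  exact if x ∈ LI T.N L then 1 else 0

theorem iL_BSch : BSch T.N 0 T.iL := by
  classical
  constructor
  · intro x y hy
    unfold iL
    have : x + (T.N : L) ^ 0 * y ∈ LI T.N L ↔ x ∈ LI T.N L := by
      rw [pow_zero, one_mul]
      exact ⟨fun h => by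
        have := (LI T.N L).sub_mem h hy
        rwa [add_sub_cancel_right] at this, fun h => (LI T.N L).add_mem h hy⟩
    by_cases h : x ∈ LI T.N L
    · rw [if_pos h, if_pos (this.mpr h)]
    · rw [if_neg h, if_neg (fun h' => h (this.mp h'))]
  · intro x hx
    unfold iL at hx
    rw [pow_zero, one_mul]
    by_contra h
    rw [if_neg h] at hx
    exact hx rfl

theorem mB_iL : mB T.N T.iL 1 = 1 := by
  classical
  unfold mB
  rw [← mean_i0 (L := L)]
  congr 1
  funext x
  unfold iL
  by_cases hx : IsIntegral ℤ x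
  · rw [if_pos (LI_of_isIntegral hx), one_mul, ind_pos, i0, ind_pos]
    · rw [sub_zero, div_one, SI_one]; exact hx
    · rw [sub_zero, div_one]; exact SI_of_isIntegral hx
  · have h0 : i0 L x = 0 := by
      apply ind_neg
      rw [sub_zero, div_one, SI_one]; exact hx
    rw [h0]
    by_cases h1 : x ∈ LI T.N L
    · rw [if_pos h1, one_mul]
      apply ind_neg
      rw [sub_zero, div_one]
      exact fun h2 => hx (isIntegral_of_SI_LI h2 h1)
    · rw [if_neg h1, zero_mul]

theorem nrm_c {x : L} (hx : x ≠ 0) : nrm T.N (T.q.c x) = nrm T.N x := by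
  have hcx : T.q.c x ≠ 0 := by rw [Ne, map_eq_zero_iff _ T.q.c.injective]; exact hx
  have h1 := mB_inv T.hN T.iL_BSch hx
  have h2 := mB_inv T.hN T.iL_BSch hcx
  rw [T.mB_iL, mul_one] at h1 h2
  have h3 : mB T.N T.iL (T.q.c x)⁻¹ = mB T.N T.iL x⁻¹ := by
    have hsb : SB (fun y : L => T.iL y * ind T.N ((T.q.c x)⁻¹) 0 y) :=
      SB_mul (l := 1) T.hN (inv_ne_zero hcx) one_ne_zero T.iL_BSch
        (ind_ASch (inv_ne_zero hcx) (SI T.N L).one_mem (by
          rw [zero_div]; exact (SI T.N L).zero_mem))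
    have := mean_comp_aut (T.q.c.toRingEquiv) hsb
    unfold mB
    rw [← this]
    congr 1
    funext y
    have e1 : T.iL (T.q.c.toRingEquiv y) = T.iL y := by
      classical
      unfold iL
      have : T.q.c.toRingEquiv y ∈ LI T.N L ↔ y ∈ LI T.N L := by
        constructor
        · intro h
          have h' := T.c_mem_LI h
          have : T.q.c (T.q.c.toRingEquiv y) = y := T.q.c_c y
          rwa [this] at h'
        · intro h; exact T.c_mem_LI h
      by_cases h : y ∈ LI T.N L
      · rw [if_pos h, if_pos (this.mpr h)]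
      · rw [if_neg h, if_neg (fun h' => h (this.mp h'))]
    have e2 : ind T.N ((T.q.c x)⁻¹) 0 (T.q.c.toRingEquiv y) = ind T.N x⁻¹ 0 y := by
      apply ind_congr
      rw [sub_zero, sub_zero, div_inv_eq_mul, div_inv_eq_mul]
      have : T.q.c.toRingEquiv y * T.q.c x = T.q.c (y * x) := (map_mul T.q.c y x).symm
      rw [this]
      constructor
      · intro h
        have h' := T.c_mem_SI h
        rwa [T.q.c_c] at h'
      · intro h; exact T.c_mem_SI h
    rw [e1, e2]
  rw [h3, h1] at h2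
  exact_mod_cast h2.symm

theorem nrm_norm_one {u : Lˣ} (hu : nmU E L u = 1) : nrm T.N (u : L) = 1 := by
  have h1 := T.nrm_c u.ne_zero
  rw [T.c_of_norm_one hu, Units.val_inv_eq_inv_val, nrm_inv T.hN u.ne_zero] at h1
  have h2 := nrm_pos T.hN u.ne_zero
  have h3 : nrm T.N (u : L) * nrm T.N (u : L) = 1 := by
    nth_rewrite 1 [← h1]
    exact inv_mul_cancel₀ h2.ne'
  nlinarith

/-- the Fourier transform at `N` commutes with dilations by elements of norm one -/
theorem ftB_dil {k : ℕ} {Φ : L → ℂ} (hΦ : BSch T.N k Φ) {u : Lˣ} (hu : nmU E L u = 1) (η : L) :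
    T.ftB (fun x => Φ (((u⁻¹ : Lˣ) : L) * x)) η = T.ftB Φ (((u⁻¹ : Lˣ) : L) * η) := by
  have hui : ((u⁻¹ : Lˣ) : L) ≠ 0 := Units.ne_zero _
  obtain ⟨k', hk'⟩ := T.tw_BSch hΦ (((u⁻¹ : Lˣ) : L) * η)
  have hsb : SB (fun x : L => T.tw Φ (((u⁻¹ : Lˣ) : L) * η) x * ind T.N ((u : L)⁻¹) 0 x) :=
    SB_mul (l := 1) T.hN (inv_ne_zero u.ne_zero) one_ne_zero hk'
      (ind_ASch (inv_ne_zero u.ne_zero) (SI T.N L).one_mem (by
        rw [zero_div]; exact (SI T.N L).zero_mem))
  have h1 := mean_mulE u⁻¹ hsb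
  have hu' : nmU E L u⁻¹ = 1 := by rw [map_inv, hu, inv_one]
  rw [T.lam_norm_one hu', one_mul] at h1
  have h2 := mB_inv T.hN hk' u.ne_zero
  rw [T.nrm_norm_one hu, Complex.ofReal_one, one_mul] at h2
  unfold ftB
  rw [← h2]
  unfold mB
  rw [← h1]
  congr 1
  funext x
  rw [mulE_apply]
  have e1 : ind T.N ((u : L)⁻¹) 0 (((u⁻¹ : Lˣ) : L) * x) = ind T.N 1 0 x := by
    apply ind_congr
    rw [sub_zero, sub_zero, div_inv_eq_mul, div_one]
    have : ((u⁻¹ : Lˣ) : L) * x * u = x := by
      rw [mul_comm (((u⁻¹ : Lˣ) : L)) x, mul_assoc, Units.inv_mul, mul_one]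
    rw [this]
  rw [e1]
  congr 1
  unfold tw
  congr 3
  have h3 : T.q.c (((u⁻¹ : Lˣ) : L) * η) = (u : L) * T.q.c η := by
    rw [map_mul, T.c_of_norm_one hu', inv_inv]
  rw [h3]
  have : ((u⁻¹ : Lˣ) : L) * x * ((u : L) * T.q.c η) = x * T.q.c η := by
    have : ((u⁻¹ : Lˣ) : L) * u = 1 := Units.inv_mul u
    linear_combination (x * T.q.c η) * this
  rw [this]

theorem ftB_const_mul {k : ℕ} {Φ : L → ℂ} (hΦ : BSch T.N k Φ) (a : ℂ) (η : L) :
    T.ftB (fun x => a * Φ x) η = a * T.ftB Φ η := by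
  obtain ⟨k', hk'⟩ := T.tw_BSch hΦ η
  have hsb : SB (fun x : L => T.tw Φ η x * ind T.N (1 : L) 0 x) :=
    SB_mul (l := 1) T.hN one_ne_zero one_ne_zero hk'
      (ind_ASch one_ne_zero (SI T.N L).one_mem (by rw [zero_div]; exact (SI T.N L).zero_mem))
  unfold ftB mB
  rw [← mean_const_mul hsb]
  congr 1
  funext x
  unfold tw
  ring

theorem ftB_add {k : ℕ} {Φ Φ' : L → ℂ} (hΦ : BSch T.N k Φ) (hΦ' : BSch T.N k Φ') (η : L) :
    T.ftB (fun x => Φ x + Φ' x) η = T.ftB Φ η + T.ftB Φ' η := by
  obtain ⟨k₁, hk₁⟩ := T.tw_BSch hΦ η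
  obtain ⟨k₂, hk₂⟩ := T.tw_BSch hΦ' η
  have hsb : ∀ {Ψ : L → ℂ} {k : ℕ}, BSch T.N k Ψ → SB (fun x : L => Ψ x * ind T.N (1 : L) 0 x) :=
    fun hk => SB_mul (l := 1) T.hN one_ne_zero one_ne_zero hk
      (ind_ASch one_ne_zero (SI T.N L).one_mem (by rw [zero_div]; exact (SI T.N L).zero_mem))
  unfold ftB mB
  rw [← mean_add (hsb hk₁) (hsb hk₂)]
  congr 1
  funext x
  unfold tw
  ring

/-- the Fourier transform preserves equivariance -/
theorem ftB_Eqv {k : ℕ} {Φ : L → ℂ} (hΦ : BSch T.N k Φ) (hE : T.Eqv Φ) : T.Eqv (T.ftB Φ) := by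
  intro u hu x
  have hu' : nmU E L u⁻¹ = 1 := by rw [map_inv, (T.mem_H.mp hu).1, inv_one]
  have h1 := T.ftB_dil hΦ hu' x
  simp only [inv_inv] at h1
  rw [← h1]
  have : (fun y => Φ ((u : L) * y)) = fun y => T.psi (u : L) * Φ y := by
    funext y; exact hE u hu y
  rw [this, T.ftB_const_mul hΦ]

end T4D

end Fermat.Agent.LT.T4
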