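import Fermat.Agent.LT.T4.OmI
import Fermat.Agent.LT.Ty.Kir

set_option autoImplicit false
set_option linter.unusedSectionVars false

/-!
# From the transformation laws of the theta form to its type at the bad places
-/

namespace Fermat.Agent.LT.T4

open Matrix Filter NumberField
open Fermat.Agent.LT.Glob
open Fermat.Agent.LT.Glob.LocFam
open Fermat.Agent.LT.Ty
open scoped MatrixGroups

universe w u i

variable {F : Type u} [Field F] [NumberField F] {ι : Type i} {L : LocFam.{w} F ι} {B : Finset ι}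
  {U : L.Level}

/-- scalars act trivially -/
theorem sc_smul_pt (z : Fˣ) (x : HF F × OmB U B) : sc z • x = x := by
  obtain ⟨p, ω⟩ := x
  have h1 : sc z • p = p := Sp.scalar_smul_HF z p
  have h2 : sc z • ω = ω := by
    apply OmB.ext
    intro v
    rw [OmB.smul_apply]
    have : L.emb v.1 (sc z) = 1 := by
      rw [LocFam.emb, MonoidHom.comp_apply, sc, ProjGenLinGroup.mk_scalar, map_one]
    rw [this, one_smul]
  exact Prod.ext h1 h2

/-- lower unipotent matrices -/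
def nLow (c : F) : GL (Fin 2) F where
  val := !![1, 0; c, 1]
  inv := !![1, 0; -c, 1]
  val_inv := by
    ext i j
    fin_cases i <;> fin_cases j <;> simp [Matrix.mul_apply, Fin.sum_univ_two]
  inv_val := by
    ext i j
    fin_cases i <;> fin_cases j <;> simp [Matrix.mul_apply, Fin.sum_univ_two]

theorem nLow_coe (c : F) : ((nLow c : GL (Fin 2) F) : Matrix (Fin 2) (Fin 2) F) =
    !![1, 0; c, 1] := rfl

theorem low_decomp (a : Fˣ) {g : GL (Fin 2) F} (h : g 1 1 ≠ 0) (D : Fˣ)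
    (hD : (D : F) = g 0 0 / g 1 1 - g 0 1 / g 1 1 * (g 1 0 / g 1 1)) :
    Sp.aMat a * g = sc (Units.mk0 _ h) * (nMat ((a : F) * (g 0 1 / g 1 1)) * (Sp.aMat D *
      (nLow (((a⁻¹ : Fˣ) : F) * (g 1 0 / g 1 1)) * Sp.aMat a))) := by
  apply Units.ext
  rw [Units.val_mul, Units.val_mul, Units.val_mul, Units.val_mul, Units.val_mul, sc_coe,
    Sp.aMat_coe, nMat_coe, Sp.aMat_coe, nLow_coe]
  have ha : (a : F) ≠ 0 := a.ne_zero
  rw [hD]
  ext i j
  fin_cases i <;> fin_cases j <;>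
    simp [Matrix.mul_apply, Fin.sum_univ_two] <;> field_simp <;> ring

variable [IsTotallyComplex F] (P : Par F)

theorem Adic.rad {P : Par F} (hA : Adic L B P.N) {v : ι} (hv : v ∈ B) : P.Rad L v := by
  rintro y ⟨d, hd, rfl⟩
  rw [pow_one]
  exact hA.deep v hv d hd

theorem loc_inv_pow_mul {P : Par F} (v : ι) (m : ℕ) (x : L.R v) :
    L.loc v ((((P.N : ℕ) : F) ^ m)⁻¹) * ((P.N : L.R v) ^ m * x) = x := by
  have h1 : L.loc v ((((P.N : ℕ) : F) ^ m)⁻¹) * (P.N : L.R v) ^ m = 1 := by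
    rw [← map_natCast (L.loc v) P.N, ← map_pow, ← map_mul,
      inv_mul_cancel₀ (pow_ne_zero _ P.N_ne), map_one]
  rw [← mul_assoc, h1, one_mul]

theorem exists_LI_of_NP {P : Par F} (hA : Adic L B P.N) (m : ℕ) {x : F}
    (hx : ∀ v ∈ B, L.loc v x ∈ P.NP L v m) : ∃ y ∈ LI P.N F, x = (P.N : F) ^ m * y := by
  refine ⟨((P.N : F) ^ m)⁻¹ * x, ?_, ?_⟩
  · rw [hA.mem_LI_iff]
    intro v hv
    obtain ⟨d, hd, e⟩ := hx v hv
    rw [map_mul, e, loc_inv_pow_mul]
    exact hd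
  · rw [← mul_assoc, mul_inv_cancel₀ (pow_ne_zero _ P.N_ne), one_mul]

/-- the local consequences of `g ∈ J v` -/
theorem local_entries {P : Par F} (hA : Adic L B P.N) (hj : P.j ≠ 0) {g : GL (Fin 2) F} {v : ι}
    (hv : v ∈ B) (hg : L.emb v g ∈ P.J L v) (h0 : g 1 1 ≠ 0) :
    L.loc v (g 0 0 / g 1 1) - 1 ∈ P.NP L v (2 * P.j) ∧ L.loc v (g 0 1 / g 1 1) ∈ P.ND L v P.j ∧
      L.loc v (g 1 0 / g 1 1) ∈ P.NP L v (P.j + P.δ) ∧
      P.psi L v (L.emb v g) = Fou.lchar L v (L.loc v (P.a0 : F) * L.loc v (g 0 1 / g 1 1)) := by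
  obtain ⟨h, hh, e⟩ := hg
  obtain ⟨u, hu⟩ := Matrix.ProjGenLinGroup.mk_eq_mk_iff.mp (e : _ =
    ProjGenLinGroup.mk (GeneralLinearGroup.map (L.loc v) g))
  change h * sc u = GeneralLinearGroup.map (L.loc v) g at hu
  have hent : ∀ i j, L.loc v (g i j) = (u : L.R v) * h i j := by
    intro i j
    have : (GeneralLinearGroup.map (L.loc v) g) i j = (h * sc u : GL (Fin 2) (L.R v)) i j := by
      rw [hu]
    rw [← sc_comm, sc_mul_apply] at this
    exact this
  have hR := hA.rad hv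
  obtain ⟨g1, g2, g3, g4⟩ := hh.1
  obtain ⟨z, hz, hz'⟩ := hR (h 1 1 - 1) (Par.NP_mono (by omega) g2)
  rw [add_sub_cancel] at hz'
  have hz1 : z - 1 ∈ P.NP L v (2 * P.j) := by
    have : z - 1 = -((h 1 1 - 1) * z) := by linear_combination hz'
    rw [this]
    exact neg_mem (Par.NP_mul g2 hz)
  have hq : ∀ i j, L.loc v (g i j / g 1 1) = h i j * z := by
    intro i j
    have e1 : L.loc v (g i j / g 1 1) * L.loc v (g 1 1) = L.loc v (g i j) := by
      rw [← map_mul, div_mul_cancel₀ _ h0]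
    rw [hent, hent i j] at e1
    have e2 : L.loc v (g i j / g 1 1) * h 1 1 = h i j := by
      have h3 : ((u⁻¹ : (L.R v)ˣ) : L.R v) * (L.loc v (g i j / g 1 1) * ((u : L.R v) * h 1 1)) =
          ((u⁻¹ : (L.R v)ˣ) : L.R v) * ((u : L.R v) * h i j) := by rw [e1]
      have h4 : ((u⁻¹ : (L.R v)ˣ) : L.R v) * (u : L.R v) = 1 := Units.inv_mul u
      linear_combination h3 + (h i j - L.loc v (g i j / g 1 1) * h 1 1) * h4
    linear_combination z * e2 - L.loc v (g i j / g 1 1) * hz'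
  refine ⟨?_, ?_, ?_, ?_⟩
  · rw [hq]
    have : h 0 0 * z - 1 = (h 0 0 - 1) * z + (z - 1) := by ring
    rw [this]
    exact add_mem (Par.NP_mul g1 hz) hz1
  · rw [hq]
    exact Par.ND_mul g3 hz
  · rw [hq]
    exact Par.NP_mul g4 hz
  · rw [hq, ← e]
    rw [Par.psi_mk hh, Par.psiG]
    have : L.loc v (P.a0 : F) * (h 0 1 * z) = L.loc v (P.a0 : F) * h 0 1 +
        L.loc v (P.a0 : F) * (h 0 1 * (z - 1)) := by ring
    rw [this, Fou.lchar_add, Par.lchar_a0_of_ND (x := h 0 1 * (z - 1)), mul_one]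
    have := Par.ND_mul_NP g3 hz1
    rwa [show P.j + 2 * P.j = 3 * P.j by ring] at this

/-- **The laws of the theta form.** -/
structure Laws (P : Par F) (hN : 0 < P.N) (f : HF F × OmB U B → ℂ) : Prop where
  I1 : ∀ b : F, (∀ z ∈ LI P.N F, atChar (N := P.N) (e0 F) e0_integral hN
      (b * ((P.N : F) ^ (2 * P.j) * z)) = 1) → ∀ x,
      f (nMat b • x) = (atChar (N := P.N) (e0 F) e0_integral hN b)⁻¹ * f x
  I2 : ∀ a : Fˣ, (∃ y ∈ LI P.N F, (a : F) = 1 + (P.N : F) ^ (2 * P.j) * y) → ∀ x,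
      f (Sp.aMat a • x) = f x
  I3 : ∀ c : F, (∃ y ∈ LI P.N F, c = (P.N : F) ^ (4 * P.j + P.δ) * y) → ∀ x,
      f (nLow c • x) = f x

/-- **(c)** The translate of the form by `a0 = N^(-3j)` has type `(J, psi)`. -/
theorem Laws.awayEqv {P : Par F} {hN : 0 < P.N} {f : HF F × OmB U B → ℂ} (hf : Laws P hN f)
    (hA : Adic L B P.N) (hB : B.Nonempty) (hj : P.j ≠ 0) :
    AwayEqv B (fun v => P.J L v) (fun v g => (P.psi L v g)⁻¹)
      (fun x : HF F × OmB U B => f (Sp.aMat P.a0 • x)) := by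
  intro g hg x
  -- the lower right entry is nonzero
  have h0 : g 1 1 ≠ 0 := by
    obtain ⟨v, hv⟩ := hB
    obtain ⟨h, hh, e⟩ := hg v hv
    obtain ⟨u, hu⟩ := Matrix.ProjGenLinGroup.mk_eq_mk_iff.mp (e : _ =
      ProjGenLinGroup.mk (GeneralLinearGroup.map (L.loc v) g))
    change h * sc u = GeneralLinearGroup.map (L.loc v) g at hu
    have h1 : L.loc v (g 1 1) = (u : L.R v) * h 1 1 := by
      have : (GeneralLinearGroup.map (L.loc v) g) 1 1 = (h * sc u : GL (Fin 2) (L.R v)) 1 1 := by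
        rw [hu]
      rw [← sc_comm, sc_mul_apply] at this
      exact this
    obtain ⟨z, hz, hz'⟩ := hA.rad hv (h 1 1 - 1) (Par.NP_mono (by omega) hh.1.2.1)
    rw [add_sub_cancel] at hz'
    intro h2
    rw [h2, map_zero] at h1
    have h3 : ((u⁻¹ : (L.R v)ˣ) : L.R v) * (u : L.R v) = 1 := Units.inv_mul u
    have := hA.nt v hv
    apply zero_ne_one (α := L.R v)
    linear_combination ((u⁻¹ : (L.R v)ˣ) : L.R v) * z * h1 + h 1 1 * z * h3 + hz'
  have hloc := fun v hv => local_entries (P := P) hA hj hv (hg v hv) h0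
  set a' := g 0 0 / g 1 1 with ha'
  set b' := g 0 1 / g 1 1 with hb'
  set c' := g 1 0 / g 1 1 with hc'
  have hdet : a' - b' * c' ≠ 0 := by
    have h1 : (g : Matrix (Fin 2) (Fin 2) F).det ≠ 0 := (GeneralLinearGroup.det g).ne_zero
    rw [Matrix.det_fin_two] at h1
    have h2 : a' - b' * c' = (g 0 0 * g 1 1 - g 0 1 * g 1 0) / (g 1 1) ^ 2 := by
      rw [ha', hb', hc']; field_simp
    rw [h2]
    exact div_ne_zero h1 (pow_ne_zero _ h0)
  set D : Fˣ := Units.mk0 _ hdet with hDdef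
  -- memberships
  have hDmem : ∃ y ∈ LI P.N F, (D : F) = 1 + (P.N : F) ^ (2 * P.j) * y := by
    obtain ⟨y, hy, e⟩ := exists_LI_of_NP (P := P) hA (2 * P.j) (x := (D : F) - 1) (by
      intro v hv
      obtain ⟨h1, h2, h3, -⟩ := hloc v hv
      have e : L.loc v ((D : F) - 1) = (L.loc v a' - 1) - L.loc v b' * L.loc v c' := by
        rw [hDdef, Units.val_mk0, map_sub, map_sub, map_mul, map_one]; ring
      rw [e]
      refine sub_mem h1 ?_
      have := Par.ND_mul_NP h2 h3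
      rw [show P.j + (P.j + P.δ) = 2 * P.j + P.δ by ring] at this
      exact Par.ND_le_NP this)
    exact ⟨y, hy, by rw [← e]; ring⟩
  have hcmem : ∃ y ∈ LI P.N F, ((P.a0⁻¹ : Fˣ) : F) * c' = (P.N : F) ^ (4 * P.j + P.δ) * y := by
    apply exists_LI_of_NP (P := P) hA
    intro v hv
    obtain ⟨-, -, ⟨d, hd, e⟩, -⟩ := hloc v hv
    refine ⟨d, hd, ?_⟩
    have e1 : L.loc v ((P.a0⁻¹ : Fˣ) : F) = (P.N : L.R v) ^ (3 * P.j) := by
      have h1 := P.loc_a0 L v
      have h2 : L.loc v ((P.a0⁻¹ : Fˣ) : F) * L.loc v (P.a0 : F) = 1 := by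
        rw [← map_mul, Units.inv_mul, map_one]
      linear_combination (P.N : L.R v) ^ (3 * P.j) * h2 - L.loc v ((P.a0⁻¹ : Fˣ) : F) * h1
    rw [map_mul, e, e1]
    ring
  have hbmem : ∀ z ∈ LI P.N F, atChar (N := P.N) (e0 F) e0_integral hN
      ((P.a0 : F) * b' * ((P.N : F) ^ (2 * P.j) * z)) = 1 := by
    intro z hz
    rw [atChar_eq_prod hA hN]
    refine Finset.prod_eq_one fun v hv => ?_
    obtain ⟨-, ⟨d, hd, e⟩, -, -⟩ := hloc v hv
    have h1 := P.loc_a0 L v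
    have e1 : L.loc v ((P.a0 : F) * b' * ((P.N : F) ^ (2 * P.j) * z)) = d * L.loc v z := by
      rw [map_mul, map_mul, map_mul, map_pow, map_natCast, e]
      rw [show 3 * P.j = 2 * P.j + P.j by ring, pow_add] at h1
      linear_combination (d * L.loc v z) * h1
    rw [e1]
    exact hd _ (hA.mem_LI_iff.mp hz v hv)
  have hmat := low_decomp P.a0 h0 D (by rw [hDdef, Units.val_mk0])
  show f (Sp.aMat P.a0 • g • x) = _ * f (Sp.aMat P.a0 • x)
  rw [← mul_smul, hmat, mul_smul, sc_smul_pt, mul_smul, mul_smul, mul_smul,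
    hf.I1 _ hbmem, hf.I2 _ hDmem, hf.I3 _ hcmem, atChar_eq_prod hA hN, ← Finset.prod_inv_distrib]
  congr 1
  refine Finset.prod_congr rfl fun v hv => ?_
  show _ = (P.psi L v (L.emb v g))⁻¹
  rw [(hloc v hv).2.2.2, map_mul]

/-- the level structure at the bad places -/
theorem levChar {P : Par F} {m : ℕ} (hm : 3 * P.j + P.δ ≤ m)
    (hU : ∀ v ∈ B, U.U v = PK (L.O v) (P.N ^ m)) :
    LevChar U B (fun v => P.J L v) (fun v g => (P.psi L v g)⁻¹) where
  le v hv := by rw [hU v hv]; exact Par.PK_le_J hm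
  triv v hv g hg := by
    rw [hU v hv] at hg
    rw [Par.psi_PK hm hg, inv_one]
  mul v hv g hg h hh := by
    rw [Par.psi_mul hg hh, mul_inv]

/-- **The form on `HF F × D U`.** -/
noncomputable def form (P : Par F) (f : HF F × OmB U B → ℂ) : HF F × D U → ℂ :=
  autExt B (fun x : HF F × OmB U B => f (Sp.aMat P.a0 • x))

theorem form_eqvAt {P : Par F} {hN : 0 < P.N} {f : HF F × OmB U B → ℂ} (hf : Laws P hN f)
    (hA : Adic L B P.N) (hB : B.Nonempty) (hj : P.j ≠ 0) {m : ℕ} (hm : 3 * P.j + P.δ ≤ m)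
    (hU : ∀ v ∈ B, U.U v = PK (L.O v) (P.N ^ m)) {v : ι} (hv : v ∈ B) :
    Fou.EqvAt v (P.J L v) (P.psi L v) (form P f) := by
  have := autExt_eqvAt hA.badPlaces (levChar (B := B) (P := P) hm hU) (hf.awayEqv hA hB hj) hv
  intro p d g j hj hd
  have h1 := this p d g j hj hd
  simp only [inv_inv] at h1
  exact h1

end Fermat.Agent.LT.T4
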