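import Fermat.Agent.LT.T4.FFT

set_option autoImplicit false
set_option linter.unusedSectionVars false

/-! # The finite Fourier transform of the theta data: the main formula -/

namespace Fermat.Agent.LT.T4

open Fermat.Agent.LT.Theta NumberField Ideal

theorem BSch.mono {N : ℕ} {L : Type*} [Field L] [NumberField L] {k k' : ℕ} (h : k ≤ k')
    {Φ : L → ℂ} (hΦ : BSch N k Φ) : BSch N k' Φ := by
  obtain ⟨j, rfl⟩ := Nat.exists_eq_add_of_le h
  have hj : ((N : L) ^ j) ∈ LI N L := LI_of_isIntegral ((isIntegral_natCast' N).pow j)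
  refine ⟨fun x y hy => ?_, fun x hx => ?_⟩
  · rw [← hΦ.1 x ((N : L) ^ j * y) ((LI N L).mul_mem hj hy)]
    congr 1
    ring
  · have := (LI N L).mul_mem hj (hΦ.2 x hx)
    have e : (N : L) ^ (k + j) * x = (N : L) ^ j * ((N : L) ^ k * x) := by ring
    rw [e]; exact this

namespace T4D

variable {E L : Type*} [Field E] [NumberField E] [Field L] [NumberField L] [Algebra E L]
  (T : T4D E L)

local notation "tr" => Algebra.trace E L
local notation "nm" => Algebra.norm E (S := L)

theorem ef_eq (x η : L) : T.q.ef x η = e0 E (-(tr (x * T.q.c η))) := by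
  have := T.q.finDim
  unfold QD.ef QD.bil
  rw [e0_apply, map_neg, Algebra.trace_trace]
  congr 1
  push_cast
  ring

/-- the function `x ↦ Φ(x) ψ_B(-Tr(x η̄))` -/
noncomputable def tw (Φ : L → ℂ) (η x : L) : ℂ := Φ x * T.ψB (-(tr (x * T.q.c η)))

/-- the Fourier transform at `N` -/
noncomputable def ftB (Φ : L → ℂ) (η : L) : ℂ := mB T.N (T.tw Φ η) 1

theorem tw_BSch {k : ℕ} {Φ : L → ℂ} (hΦ : BSch T.N k Φ) (η : L) :
    ∃ k', BSch T.N k' (T.tw Φ η) := by
  obtain ⟨j, hj⟩ := pow_mul_mem_LI T.hN (T.q.c η)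
  have h1 := hΦ.mono (Nat.le_max_left k j)
  obtain ⟨i, hi⟩ := Nat.exists_eq_add_of_le (Nat.le_max_right k j)
  refine ⟨max k j, fun x y hy => ?_, fun x hx => h1.2 x (left_ne_zero_of_mul hx)⟩
  show Φ _ * T.ψB _ = Φ x * T.ψB _
  rw [h1.1 x y hy]
  congr 1
  have e : -(tr ((x + (T.N : L) ^ max k j * y) * T.q.c η)) =
      -(tr (x * T.q.c η)) + -(tr ((T.N : L) ^ i * y * ((T.N : L) ^ j * T.q.c η))) := by
    rw [← neg_add, ← map_add]
    congr 2
    rw [hi]
    ring
  have hmem : -(tr ((T.N : L) ^ i * y * ((T.N : L) ^ j * T.q.c η))) ∈ LI T.N E := by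
    apply (LI T.N E).neg_mem
    apply T.tr_mem_LI
    exact (LI T.N L).mul_mem ((LI T.N L).mul_mem
      (LI_of_isIntegral ((isIntegral_natCast' T.N).pow i)) hy) hj
  rw [e, AddChar.map_add_eq_mul, T.ψB_LI hmem, mul_one]

/-- the away part of the integrand -/
noncomputable def Fa (β : Lˣ) (s : E) (η x : L) : ℂ :=
  ind T.N ((β : L)⁻¹) 0 x * T.ψ (s * nm x - tr (x * T.q.c η))

theorem ind_inv (β : Lˣ) (x : L) [Decidable ((β : L) * x ∈ SI T.N L)] :
    ind T.N ((β : L)⁻¹) 0 x = if (β : L) * x ∈ SI T.N L then 1 else 0 := by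
  have e : (x - 0) / (β : L)⁻¹ = β * x := by
    rw [sub_zero, div_inv_eq_mul, mul_comm]
  split_ifs with h
  · apply ind_pos; rw [e]; exact h
  · apply ind_neg; rw [e]; exact h

include T in
theorem nm_ne (β : Lˣ) : nm (β : L) ≠ 0 := by
  have := T.q.finDim
  exact Algebra.norm_ne_zero_iff.mpr β.ne_zero

include T in
theorem nm_inv (x : L) (hx : x ≠ 0) : nm x⁻¹ = (nm x)⁻¹ := by
  apply eq_inv_of_mul_eq_one_right
  rw [← map_mul nm, mul_inv_cancel₀ hx, map_one]

/-- the key computation of the phase -/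
theorem phase {β : Lˣ} {g : Eˣ} {l a : SI T.N E} (hl : l ≠ 0) (hβ : nm (β : L) = g * l)
    {s : E} (hs : s = g * a) (η r : L) :
    s * nm ((β : L)⁻¹ * r) - tr ((β : L)⁻¹ * r * T.q.c η) =
      (a * nm r - tr (r * T.q.c ((β : L) * (algebraMap E L (g : E))⁻¹ * η))) / l := by
  have hl' : (l : E) ≠ 0 := coe_ne_zero hl
  have hg : (g : E) ≠ 0 := g.ne_zero
  have hb : (β : L) ≠ 0 := β.ne_zero
  have hgL : algebraMap E L (g : E) ≠ 0 := by rw [Ne, map_eq_zero]; exact hg
  have hlL : algebraMap E L (l : E) ≠ 0 := by rw [Ne, map_eq_zero]; exact hl'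
  have hcb : T.q.c (β : L) ≠ 0 := by rw [Ne, map_eq_zero_iff _ T.q.c.injective]; exact hb
  have hn := T.nm_eq (β : L)
  rw [hβ, map_mul (algebraMap E L)] at hn
  have e1 : s * nm ((β : L)⁻¹ * r) = a * nm r / l := by
    rw [map_mul nm, T.nm_inv _ hb, hβ, hs]
    field_simp
  have e2 : tr ((β : L)⁻¹ * r * T.q.c η) =
      tr (r * T.q.c ((β : L) * (algebraMap E L (g : E))⁻¹ * η)) / l := by
    rw [eq_div_iff hl', mul_comm, ← tr_aM_mul]
    congr 1
    rw [map_mul T.q.c, map_mul T.q.c, map_inv₀ T.q.c, T.c_aM]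
    field_simp
    linear_combination (r * T.q.c η) * hn
  rw [e1, e2]
  ring

theorem Fa_ASch {β : Lˣ} {g : Eˣ} {l a : SI T.N E} (hl : l ≠ 0) (hβ : nm (β : L) = g * l)
    {s : E} (hs : s = g * a) {η : L} (m : ℕ) (hm : m ≠ 0)
    (hη : (m : L) * ((β : L) * (algebraMap E L (g : E))⁻¹ * η) ∈ SI T.N L) :
    ASch T.N ((β : L)⁻¹) ((T.incl (l * m) : SI T.N L) : L) (T.Fa β s η) := by
  have hb : (β : L) ≠ 0 := β.ne_zero
  have hl' : (l : E) ≠ 0 := coe_ne_zero hl
  have hm' : (m : E) ≠ 0 := by exact_mod_cast hm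
  set η' := (β : L) * (algebraMap E L (g : E))⁻¹ * η with hη'
  constructor
  · intro x y hy
    have hly : ((T.incl (l * m) : SI T.N L) : L) * y ∈ SI T.N L :=
      (SI T.N L).mul_mem (T.incl (l * m)).2 hy
    have e0 : (β : L) * (x + (β : L)⁻¹ * ((T.incl (l * m) : SI T.N L) : L) * y) =
        β * x + ((T.incl (l * m) : SI T.N L) : L) * y := by
      field_simp
    unfold Fa
    have h1 : ind T.N ((β : L)⁻¹) 0 (x + (β : L)⁻¹ * ((T.incl (l * m) : SI T.N L) : L) * y) =
        ind T.N ((β : L)⁻¹) 0 x := by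
      apply ind_congr
      have : (x + (β : L)⁻¹ * ((T.incl (l * m) : SI T.N L) : L) * y - 0) / (β : L)⁻¹ =
          (x - 0) / (β : L)⁻¹ + ((T.incl (l * m) : SI T.N L) : L) * y := by
        field_simp; ring
      rw [this]
      exact ⟨fun h => by
        have := (SI T.N L).sub_mem h hly
        rwa [add_sub_cancel_right] at this, fun h => (SI T.N L).add_mem h hly⟩
    rw [h1]
    by_cases hx : (β : L) * x ∈ SI T.N L
    · congr 1
      -- write `x = β⁻¹ r`
      set r : L := (β : L) * x with hr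
      have hxr : x = (β : L)⁻¹ * r := by rw [hr]; field_simp
      have e1 : x + (β : L)⁻¹ * ((T.incl (l * m) : SI T.N L) : L) * y =
          (β : L)⁻¹ * (r + ((T.incl (l * m) : SI T.N L) : L) * y) := by
        rw [hxr]; ring
      rw [e1, T.phase hl hβ hs, hxr, T.phase hl hβ hs, ← hη']
      have e2 : ((T.incl (l * m) : SI T.N L) : L) * y = algebraMap E L (l : E) * (m * y) := by
        show algebraMap E L ((l : E) * (m : E)) * y = _
        rw [(algebraMap E L).map_mul, map_natCast]; ring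
      have e3 : (a * nm (r + algebraMap E L (l : E) * (m * y)) -
          tr ((r + algebraMap E L (l : E) * (m * y)) * T.q.c η')) / (l : E) =
          (a * nm r - tr (r * T.q.c η')) / l +
          (a * (tr (r * T.q.c (m * y)) + l * nm (m * y)) - tr (y * T.q.c (m * η'))) := by
        have f1 : nm (r + algebraMap E L (l : E) * (m * y)) = nm r + l * tr (r * T.q.c (m * y)) +
            l ^ 2 * nm (m * y) := by
          rw [T.nm_add, map_mul T.q.c, T.c_aM]
          have : r * (algebraMap E L (l : E) * T.q.c (m * y)) =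
            algebraMap E L (l : E) * (r * T.q.c (m * y)) := by ring
          rw [this, tr_aM_mul, map_mul nm (algebraMap E L (l : E)), Algebra.norm_algebraMap,
            T.q.two]
        have f2 : tr ((r + algebraMap E L (l : E) * (m * y)) * T.q.c η') =
            tr (r * T.q.c η') + l * tr (y * T.q.c (m * η')) := by
          have : (r + algebraMap E L (l : E) * (m * y)) * T.q.c η' =
              r * T.q.c η' + algebraMap E L (l : E) * (y * T.q.c (m * η')) := by
            rw [map_mul T.q.c (m : L) η', map_natCast]; ring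
          rw [this, map_add, tr_aM_mul]
        rw [f1, f2]
        field_simp
        ring
      rw [e2, e3, AddChar.map_add_eq_mul, T.ψ_SI (x := (a : E) * _ - _), mul_one]
      have hmS : (m : L) ∈ SI T.N L := SI_of_isIntegral (isIntegral_natCast' m)
      have hmy : (m : L) * y ∈ SI T.N L := (SI T.N L).mul_mem hmS hy
      exact (SI T.N E).sub_mem ((SI T.N E).mul_mem a.2 ((SI T.N E).add_mem
        (T.tr_mem_SI ((SI T.N L).mul_mem hx (T.c_mem_SI hmy)))
        ((SI T.N E).mul_mem l.2 (norm_mem_SI hmy))))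
        (T.tr_mem_SI ((SI T.N L).mul_mem hy (T.c_mem_SI hη)))
    · have h2 : ind T.N ((β : L)⁻¹) 0 x = 0 := by
        apply ind_neg
        rw [sub_zero, div_inv_eq_mul, mul_comm]
        exact hx
      rw [h2, zero_mul, zero_mul]
  · intro x hx
    by_contra h
    apply hx
    unfold Fa
    rw [ind_neg (by rw [sub_zero]; exact h), zero_mul]

theorem Fa_inv_mul {β : Lˣ} {g : Eˣ} {l a : SI T.N E} (hl : l ≠ 0) (hβ : nm (β : L) = g * l)
    {s : E} (hs : s = g * a) (η : L) (r : SI T.N L) :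
    T.Fa β s η ((β : L)⁻¹ * r) =
      T.ψ ((a * nm (r : L) - tr (r * T.q.c ((β : L) * (algebraMap E L (g : E))⁻¹ * η))) / l) := by
  unfold Fa
  rw [T.phase hl hβ hs, ind_pos, one_mul]
  rw [sub_zero, div_inv_eq_mul]
  have : (β : L)⁻¹ * r * β = r := by field_simp
  rw [this]; exact r.2

/-- **The finite Fourier transform of the theta data.** -/
theorem ff_main {k : ℕ} {Φ : L → ℂ} (hΦ : BSch T.N k Φ) {β : Lˣ} {g : Eˣ}
    {l a a2 : SI T.N E} (hl : l ≠ 0) (hdvd : l ∣ 1 + a * a2) (hβ : nm (β : L) = g * l) {s : E}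
    (hs : s = g * a) (η : L) :
    T.q.ff (fun x => Φ x * (ind T.N ((β : L)⁻¹) 0 x * T.ψ (s * nm x))) η =
      ((nrm T.N (β : L) : ℝ) : ℂ) * (Nat.card (SI T.N E ⧸ span {l}) : ℂ)⁻¹ *
        T.psi (algebraMap E L l) * (T.ftB Φ η *
        (ind T.N (((β : L) * (algebraMap E L (g : E))⁻¹)⁻¹) 0 η *
          T.ψ (((a2 : E) / g) * nm η))) := by
  have hb : (β : L) ≠ 0 := β.ne_zero
  have hl' : (l : E) ≠ 0 := coe_ne_zero hl
  have hg : (g : E) ≠ 0 := g.ne_zero
  have hgL : algebraMap E L (g : E) ≠ 0 := by rw [Ne, map_eq_zero]; exact hg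
  obtain ⟨k', hk'⟩ := T.tw_BSch hΦ η
  have h1 : T.q.ff (fun x => Φ x * (ind T.N ((β : L)⁻¹) 0 x * T.ψ (s * nm x))) η =
      mean (fun x => T.tw Φ η x * T.Fa β s η x) := by
    unfold QD.ff
    congr 1
    funext x
    rw [T.ef_eq, ← T.ψ_mul_ψB]
    unfold tw Fa
    rw [sub_eq_add_neg, AddChar.map_add_eq_mul]
    ring
  rw [h1]
  have hindη : ind T.N (((β : L) * (algebraMap E L (g : E))⁻¹)⁻¹) 0 η =
      ind T.N 1 0 ((β : L) * (algebraMap E L (g : E))⁻¹ * η) := by
    apply ind_congr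
    rw [sub_zero, sub_zero, div_inv_eq_mul, div_one, mul_comm]
  rw [hindη]
  set η' := (β : L) * (algebraMap E L (g : E))⁻¹ * η with hη'
  by_cases hS : η' ∈ SI T.N L
  · -- the main case
    have hA := T.Fa_ASch hl hβ hs (η := η) 1 one_ne_zero (by rw [Nat.cast_one, one_mul]; exact hS)
    rw [Nat.cast_one, mul_one] at hA
    have hl1 : T.incl l ≠ 0 := T.incl_ne hl
    rw [mean_mul T.hN hk' (inv_ne_zero hb) hl1 hA]
    have h2 : ∀ r : SI T.N L, T.Fa β s η ((β : L)⁻¹ * r) =
        T.ψ ((a * nm (r : L) - tr (r * T.q.c η')) / l) := T.Fa_inv_mul hl hβ hs η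
    have h3 := T.core hl hdvd ⟨η', hS⟩
    rw [qs_congr h2]
    rw [show qs (T.incl l) (fun r : SI T.N L => T.ψ ((a * nm (r : L) - tr (r * T.q.c η')) / l)) =
      _ from h3]
    have h4 := mB_mul T.hN hk' (inv_ne_zero hb) hl1
    have h5 := mB_inv T.hN hk' hb
    rw [h5, T.card_incl hl] at h4
    have hind : ind T.N 1 0 η' = 1 := by
      apply ind_pos; rw [sub_zero, div_one]; exact hS
    rw [hind]
    have hnm : (a2 : E) * nm η' / l = (a2 : E) / g * nm η := by
      rw [hη', map_mul nm, map_mul nm, T.nm_inv _ hgL, Algebra.norm_algebraMap, T.q.two, hβ]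
      field_simp
    have hcard : (Nat.card (SI T.N E ⧸ span {l}) : ℂ) ≠ 0 := by
      exact_mod_cast (card_pos T.hN hl).ne'
    show _ * (T.ψ ((a2 : E) * nm η' / l) * _) = _
    rw [hnm]
    unfold ftB
    have h6 : mB T.N (T.tw Φ η) ((β : L)⁻¹ * (T.incl l : SI T.N L)) =
        ((nrm T.N (β : L) : ℝ) : ℂ) * mB T.N (T.tw Φ η) 1 *
          ((Nat.card (SI T.N E ⧸ span {l}) : ℂ) ^ 2)⁻¹ := by
      rw [h4]; field_simp
    rw [h6]
    field_simp
  · -- outside the dual lattice
    have hind : ind T.N 1 0 η' = 0 := by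
      apply ind_neg; rw [sub_zero, div_one]; exact hS
    rw [hind, zero_mul, mul_zero, mul_zero]
    obtain ⟨m, hm, hmη⟩ := exists_nat_integral η'
    have hA := T.Fa_ASch hl hβ hs (η := η) m hm (SI_of_isIntegral hmη)
    have hm' : (m : SI T.N E) ≠ 0 := by
      intro h
      have := congrArg (fun z : SI T.N E => (z : E)) h
      have h' : (m : E) = 0 := by simpa using this
      exact hm (by exact_mod_cast h')
    have hlm : l * m ≠ 0 := mul_ne_zero hl hm'
    have hl1 : T.incl (l * m) ≠ 0 := T.incl_ne hlm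
    rw [mean_mul T.hN hk' (inv_ne_zero hb) hl1 hA]
    have h2 : ∀ r : SI T.N L, T.Fa β s η ((β : L)⁻¹ * r) =
        T.ψ ((a * nm (r : L) - tr (r * T.q.c η')) / l) := T.Fa_inv_mul hl hβ hs η
    -- a translation which multiplies by a nontrivial constant
    obtain ⟨y, hy, hne⟩ : ∃ y ∈ SI T.N L, T.ψ (tr (y * T.q.c η')) ≠ 1 := by
      by_contra h
      push Not at h
      exact hS (T.ψ_perfect_L h)
    have hper := hA.perM
    have hfin := finite_quot T.hN _ hl1
    have h3 := qs_add hper hfin (T.incl l * ⟨y, hy⟩)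
    have h4 : ∀ r : SI T.N L, T.Fa β s η ((β : L)⁻¹ * ((r + T.incl l * ⟨y, hy⟩ : SI T.N L) : L)) =
        T.Fa β s η ((β : L)⁻¹ * r) * (T.ψ (tr (y * T.q.c η')))⁻¹ := by
      intro r
      rw [h2, h2, ← AddChar.map_neg_eq_inv, ← AddChar.map_add_eq_mul]
      have f1 : nm ((r + T.incl l * ⟨y, hy⟩ : SI T.N L) : L) = nm (r : L) +
          l * tr ((r : L) * T.q.c y) + l ^ 2 * nm y := by
        show nm ((r : L) + algebraMap E L l * y) = _
        rw [T.nm_add, map_mul T.q.c, T.c_aM]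
        have : (r : L) * (algebraMap E L (l : E) * T.q.c y) =
          algebraMap E L (l : E) * (r * T.q.c y) := by ring
        rw [this, tr_aM_mul, map_mul nm (algebraMap E L (l : E)), Algebra.norm_algebraMap,
          T.q.two]
      have f2 : tr (((r + T.incl l * ⟨y, hy⟩ : SI T.N L) : L) * T.q.c η') =
          tr ((r : L) * T.q.c η') + l * tr (y * T.q.c η') := by
        show tr (((r : L) + algebraMap E L l * y) * T.q.c η') = _
        rw [add_mul, map_add, mul_assoc, tr_aM_mul]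
      have f3 : (a * nm ((r + T.incl l * ⟨y, hy⟩ : SI T.N L) : L) -
          tr (((r + T.incl l * ⟨y, hy⟩ : SI T.N L) : L) * T.q.c η')) / (l : E) =
          (a * nm (r : L) - tr (r * T.q.c η')) / l + -(tr (y * T.q.c η')) +
          a * (tr ((r : L) * T.q.c y) + l * nm y) := by
        rw [f1, f2]
        field_simp
        ring
      rw [f3, AddChar.map_add_eq_mul, T.ψ_SI (x := (a : E) * _), mul_one]
      exact (SI T.N E).mul_mem a.2 ((SI T.N E).add_mem
        (T.tr_mem_SI ((SI T.N L).mul_mem r.2 (T.c_mem_SI hy)))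
        ((SI T.N E).mul_mem l.2 (norm_mem_SI hy)))
    rw [qs_congr h4, qs_mul_right _ _ hfin] at h3
    have h5 : qs (T.incl (l * m)) (fun r : SI T.N L => T.Fa β s η ((β : L)⁻¹ * r)) = 0 := by
      set Q := qs (T.incl (l * m)) (fun r : SI T.N L => T.Fa β s η ((β : L)⁻¹ * r))
      have h6 : Q * ((T.ψ (tr (y * T.q.c η')))⁻¹ - 1) = 0 := by rw [mul_sub, h3]; ring
      rcases mul_eq_zero.mp h6 with h | h
      · exact h
      · exfalso
        apply hne
        rw [sub_eq_zero, inv_eq_one] at h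
        exact h
    rw [h5, mul_zero]

end T4D

end Fermat.Agent.LT.T4
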