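import Fermat.Agent.LT.T4.Iface

set_option autoImplicit false
set_option linter.unusedSectionVars false

/-! # The finite Fourier transform of the theta data -/

namespace Fermat.Agent.LT.T4

open Fermat.Agent.LT.Theta NumberField Ideal

section functorial

variable {N : ℕ} {K K' : Type*} [Field K] [Field K']

theorem map_mem_SI (f : K →+* K') {x : K} (hx : x ∈ SI N K) : f x ∈ SI N K' := by
  obtain ⟨k, hk⟩ := hx
  refine ⟨k, ?_⟩
  have := hk.map (f.toIntAlgHom)
  simpa using this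

theorem map_mem_LI (f : K →+* K') {x : K} (hx : x ∈ LI N K) : f x ∈ LI N K' := by
  obtain ⟨k, hk0, hk⟩ := hx
  refine ⟨k, hk0, ?_⟩
  have := hk.map (f.toIntAlgHom)
  simpa using this

end functorial

namespace T4D

variable {E L : Type*} [Field E] [NumberField E] [Field L] [NumberField L] [Algebra E L]
  (T : T4D E L)

local notation "tr" => Algebra.trace E L
local notation "nm" => Algebra.norm E (S := L)

theorem aM_inj {a b : E} (h : algebraMap E L a = algebraMap E L b) : a = b :=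
  (algebraMap E L).injective h

theorem nm_eq (x : L) : algebraMap E L (nm x) = x * T.q.c x := T.q.norm_eq x
theorem tr_eq (x : L) : algebraMap E L (tr x) = x + T.q.c x := T.q.trace_eq x

theorem nm_add (x y : L) : nm (x + y) = nm x + tr (x * T.q.c y) + nm y := by
  apply aM_inj (L := L)
  rw [(algebraMap E L).map_add, (algebraMap E L).map_add, T.nm_eq, T.nm_eq, T.nm_eq, T.tr_eq,
    map_add T.q.c, map_mul T.q.c, T.q.c_c]
  ring

theorem tr_aM_mul (a : E) (x : L) : tr (algebraMap E L a * x) = a * tr x := by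
  rw [← Algebra.smul_def, map_smul, smul_eq_mul]

theorem tr_c (x : L) : tr (T.q.c x) = tr x := by
  apply aM_inj (L := L)
  rw [T.tr_eq, T.tr_eq, T.q.c_c, add_comm]

theorem nm_c (x : L) : nm (T.q.c x) = nm x := by
  apply aM_inj (L := L)
  rw [T.nm_eq, T.nm_eq, T.q.c_c, mul_comm]

theorem c_aM (a : E) : T.q.c (algebraMap E L a) = algebraMap E L a := T.q.c.commutes a

theorem c_mem_SI {x : L} (hx : x ∈ SI T.N L) : T.q.c x ∈ SI T.N L :=
  map_mem_SI (T.q.c : L →+* L) hx

theorem c_mem_LI {x : L} (hx : x ∈ LI T.N L) : T.q.c x ∈ LI T.N L :=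
  map_mem_LI (T.q.c : L →+* L) hx

theorem aM_mem_SI {x : E} (hx : x ∈ SI T.N E) : algebraMap E L x ∈ SI T.N L := map_mem_SI _ hx

theorem aM_mem_LI {x : E} (hx : x ∈ LI T.N E) : algebraMap E L x ∈ LI T.N L := map_mem_LI _ hx

include T in
theorem tr_mem_SI {x : L} (hx : x ∈ SI T.N L) : tr x ∈ SI T.N E := by
  obtain ⟨k, hk⟩ := hx
  refine ⟨k, ?_⟩
  have h1 := Algebra.isIntegral_trace (L := E) hk
  have e : ((T.N : L) ^ k) = algebraMap E L ((T.N : E) ^ k) := by simp
  rw [e, tr_aM_mul] at h1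
  exact h1

include T in
theorem tr_mem_LI {x : L} (hx : x ∈ LI T.N L) : tr x ∈ LI T.N E := by
  obtain ⟨k, hk0, hk⟩ := hx
  refine ⟨k, hk0, ?_⟩
  have h1 := Algebra.isIntegral_trace (L := E) hk
  have e : ((k : L)) = algebraMap E L (k : E) := by simp
  rw [e, tr_aM_mul] at h1
  exact h1

theorem nm_mem_LI {N : ℕ} {x : L} (hx : x ∈ LI N L) : nm x ∈ LI N E := by
  obtain ⟨k, hk0, hk⟩ := hx
  have h1 := Algebra.isIntegral_norm E hk
  have e : ((k : L)) = algebraMap E L (k : E) := by simp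
  rw [e, map_mul, Algebra.norm_algebraMap] at h1
  exact ⟨k ^ (Module.finrank E L), Nat.Coprime.pow_left _ hk0, by
    push_cast; exact h1⟩

theorem δ_mem : T.δ ∈ SI T.N L := by
  obtain ⟨k, hk⟩ := T.D_mem
  refine ⟨k, ?_⟩
  apply IsIntegral.of_pow (n := 2) (by norm_num)
  have h1 : IsIntegral ℤ (algebraMap E L ((T.N : E) ^ k * ((T.N : E) ^ k * T.D))) :=
    (((isIntegral_natCast' T.N).pow k).mul hk).algebraMap
  have : ((T.N : L) ^ k * T.δ) ^ 2 = algebraMap E L ((T.N : E) ^ k * ((T.N : E) ^ k * T.D)) := by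
    rw [mul_pow, T.δ_sq, map_mul, map_mul, map_pow, map_natCast]; ring
  rw [this]
  exact h1

theorem two_ne : (2 : E) ≠ 0 := two_ne_zero

/-- coordinates with respect to `1, δ` -/
theorem exists_coord (x : L) : x = algebraMap E L (tr x / 2) +
    algebraMap E L (tr (x * T.δ) / (2 * T.D)) * T.δ := by
  have h2 : (2 : L) ≠ 0 := two_ne_zero
  have hD : algebraMap E L T.D ≠ 0 := by
    rw [Ne, map_eq_zero]; exact T.D_ne
  rw [map_div₀, map_div₀, T.tr_eq, T.tr_eq, map_mul T.q.c, T.c_δ, (algebraMap E L).map_mul,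
    map_ofNat]
  field_simp
  rw [← T.δ_sq]
  ring

theorem exists_rep {x : L} (hx : x ∈ SI T.N L) : ∃ u ∈ SI T.N E, ∃ v ∈ SI T.N E,
    x = algebraMap E L u + algebraMap E L v * T.δ := by
  refine ⟨_, ?_, _, ?_, T.exists_coord x⟩
  · rw [div_eq_mul_inv]
    exact (SI T.N E).mul_mem (T.tr_mem_SI hx) T.two
  · rw [div_eq_mul_inv, mul_inv]
    exact (SI T.N E).mul_mem (T.tr_mem_SI ((SI T.N L).mul_mem hx T.δ_mem))
      ((SI T.N E).mul_mem T.two T.D_inv)

theorem nm_coord (u v : E) : nm (algebraMap E L u + algebraMap E L v * T.δ) =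
    u ^ 2 - T.D * v ^ 2 := by
  apply aM_inj (L := L)
  rw [T.nm_eq, map_add, map_mul, T.c_aM, T.c_aM, T.c_δ, map_sub, map_mul, map_pow, map_pow,
    ← T.δ_sq]
  ring

theorem coord_inj {u v u' v' : E} (h : algebraMap E L u + algebraMap E L v * T.δ =
    algebraMap E L u' + algebraMap E L v' * T.δ) : u = u' ∧ v = v' := by
  have h1 := congrArg T.q.c h
  rw [map_add, map_add, map_mul, map_mul, T.c_aM, T.c_aM, T.c_aM, T.c_aM, T.c_δ] at h1
  have h2 : (2 : L) ≠ 0 := two_ne_zero
  have hδ : T.δ ≠ 0 := by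
    intro h0
    have := T.δ_sq
    rw [h0] at this
    apply T.D_ne
    apply aM_inj (L := L)
    rw [← this]; simp
  have e1 : algebraMap E L u = algebraMap E L u' := by
    apply mul_left_cancel₀ h2
    linear_combination h + h1
  have e2 : algebraMap E L v = algebraMap E L v' := by
    apply mul_right_cancel₀ hδ
    rw [e1] at h
    exact add_left_cancel h
  exact ⟨aM_inj e1, aM_inj e2⟩

/-- the inclusion of rings -/
def incl : SI T.N E →+* SI T.N L where
  toFun x := ⟨algebraMap E L x, T.aM_mem_SI x.2⟩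
  map_one' := Subtype.ext (by simp)
  map_mul' x y := Subtype.ext (by simp)
  map_zero' := Subtype.ext (by simp)
  map_add' x y := Subtype.ext (by simp)

@[simp] theorem incl_coe (x : SI T.N E) : ((T.incl x : SI T.N L) : L) = algebraMap E L x := rfl

theorem incl_ne {l : SI T.N E} (hl : l ≠ 0) : T.incl l ≠ 0 := by
  intro h
  apply coe_ne_zero hl
  apply aM_inj (L := L)
  have := congrArg (fun z : SI T.N L => (z : L)) h
  simpa using this

/-- `δ` as an element of the ring -/
def dl : SI T.N L := ⟨T.δ, T.δ_mem⟩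

theorem e0_dual {x : E} (h : ∀ y : E, IsIntegral ℤ y → e0 E (x * y) = 1) : x ∈ SI T.N E := by
  apply T.dual
  intro y hy
  have := h y hy
  rw [e0_apply, Complex.exp_neg, inv_eq_one, exp_eq_one_iff_rat] at this
  exact this

theorem ψ_SI {x : E} (hx : x ∈ SI T.N E) : T.ψ x = 1 := away_SI _ _ _ hx

theorem ψB_LI {x : E} (hx : x ∈ LI T.N E) : T.ψB x = 1 := at_LI _ _ _ hx

theorem ψ_perfect {t : E} (ht : ∀ r ∈ SI T.N E, T.ψ (r * t) = 1) : t ∈ SI T.N E :=
  away_perfect _ _ T.hN (fun _ h => T.e0_dual h) ht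

theorem ψ_perfect_L {t : L} (ht : ∀ y ∈ SI T.N L, T.ψ (tr (y * T.q.c t)) = 1) :
    t ∈ SI T.N L := by
  have hc := T.exists_coord t
  set u := tr t / 2
  set v := tr (t * T.δ) / (2 * T.D)
  have h1 : 2 * u ∈ SI T.N E := by
    apply T.ψ_perfect
    intro r hr
    have := ht (algebraMap E L r) (T.aM_mem_SI hr)
    rw [tr_aM_mul, T.tr_c] at this
    rw [← this]
    congr 2
    show 2 * (tr t / 2) = tr t
    field_simp
  have h2 : 2 * T.D * v ∈ SI T.N E := by
    apply T.ψ_perfect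
    intro r hr
    have := ht (algebraMap E L r * -T.δ) ((SI T.N L).mul_mem (T.aM_mem_SI hr)
      ((SI T.N L).neg_mem T.δ_mem))
    rw [mul_assoc, tr_aM_mul, ← T.c_δ, ← map_mul, T.tr_c, mul_comm T.δ] at this
    rw [← this]
    congr 2
    show 2 * T.D * (tr (t * T.δ) / (2 * T.D)) = tr (t * T.δ)
    have := T.D_ne
    field_simp
  have h3 : u ∈ SI T.N E := by
    have : u = (2 : E)⁻¹ * (2 * u) := by field_simp
    rw [this]; exact (SI T.N E).mul_mem T.two h1
  have h4 : v ∈ SI T.N E := by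
    have : v = (2 : E)⁻¹ * T.D⁻¹ * (2 * T.D * v) := by
      have := T.D_ne
      field_simp
    rw [this]; exact (SI T.N E).mul_mem ((SI T.N E).mul_mem T.two T.D_inv) h2
  rw [hc]
  exact (SI T.N L).add_mem (T.aM_mem_SI h3) ((SI T.N L).mul_mem (T.aM_mem_SI h4) T.δ_mem)

instance instPidE : IsPrincipalIdealRing (SI T.N E) := T.pidE
instance instPidL : IsPrincipalIdealRing (SI T.N L) := T.pidL

/-- the data for the Gauss sums -/
noncomputable def gd : GD (SI T.N E) E :=
  { ψ := T.ψ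
    triv := fun r => T.ψ_SI r.2
    perf := by
      intro π hπ
      by_contra h
      push Not at h
      have h1 : (π : E)⁻¹ ∈ SI T.N E := by
        apply T.ψ_perfect
        intro r hr
        have := h ⟨r, hr⟩
        rw [← this, div_eq_mul_inv]; rfl
      apply hπ.not_isUnit
      refine IsUnit.of_mul_eq_one ⟨(π : E)⁻¹, h1⟩ ?_
      apply Subtype.ext
      show (π : E) * (π : E)⁻¹ = 1
      exact mul_inv_cancel₀ (coe_ne_zero hπ.ne_zero)
    fin := fun l hl => finite_quot T.hN l hl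
    two := by
      refine IsUnit.of_mul_eq_one ⟨(2 : E)⁻¹, T.two⟩ ?_
      apply Subtype.ext
      show (2 : E) * (2 : E)⁻¹ = 1
      exact mul_inv_cancel₀ two_ne_zero
    D := ⟨T.D, T.D_mem⟩
    hD := by
      refine IsUnit.of_mul_eq_one ⟨T.D⁻¹, T.D_inv⟩ ?_
      apply Subtype.ext
      show T.D * T.D⁻¹ = 1
      exact mul_inv_cancel₀ T.D_ne
    χ := fun r => T.psi (algebraMap E L (r : E))
    χ_mul := fun x y => by
      show T.psi (algebraMap E L ((x : E) * y)) = _
      rw [map_mul, map_mul]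
    χ_unit := by
      intro u hu
      obtain ⟨v, hv⟩ := hu.exists_right_inv
      have hv' : (u : E) * v = 1 := congrArg (fun z : SI T.N E => (z : E)) hv
      have hu0 : (u : E) ≠ 0 := left_ne_zero_of_mul_eq_one hv'
      apply T.psi_unit
      · rw [Ne, map_eq_zero]; exact hu0
      · exact T.aM_mem_SI u.2
      · rw [← map_inv₀, inv_eq_of_mul_eq_one_right hv']
        exact T.aM_mem_SI v.2
    χ_split := fun π hπ h => T.psi_split π hπ h
    χ_inert := fun π hπ h => T.psi_inert π hπ h }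

theorem gd_ch (l r : SI T.N E) : (T.gd).ch l r = T.ψ ((r : E) / (l : E)) := rfl

theorem gd_D : (((T.gd).D : SI T.N E) : E) = T.D := rfl

theorem gd_GG {l a : SI T.N E} (hl : l ≠ 0) (h : IsCoprime a l) :
    (T.gd).G a l * (T.gd).G (-(a * (T.gd).D)) l =
      Nat.card (SI T.N E ⧸ span {l}) * T.psi (algebraMap E L l) := (T.gd).GG hl h

theorem gd_G (a l : SI T.N E) : (T.gd).G a l =
    qs l (fun x => (T.gd).ch l (a * x ^ 2)) := rfl

theorem perM_of {l : SI T.N E} {F : SI T.N L → ℂ} (hF : PerM (T.incl l) F) (v : SI T.N L) :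
    PerM l (fun u : SI T.N E => F (T.incl u + v)) := by
  intro x y
  show F (T.incl (x + l * y) + v) = F (T.incl x + v)
  have : T.incl (x + l * y) + v = (T.incl x + v) + T.incl l * T.incl y := by
    rw [map_add, map_mul]; ring
  rw [this, hF]

/-- sums over `S / l S` in coordinates -/
theorem qs_coord {l : SI T.N E} (hl : l ≠ 0) {F : SI T.N L → ℂ} (hF : PerM (T.incl l) F) :
    qs (T.incl l) F = qs l (fun u => qs l (fun v => F (T.incl u + T.incl v * T.dl))) := by
  have hfin := finite_quot T.hN l hl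
  have := Fintype.ofFinite (SI T.N E ⧸ span {l})
  rw [qs_eq_univ (l := l)]
  simp only [qs_eq_univ (l := l)]
  rw [qs_eq_sum hF (fun p : (SI T.N E ⧸ span {l}) × (SI T.N E ⧸ span {l}) =>
    T.incl p.1.out + T.incl p.2.out * T.dl), Fintype.sum_prod_type]
  refine ⟨fun x y hxy => ?_, fun x => ?_⟩
  · have h1 := mk_eq_mk.mp hxy
    obtain ⟨z, hz⟩ := h1
    obtain ⟨u, hu, v, hv, huv⟩ := T.exists_rep z.2
    have hz' : algebraMap E L (x.1.out : SI T.N E) + algebraMap E L (x.2.out : SI T.N E) * T.δ -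
        (algebraMap E L (y.1.out : SI T.N E) + algebraMap E L (y.2.out : SI T.N E) * T.δ) =
        algebraMap E L l * z := congrArg (fun z : SI T.N L => (z : L)) hz
    have h2 : algebraMap E L ((x.1.out : SI T.N E) - (y.1.out : SI T.N E)) +
        algebraMap E L ((x.2.out : SI T.N E) - (y.2.out : SI T.N E)) * T.δ =
        algebraMap E L (l * u) + algebraMap E L (l * v) * T.δ := by
      rw [map_sub, map_sub, map_mul, map_mul]
      rw [huv] at hz'
      linear_combination hz'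
    obtain ⟨e1, e2⟩ := T.coord_inj h2
    have d1 : l ∣ x.1.out - y.1.out := ⟨⟨u, hu⟩, Subtype.ext e1⟩
    have d2 : l ∣ x.2.out - y.2.out := ⟨⟨v, hv⟩, Subtype.ext e2⟩
    have f1 := mk_eq_mk.mpr d1
    have f2 := mk_eq_mk.mpr d2
    rw [mk_out, mk_out] at f1 f2
    exact Prod.ext f1 f2
  · obtain ⟨r, hr⟩ := Ideal.Quotient.mk_surjective x
    obtain ⟨u, hu, v, hv, huv⟩ := T.exists_rep r.2
    obtain ⟨t, ht⟩ := exists_out l (⟨u, hu⟩ : SI T.N E)
    obtain ⟨s, hs⟩ := exists_out l (⟨v, hv⟩ : SI T.N E)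
    refine ⟨(Ideal.Quotient.mk _ ⟨u, hu⟩, Ideal.Quotient.mk _ ⟨v, hv⟩), ?_⟩
    rw [← hr]
    apply mk_eq_mk.mpr
    have hr' : r = T.incl ⟨u, hu⟩ + T.incl ⟨v, hv⟩ * T.dl := Subtype.ext huv
    refine ⟨-(T.incl t + T.incl s * T.dl), ?_⟩
    have ht' := congrArg T.incl ht
    have hs' := congrArg T.incl hs
    rw [map_add, map_mul] at ht' hs'
    rw [hr']
    simp only
    linear_combination (-1 : SI T.N L) * ht' - T.dl * hs'

theorem card_incl {l : SI T.N E} (hl : l ≠ 0) :
    (Nat.card (SI T.N L ⧸ span {T.incl l}) : ℂ) = (Nat.card (SI T.N E ⧸ span {l}) : ℂ) ^ 2 := by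
  have hfin := finite_quot T.hN l hl
  have hfin' := finite_quot T.hN _ (T.incl_ne hl)
  have h := T.qs_coord hl (F := fun _ => (1 : ℂ)) (fun _ _ => rfl)
  rw [qs_const _ hfin', qs_congr (fun _ => qs_const (1 : ℂ) hfin), qs_const _ hfin] at h
  rw [mul_one, mul_one] at h
  rw [h, sq]

/-- the value `ψ((a N(x)) / l)` -/
theorem perM_nm {l : SI T.N E} (hl : l ≠ 0) (a : SI T.N E) (η : SI T.N L) :
    PerM (T.incl l) (fun x : SI T.N L =>
      T.ψ ((a * nm (x : L) - tr ((x : L) * T.q.c η)) / l)) := by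
  intro x y
  show T.ψ ((a * nm ((x + T.incl l * y : SI T.N L) : L) -
    tr (((x + T.incl l * y : SI T.N L) : L) * T.q.c η)) / l) = _
  have hl' : (l : E) ≠ 0 := coe_ne_zero hl
  have e1 : nm ((x + T.incl l * y : SI T.N L) : L) = nm (x : L) +
      l * tr ((x : L) * T.q.c y) + l ^ 2 * nm (y : L) := by
    show nm ((x : L) + algebraMap E L l * y) = _
    rw [T.nm_add, map_mul T.q.c, T.c_aM]
    have e2 : (x : L) * (algebraMap E L l * T.q.c y) = algebraMap E L l * (x * T.q.c y) := by ring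
    rw [e2, tr_aM_mul, map_mul nm, Algebra.norm_algebraMap, T.q.two]
  have e2 : tr (((x + T.incl l * y : SI T.N L) : L) * T.q.c η) = tr ((x : L) * T.q.c η) +
      l * tr ((y : L) * T.q.c η) := by
    show tr (((x : L) + algebraMap E L l * y) * T.q.c η) = _
    rw [add_mul, map_add, mul_assoc, tr_aM_mul]
  have e3 : (a * nm ((x + T.incl l * y : SI T.N L) : L) -
      tr (((x + T.incl l * y : SI T.N L) : L) * T.q.c η)) / (l : E) =
      (a * nm (x : L) - tr ((x : L) * T.q.c η)) / l +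
      (a * (tr ((x : L) * T.q.c y) + l * nm (y : L)) - tr ((y : L) * T.q.c η)) := by
    rw [e1, e2]
    field_simp
    ring
  have m1 := T.tr_mem_SI ((SI T.N L).mul_mem x.2 (T.c_mem_SI y.2))
  have m2 := T.tr_mem_SI ((SI T.N L).mul_mem y.2 (T.c_mem_SI η.2))
  rw [e3, AddChar.map_add_eq_mul, T.ψ_SI ((SI T.N E).sub_mem ((SI T.N E).mul_mem a.2
    ((SI T.N E).add_mem m1 ((SI T.N E).mul_mem l.2 (norm_mem_SI y.2)))) m2), mul_one]

/-- **The core lemma.** -/
theorem core {l a a2 : SI T.N E} (hl : l ≠ 0) (h : l ∣ 1 + a * a2) (η : SI T.N L) :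
    qs (T.incl l) (fun x : SI T.N L => T.ψ ((a * nm (x : L) - tr ((x : L) * T.q.c η)) / l)) =
      T.ψ (a2 * nm (η : L) / l) * (Nat.card (SI T.N E ⧸ span {l}) * T.psi (algebraMap E L l)) := by
  have hl' : (l : E) ≠ 0 := coe_ne_zero hl
  have hfin' := finite_quot T.hN _ (T.incl_ne hl)
  have hfin := finite_quot T.hN l hl
  obtain ⟨m, hm⟩ := h
  have hm' : (1 : E) + a * a2 = l * m := congrArg (fun z : SI T.N E => (z : E)) hm
  have hcop : IsCoprime a l := ⟨-a2, m, by linear_combination (-1 : SI T.N E) * hm⟩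
  -- completing the square
  rw [← qs_add (T.perM_nm hl a η) hfin' (-(T.incl a2 * η))]
  have h1 : ∀ x : SI T.N L, T.ψ ((a * nm ((x + -(T.incl a2 * η) : SI T.N L) : L) -
      tr (((x + -(T.incl a2 * η) : SI T.N L) : L) * T.q.c η)) / l) =
      T.ψ (a2 * nm (η : L) / l) * T.ψ (a * nm (x : L) / l) := by
    intro x
    have e1 : nm ((x + -(T.incl a2 * η) : SI T.N L) : L) = nm (x : L) -
        a2 * tr ((x : L) * T.q.c η) + a2 ^ 2 * nm (η : L) := by
      show nm ((x : L) + -(algebraMap E L a2 * η)) = _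
      rw [T.nm_add]
      have e2 : (x : L) * T.q.c (-(algebraMap E L (a2 : E) * η)) =
          algebraMap E L (-a2 : E) * (x * T.q.c η) := by
        rw [map_neg T.q.c, map_mul T.q.c, T.c_aM, map_neg (algebraMap E L)]; ring
      have e3 : -(algebraMap E L (a2 : E) * (η : L)) = algebraMap E L (-a2 : E) * η := by
        rw [map_neg (algebraMap E L)]; ring
      rw [e2, e3, tr_aM_mul, map_mul nm, Algebra.norm_algebraMap, T.q.two]
      ring
    have e2 : tr (((x + -(T.incl a2 * η) : SI T.N L) : L) * T.q.c η) = tr ((x : L) * T.q.c η) -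
        a2 * (2 * nm (η : L)) := by
      show tr (((x : L) + -(algebraMap E L a2 * η)) * T.q.c η) = _
      have e3 : ((x : L) + -(algebraMap E L (a2 : E) * η)) * T.q.c η =
          x * T.q.c η + algebraMap E L (-a2 : E) * (η * T.q.c η) := by
        rw [map_neg (algebraMap E L)]; ring
      rw [e3, map_add, tr_aM_mul]
      have e4 : tr ((η : L) * T.q.c η) = 2 * nm (η : L) := by
        apply aM_inj (L := L)
        rw [T.tr_eq, map_mul T.q.c, T.q.c_c, (algebraMap E L).map_mul, T.nm_eq, map_ofNat]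
        ring
      rw [e4]
      ring
    rw [← AddChar.map_add_eq_mul, e1, e2]
    have e5 : (a * (nm (x : L) - a2 * tr ((x : L) * T.q.c η) + a2 ^ 2 * nm (η : L)) -
        (tr ((x : L) * T.q.c η) - a2 * (2 * nm (η : L)))) / (l : E) =
        a2 * nm (η : L) / l + a * nm (x : L) / l +
        m * (a2 * nm (η : L) - tr ((x : L) * T.q.c η)) := by
      field_simp
      linear_combination (a2 * nm (η : L) - tr ((x : L) * T.q.c η)) * hm'
    rw [e5, AddChar.map_add_eq_mul, T.ψ_SI (x := (m : E) * _), mul_one]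
    exact (SI T.N E).mul_mem m.2 ((SI T.N E).sub_mem ((SI T.N E).mul_mem a2.2 (norm_mem_SI η.2))
      (T.tr_mem_SI ((SI T.N L).mul_mem x.2 (T.c_mem_SI η.2))))
  rw [qs_congr h1, qs_mul_left _ _ hfin']
  congr 1
  -- the Gauss sum
  have hper : PerM (T.incl l) (fun x : SI T.N L => T.ψ (a * nm (x : L) / l)) := by
    have := T.perM_nm hl a 0
    intro x y
    have h2 := this x y
    simp only [ZeroMemClass.coe_zero, map_zero, mul_zero, sub_zero] at h2
    exact h2
  rw [T.qs_coord hl hper]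
  have h3 : ∀ u v : SI T.N E, T.ψ (a * nm ((T.incl u + T.incl v * T.dl : SI T.N L) : L) / l) =
      (T.gd).ch l (a * u ^ 2) * (T.gd).ch l (-(a * (T.gd).D) * v ^ 2) := by
    intro u v
    rw [T.gd_ch, T.gd_ch, ← AddChar.map_add_eq_mul]
    have e1 : nm ((T.incl u + T.incl v * T.dl : SI T.N L) : L) = (u : E) ^ 2 - T.D * (v : E) ^ 2 :=
      T.nm_coord u v
    have e2 : ((a * u ^ 2 : SI T.N E) : E) = a * (u : E) ^ 2 := rfl
    have e3 : ((-(a * (T.gd).D) * v ^ 2 : SI T.N E) : E) = -(a * T.D) * (v : E) ^ 2 := rfl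
    rw [e1, e2, e3]
    congr 1
    ring
  have h4 : ∀ u : SI T.N E, qs l (fun v => T.ψ (a * nm ((T.incl u + T.incl v * T.dl : SI T.N L) : L)
      / l)) = (T.gd).ch l (a * u ^ 2) * (T.gd).G (-(a * (T.gd).D)) l := by
    intro u
    rw [qs_congr (h3 u), qs_mul_left _ _ hfin, ← T.gd_G]
  rw [qs_congr h4, qs_mul_right _ _ hfin, ← T.gd_G]
  exact T.gd_GG hl hcop

end T4D

end Fermat.Agent.LT.T4
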