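import Fermat.Agent.LT.T4.Bd
import Fermat.Agent.LT.T4.Coef
import Fermat.Agent.LT.T4.FFT
import Fermat.Agent.LT.T4.OmI

set_option autoImplicit false
set_option linter.unusedSectionVars false

/-!
# Functions on `HF E × Ω` from functions of the Iwasawa coordinates
-/

namespace Fermat.Agent.LT.T4

open Matrix NumberField
open Fermat.Agent.LT.Theta
open scoped MatrixGroups

section fn

variable {N : ℕ} {E : Type*} [Field E] [NumberField E] {Ω : Type*} [MulAction (GL (Fin 2) E) Ω]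

/-- the functions of the coordinates which only depend on the point -/
def CInv (N : ℕ) {E : Type*} [Field E] [NumberField E] (g : HF E → Eˣ → E → ℂ) : Prop :=
  ∀ (p : HF E) (c : Eˣ) (s : E) (u : Eˣ) (r : E), u ∈ US N E → r ∈ SI N E →
    g p (c * u) (s + c * r) = g p c s

/-- the function on `HF E × Ω` -/
noncomputable def Om.fn (om : Om N E Ω) (g : HF E → Eˣ → E → ℂ) (x : HF E × Ω) : ℂ :=
  g x.1 (om.iwa x.2).choose (om.iwa x.2).choose_spec.choose

/-- the coordinates of a point -/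
theorem Om.coord (om : Om N E Ω) {c c' : Eˣ} {s s' : E}
    (h : nMat s • Sp.aMat c • om.base = nMat s' • Sp.aMat c' • om.base) :
    ∃ (u : Eˣ) (r : E), u ∈ US N E ∧ r ∈ SI N E ∧ c' = c * u ∧ s' = s + c * r := by
  set k : GL (Fin 2) E := (nMat s * Sp.aMat c)⁻¹ * (nMat s' * Sp.aMat c') with hk
  have h1 : k • om.base = om.base := by
    rw [hk, mul_smul, mul_smul, ← h, ← mul_smul (nMat s), inv_smul_smul]
  obtain ⟨z, hz⟩ := (om.stab k).mp h1
  have hc0 : (c : E) ≠ 0 := c.ne_zero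
  have hc0' : (c' : E) ≠ 0 := c'.ne_zero
  have hkm : nMat s * Sp.aMat c * k = nMat s' * Sp.aMat c' := by rw [hk, mul_inv_cancel_left]
  have hki : k⁻¹ = (nMat s' * Sp.aMat c')⁻¹ * (nMat s * Sp.aMat c) := by
    rw [hk, _root_.mul_inv_rev, inv_inv]
  have hkm' : nMat s' * Sp.aMat c' * k⁻¹ = nMat s * Sp.aMat c := by
    rw [hki, mul_inv_cancel_left]
  have ent : ∀ (s s' : E) (c c' : Eˣ) (k : GL (Fin 2) E),
      nMat s * Sp.aMat c * k = nMat s' * Sp.aMat c' → k 1 1 = 1 ∧ (c : E) * k 0 0 = c' ∧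
        (c : E) * k 0 1 + s = s' := by
    intro s s' c c' k hkm
    have e := congrArg (fun g : GL (Fin 2) E => (g : Matrix (Fin 2) (Fin 2) E)) hkm
    simp only [Units.val_mul, nMat_coe, Sp.aMat_coe] at e
    have e11 := congrFun (congrFun e 1) 1
    have e10 := congrFun (congrFun e 1) 0
    have e00 := congrFun (congrFun e 0) 0
    have e01 := congrFun (congrFun e 0) 1
    simp only [Matrix.mul_apply, Fin.sum_univ_two, Matrix.of_apply, Matrix.cons_val',
      Matrix.cons_val_zero, Matrix.cons_val_one, Matrix.cons_val_fin_one] at e11 e10 e00 e01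
    refine ⟨by linear_combination e11, by linear_combination e00 - s * e10, ?_⟩
    linear_combination e01 - s * e11
  obtain ⟨k11, k00, k01⟩ := ent _ _ _ _ _ hkm
  obtain ⟨k11', k00', -⟩ := ent _ _ _ _ _ hkm'
  have z1 : (z : E) ∈ SI N E := by
    have := (hz 1 1).1
    rwa [k11, mul_one] at this
  have z2 : ((z⁻¹ : Eˣ) : E) ∈ SI N E := by
    have := (hz 1 1).2
    rwa [k11', mul_one] at this
  have hzz : (z : E) * ((z⁻¹ : Eˣ) : E) = 1 := Units.mul_inv z
  refine ⟨c⁻¹ * c', k 0 1, ⟨?_, ?_⟩, ?_, ?_, ?_⟩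
  · have : ((c⁻¹ * c' : Eˣ) : E) = ((z⁻¹ : Eˣ) : E) * ((z : E) * k 0 0) := by
      rw [Units.val_mul, ← k00, ← mul_assoc ((c⁻¹ : Eˣ) : E), Units.inv_mul, one_mul]
      linear_combination (-(k 0 0)) * hzz
    rw [this]
    exact (SI N E).mul_mem z2 (hz 0 0).1
  · have : (((c⁻¹ * c')⁻¹ : Eˣ) : E) = (z : E) * (((z⁻¹ : Eˣ) : E) * k⁻¹ 0 0) := by
      rw [_root_.mul_inv_rev, inv_inv, Units.val_mul, ← k00', ← mul_assoc ((c'⁻¹ : Eˣ) : E),
        Units.inv_mul, one_mul]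
      linear_combination (-(k⁻¹ 0 0)) * hzz
    rw [this]
    exact (SI N E).mul_mem z1 (hz 0 0).2
  · have : k 0 1 = ((z⁻¹ : Eˣ) : E) * ((z : E) * k 0 1) := by
      linear_combination (-(k 0 1)) * hzz
    rw [this]
    exact (SI N E).mul_mem z2 (hz 0 1).1
  · rw [mul_inv_cancel_left]
  · rw [← k01]; ring

variable (om : Om N E Ω)

theorem Om.fn_apply {g : HF E → Eˣ → E → ℂ} (hg : CInv N g) (p : HF E) (c : Eˣ) (s : E) :
    om.fn g (p, nMat s • Sp.aMat c • om.base) = g p c s := by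
  have h := (om.iwa (nMat s • Sp.aMat c • om.base)).choose_spec.choose_spec
  show g p (om.iwa (nMat s • Sp.aMat c • om.base)).choose
    (om.iwa (nMat s • Sp.aMat c • om.base)).choose_spec.choose = _
  have key : ∀ (c' : Eˣ) (s' : E), nMat s • Sp.aMat c • om.base = nMat s' • Sp.aMat c' • om.base →
      g p c' s' = g p c s := by
    intro c' s' h
    obtain ⟨u, r, hu, hr, e1, e2⟩ := om.coord h
    rw [e1, e2]
    exact hg _ _ _ _ _ hu hr
  exact key _ _ h

theorem Om.fn_base {g : HF E → Eˣ → E → ℂ} (hg : CInv N g) (p : HF E) :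
    om.fn g (p, om.base) = g p 1 0 := by
  have h := om.fn_apply hg p 1 0
  have e1 : nMat (0 : E) = 1 := by
    apply Units.ext
    rw [nMat_coe]
    ext i j
    fin_cases i <;> fin_cases j <;> simp
  have e2 : Sp.aMat (1 : Eˣ) = 1 := by
    apply Units.ext
    rw [Sp.aMat_coe]
    ext i j
    fin_cases i <;> fin_cases j <;> simp
  rwa [e1, e2, one_smul, one_smul] at h

theorem nMat_mul (a b : E) : nMat a * nMat b = nMat (a + b) := by
  apply Units.ext
  rw [Units.val_mul, nMat_coe, nMat_coe, nMat_coe]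
  ext i j
  fin_cases i <;> fin_cases j <;> simp [Matrix.mul_apply, Fin.sum_univ_two, add_comm]

theorem aMat_mul (a b : Eˣ) : Sp.aMat a * Sp.aMat b = Sp.aMat (a * b) := by
  apply Units.ext
  rw [Units.val_mul, Sp.aMat_coe, Sp.aMat_coe, Sp.aMat_coe]
  ext i j
  fin_cases i <;> fin_cases j <;> simp [Matrix.mul_apply, Fin.sum_univ_two]

theorem aMat_mul_nMat (a : Eˣ) (b : E) : Sp.aMat a * nMat b = nMat ((a : E) * b) * Sp.aMat a := by
  apply Units.ext
  rw [Units.val_mul, Units.val_mul, Sp.aMat_coe, nMat_coe, nMat_coe]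
  ext i j
  fin_cases i <;> fin_cases j <;> simp [Matrix.mul_apply, Fin.sum_univ_two]

/-- unipotent translations in coordinates -/
theorem Om.fn_nMat {g g' : HF E → Eˣ → E → ℂ} (hg : CInv N g) (hg' : CInv N g') (b : E) (C : ℂ)
    (h : ∀ p c s, g (nMat b • p) c (b + s) = C * g' p c s) (x : HF E × Ω) :
    om.fn g (nMat b • x) = C * om.fn g' x := by
  obtain ⟨p, ω⟩ := x
  obtain ⟨c, s, rfl⟩ := om.iwa ω
  have e : nMat b • ((p, nMat s • Sp.aMat c • om.base) : HF E × Ω) =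
      (nMat b • p, nMat (b + s) • Sp.aMat c • om.base) := by
    rw [← nMat_mul, mul_smul]; rfl
  rw [e, om.fn_apply hg, om.fn_apply hg', h]

/-- diagonal translations in coordinates -/
theorem Om.fn_aMat {g g' : HF E → Eˣ → E → ℂ} (hg : CInv N g) (hg' : CInv N g') (a : Eˣ) (C : ℂ)
    (h : ∀ p c s, g (Sp.aMat a • p) (a * c) ((a : E) * s) = C * g' p c s) (x : HF E × Ω) :
    om.fn g (Sp.aMat a • x) = C * om.fn g' x := by
  obtain ⟨p, ω⟩ := x
  obtain ⟨c, s, rfl⟩ := om.iwa ω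
  have e : Sp.aMat a • ((p, nMat s • Sp.aMat c • om.base) : HF E × Ω) =
      (Sp.aMat a • p, nMat ((a : E) * s) • Sp.aMat (a * c) • om.base) := by
    rw [← aMat_mul, mul_smul (Sp.aMat a) (Sp.aMat c), ← mul_smul (nMat _) (Sp.aMat a),
      ← aMat_mul_nMat, mul_smul]
    rfl
  rw [e, om.fn_apply hg, om.fn_apply hg', h]

end fn

section laws

variable {E L : Type*} [Field E] [NumberField E] [Field L] [NumberField L] [Algebra E L]
  (T : T4D E L)

theorem nrm_US {u : Eˣ} (hu : u ∈ US T.N E) : nrm T.N (u : E) = 1 := by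
  have h0 : (⟨u, hu.1⟩ : SI T.N E) ≠ 0 := fun h => u.ne_zero (congrArg Subtype.val h)
  have h1 : IsUnit (⟨u, hu.1⟩ : SI T.N E) :=
    ⟨⟨⟨u, hu.1⟩, ⟨_, hu.2⟩, Subtype.ext (Units.mul_inv u), Subtype.ext (Units.inv_mul u)⟩, rfl⟩
  have h2 := nrm_coe T.hN h0
  rw [Ideal.span_singleton_eq_top.mpr h1] at h2
  rw [show ((⟨u, hu.1⟩ : SI T.N E) : E) = (u : E) from rfl] at h2
  rw [h2]
  have : Subsingleton (SI T.N E ⧸ (⊤ : Ideal (SI T.N E))) :=
    Ideal.Quotient.subsingleton_iff.mpr rfl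
  rw [Nat.card_of_subsingleton (0 : SI T.N E ⧸ (⊤ : Ideal (SI T.N E)))]
  simp

theorem T4D.cInv_f (n : ℕ) : CInv T.N (T.f n) := by
  intro p c s u r hu hr
  unfold T4D.f
  have e0 : nrm T.N ((c * u : Eˣ) : E) = nrm T.N (c : E) := by
    rw [Units.val_mul, nrm_mul T.hN c.ne_zero u.ne_zero, nrm_US T hu, mul_one]
  rw [e0]
  congr 1
  apply tsum_congr
  intro ξ
  have e1 : (QuotientGroup.mk ((ξ : Eˣ) * (c * u)) : Idl T.N E) =
      QuotientGroup.mk ((ξ : Eˣ) * c) := by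
    rw [QuotientGroup.eq]
    have : ((ξ : Eˣ) * (c * u))⁻¹ * ((ξ : Eˣ) * c) = u⁻¹ := by
      rw [← mul_assoc, _root_.mul_inv_rev, inv_mul_cancel_right, _root_.mul_inv_rev,
        inv_mul_cancel_right]
    rw [this]
    exact (US T.N E).inv_mem hu
  have e2 : T.A ((ξ : Eˣ) * (c * u)) = T.A ((ξ : Eˣ) * c) := T.A_congr e1
  rw [e2]
  by_cases hA : T.A ((ξ : Eˣ) * c) = 0
  · rw [hA, zero_mul, zero_mul, zero_mul, zero_mul]
  · have h1 : (((ξ : Eˣ) * c : Eˣ) : E) ∈ SI T.N E := by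
      by_contra h
      exact hA (T.A_eq_zero h)
    have e3 : ((ξ : Eˣ) : E) * (s + c * r) = (ξ : Eˣ) * s + (((ξ : Eˣ) * c : Eˣ) : E) * r := by
      rw [Units.val_mul]; ring
    rw [e3, AddChar.map_add_eq_mul, T.ψ_SI ((SI T.N E).mul_mem h1 hr), mul_one]

variable [IsTotallyComplex E]

theorem ψ_mul_ev (x : E) : T.ψ x * Fou.ev 1 (Fou.emb x) = (T.ψB x)⁻¹ := by
  have h1 := T.ψ_mul_ψB x
  have h2 : e0 E x * Fou.ev 1 (Fou.emb x) = 1 := by
    rw [e0_eq_ev, ← Fou.ev_add, ← Fou.emb_add, neg_add_cancel, Fou.emb_zero]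
    simp [Fou.ev]
  rw [← h1] at h2
  apply eq_inv_of_mul_eq_one_left
  linear_combination h2

/-- **(I1) in coordinates** -/
theorem T4D.f_nMat (n : ℕ) {b : E} (hb : ∀ z ∈ LI T.N E, T.ψB (b * ((T.N : E) ^ n * z)) = 1)
    (p : HF E) (c : Eˣ) (s : E) : T.f n (nMat b • p) c (b + s) = (T.ψB b)⁻¹ * T.f n p c s := by
  unfold T4D.f
  rw [mul_left_comm]
  congr 1
  rw [← tsum_mul_left]
  apply tsum_congr
  rintro ⟨ξ, y, hy, hξ⟩
  show T.A (ξ * c) * T.ψ ((ξ : E) * (b + s)) * bw (nMat b • p) (ξ : E) =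
    (T.ψB b)⁻¹ * (T.A (ξ * c) * T.ψ ((ξ : E) * s) * bw p (ξ : E))
  rw [bw_nMat, Fou.ev_eq_one, mul_add, AddChar.map_add_eq_mul]
  have h1 : T.ψB ((ξ : E) * b) = T.ψB b := by
    rw [hξ, show (1 + (T.N : E) ^ n * y) * b = b + b * ((T.N : E) ^ n * y) by ring,
      AddChar.map_add_eq_mul, hb y hy, mul_one]
  rw [← h1, ← ψ_mul_ev]
  ring

variable {Ω : Type*} [MulAction (GL (Fin 2) E) Ω] (om : Om T.N E Ω)

/-- **(I1)** -/
theorem T4D.fn_I1 (n : ℕ) {b : E} (hb : ∀ z ∈ LI T.N E, T.ψB (b * ((T.N : E) ^ n * z)) = 1)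
    (x : HF E × Ω) : om.fn (T.f n) (nMat b • x) = (T.ψB b)⁻¹ * om.fn (T.f n) x :=
  om.fn_nMat (T.cInv_f n) (T.cInv_f n) b _ (fun p c s => T.f_nMat n hb p c s) x

end laws

end Fermat.Agent.LT.T4
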