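import Fermat.Agent.LT.Glob.Fin

set_option autoImplicit false

/-!
# Class number one and weak approximation away from / at a finite set of places
-/

namespace Fermat.Agent.LT.T4

open Matrix Filter
open Fermat.Agent.LT.Glob
open Fermat.Agent.LT.Glob.LocFam
open scoped MatrixGroups

universe w u i

variable {F : Type u} [Field F] {ι : Type i} (L : LocFam.{w} F ι)

/-- class number one away from `B` -/
def ClassOne (B : Finset ι) : Prop := ∀ t : ∀ v, (L.R v)ˣ,
  (∀ᶠ v in cofinite, t v ∈ OU (L.O v)) → ∃ a : Fˣ, ∀ v ∉ B, L.un v a * t v ∈ OU (L.O v)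

theorem ClassOne.mono {B B' : Finset ι} (h : ClassOne L B) (hB : B ⊆ B') : ClassOne L B' := by
  intro t ht
  obtain ⟨a, ha⟩ := h t ht
  exact ⟨a, fun v hv => ha v fun h' => hv (hB h')⟩

theorem exists_classOne [NumberField F] : ∃ B : Finset ι, ClassOne L B := by
  classical
  obtain ⟨C, hC, h⟩ := LocFam.idele_finite (F := F) L
  refine ⟨C.attach.biUnion fun c => (hC c.1 c.2).toFinset, fun t ht => ?_⟩
  obtain ⟨a, c, hc, ha⟩ := h t ht
  refine ⟨a, fun v hv => ?_⟩
  have h1 : c v = 1 := by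
    by_contra hne
    apply hv
    rw [Finset.mem_biUnion]
    exact ⟨⟨c, hc⟩, Finset.mem_attach _ _, by simpa using hne⟩
  have := ha v
  rwa [h1, inv_one, mul_one] at this

theorem emb_tri (v : ι) (a d : Fˣ) (s : F) : L.emb v (tri a d s) =
    ProjGenLinGroup.mk (tri (L.un v a) (L.un v d) (L.loc v s)) := by
  rw [emb_eq, map_tri]; rfl

/-- scaling triangular matrices -/
theorem mk_tri {R : Type*} [CommRing R] (a d : Rˣ) (s : R) :
    (ProjGenLinGroup.mk (tri a d s) : PGL(2, R)) =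
      ProjGenLinGroup.mk (tri (a * d⁻¹) 1 (s * ((d⁻¹ : Rˣ) : R))) := by
  have : tri a d s = tri (a * d⁻¹) 1 (s * ((d⁻¹ : Rˣ) : R)) * sc d := by
    rw [← sc_comm]
    apply Units.ext
    rw [Units.val_mul, sc_coe, tri_coe, tri_coe]
    ext i j
    fin_cases i <;> fin_cases j <;> simp [mul_left_comm]
  rw [this, map_mul, sc, ProjGenLinGroup.mk_scalar, mul_one]

variable {L}

theorem smul_base_mk {U : L.Level} {v : ι} (g : L.G v) :
    g • X.base U v = ((g : L.G v) : L.G v ⧸ U.U v) := by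
  show ((g * 1 : L.G v) : L.G v ⧸ U.U v) = _
  rw [mul_one]

/-- **Coordinates away from `B`.** -/
theorem exists_coord {B : Finset ι} (hB : ClassOne L B) {U : L.Level}
    (hU : ∀ v ∉ B, U.U v = PO (L.O v)) (d : D U) :
    ∃ (c : Fˣ) (s : F), ∀ v ∉ B, d v = L.emb v (tri c 1 s) • X.base U v := by
  classical
  -- local coordinates
  have h1 : ∀ v, ∃ (t : (L.R v)ˣ) (σ : L.R v), (v ∉ B →
      d v = ProjGenLinGroup.mk (tri t 1 σ) • X.base U v) ∧
      (d v = X.base U v → t = 1 ∧ σ = 0) := by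
    intro v
    by_cases hd : d v = X.base U v
    · refine ⟨1, 0, fun _ => ?_, fun _ => ⟨rfl, rfl⟩⟩
      have : tri (1 : (L.R v)ˣ) 1 (0 : L.R v) = 1 := by
        apply Units.ext
        rw [tri_coe]
        ext i j
        fin_cases i <;> fin_cases j <;> simp
      rw [this, map_one, one_smul, hd]
    · by_cases hv : v ∈ B
      · exact ⟨1, 0, fun h => absurd hv h, fun h => absurd h hd⟩
      · obtain ⟨g, hg⟩ := QuotientGroup.mk_surjective (d v)
        obtain ⟨g', rfl⟩ := ProjGenLinGroup.mk_surjective g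
        obtain ⟨a, b, s, k, hk, rfl⟩ := L.iwasawa v g'
        refine ⟨a * b⁻¹, s * ((b⁻¹ : (L.R v)ˣ) : L.R v), fun _ => ?_, fun h => absurd h hd⟩
        rw [← hg, map_mul, mk_tri, smul_base_mk]
        rw [QuotientGroup.eq, hU v hv]
        rw [_root_.mul_inv_rev, inv_mul_cancel_right]
        exact inv_mem (mk_mem_PO hk)
  choose t σ h2 h3 using h1
  have ht : ∀ᶠ v in cofinite, t v ∈ OU (L.O v) := by
    filter_upwards [d.2] with v hv
    rw [(h3 v hv).1]; exact one_mem _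
  obtain ⟨a, ha⟩ := hB t ht
  -- strong approximation
  obtain ⟨S, hS⟩ := exists_finset_compl d.2
  obtain ⟨x, hx1, hx2⟩ := L.dense S (fun v => L.loc v a * σ v) 1 one_ne_zero
  refine ⟨a⁻¹, ((a⁻¹ : Fˣ) : F) * x, fun v hv => ?_⟩
  have hx : L.loc v x - L.loc v a * σ v ∈ L.O v := by
    by_cases hvS : v ∈ S
    · exact NO_one.mp (hx1 v hvS)
    · rw [(h3 v (hS v hvS)).2, mul_zero, sub_zero]; exact hx2 v hvS
  have key : tri (t v) 1 (σ v) = tri (L.un v a⁻¹) 1 (L.loc v (((a⁻¹ : Fˣ) : F) * x)) *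
      tri (L.un v a * t v) 1 (-(L.loc v x - L.loc v a * σ v)) := by
    rw [tri_mul, mul_one]
    have e1 : L.un v a⁻¹ * (L.un v a * t v) = t v := by
      rw [← mul_assoc, ← map_mul, inv_mul_cancel, map_one, one_mul]
    have e2 : L.loc v ((a⁻¹ : Fˣ) : F) * L.loc v a = 1 := by
      rw [← map_mul, Units.inv_mul, map_one]
    rw [e1]
    congr 1
    rw [un_coe, Units.val_one, mul_one, map_mul]
    linear_combination (- σ v) * e2
  rw [h2 v hv, key, map_mul, mul_smul, emb_tri, map_one]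
  congr 1
  refine smul_base ?_
  rw [hU v hv]
  refine mk_mem_PO (tri_mem (ha v hv) (one_mem _) ((L.O v).neg_mem hx))

/-- ideles of determinant type: matrices which are integral up to a scalar away from `B` -/
theorem exists_scalar {B : Finset ι} (hB : ClassOne L B) {k : GL (Fin 2) F}
    (hk : ∀ v ∉ B, L.emb v k ∈ PO (L.O v)) :
    ∃ z : Fˣ, ∀ v ∉ B, GeneralLinearGroup.map (L.loc v) (sc z * k) ∈ GLO (L.O v) := by
  classical
  have h1 : ∀ v, ∃ z : (L.R v)ˣ, (v ∉ B → sc z * GeneralLinearGroup.map (L.loc v) k ∈ GLO (L.O v)) ∧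
      (GeneralLinearGroup.map (L.loc v) k ∈ GLO (L.O v) → z = 1) := by
    intro v
    by_cases hv : GeneralLinearGroup.map (L.loc v) k ∈ GLO (L.O v)
    · exact ⟨1, fun _ => by rw [map_one, one_mul]; exact hv, fun _ => rfl⟩
    · by_cases hvB : v ∈ B
      · exact ⟨1, fun h => absurd hvB h, fun h => absurd h hv⟩
      · obtain ⟨z, hz⟩ := mk_mem_PO_iff.mp (hk v hvB)
        exact ⟨z, fun _ => hz, fun h => absurd h hv⟩
  choose z hz hz1 using h1
  have ht : ∀ᶠ v in cofinite, (z v)⁻¹ ∈ OU (L.O v) := by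
    filter_upwards [L.eventually_map_mem k] with v hv
    rw [hz1 v hv, inv_one]; exact one_mem _
  obtain ⟨a, ha⟩ := hB (fun v => (z v)⁻¹) ht
  refine ⟨a, fun v hv => ?_⟩
  have e1 : GeneralLinearGroup.map (L.loc v) (sc a * k) =
      sc (L.un v a * (z v)⁻¹) * (sc (z v) * GeneralLinearGroup.map (L.loc v) k) := by
    rw [← mul_assoc, ← map_mul, inv_mul_cancel_right, map_mul]
    congr 1
    apply Units.ext
    ext i j
    show L.loc v ((sc a : GL (Fin 2) F) i j) = (sc (L.un v a) : GL (Fin 2) (L.R v)) i j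
    rw [sc_coe, sc_coe]
    fin_cases i <;> fin_cases j <;> simp
  rw [e1]
  refine mul_mem ?_ (hz v hv)
  have h2 := ha v hv
  rw [mem_GLO]
  constructor
  · intro i j
    rw [sc_coe]
    fin_cases i <;> fin_cases j <;> simp [(L.O v).zero_mem] <;> exact h2.1
  · intro i j
    rw [← map_inv, sc_coe]
    fin_cases i <;> fin_cases j <;> simp [(L.O v).zero_mem] <;> simpa using h2.2

/-! ### weak approximation -/

/-- `1 + M O` consists of units for some `M ≠ 0` -/
def UnitDeep {R : Type*} [CommRing R] (O : Subring R) : Prop :=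
  ∃ M : ℕ, M ≠ 0 ∧ ∀ x ∈ O, ∃ y ∈ O, (1 + M * x) * y = 1

theorem UnitDeep.exists_finset {B : Finset ι} (hB : ∀ v ∈ B, UnitDeep (L.O v)) :
    ∃ M : ℕ, M ≠ 0 ∧ ∀ v ∈ B, ∀ x ∈ L.O v, ∃ y ∈ L.O v, (1 + M * x) * y = 1 := by
  classical
  have h : ∀ v, ∃ M : ℕ, M ≠ 0 ∧ (v ∈ B → ∀ x ∈ L.O v, ∃ y ∈ L.O v, (1 + M * x) * y = 1) := by
    intro v
    by_cases hv : v ∈ B
    · obtain ⟨M, hM, h⟩ := hB v hv
      exact ⟨M, hM, fun _ => h⟩
    · exact ⟨1, one_ne_zero, fun h => absurd h hv⟩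
  choose M hM h using h
  refine ⟨∏ v ∈ B, M v, Finset.prod_ne_zero_iff.mpr fun v _ => hM v, fun v hv x hx => ?_⟩
  rw [← Finset.mul_prod_erase B M hv]
  obtain ⟨y, hy, e⟩ := h v hv (((∏ u ∈ B.erase v, M u : ℕ) : L.R v) * x)
    ((L.O v).mul_mem (natCast_mem _ _) hx)
  refine ⟨y, hy, ?_⟩
  push_cast at e ⊢
  linear_combination e

/-- matrices close to the identity are invertible -/
theorem mem_KN_of_near {R : Type*} [CommRing R] {O : Subring R} {M K : ℕ}
    (hM : ∀ x ∈ O, ∃ y ∈ O, (1 + M * x) * y = 1) (hMK : M ∣ K) {g : GL (Fin 2) R}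
    (hg : ∀ i j, g i j - (1 : Matrix (Fin 2) (Fin 2) R) i j ∈ NO O K) : g ∈ KN O K := by
  have h1 : ∀ i j, g i j ∈ O := by
    intro i j
    have h2 : (1 : Matrix (Fin 2) (Fin 2) R) i j ∈ O := by
      rw [Matrix.one_apply]; split_ifs; exacts [O.one_mem, O.zero_mem]
    have := O.add_mem (NO_le O K (hg i j)) h2
    rwa [sub_add_cancel] at this
  refine ⟨mem_GLO_iff.mpr ⟨h1, ?_⟩, hg⟩
  -- the determinant
  have h00 := NO_mono hMK (hg 0 0)
  have h11 := NO_mono hMK (hg 1 1)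
  have h01 := NO_mono hMK (hg 0 1)
  simp only [Matrix.one_apply_eq, ne_eq, zero_ne_one, not_false_eq_true, Matrix.one_apply_ne,
    sub_zero] at h00 h11 h01
  have hd : (GeneralLinearGroup.det g : R) - 1 ∈ NO O M := by
    have e : (GeneralLinearGroup.det g : R) - 1 =
        (g 0 0 - 1) * g 1 1 + (g 1 1 - 1) - g 0 1 * g 1 0 := by
      show (g : Matrix (Fin 2) (Fin 2) R).det - 1 = _
      rw [Matrix.det_fin_two]; ring
    rw [e]
    exact sub_mem (add_mem (mul_mem_NO' h00 (h1 1 1)) h11) (mul_mem_NO' h01 (h1 1 0))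
  obtain ⟨x, hx, e⟩ := hd
  obtain ⟨y, hy, e'⟩ := hM x hx
  have e2 : (GeneralLinearGroup.det g : R) = 1 + M * x := by rw [← e]; ring
  rw [← e2] at e'
  have e3 : ((GeneralLinearGroup.det g)⁻¹ : Rˣ).val = y := by
    calc ((GeneralLinearGroup.det g)⁻¹ : Rˣ).val
        = ((GeneralLinearGroup.det g)⁻¹ : Rˣ).val * ((GeneralLinearGroup.det g : R) * y) := by
          rw [e', mul_one]
      _ = y := by rw [← mul_assoc, Units.inv_mul, one_mul]
  rw [e3]; exact hy

/-- **Weak approximation for `GL₂`.** -/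
theorem exists_near {B : Finset ι} (hB : ∀ v ∈ B, UnitDeep (L.O v))
    (hnt : ∀ v ∈ B, Nontrivial (L.R v)) (g : ∀ v, L.G v) {K : ℕ} (hK : K ≠ 0) :
    ∃ γ : GL (Fin 2) F, ∀ v ∈ B, L.emb v γ * g v ∈ PK (L.O v) K := by
  classical
  obtain ⟨M, hM0, hM⟩ := UnitDeep.exists_finset hB
  have hlift : ∀ v, ∃ h : GL (Fin 2) (L.R v), (ProjGenLinGroup.mk h : L.G v) = g v :=
    fun v => ProjGenLinGroup.mk_surjective _
  choose h hh using hlift
  obtain ⟨D, hD0, hD⟩ := L.finite_denom_mat B (fun v => (h v : Matrix (Fin 2) (Fin 2) (L.R v)))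
  have hN : K * M * D ≠ 0 := mul_ne_zero (mul_ne_zero hK hM0) hD0
  choose a ha _ using fun p : Fin 2 × Fin 2 => L.dense B
    (fun v => ((h v)⁻¹ : GL (Fin 2) (L.R v)) p.1 p.2) (K * M * D) hN
  let A : Matrix (Fin 2) (Fin 2) F := fun i j => a (i, j)
  -- the product is near the identity
  have key : ∀ v ∈ B, ∀ i j, ((A.map (L.loc v)) * (h v : Matrix (Fin 2) (Fin 2) (L.R v))) i j -
      (1 : Matrix (Fin 2) (Fin 2) (L.R v)) i j ∈ NO (L.O v) (K * M) := by
    intro v hv i j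
    have e1 : ((A.map (L.loc v)) * (h v : Matrix (Fin 2) (Fin 2) (L.R v))) i j -
        (1 : Matrix (Fin 2) (Fin 2) (L.R v)) i j =
        ∑ k, (L.loc v (a (i, k)) - ((h v)⁻¹ : GL (Fin 2) (L.R v)) i k) * h v k j := by
      have e2 : (1 : Matrix (Fin 2) (Fin 2) (L.R v)) i j =
          ∑ k, ((h v)⁻¹ : GL (Fin 2) (L.R v)) i k * h v k j := by
        rw [← Matrix.mul_apply, ← Units.val_mul, inv_mul_cancel, Units.val_one]
      rw [e2, Matrix.mul_apply, ← Finset.sum_sub_distrib]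
      exact Finset.sum_congr rfl fun k _ => (sub_mul _ _ _).symm
    rw [e1]
    refine sum_mem fun k _ => ?_
    obtain ⟨y, hy, e⟩ := ha (i, k) v hv
    have e' : L.loc v (a (i, k)) - ((h v)⁻¹ : GL (Fin 2) (L.R v)) i k =
      ((K * M * D : ℕ) : L.R v) * y := e
    rw [e']
    refine ⟨y * ((D : L.R v) * h v k j), (L.O v).mul_mem hy (hD v hv k j), ?_⟩
    push_cast
    ring
  by_cases hBe : B.Nonempty
  · obtain ⟨v₀, hv₀⟩ := hBe
    have hdet : A.det ≠ 0 := by
      intro h0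
      have := hnt v₀ hv₀
      -- the determinant of the product is a unit
      have h1 := key v₀ hv₀
      set P := (A.map (L.loc v₀)) * (h v₀ : Matrix (Fin 2) (Fin 2) (L.R v₀)) with hP
      have hP0 : P.det = 0 := by
        rw [hP, Matrix.det_mul]
        have : (A.map (L.loc v₀)).det = L.loc v₀ A.det := by
          rw [RingHom.map_det]; rfl
        rw [this, h0, map_zero, zero_mul]
      have h2 : ∀ i j, P i j ∈ L.O v₀ := by
        intro i j
        have h2 : (1 : Matrix (Fin 2) (Fin 2) (L.R v₀)) i j ∈ L.O v₀ := by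
          rw [Matrix.one_apply]; split_ifs; exacts [(L.O v₀).one_mem, (L.O v₀).zero_mem]
        have := (L.O v₀).add_mem (NO_le _ _ (h1 i j)) h2
        rwa [sub_add_cancel] at this
      have h00 := NO_mono (dvd_mul_left M K) (h1 0 0)
      have h11 := NO_mono (dvd_mul_left M K) (h1 1 1)
      have h01 := NO_mono (dvd_mul_left M K) (h1 0 1)
      simp only [Matrix.one_apply_eq, ne_eq, zero_ne_one, not_false_eq_true, Matrix.one_apply_ne,
        sub_zero] at h00 h11 h01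
      have h3 : P.det - 1 ∈ NO (L.O v₀) M := by
        have e : P.det - 1 = (P 0 0 - 1) * P 1 1 + (P 1 1 - 1) - P 0 1 * P 1 0 := by
          rw [Matrix.det_fin_two]; ring
        rw [e]
        exact sub_mem (add_mem (mul_mem_NO' h00 (h2 1 1)) h11) (mul_mem_NO' h01 (h2 1 0))
      obtain ⟨x, hx, e⟩ := h3
      obtain ⟨y, hy, e'⟩ := hM v₀ hv₀ x hx
      have e2 : 1 + (M : L.R v₀) * x = 0 := by rw [← e, hP0]; ring
      rw [e2, zero_mul] at e'
      exact zero_ne_one e'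
    let γ : GL (Fin 2) F := Matrix.GeneralLinearGroup.mkOfDetNeZero A hdet
    refine ⟨γ, fun v hv => ?_⟩
    have e1 : L.emb v γ * g v = ProjGenLinGroup.mk (GeneralLinearGroup.map (L.loc v) γ * h v) := by
      rw [map_mul, hh, emb_eq]
    rw [e1]
    refine mk_mem_PK (KN_mono (dvd_mul_right K M) (mem_KN_of_near (hM v hv) (dvd_mul_left M K) ?_))
    exact key v hv
  · refine ⟨1, fun v hv => absurd ⟨v, hv⟩ hBe⟩

end Fermat.Agent.LT.T4
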