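import Fermat.Agent.LT.T4.Gen
import Fermat.Agent.LT.Glob.InstE

set_option autoImplicit false

/-!
# `1 + M O` consists of units: the completions of number fields
-/

namespace Fermat.Agent.LT.T4

open Matrix Filter IsDedekindDomain IsDedekindDomain.HeightOneSpectrum WithZero NumberField
open Fermat.Agent.LT.Glob

section

variable {F : Type*} [Field F] [NumberField F]

theorem valued_absNorm_lt (v : HeightOneSpectrum (𝓞 F)) :
    Valued.v ((Ideal.absNorm v.asIdeal : ℕ) : v.adicCompletion F) < 1 := by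
  have hqv : Valued.v ((Ideal.absNorm v.asIdeal : ℕ) : v.adicCompletion F) ≤ exp (-1 : ℤ) := by
    rw [← map_natCast (algebraMap F (v.adicCompletion F)), valued_algebraMap,
      ← map_natCast (algebraMap (𝓞 F) F), valuation_of_algebraMap]
    have h1 := (v.intValuation_le_pow_iff_mem ((Ideal.absNorm v.asIdeal : ℕ) : 𝓞 F) 1).2 (by
      rw [pow_one]; exact Ideal.absNorm_mem v.asIdeal)
    simpa using h1
  refine lt_of_le_of_lt hqv ?_
  rw [← exp_zero, exp_lt_exp]
  norm_num

/-- inverses of elements close to one -/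
theorem exists_inv_Oc (v : HeightOneSpectrum (𝓞 F)) {x : v.adicCompletion F}
    (hx : Valued.v x < 1) : ∃ y ∈ Oc v, (1 + x) * y = 1 := by
  have h1 : Valued.v (1 + x) = 1 := by
    exact Valuation.map_one_add_of_lt _ hx
  have h0 : (1 + x) ≠ 0 := by
    intro h
    rw [h, map_zero] at h1
    exact zero_ne_one h1
  refine ⟨(1 + x)⁻¹, ?_, mul_inv_cancel₀ h0⟩
  rw [mem_Oc, map_inv₀, h1, inv_one]

theorem unitDeep_Oc (v : HeightOneSpectrum (𝓞 F)) : UnitDeep (Oc (K := F) v) := by
  refine ⟨Ideal.absNorm v.asIdeal, ?_, fun x hx => exists_inv_Oc v ?_⟩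
  · rw [Ne, Ideal.absNorm_eq_zero_iff]
    exact v.ne_bot
  · rw [map_mul]
    exact mul_lt_one_of_nonneg_of_lt_one_left zero_le (valued_absNorm_lt v) (mem_Oc.mp hx)

end

variable {k : Type*} [Field k] [NumberField k] {E : Type*} [Field E] [NumberField E] [Algebra k E]

theorem unitDeep_OE (v : HeightOneSpectrum (𝓞 k)) : UnitDeep (OE E v) := by
  classical
  have := Fintype.ofFinite (Fib E v)
  have hM0 : ∀ w : Fib E v, Ideal.absNorm w.1.asIdeal ≠ 0 := fun w => by
    rw [Ne, Ideal.absNorm_eq_zero_iff]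
    exact w.1.ne_bot
  refine ⟨∏ w : Fib E v, Ideal.absNorm w.1.asIdeal,
    Finset.prod_ne_zero_iff.mpr fun w _ => hM0 w, fun x hx => ?_⟩
  have h : ∀ w : Fib E v, ∃ y ∈ Oc w.1, (1 + (((∏ w : Fib E v, Ideal.absNorm w.1.asIdeal : ℕ) :
      w.1.adicCompletion E) * x w)) * y = 1 := by
    intro w
    refine exists_inv_Oc w.1 ?_
    rw [← Finset.mul_prod_erase Finset.univ (fun w : Fib E v => Ideal.absNorm w.1.asIdeal)
      (Finset.mem_univ w), Nat.cast_mul, mul_assoc, map_mul]
    refine mul_lt_one_of_nonneg_of_lt_one_left zero_le (valued_absNorm_lt w.1) ?_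
    have : ((∏ u ∈ Finset.univ.erase w, Ideal.absNorm u.1.asIdeal : ℕ) :
      w.1.adicCompletion E) * x w ∈ Oc w.1 := mul_mem (natCast_mem _ _) (hx w)
    exact mem_Oc.mp this
  choose y hy hy' using h
  refine ⟨y, hy, funext fun w => ?_⟩
  have := hy' w
  simpa using this

end Fermat.Agent.LT.T4
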