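import Fermat.Agent.LT.T4.Coef
import Fermat.Agent.LT.T4.FFM
import Fermat.Agent.LT.T4.Bd

set_option autoImplicit false

/-!
# The dihedral theta form is a Hecke eigenform
-/

namespace Fermat.Agent.LT.T4

open Fermat.Agent.LT.Theta Ideal

namespace T4D

variable {E L : Type*} [Field E] [NumberField E] [Field L] [NumberField L] [Algebra E L]
  (T : T4D E L)

/-- the away character is perfect -/
theorem mem_SI_of_ψ {t : E} (h : ∀ r ∈ SI T.N E, T.ψ (r * t) = 1) : t ∈ SI T.N E := by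
  refine away_perfect (e0 E) e0_integral T.hN (fun x hx => T.dual x fun y hy => ?_) h
  have h1 := hx y hy
  rw [e0_apply, Complex.exp_neg, inv_eq_one, exp_eq_one_iff_rat] at h1
  exact h1

/-- the character sum -/
theorem sum_ψ {π : SI T.N E} (hπ : π ≠ 0) {ι : Type*} [Fintype ι] (φ : ι → SI T.N E)
    (hφ : Function.Bijective (fun i => Ideal.Quotient.mk (span {π}) (φ i))) {t : E}
    (ht : t * π ∈ SI T.N E) (ht' : t ∉ SI T.N E) : ∑ i, T.ψ (t * φ i) = 0 := by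
  have hfin := finite_quot T.hN π hπ
  set f : SI T.N E → ℂ := fun x => T.ψ (t * x) with hf
  have hper : PerM π f := by
    intro x y
    simp only [hf]
    have e : t * ((x + π * y : SI T.N E) : E) = t * x + (t * π) * y := by
      push_cast
      ring
    rw [e, AddChar.map_add_eq_mul, T.ψ_SI ((SI T.N E).mul_mem ht y.2), mul_one]
  have h1 : ∑ i, T.ψ (t * φ i) = qs π f := (qs_eq_sum hper φ hφ).symm
  rw [h1]
  obtain ⟨r, hr, hr1⟩ : ∃ r ∈ SI T.N E, T.ψ (r * t) ≠ 1 := by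
    by_contra hcon
    push Not at hcon
    exact ht' (T.mem_SI_of_ψ hcon)
  have h2 := qs_add hper hfin ⟨r, hr⟩
  have h3 : ∀ x : SI T.N E, f (x + ⟨r, hr⟩) = T.ψ (r * t) * f x := by
    intro x
    simp only [hf]
    have e : t * ((x + ⟨r, hr⟩ : SI T.N E) : E) = r * t + t * x := by
      change t * ((x : E) + r) = _
      ring
    rw [e, AddChar.map_add_eq_mul]
  rw [qs_congr h3, qs_mul_left _ _ hfin] at h2
  have h4 : (T.ψ (r * t) - 1) * qs π f = 0 := by rw [sub_mul, h2]; ring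
  rcases mul_eq_zero.1 h4 with h5 | h5
  · exact absurd (sub_eq_zero.1 h5) hr1
  · exact h5

/-- the relation for one frequency -/
theorem rel_freq {π : SI T.N E} (hπ : Prime π) {lam : ℂ} (hl : T.IsLam π lam)
    {ι : Type*} [Fintype ι] (φ : ι → SI T.N E)
    (hφ : Function.Bijective (fun i => Ideal.Quotient.mk (span {π}) (φ i))) (t : Eˣ) :
    T.A (t * uS π hπ.ne_zero) * ∑ i, T.ψ (t * φ i) +
      (Fintype.card ι) * T.A (t * (uS π hπ.ne_zero)⁻¹) = (Fintype.card ι) * (lam * T.A t) := by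
  by_cases ht : (t : E) ∈ SI T.N E
  · have h1 : ∑ i, T.ψ (t * φ i) = Fintype.card ι := by
      rw [Finset.sum_congr rfl fun i _ => T.ψ_SI ((SI T.N E).mul_mem ht (φ i).2)]
      simp
    rw [h1, ← A_hecke hπ hl ht]
    ring
  · have h2 : (((t * (uS π hπ.ne_zero)⁻¹ : Eˣ)) : E) ∉ SI T.N E := by
      intro h
      apply ht
      have e : (t : E) = ((t * (uS π hπ.ne_zero)⁻¹ : Eˣ) : E) * π := by
        have h3 : t = t * (uS π hπ.ne_zero)⁻¹ * uS π hπ.ne_zero := by group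
        exact congrArg Units.val h3
      rw [e]
      exact (SI T.N E).mul_mem h π.2
    rw [T.A_eq_zero ht, T.A_eq_zero h2]
    by_cases h3 : ((t * uS π hπ.ne_zero : Eˣ) : E) ∈ SI T.N E
    · rw [T.sum_ψ hπ.ne_zero φ hφ h3 ht]
      ring
    · rw [T.A_eq_zero h3]
      ring

theorem card_eq {π : SI T.N E} {ι : Type*} [Fintype ι] (φ : ι → SI T.N E)
    (hφ : Function.Bijective (fun i => Ideal.Quotient.mk (span {π}) (φ i))) :
    Fintype.card ι = Nat.card (SI T.N E ⧸ span {π}) := by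
  rw [← Nat.card_eq_fintype_card]
  exact Nat.card_congr (Equiv.ofBijective _ hφ)

theorem cpow_mul_sqrt {a q : ℝ} (ha : 0 ≤ a) (hq : 0 < q) :
    (((a * q : ℝ)) : ℂ) ^ (-(1 / 2) : ℂ) * q = ((√q : ℝ) : ℂ) * (a : ℂ) ^ (-(1 / 2) : ℂ) := by
  have h1 : (-(1 / 2) : ℂ) = ((-(1 / 2) : ℝ) : ℂ) := by push_cast; ring
  rw [h1, ← Complex.ofReal_cpow (mul_nonneg ha hq.le), ← Complex.ofReal_cpow ha,
    Real.mul_rpow ha hq.le, ← Complex.ofReal_mul, ← Complex.ofReal_mul, Complex.ofReal_inj,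
    Real.sqrt_eq_rpow]
  have h2 : q ^ (-(1 / 2) : ℝ) * q = q ^ (1 / 2 : ℝ) := by
    nth_rewrite 2 [← Real.rpow_one q]
    rw [← Real.rpow_add hq]
    norm_num
  rw [mul_assoc, h2, mul_comm]

theorem cpow_div_sqrt {a q : ℝ} (ha : 0 ≤ a) (hq : 0 < q) :
    (((a * q⁻¹ : ℝ)) : ℂ) ^ (-(1 / 2) : ℂ) = ((√q : ℝ) : ℂ) * (a : ℂ) ^ (-(1 / 2) : ℂ) := by
  have h1 : (-(1 / 2) : ℂ) = ((-(1 / 2) : ℝ) : ℂ) := by push_cast; ring
  have hq' : 0 ≤ q⁻¹ := inv_nonneg.2 hq.le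
  rw [h1, ← Complex.ofReal_cpow (mul_nonneg ha hq'), ← Complex.ofReal_cpow ha,
    Real.mul_rpow ha hq', ← Complex.ofReal_mul, Complex.ofReal_inj, Real.sqrt_eq_rpow,
    Real.inv_rpow hq.le, ← Real.rpow_neg hq.le, neg_neg, mul_comm]

theorem f_hecke_aux {π : SI T.N E} (hπ : Prime π) {lam : ℂ} (hl : T.IsLam π lam)
    {ι : Type*} [Fintype ι] (φ : ι → SI T.N E)
    (hφ : Function.Bijective (fun i => Ideal.Quotient.mk (span {π}) (φ i)))
    (n : ℕ) (p : HF E) (hsum : ∀ (c : Eˣ) (s : E),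
      Summable (fun ξ : T.A1 n => T.A (ξ * c) * T.ψ ((ξ : Eˣ) * s) * bw p ((ξ : Eˣ) : E)))
    (c : Eˣ) (s : E) :
    ∑ i, T.f n p (c * uS π hπ.ne_zero) (s + c * φ i) + T.f n p (c * (uS π hπ.ne_zero)⁻¹) s =
      ((√(Nat.card (SI T.N E ⧸ span {π}) : ℝ) : ℝ) : ℂ) * lam * T.f n p c s := by
  have hπ0 := hπ.ne_zero
  have hπE : (π : E) ≠ 0 := coe_ne_zero hπ0
  set πu := uS π hπ0 with hπu
  set q : ℝ := (Nat.card (SI T.N E ⧸ span {π}) : ℝ) with hq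
  have hq0 : 0 < q := by
    rw [hq]
    exact_mod_cast card_pos T.hN hπ0
  have hcard : (Fintype.card ι : ℂ) = (q : ℂ) := by
    rw [T.card_eq φ hφ, hq]
    push_cast
    rfl
  have hn1 : nrm T.N ((c * πu : Eˣ) : E) = nrm T.N (c : E) * q := by
    rw [Units.val_mul, nrm_mul T.hN c.ne_zero πu.ne_zero, hπu, uS_coe, nrm_coe T.hN hπ0]
  have hn2 : nrm T.N ((c * πu⁻¹ : Eˣ) : E) = nrm T.N (c : E) * q⁻¹ := by
    rw [Units.val_mul, nrm_mul T.hN c.ne_zero (πu⁻¹).ne_zero, Units.val_inv_eq_inv_val,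
      nrm_inv T.hN πu.ne_zero, hπu, uS_coe, nrm_coe T.hN hπ0]
  have ha : 0 ≤ nrm T.N (c : E) := (nrm_pos T.hN c.ne_zero).le
  unfold f
  rw [hn1, hn2, cpow_div_sqrt ha hq0, ← Finset.mul_sum]
  -- the sum over the representatives
  have hs1 : ∀ i, Summable (fun ξ : T.A1 n => T.A (ξ * (c * πu)) * T.ψ ((ξ : Eˣ) * (s + c * φ i)) *
      bw p ((ξ : Eˣ) : E)) := fun i => hsum _ _
  have hs2 := hsum (c * πu⁻¹) s
  have hs3 := hsum c s
  rw [← Summable.tsum_finsetSum fun i _ => hs1 i]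
  have hR : (q : ℂ) * ∑' ξ : T.A1 n, T.A (ξ * c) * T.ψ ((ξ : Eˣ) * s) * bw p ((ξ : Eˣ) : E) * lam =
      (∑' ξ : T.A1 n, ∑ i, T.A (ξ * (c * πu)) * T.ψ ((ξ : Eˣ) * (s + c * φ i)) *
        bw p ((ξ : Eˣ) : E)) +
      q * ∑' ξ : T.A1 n, T.A (ξ * (c * πu⁻¹)) * T.ψ ((ξ : Eˣ) * s) * bw p ((ξ : Eˣ) : E) := by
    rw [← tsum_mul_left, ← tsum_mul_left, ← Summable.tsum_add
      (summable_sum fun i _ => hs1 i) (hs2.mul_left _)]
    refine tsum_congr fun ξ => ?_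
    have h1 := T.rel_freq hπ hl φ hφ ((ξ : Eˣ) * c)
    rw [hcard, ← hπu] at h1
    have h2 : ∑ i, T.A (ξ * (c * πu)) * T.ψ ((ξ : Eˣ) * (s + c * φ i)) * bw p ((ξ : Eˣ) : E) =
        T.A ((ξ : Eˣ) * c * πu) * (∑ i, T.ψ (((ξ : Eˣ) * c : Eˣ) * φ i)) *
          (T.ψ ((ξ : Eˣ) * s) * bw p ((ξ : Eˣ) : E)) := by
      rw [Finset.mul_sum, Finset.sum_mul]
      refine Finset.sum_congr rfl fun i _ => ?_
      have e : ((ξ : Eˣ) : E) * (s + c * φ i) = (((ξ : Eˣ) * c : Eˣ) : E) * φ i +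
          ((ξ : Eˣ) : E) * s := by
        push_cast
        ring
      rw [e, AddChar.map_add_eq_mul, mul_assoc (ξ : Eˣ)]
      ring
    rw [h2, ← mul_assoc (ξ : Eˣ) c πu⁻¹]
    linear_combination (-(T.ψ ((ξ : Eˣ) * s) * bw p ((ξ : Eˣ) : E))) * h1
  have hq' : (q : ℂ) ≠ 0 := by exact_mod_cast hq0.ne'
  have key := cpow_mul_sqrt ha hq0
  rw [tsum_mul_right] at hR
  have hX : (((nrm T.N (c : E) * q : ℝ)) : ℂ) ^ (-(1 / 2) : ℂ) =
      ((√q : ℝ) : ℂ) * (nrm T.N (c : E) : ℂ) ^ (-(1 / 2) : ℂ) * (q : ℂ)⁻¹ := by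
    rw [← key]
    field_simp
  rw [hX]
  generalize (∑' ξ : T.A1 n, ∑ i, T.A (ξ * (c * πu)) *
      T.ψ ((ξ : Eˣ) * (s + c * φ i)) * bw p ((ξ : Eˣ) : E)) = S1 at hR ⊢
  generalize (∑' ξ : T.A1 n, T.A (ξ * (c * πu⁻¹)) * T.ψ ((ξ : Eˣ) * s) *
      bw p ((ξ : Eˣ) : E)) = S2 at hR ⊢
  generalize (∑' ξ : T.A1 n, T.A (ξ * c) * T.ψ ((ξ : Eˣ) * s) * bw p ((ξ : Eˣ) : E)) = S3 at hR ⊢
  have hfin : (q : ℂ)⁻¹ * S1 = S3 * lam - S2 := by
    field_simp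
    linear_combination (-1 : ℂ) * hR
  linear_combination (((√q : ℝ) : ℂ) * (nrm T.N (c : E) : ℂ) ^ (-(1 / 2) : ℂ)) * hfin

/-- **The theta form is a Hecke eigenform**: for every prime `π` of `𝓞_E[1/N]` and every system of
representatives `φ` of the residue classes modulo `π`. -/
theorem f_hecke [NumberField.IsTotallyComplex E] {π : SI T.N E} (hπ : Prime π) {lam : ℂ} (hl : T.IsLam π lam)
    {ι : Type*} [Fintype ι] (φ : ι → SI T.N E)
    (hφ : Function.Bijective (fun i => Ideal.Quotient.mk (span {π}) (φ i)))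
    (n : ℕ) (p : HF E) (c : Eˣ) (s : E) :
    ∑ i, T.f n p (c * uS π hπ.ne_zero) (s + c * φ i) + T.f n p (c * (uS π hπ.ne_zero)⁻¹) s =
      ((√(Nat.card (SI T.N E ⧸ span {π}) : ℝ) : ℝ) : ℂ) * lam * T.f n p c s :=
  T.f_hecke_aux hπ hl φ hφ n p (fun c s => T.summable_f n p c s) c s

end T4D

end Fermat.Agent.LT.T4
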