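import Fermat.Agent.LT.T4.HeckeF

set_option autoImplicit false

/-!
# The Hecke relation for arbitrary systems of representatives
-/

namespace Fermat.Agent.LT.T4

open Fermat.Agent.LT.Theta Ideal

namespace T4D

variable {E L : Type*} [Field E] [NumberField E] [Field L] [NumberField L] [Algebra E L]
  {T : T4D E L}

theorem inv_not_mem_SI {π : SI T.N E} (hπ : Prime π) :
    (((uS π hπ.ne_zero)⁻¹ : Eˣ) : E) ∉ SI T.N E := by
  intro h
  apply hπ.not_isUnit
  exact IsUnit.of_mul_eq_one ⟨_, h⟩ (Subtype.ext (Units.mul_inv (uS π hπ.ne_zero)))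

/-- the eigenvalue is the coefficient -/
theorem IsLam.eq_A {π : SI T.N E} (hπ : Prime π) {lam : ℂ} (hl : T.IsLam π lam) :
    lam = T.A (uS π hπ.ne_zero) := by
  have h := A_hecke hπ hl (c := 1) (by rw [Units.val_one]; exact (SI T.N E).one_mem)
  rw [one_mul, one_mul, A_one, mul_one, T.A_eq_zero (inv_not_mem_SI hπ), add_zero] at h
  exact h.symm

/-- split primes -/
theorem A_of_split {π : SI T.N E} (hπ : Prime π) {P : SI T.N L} (hP : Prime P)
    (hn : Associated (nS T.N E L P) π) :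
    T.A (uS π hπ.ne_zero) = T.psi (P : L) + T.psi (T.q.c (P : L)) :=
  (IsLam.eq_A hπ (Or.inl ⟨P, hP, hn, rfl⟩)).symm

/-- inert primes -/
theorem A_of_inert {π : SI T.N E} (hπ : Prime π) (h : Prime (inc T.N E L π)) :
    T.A (uS π hπ.ne_zero) = 0 :=
  (IsLam.eq_A hπ (Or.inr ⟨h, rfl⟩)).symm

theorem isLam_A {π : SI T.N E} (hπ : Prime π) : T.IsLam π (T.A (uS π hπ.ne_zero)) := by
  obtain ⟨lam, hl⟩ := T.exists_isLam hπ
  rwa [← hl.eq_A hπ]

/-- **The Hecke relation**, with an arbitrary system of representatives. -/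
theorem f_hecke_finset [NumberField.IsTotallyComplex E] {π : SI T.N E} (hπ : Prime π)
    {α : Type*} (S : Finset α) (b : α → E) (hb : ∀ i ∈ S, b i ∈ SI T.N E)
    (hc : ∀ x ∈ SI T.N E, ∃ i ∈ S, (x - b i) / π ∈ SI T.N E)
    (hi : ∀ i ∈ S, ∀ j ∈ S, (b i - b j) / π ∈ SI T.N E → i = j)
    (n : ℕ) (p : HF E) (c : Eˣ) (s : E) :
    ∑ i ∈ S, T.f n p (c * uS π hπ.ne_zero) (s + c * b i) +
      T.f n p (c * (uS π hπ.ne_zero)⁻¹) s =
      ((√(S.card : ℝ) : ℝ) : ℂ) * T.A (uS π hπ.ne_zero) * T.f n p c s := by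
  have hπE : (π : E) ≠ 0 := coe_ne_zero hπ.ne_zero
  let φ : S → SI T.N E := fun i => ⟨b i, hb i i.2⟩
  have hdvd : ∀ x y : SI T.N E, (π ∣ x - y ↔ ((x : E) - y) / π ∈ SI T.N E) := by
    intro x y
    constructor
    · rintro ⟨z, hz⟩
      have hz' : (x : E) - y = π * z := congrArg Subtype.val hz
      rw [hz', mul_div_cancel_left₀ _ hπE]
      exact z.2
    · intro h
      refine ⟨⟨_, h⟩, Subtype.ext ?_⟩
      change (x : E) - y = π * (((x : E) - y) / π)
      rw [mul_div_cancel₀ _ hπE]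
  have hφ : Function.Bijective (fun i => Ideal.Quotient.mk (span {π}) (φ i)) := by
    constructor
    · intro i j hij
      simp only [mk_eq_mk] at hij
      rw [hdvd] at hij
      exact Subtype.ext (hi i i.2 j j.2 hij)
    · intro y
      obtain ⟨x, rfl⟩ := Ideal.Quotient.mk_surjective y
      obtain ⟨i, hiS, hxi⟩ := hc x x.2
      refine ⟨⟨i, hiS⟩, ?_⟩
      simp only
      rw [mk_eq_mk, ← neg_sub, dvd_neg, hdvd]
      exact hxi
  have h := T.f_hecke hπ (isLam_A hπ) φ hφ n p c s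
  have hcard := T.card_eq φ hφ
  rw [Fintype.card_coe] at hcard
  rw [← hcard] at h
  rw [← h]
  congr 1
  exact (Finset.sum_coe_sort S (fun i => T.f n p (c * uS π hπ.ne_zero) (s + c * b i))).symm

end T4D

end Fermat.Agent.LT.T4
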