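import Fermat.Agent.LT.T4.Fn
import Fermat.Agent.LT.T4.Eqv
import Fermat.Agent.LT.T4.HeckeG
import Fermat.Agent.LT.Fou.Twist2

set_option autoImplicit false
set_option linter.unusedSectionVars false

/-!
# Hecke eigenvalues of the theta form at the good places
-/

namespace Fermat.Agent.LT.T4

open Matrix Filter NumberField
open Fermat.Agent.LT.Glob
open Fermat.Agent.LT.Glob.LocFam
open Fermat.Agent.LT.Fou
open scoped MatrixGroups

universe w u i

variable {F : Type u} [Field F] {ι : Type i} {L : LocFam.{w} F ι} {B : Finset ι}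
  {U : L.Level} {v : ι}

/-- the Hecke equation for functions away from `B` -/
def HeckeB (H : HData L v) (lam : ℂ) (f : HF F × OmB U B → ℂ) : Prop :=
  ∀ (p : HF F) (d : D U) (g : L.G v), d v = (g : L.G v ⧸ U.U v) →
    ∑ o : Option H.S, f (p, away B (setv d v
      ((g * ProjGenLinGroup.mk (rp H.ϖ H.S o) : L.G v) : L.G v ⧸ U.U v))) = lam * f (p, away B d)

theorem smul_setv (γ : GL (Fin 2) F) (d : D U) (v : ι) (x : X U v) :
    γ • setv d v x = setv (γ • d) v (L.emb v γ • x) := by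
  apply D.ext
  intro v'
  by_cases h : v' = v
  · subst h
    rw [LocFam.smul_apply, setv_same, setv_same]
  · rw [LocFam.smul_apply, setv_ne _ h, setv_ne _ h, LocFam.smul_apply]

theorem HeckeB.smul {H : HData L v} {lam : ℂ} {f : HF F × OmB U B → ℂ} (h : HeckeB H lam f)
    (γ : GL (Fin 2) F) : HeckeB H lam (fun x => f (γ • x)) := by
  intro p d g hg
  have e : ∀ o : Option H.S, f (γ • ((p, away B (setv d v
      ((g * ProjGenLinGroup.mk (rp H.ϖ H.S o) : L.G v) : L.G v ⧸ U.U v))) : HF F × OmB U B)) =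
      f (γ • p, away B (setv (γ • d) v (((L.emb v γ * g) *
        ProjGenLinGroup.mk (rp H.ϖ H.S o) : L.G v) : L.G v ⧸ U.U v))) := by
    intro o
    have : (((L.emb v γ * g) * ProjGenLinGroup.mk (rp H.ϖ H.S o) : L.G v) : L.G v ⧸ U.U v) =
        L.emb v γ • ((g * ProjGenLinGroup.mk (rp H.ϖ H.S o) : L.G v) : L.G v ⧸ U.U v) := by
      rw [mul_assoc]; rfl
    rw [this, ← smul_setv, away_smul]
    rfl
  simp only [e]
  have h1 := h (γ • p) (γ • d) (L.emb v γ * g) (by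
    rw [LocFam.smul_apply, hg]; rfl)
  rw [h1, away_smul]
  rfl

/-- **Hecke equations of the extension.** -/
theorem HeckeB.autExt {H : HData L v} {lam : ℂ} {f : HF F × OmB U B → ℂ} (h : HeckeB H lam f)
    (hv : v ∉ B) (hB : BadPlaces L B) {J : ∀ v, Subgroup (L.G v)} {χ : ∀ v, L.G v → ℂ}
    (hc : LevChar U B J χ) (hf : AwayEqv B J χ f) : HeckeAt H lam (autExt B f) := by
  rw [heckeAt_iff]
  intro p d g hg
  obtain ⟨γ, hγ⟩ := exists_autExt_eq' hB hc hf d
  have e : ∀ o : Option H.S, LT.T4.autExt B f (p, setv d v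
      ((g * ProjGenLinGroup.mk (rp H.ϖ H.S o) : L.G v) : L.G v ⧸ U.U v)) =
      f (γ • ((p, away B (setv d v ((g * ProjGenLinGroup.mk (rp H.ϖ H.S o) : L.G v) :
        L.G v ⧸ U.U v))) : HF F × OmB U B)) := by
    intro o
    apply hγ
    intro v' hv'
    exact setv_ne _ (fun h => hv (by rw [← h]; exact hv')) _
  rw [Finset.sum_congr rfl fun o _ => e o, hγ d (fun _ _ => rfl)]
  exact h.smul γ p d g hg

/-- independence of the representative -/
theorem HeckeB.of_one (hU : U.U v = PO (L.O v)) {H : HData L v} (hH : Unif (L.O v) H.ϖ H.S)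
    {lam : ℂ} {f : HF F × OmB U B → ℂ}
    (h : ∀ (p : HF F) (d : D U), ∃ g : L.G v, d v = (g : L.G v ⧸ U.U v) ∧
      ∑ o : Option H.S, f (p, away B (setv d v
      ((g * ProjGenLinGroup.mk (rp H.ϖ H.S o) : L.G v) : L.G v ⧸ U.U v))) =
        lam * f (p, away B d)) : HeckeB H lam f := by
  intro p d g hg
  obtain ⟨g', hg', h'⟩ := h p d
  rw [← h']
  have key : ∀ g : L.G v, ∑ o : Option H.S, f (p, away B (setv d v
      ((g * ProjGenLinGroup.mk (rp H.ϖ H.S o) : L.G v) : L.G v ⧸ U.U v))) =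
      ∑ᶠ y ∈ {y | ∃ a : L.G v, (a : L.G v ⧸ PO (L.O v)) = y ∧ g⁻¹ * a ∈ HS (L.O v) H.ϖ},
        f (p, away B (setv d v ((Quotient.out y : L.G v) : L.G v ⧸ U.U v))) := by
    intro g
    rw [hH.finsum_TT g (fun y => f (p, away B (setv d v
      ((Quotient.out y : L.G v) : L.G v ⧸ U.U v))))]
    refine Finset.sum_congr rfl fun o _ => ?_
    rw [nb, mk_out_PO hU]
  rw [key, key]
  have hk : g⁻¹ * g' ∈ PO (L.O v) := by
    rw [← hU]
    exact QuotientGroup.eq.mp (hg.symm.trans hg')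
  have e : {y | ∃ a : L.G v, (a : L.G v ⧸ PO (L.O v)) = y ∧ g⁻¹ * a ∈ HS (L.O v) H.ϖ} =
      {y | ∃ a : L.G v, (a : L.G v ⧸ PO (L.O v)) = y ∧ g'⁻¹ * a ∈ HS (L.O v) H.ϖ} := by
    ext y
    refine exists_congr fun a => and_congr_right fun _ => ?_
    have : g⁻¹ * a = (g⁻¹ * g') * (g'⁻¹ * a) := by group
    rw [this]
    exact HS.mul_left_iff hk
  rw [e]

/-! ### global generators of the good places -/

/-- `π` is a uniformiser at `v` (in the sense of `H`) and a unit at the other good places -/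
structure IsGen (B : Finset ι) (H : HData L v) (π : Fˣ) : Prop where
  same : L.un v π * H.ϖ⁻¹ ∈ OU (L.O v)
  other : ∀ v' ∉ B, v' ≠ v → L.un v' π ∈ OU (L.O v')

theorem exists_isGen (hB : ClassOne L B) (hv : v ∉ B) (H : HData L v) :
    ∃ π : Fˣ, IsGen B H π := by
  classical
  obtain ⟨π, hπ⟩ := hB (fun v' => if e : v' = v then e ▸ H.ϖ⁻¹ else 1) (by
    rw [eventually_cofinite]
    refine (Set.finite_singleton v).subset fun v' hv' => ?_
    by_contra hne
    apply hv'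
    rw [Set.mem_singleton_iff] at hne
    rw [dif_neg hne]
    exact one_mem _)
  refine ⟨π, ?_, fun v' hv' hne => ?_⟩
  · have := hπ v hv
    simpa only [dite_true] using this
  · have := hπ v' hv'
    rw [dif_neg hne, mul_one] at this
    exact this

theorem loc_un (v : ι) (a : Fˣ) : ((L.un v a : (L.R v)ˣ) : L.R v) = L.loc v (a : F) := rfl

theorem loc_un_inv (v : ι) (a : Fˣ) :
    (((L.un v a)⁻¹ : (L.R v)ˣ) : L.R v) = L.loc v ((a⁻¹ : Fˣ) : F) := by
  rw [← map_inv]; rfl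

section gen

variable [NumberField F] {N : ℕ} {H : HData L v} {π : Fˣ}

/-- divisibility by `π` is a local condition at `v` -/
theorem IsGen.div_mem_iff (hπ : IsGen B H π) (hA : Adic L B N) (hv : v ∉ B) {x : F}
    (hx : x ∈ SI N F) :
    x / π ∈ SI N F ↔ ((H.ϖ⁻¹ : (L.R v)ˣ) : L.R v) * L.loc v x ∈ L.O v := by
  have e1 : ((H.ϖ⁻¹ : (L.R v)ˣ) : L.R v) * L.loc v x =
      ((L.un v π * H.ϖ⁻¹ : (L.R v)ˣ) : L.R v) * L.loc v (x / π) := by
    have h1 : L.loc v x = L.loc v (π : F) * L.loc v (x / π) := by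
      rw [← map_mul, mul_div_cancel₀ _ π.ne_zero]
    rw [h1, Units.val_mul, loc_un]; ring
  have e2 : L.loc v (x / π) = (((L.un v π * H.ϖ⁻¹)⁻¹ : (L.R v)ˣ) : L.R v) *
      (((H.ϖ⁻¹ : (L.R v)ˣ) : L.R v) * L.loc v x) := by
    rw [e1, ← mul_assoc, Units.inv_mul, one_mul]
  constructor
  · intro h
    rw [e1]
    exact (L.O v).mul_mem hπ.same.1 (hA.mem_SI_iff.mp h v hv)
  · intro h
    rw [hA.mem_SI_iff]
    intro v' hv'
    by_cases hne : v' = v
    · subst hne
      rw [e2]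
      exact (L.O v').mul_mem hπ.same.2 h
    · have e3 : L.loc v' (x / π) = L.loc v' x * (((L.un v' π)⁻¹ : (L.R v')ˣ) : L.R v') := by
        rw [loc_un_inv, ← map_mul, div_eq_mul_inv, Units.val_inv_eq_inv_val]
      rw [e3]
      exact (L.O v').mul_mem (hA.mem_SI_iff.mp hx v' hv') (hπ.other v' hv' hne).2

theorem IsGen.mem_SI (hπ : IsGen B H π) (hA : Adic L B N) : (π : F) ∈ SI N F := by
  rw [hA.mem_SI_iff]
  intro v' hv'
  by_cases hne : v' = v
  · subst hne
    have : L.loc v' (π : F) = ((L.un v' π * H.ϖ⁻¹ : (L.R v')ˣ) : L.R v') * (H.ϖ : L.R v') := by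
      rw [Units.val_mul, mul_assoc, Units.inv_mul, mul_one]; rfl
    rw [this]
    exact (L.O v').mul_mem hπ.same.1 H.mem
  · exact (hπ.other v' hv' hne).1

/-- **generators are prime** -/
theorem IsGen.prime (hπ : IsGen B H π) (hA : Adic L B N) (hv : v ∉ B)
    (hH : Unif (L.O v) H.ϖ H.S) : Prime (⟨π, hπ.mem_SI hA⟩ : SI N F) := by
  have hdvd : ∀ x : SI N F, (⟨π, hπ.mem_SI hA⟩ : SI N F) ∣ x ↔
      ((H.ϖ⁻¹ : (L.R v)ˣ) : L.R v) * L.loc v x ∈ L.O v := by
    intro x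
    rw [← hπ.div_mem_iff hA hv x.2]
    constructor
    · rintro ⟨z, hz⟩
      have hz' : (x : F) = π * z := congrArg Subtype.val hz
      rw [hz', mul_div_cancel_left₀ _ π.ne_zero]
      exact z.2
    · intro h
      refine ⟨⟨_, h⟩, Subtype.ext ?_⟩
      change (x : F) = π * ((x : F) / π)
      rw [mul_div_cancel₀ _ π.ne_zero]
  refine ⟨fun h => π.ne_zero (congrArg Subtype.val h), fun h => ?_, fun a b hab => ?_⟩
  · have h1 := (hdvd 1).mp (isUnit_iff_dvd_one.mp h)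
    rw [show ((1 : SI N F) : F) = 1 from rfl, map_one, mul_one] at h1
    exact hH.not_mem h1
  · rw [hdvd] at hab
    rw [hdvd, hdvd]
    rcases hH.field (L.loc v a) (hA.mem_SI_iff.mp a.2 v hv) with h | ⟨y, hy, h⟩
    · exact Or.inl h
    · right
      have e : ((H.ϖ⁻¹ : (L.R v)ˣ) : L.R v) * L.loc v b =
          y * (((H.ϖ⁻¹ : (L.R v)ˣ) : L.R v) * L.loc v ((a * b : SI N F) : F)) -
            (((H.ϖ⁻¹ : (L.R v)ˣ) : L.R v) * (L.loc v a * y - 1)) * L.loc v b := by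
        rw [show ((a * b : SI N F) : F) = a * b from rfl, map_mul]
        ring
      rw [e]
      exact (L.O v).sub_mem ((L.O v).mul_mem hy hab)
        ((L.O v).mul_mem h (hA.mem_SI_iff.mp b.2 v hv))

/-- lifts of local representatives -/
theorem exists_lift_SI (hA : Adic L B N) (hv : v ∉ B) (H : HData L v) {x : L.R v}
    (hx : x ∈ L.O v) : ∃ b ∈ SI N F, ((H.ϖ⁻¹ : (L.R v)ˣ) : L.R v) * (L.loc v b - x) ∈ L.O v := by
  classical
  obtain ⟨M, hM, hM'⟩ := L.denom v ((H.ϖ⁻¹ : (L.R v)ˣ) : L.R v)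
  obtain ⟨b, h1, h2⟩ := L.dense {v} (fun v' => if e : v' = v then e ▸ x else 0) M hM
  have h3 := h1 v (Finset.mem_singleton_self v)
  simp only [dite_true] at h3
  obtain ⟨y, hy, e⟩ := h3
  refine ⟨b, hA.mem_SI_iff.mpr fun v' hv' => ?_, ?_⟩
  · by_cases hne : v' = v
    · subst hne
      have : L.loc v' b = (L.loc v' b - x) + x := by ring
      rw [this, e]
      exact (L.O v').add_mem ((L.O v').mul_mem (natCast_mem _ _) hy) hx
    · exact h2 v' (by rwa [Finset.mem_singleton])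
  · rw [e]
    have : ((H.ϖ⁻¹ : (L.R v)ˣ) : L.R v) * ((M : L.R v) * y) =
        ((M : L.R v) * ((H.ϖ⁻¹ : (L.R v)ˣ) : L.R v)) * y := by ring
    rw [this]
    exact (L.O v).mul_mem hM' hy

end gen

section nbr

variable [NumberField F] {N : ℕ} {H : HData L v} {π : Fˣ}

theorem emb_nMat_aMat (v' : ι) (b : F) (π : Fˣ) : L.emb v' (nMat b * Sp.aMat π) =
    ProjGenLinGroup.mk (tri (L.un v' π) 1 (L.loc v' b)) := by
  rw [← tri_eq, emb_tri, map_one]

/-- the `q` neighbours -/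
theorem IsGen.nbr_some (hπ : IsGen B H π) (hA : Adic L B N) (hU : ∀ v ∉ B, U.U v = PO (L.O v))
    (hv : v ∉ B) {s : L.R v} {b : F}
    (hb : b ∈ SI N F) (hbs : ((H.ϖ⁻¹ : (L.R v)ˣ) : L.R v) * (L.loc v b - s) ∈ L.O v)
    (h : GL (Fin 2) F) {d : D U} (hd : ∀ v' ∉ B, d v' = L.emb v' h • X.base U v') :
    away B (setv d v ((L.emb v h * ProjGenLinGroup.mk (tri H.ϖ 1 s) : L.G v) :
      L.G v ⧸ U.U v)) = h • nMat b • Sp.aMat π • OmB.base U B := by
  apply OmB.ext
  rintro ⟨v', hv'⟩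
  show (setv d v _) v' = L.emb v' h • L.emb v' (nMat b) • L.emb v' (Sp.aMat π) • X.base U v'
  rw [← mul_smul (L.emb v' (nMat b)), ← map_mul, emb_nMat_aMat]
  by_cases hne : v' = v
  · subst hne
    rw [setv_same, smul_base_mk]
    show ((L.emb v' h * _ : L.G v') : L.G v' ⧸ U.U v') = ((L.emb v' h * _ : L.G v') : _)
    rw [QuotientGroup.eq, hU v' hv, _root_.mul_inv_rev, mul_assoc, inv_mul_cancel_left, ← map_inv,
      ← map_mul]
    apply mk_mem_PO
    rw [tri_inv, tri_mul]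
    apply tri_mem
    · rw [mul_comm]; exact hπ.same
    · rw [inv_one, mul_one]; exact one_mem _
    · have : ((H.ϖ⁻¹ : (L.R v')ˣ) : L.R v') * L.loc v' b +
          -(((H.ϖ⁻¹ : (L.R v')ˣ) : L.R v') * s * (((1 : (L.R v')ˣ)⁻¹ : (L.R v')ˣ) : L.R v')) *
            ((1 : (L.R v')ˣ) : L.R v') =
          ((H.ϖ⁻¹ : (L.R v')ˣ) : L.R v') * (L.loc v' b - s) := by
        rw [inv_one, Units.val_one]; ring
      rw [this]
      exact hbs
  · rw [setv_ne _ hne, hd v' hv']
    congr 1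
    symm
    apply LocFam.smul_base
    rw [hU v' hv']
    exact mk_mem_PO (tri_mem (hπ.other v' hv' hne) (one_mem _) (hA.mem_SI_iff.mp hb v' hv'))

/-- the last neighbour -/
theorem IsGen.nbr_none (hπ : IsGen B H π) (hU : ∀ v ∉ B, U.U v = PO (L.O v))
    (hv : v ∉ B) (h : GL (Fin 2) F) {d : D U} (hd : ∀ v' ∉ B, d v' = L.emb v' h • X.base U v') :
    away B (setv d v ((L.emb v h * ProjGenLinGroup.mk (tri 1 H.ϖ 0) : L.G v) :
      L.G v ⧸ U.U v)) = h • Sp.aMat π⁻¹ • OmB.base U B := by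
  apply OmB.ext
  rintro ⟨v', hv'⟩
  have e : L.emb v' (Sp.aMat π⁻¹) = ProjGenLinGroup.mk (tri 1 (L.un v' π) 0) := by
    have h1 : Sp.aMat π⁻¹ = nMat 0 * Sp.aMat π⁻¹ := by
      have : nMat (0 : F) = 1 := by
        apply Units.ext
        rw [nMat_coe]
        ext i j
        fin_cases i <;> fin_cases j <;> simp
      rw [this, one_mul]
    rw [h1, emb_nMat_aMat, map_inv, map_zero, ← mk_sc_mul (L.un v' π), sc_mul_tri, mul_inv_cancel,
      mul_one, mul_zero]
  show (setv d v _) v' = L.emb v' h • L.emb v' (Sp.aMat π⁻¹) • X.base U v'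
  rw [e]
  by_cases hne : v' = v
  · subst hne
    rw [setv_same, smul_base_mk]
    show ((L.emb v' h * _ : L.G v') : L.G v' ⧸ U.U v') = ((L.emb v' h * _ : L.G v') : _)
    rw [QuotientGroup.eq, hU v' hv, _root_.mul_inv_rev, mul_assoc, inv_mul_cancel_left, ← map_inv,
      ← map_mul]
    apply mk_mem_PO
    rw [tri_inv, tri_mul]
    apply tri_mem
    · rw [inv_one, mul_one]; exact one_mem _
    · rw [mul_comm]; exact hπ.same
    · simp
  · rw [setv_ne _ hne, hd v' hv']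
    congr 1
    symm
    apply LocFam.smul_base
    rw [hU v' hv']
    exact mk_mem_PO (tri_mem (one_mem _) (hπ.other v' hv' hne) (L.O v').zero_mem)

end nbr

section main

variable {E : Type u} {L' : Type*} [Field E] [NumberField E] [Field L'] [NumberField L']
  [Algebra E L'] (T : T4D E L') [IsTotallyComplex E] {L : LocFam.{w} E ι} {U : L.Level}

/-- **Hecke equations of the theta form away from `N`** -/
theorem heckeB_f (hA : Adic L B T.N) (hB : ClassOne L B) (hU : ∀ v ∉ B, U.U v = PO (L.O v))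
    (hv : v ∉ B) {H : HData L v} (hH : Unif (L.O v) H.ϖ H.S) {π : Eˣ} (hπ : IsGen B H π) (n : ℕ) :
    HeckeB H (((√(H.S.card : ℝ) : ℝ) : ℂ) * T.A π) ((omB hA hB hU).fn (T.f n)) := by
  classical
  apply HeckeB.of_one (hU v hv) hH
  intro p d
  obtain ⟨c, s, hcs⟩ := OmB.exists_iwa (L := L) (U := U) hB hU (away B d)
  set h : GL (Fin 2) E := nMat s * Sp.aMat c with hh
  have hd : ∀ v' ∉ B, d v' = L.emb v' h • X.base U v' := by
    intro v' hv'
    have h1 : away B d = h • OmB.base U B := by rw [hcs, hh, mul_smul]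
    exact congrArg (fun x : OmB U B => x.1 ⟨v', hv'⟩) h1
  refine ⟨L.emb v h, by rw [hd v hv]; exact smul_base_mk _, ?_⟩
  have hprime := hπ.prime hA hv hH
  have hlift : ∀ x : L.R v, ∃ b : E, x ∈ H.S →
      b ∈ SI T.N E ∧ ((H.ϖ⁻¹ : (L.R v)ˣ) : L.R v) * (L.loc v b - x) ∈ L.O v := by
    intro x
    by_cases hx : x ∈ H.S
    · obtain ⟨b, h1, h2⟩ := exists_lift_SI hA hv H (H.S_mem x hx)
      exact ⟨b, fun _ => ⟨h1, h2⟩⟩
    · exact ⟨0, fun h => absurd h hx⟩
  choose b hb using hlift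
  have hu : uS (⟨π, hπ.mem_SI hA⟩ : SI T.N E) hprime.ne_zero = π := Units.ext rfl
  have key := T.f_hecke_finset hprime H.S b (fun i hi => (hb i hi).1)
    (fun x hx => by
      obtain ⟨i, hi, h1⟩ := hH.cover (L.loc v x) (hA.mem_SI_iff.mp hx v hv)
      refine ⟨i, hi, (hπ.div_mem_iff hA hv ((SI T.N E).sub_mem hx (hb i hi).1)).mpr ?_⟩
      have e : ((H.ϖ⁻¹ : (L.R v)ˣ) : L.R v) * L.loc v (x - b i) =
          ((H.ϖ⁻¹ : (L.R v)ˣ) : L.R v) * (L.loc v x - i) -
            ((H.ϖ⁻¹ : (L.R v)ˣ) : L.R v) * (L.loc v (b i) - i) := by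
        rw [map_sub]; ring
      rw [e]
      exact (L.O v).sub_mem h1 (hb i hi).2)
    (fun i hi j hj h1 => by
      have h2 := (hπ.div_mem_iff hA hv ((SI T.N E).sub_mem (hb i hi).1 (hb j hj).1)).mp h1
      apply hH.inj i hi j hj
      have e : ((H.ϖ⁻¹ : (L.R v)ˣ) : L.R v) * (i - j) =
          ((H.ϖ⁻¹ : (L.R v)ˣ) : L.R v) * L.loc v (b i - b j) -
            (((H.ϖ⁻¹ : (L.R v)ˣ) : L.R v) * (L.loc v (b i) - i) -
              ((H.ϖ⁻¹ : (L.R v)ˣ) : L.R v) * (L.loc v (b j) - j)) := by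
        rw [map_sub]; ring
      rw [e]
      exact (L.O v).sub_mem h2 ((L.O v).sub_mem (hb i hi).2 (hb j hj).2)) n p c s
  rw [hu] at key
  have hfn : ∀ (c : Eˣ) (s : E), (omB hA hB hU).fn (T.f n)
      (p, nMat s • Sp.aMat c • OmB.base U B) = T.f n p c s := fun c s =>
    (omB hA hB hU).fn_apply (T.cInv_f n) p c s
  rw [hcs, hfn c s, ← key, Fintype.sum_option, add_comm, ← Finset.sum_coe_sort H.S]
  congr 1
  · refine Finset.sum_congr rfl fun x _ => ?_
    have h1 := hπ.nbr_some hA hU hv (hb x.1 x.2).1 (hb x.1 x.2).2 h hd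
    rw [show rp H.ϖ H.S (some x) = tri H.ϖ 1 (x : L.R v) from rfl, h1]
    have e : h • nMat (b x.1) • Sp.aMat π • OmB.base U B =
        nMat (s + c * b x.1) • Sp.aMat (c * π) • OmB.base U B := by
      rw [hh, mul_smul, ← mul_smul (Sp.aMat c), aMat_mul_nMat, mul_smul, ← mul_smul (nMat s),
        nMat_mul, ← mul_smul (Sp.aMat c), aMat_mul]
    rw [e, hfn]
  · have h1 := hπ.nbr_none (U := U) hU hv h hd
    rw [show rp H.ϖ H.S none = tri 1 H.ϖ 0 from rfl, h1]
    have e : h • Sp.aMat π⁻¹ • OmB.base U B = nMat s • Sp.aMat (c * π⁻¹) • OmB.base U B := by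
      rw [hh, mul_smul, ← mul_smul (Sp.aMat c), aMat_mul]
    rw [e, hfn]

end main

end Fermat.Agent.LT.T4
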