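import Fermat.Agent.LT.T4.Dil

set_option autoImplicit false
set_option linter.unusedSectionVars false

/-! # Deep congruence conditions at `N`; the test function of the theta form -/

namespace Fermat.Agent.LT.T4

open Fermat.Agent.LT.Theta NumberField Ideal

section LI

variable {N : ℕ} {K : Type*} [Field K] [NumberField K]

theorem pow_mem_LI (n : ℕ) : (N : K) ^ n ∈ LI N K :=
  LI_of_isIntegral ((isIntegral_natCast' N).pow n)

/-- if `m / u` is integral, and `u a + N^k t = 1`, then `1 / u` is integral at `N` -/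
theorem inv_mem_LI_of (hN : 0 < N) {u : K} (hu0 : u ≠ 0)
    (h : ∀ k : ℕ, ∃ a t : K, IsIntegral ℤ a ∧ IsIntegral ℤ t ∧ u * a + (N : K) ^ k * t = 1) :
    u⁻¹ ∈ LI N K := by
  obtain ⟨m, hm, hmu⟩ := exists_nat_integral u⁻¹
  obtain ⟨m₁, m₂, k, h1, h2, c, h3⟩ := exists_coprime_part hN m hm
  obtain ⟨a, t, ha, ht, hat⟩ := h k
  refine ⟨m₁, h2, ?_⟩
  have e' : (N : K) ^ k = m₂ * c := by exact_mod_cast congrArg (fun z : ℕ => (z : K)) h3
  have : (m₁ : K) * u⁻¹ = m₁ * a + c * t * ((m : K) * u⁻¹) := by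
    rw [h1]
    push_cast
    rw [e'] at hat
    field_simp
    linear_combination (-(m₁ : K)) * hat
  rw [this]
  exact ((isIntegral_natCast' m₁).mul ha).add (((isIntegral_natCast' c).mul ht).mul hmu)

/-- `1 + N z` is a unit of `𝓞_(N)` -/
theorem LI_inv (hN : 1 < N) {z : K} (hz : z ∈ LI N K) :
    1 + (N : K) * z ≠ 0 ∧ (1 + (N : K) * z)⁻¹ ∈ LI N K := by
  have hN' : (N : K) ≠ 0 := by exact_mod_cast (by omega : N ≠ 0)
  obtain ⟨m, hm, hmz⟩ := hz
  have hm0 : m ≠ 0 := by
    rintro rfl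
    rw [Nat.coprime_zero_left] at hm
    omega
  have hm' : (m : K) ≠ 0 := by exact_mod_cast hm0
  -- Bezout: `u = m + N (m z)` is coprime to `N`
  set w : K := (m : K) * z with hw
  set u : K := (m : K) + N * w with hu
  have hcop : ∀ k : ℕ, ∃ a t : K, IsIntegral ℤ a ∧ IsIntegral ℤ t ∧ u * a + (N : K) ^ k * t = 1 := by
    have hbase : ∃ a t : K, IsIntegral ℤ a ∧ IsIntegral ℤ t ∧ u * a + (N : K) * t = 1 := by
      obtain ⟨a, b, hab⟩ := Nat.isCoprime_iff_coprime.mpr hm
      have hab' : (a : K) * m + b * N = 1 := by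
        have := congrArg (fun z : ℤ => (z : K)) hab
        push_cast at this
        exact this
      refine ⟨a, b - w * a, isIntegral_intCast' a,
        (isIntegral_intCast' b).sub (hmz.mul (isIntegral_intCast' a)), ?_⟩
      rw [hu]
      linear_combination hab'
    obtain ⟨a, t, ha, ht, hat⟩ := hbase
    have hui : IsIntegral ℤ u := (isIntegral_natCast' m).add ((isIntegral_natCast' N).mul hmz)
    intro k
    induction k with
    | zero => exact ⟨0, 1, isIntegral_zero, isIntegral_one, by ring⟩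
    | succ k ih =>
      obtain ⟨a', t', ha', ht', hat'⟩ := ih
      refine ⟨a' + (N : K) ^ k * t' * a, t * t', ha'.add ((((isIntegral_natCast' N).pow k).mul
        ht').mul ha), ht.mul ht', ?_⟩
      linear_combination hat' + (N : K) ^ k * t' * hat
  have hu0 : u ≠ 0 := by
    intro h0
    obtain ⟨a, t, ha, ht, hat⟩ := hcop 1
    rw [h0, zero_mul, zero_add, pow_one] at hat
    have h1 : t = (N : K)⁻¹ := eq_inv_of_mul_eq_one_right hat
    rw [h1] at ht
    have h2 : IsIntegral ℤ (((N : ℚ)⁻¹ : ℚ)) := by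
      rw [← isIntegral_algebraMap_iff (algebraMap ℚ K).injective]
      simpa using ht
    obtain ⟨j, hj⟩ := isIntegral_rat h2
    have h3 : (1 : ℚ) = N * j := by
      rw [← hj, mul_inv_cancel₀]
      exact_mod_cast (by omega : N ≠ 0)
    have h4 : (1 : ℤ) = N * j := by exact_mod_cast h3
    have h5 : (N : ℤ) ∣ 1 := ⟨j, h4⟩
    have h6 := Int.natAbs_dvd_natAbs.mpr h5
    simp at h6
    omega
  have e : 1 + (N : K) * z = u / m := by
    rw [hu, hw]; field_simp
  refine ⟨by rw [e]; exact div_ne_zero hu0 hm', ?_⟩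
  rw [e, inv_div, div_eq_mul_inv]
  exact (LI N K).mul_mem (LI_of_isIntegral (isIntegral_natCast' m))
    (inv_mem_LI_of (by omega) hu0 hcop)

theorem LI_inv_pow (hN : 1 < N) {n : ℕ} (hn : 1 ≤ n) {z : K} (hz : z ∈ LI N K) :
    1 + (N : K) ^ n * z ≠ 0 ∧ (1 + (N : K) ^ n * z)⁻¹ ∈ LI N K := by
  obtain ⟨k, rfl⟩ := Nat.exists_eq_add_of_le hn
  have e : (N : K) ^ (1 + k) * z = N * ((N : K) ^ k * z) := by ring
  rw [e]
  exact LI_inv hN ((LI N K).mul_mem (pow_mem_LI k) hz)

end LI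

namespace T4D

variable {E L : Type*} [Field E] [NumberField E] [Field L] [NumberField L] [Algebra E L]
  (T : T4D E L)

local notation "tr" => Algebra.trace E L
local notation "nm" => Algebra.norm E (S := L)

theorem one_lt_N : 1 < T.N := by
  rcases Nat.lt_or_ge 1 T.N with h | h
  · exact h
  · exfalso
    have h1 : T.N = 1 := le_antisymm h T.hN
    have h2 := T.two
    rw [h1, SI_one] at h2
    have h3 : IsIntegral ℤ ((2 : ℚ)⁻¹) := by
      rw [← isIntegral_algebraMap_iff (algebraMap ℚ E).injective]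
      simpa using h2
    obtain ⟨j, hj⟩ := isIntegral_rat h3
    have h4 : (1 : ℚ) = 2 * j := by rw [← hj]; norm_num
    have h5 : (1 : ℤ) = 2 * j := by exact_mod_cast h4
    omega

/-- the group `E^* ∩ (1 + N^n 𝓞_(N))` -/
def A1grp (n : ℕ) (hn : 1 ≤ n) : Subgroup Eˣ where
  carrier := T.A1 n
  mul_mem' := by
    rintro a b ⟨y, hy, ha⟩ ⟨z, hz, hb⟩
    refine ⟨y + z + (T.N : E) ^ n * y * z, (LI T.N E).add_mem ((LI T.N E).add_mem hy hz)
      ((LI T.N E).mul_mem ((LI T.N E).mul_mem (pow_mem_LI n) hy) hz), ?_⟩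
    rw [Units.val_mul, ha, hb]
    ring
  one_mem' := ⟨0, (LI T.N E).zero_mem, by simp⟩
  inv_mem' := by
    rintro a ⟨y, hy, ha⟩
    obtain ⟨h0, h1⟩ := LI_inv_pow T.one_lt_N hn hy
    refine ⟨-(y * (1 + (T.N : E) ^ n * y)⁻¹), (LI T.N E).neg_mem ((LI T.N E).mul_mem hy h1), ?_⟩
    rw [Units.val_inv_eq_inv_val, ha]
    field_simp
    ring

theorem mem_A1grp {n : ℕ} {hn : 1 ≤ n} {a : Eˣ} : a ∈ T.A1grp n hn ↔ a ∈ T.A1 n := Iff.rfl

theorem A1_le_UL {n : ℕ} (hn : 1 ≤ n) {a : Eˣ} (ha : a ∈ T.A1 n) : a ∈ UL T.N E := by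
  obtain ⟨y, hy, ha⟩ := ha
  obtain ⟨h0, h1⟩ := LI_inv_pow T.one_lt_N hn hy
  refine ⟨?_, ?_⟩
  · rw [ha]; exact (LI T.N E).add_mem (LI T.N E).one_mem ((LI T.N E).mul_mem (pow_mem_LI n) hy)
  · rw [Units.val_inv_eq_inv_val, ha]; exact h1

/-- the condition defining the support of the test function -/
def PhiS (n : ℕ) (x : L) : Prop :=
  x ≠ 0 ∧ x ∈ LI T.N L ∧ x⁻¹ ∈ LI T.N L ∧ ∃ y ∈ LI T.N E, nm x = 1 + (T.N : E) ^ n * y

/-- **The test function**: `psi` on the units at `N` whose norm is `1` modulo `N^n` -/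
noncomputable def Phi1 (n : ℕ) (x : L) : ℂ := by
  classical
  exact if T.PhiS n x then T.psi x else 0

theorem Phi1_pos {n : ℕ} {x : L} (h : T.PhiS n x) : T.Phi1 n x = T.psi x := by
  unfold Phi1; rw [if_pos h]

theorem Phi1_neg {n : ℕ} {x : L} (h : ¬ T.PhiS n x) : T.Phi1 n x = 0 := by
  unfold Phi1; rw [if_neg h]

theorem Phi1_zero (n : ℕ) : T.Phi1 n 0 = 0 := T.Phi1_neg fun h => h.1 rfl

theorem PhiS_mul {n : ℕ} {u : Lˣ} (hu : u ∈ T.H) {x : L} :
    T.PhiS n ((u : L) * x) ↔ T.PhiS n x := by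
  have key : ∀ {u : Lˣ}, u ∈ T.H → ∀ {x : L}, T.PhiS n x → T.PhiS n ((u : L) * x) := by
    intro u hu x ⟨h1, h2, h3, y, hy, h4⟩
    obtain ⟨hu1, hu2, hu3⟩ := hu
    refine ⟨mul_ne_zero u.ne_zero h1, (LI T.N L).mul_mem hu2 h2, ?_, y, hy, ?_⟩
    · rw [mul_inv, ← Units.val_inv_eq_inv_val]
      exact (LI T.N L).mul_mem hu3 h3
    · have : nm (u : L) = 1 := congrArg Units.val hu1
      rw [map_mul, this, one_mul, h4]
  refine ⟨fun h => ?_, key hu⟩
  have := key (T.H.inv_mem hu) h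
  rwa [← mul_assoc, Units.inv_mul, one_mul] at this

theorem Phi1_Eqv (n : ℕ) : T.Eqv (T.Phi1 n) := by
  intro u hu x
  by_cases h : T.PhiS n x
  · rw [T.Phi1_pos h, T.Phi1_pos ((T.PhiS_mul hu).mpr h), map_mul]
  · rw [T.Phi1_neg h, T.Phi1_neg (fun h' => h ((T.PhiS_mul hu).mp h')), mul_zero]

theorem Phi1_BSch {n : ℕ} (hn : 1 ≤ n) (hk : T.k0 ≤ n) : BSch T.N n (T.Phi1 n) := by
  -- multiplication by `1 + N^n z`
  have key : ∀ x z : L, z ∈ LI T.N L → T.PhiS n x →
      T.PhiS n (x * (1 + (T.N : L) ^ n * z)) ∧ T.psi (x * (1 + (T.N : L) ^ n * z)) = T.psi x := by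
    intro x z hz ⟨h1, h2, h3, y, hy, h4⟩
    obtain ⟨e0, e1⟩ := LI_inv_pow T.one_lt_N hn hz
    refine ⟨⟨mul_ne_zero h1 e0, (LI T.N L).mul_mem h2 ((LI T.N L).add_mem (LI T.N L).one_mem
      ((LI T.N L).mul_mem (pow_mem_LI n) hz)), ?_, ?_⟩, ?_⟩
    · rw [mul_inv]; exact (LI T.N L).mul_mem h3 e1
    · have hN1 : nm (1 + (T.N : L) ^ n * z) = 1 + (T.N : E) ^ n * (tr z +
          (T.N : E) ^ n * nm z) := by
        have e2 : (T.N : L) ^ n * z = algebraMap E L ((T.N : E) ^ n) * z := by simp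
        rw [T.nm_add, map_one, e2, map_mul T.q.c, T.c_aM, one_mul, tr_aM_mul, T.tr_c, map_mul,
          Algebra.norm_algebraMap, T.q.two]
        ring
      refine ⟨y + (1 + (T.N : E) ^ n * y) * (tr z + (T.N : E) ^ n * nm z),
        (LI T.N E).add_mem hy ((LI T.N E).mul_mem ((LI T.N E).add_mem (LI T.N E).one_mem
          ((LI T.N E).mul_mem (pow_mem_LI n) hy)) ((LI T.N E).add_mem (T.tr_mem_LI hz)
          ((LI T.N E).mul_mem (pow_mem_LI n) (nm_mem_LI hz)))), ?_⟩
      rw [map_mul, h4, hN1]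
      ring
    · rw [map_mul]
      obtain ⟨j, rfl⟩ := Nat.exists_eq_add_of_le hk
      have e2 : (T.N : L) ^ (T.k0 + j) * z = (T.N : L) ^ T.k0 * ((T.N : L) ^ j * z) := by ring
      rw [e2] at e0 ⊢
      rw [T.psi_cong _ ((LI T.N L).mul_mem (pow_mem_LI j) hz) e0, mul_one]
  constructor
  · intro x y hy
    by_cases h : T.PhiS n x
    · have e : x + (T.N : L) ^ n * y = x * (1 + (T.N : L) ^ n * (y * x⁻¹)) := by
        have := h.1
        field_simp
      obtain ⟨k1, k2⟩ := key x (y * x⁻¹) ((LI T.N L).mul_mem hy h.2.2.1) h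
      rw [e, T.Phi1_pos k1, T.Phi1_pos h, k2]
    · by_cases h' : T.PhiS n (x + (T.N : L) ^ n * y)
      · exfalso
        apply h
        set x' := x + (T.N : L) ^ n * y with hx'
        have e : x = x' * (1 + (T.N : L) ^ n * (-y * x'⁻¹)) := by
          have := h'.1
          field_simp
          rw [hx']; ring
        rw [e]
        exact (key x' (-y * x'⁻¹) ((LI T.N L).mul_mem ((LI T.N L).neg_mem hy) h'.2.2.1) h').1
      · rw [T.Phi1_neg h, T.Phi1_neg h']
  · intro x hx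
    have h : T.PhiS n x := by
      by_contra h
      exact hx (T.Phi1_neg h)
    exact (LI T.N L).mul_mem (pow_mem_LI n) h.2.1

/-- the supports of Fourier transforms at `N` -/
theorem exists_ftB_supp [IsTotallyComplex E] : ∃ d : ℕ, ∀ (k : ℕ) (Φ : L → ℂ), BSch T.N k Φ →
    BSch T.N (k + d) (T.ftB Φ) := by
  obtain ⟨M, hM, hb⟩ := exists_basis_denominator (fun i => T.q.B0.b' i)
  obtain ⟨m₁, m₂, d, h1, h2, c, h3⟩ := exists_coprime_part T.hN M hM.ne'
  refine ⟨d, fun k Φ hΦ => ?_⟩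
  -- periodicity
  have hper : ∀ η y, y ∈ LI T.N L → T.ftB Φ (η + (T.N : L) ^ k * y) = T.ftB Φ η := by
    intro η y hy
    unfold ftB mB
    congr 1
    funext x
    congr 1
    unfold tw
    by_cases h0 : Φ x = 0
    · rw [h0, zero_mul, zero_mul]
    · congr 1
      have e : -(tr (x * T.q.c (η + (T.N : L) ^ k * y))) =
          -(tr (x * T.q.c η)) + -(tr ((T.N : L) ^ k * x * T.q.c y)) := by
        rw [← neg_add, ← map_add]
        congr 2
        rw [map_add, map_mul, map_pow, map_natCast]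
        ring
      have hmem : -(tr ((T.N : L) ^ k * x * T.q.c y)) ∈ LI T.N E :=
        (LI T.N E).neg_mem (T.tr_mem_LI ((LI T.N L).mul_mem (hΦ.2 x h0) (T.c_mem_LI hy)))
      rw [e, AddChar.map_add_eq_mul, T.ψB_LI hmem, mul_one]
  refine ⟨fun η y hy => ?_, fun η hη => ?_⟩
  · have e : (T.N : L) ^ (k + d) * y = (T.N : L) ^ k * ((T.N : L) ^ d * y) := by ring
    rw [e]
    exact hper _ _ ((LI T.N L).mul_mem (pow_mem_LI d) hy)
  · -- move `η` into `𝓞[1/N]`
    obtain ⟨y, hy, hηy⟩ := exists_decomp_deep T.hN k (one_ne_zero (α := L)) η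
    rw [div_one] at hηy
    set η' := η - (T.N : L) ^ k * y with hη'
    have e1 : T.ftB Φ η' ≠ 0 := by
      have := hper η (-y) ((LI T.N L).neg_mem hy)
      have e : η' = η + (T.N : L) ^ k * -y := by rw [hη']; ring
      rw [e, this]; exact hη
    -- the global function
    have hSBn : SBn (T.N ^ k) (fun x => Φ x * (ind T.N (((1 : Lˣ) : L)⁻¹) 0 x *
        T.ψ ((0 : E) * nm x))) := by
      constructor
      · intro x hx
        have k1 := hΦ.2 x (left_ne_zero_of_mul hx)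
        have k2 : (x - 0) / ((1 : Lˣ) : L)⁻¹ ∈ SI T.N L := by
          by_contra h
          apply hx
          show Φ x * (ind T.N (((1 : Lˣ) : L)⁻¹) 0 x * T.ψ ((0 : E) * nm x)) = 0
          rw [ind_neg h, zero_mul, mul_zero]
        rw [sub_zero, Units.val_one, inv_one, div_one] at k2
        push_cast
        exact isIntegral_of_SI_LI ((SI T.N L).mul_mem (SI_of_isIntegral
          ((isIntegral_natCast' T.N).pow k)) k2) k1
      · intro x y hy
        have e2 : Φ (x + ((T.N ^ k : ℕ) : L) * y) = Φ x := by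
          push_cast
          exact hΦ.1 x y (LI_of_isIntegral hy)
        have e3 : ind T.N (((1 : Lˣ) : L)⁻¹) 0 (x + ((T.N ^ k : ℕ) : L) * y) =
            ind T.N (((1 : Lˣ) : L)⁻¹) 0 x := by
          apply ind_congr
          rw [sub_zero, sub_zero, Units.val_one, inv_one, div_one, div_one]
          have hm : ((T.N ^ k : ℕ) : L) * y ∈ SI T.N L :=
            SI_of_isIntegral ((isIntegral_natCast' _).mul hy)
          exact ⟨fun h => by
            have := (SI T.N L).sub_mem h hm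
            rwa [add_sub_cancel_right] at this, fun h => (SI T.N L).add_mem h hm⟩
        simp only [zero_mul] at *
        rw [e2, e3]
    have hff := T.ff_main hΦ (β := 1) (g := 1) (l := 1) (a := 0) (a2 := 0) one_ne_zero
      (one_dvd _) (by simp) (s := 0) (by simp) η'
    have hne : T.q.ff (fun x => Φ x * (ind T.N (((1 : Lˣ) : L)⁻¹) 0 x *
        T.ψ ((0 : E) * nm x))) η' ≠ 0 := by
      rw [hff]
      have k1 : (nrm T.N (((1 : Lˣ) : L)) : ℝ) = 1 := T.nrm_norm_one (u := 1) (map_one _)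
      have k2 : (Nat.card (SI T.N E ⧸ span {(1 : SI T.N E)}) : ℂ) = 1 :=
        (T.gd).card_unit isUnit_one
      have k3 : ind T.N ((((1 : Lˣ) : L) * (algebraMap E L ((1 : Eˣ) : E))⁻¹)⁻¹) 0 η' = 1 := by
        apply ind_pos
        rw [sub_zero, Units.val_one, Units.val_one, map_one, inv_one, mul_one, inv_one, div_one]
        exact hηy
      rw [k1, k2, k3]
      have k4 : T.psi (algebraMap E L ((1 : SI T.N E) : E)) = 1 := by simp
      rw [k4]
      simpa using e1
    obtain ⟨mm, hmm⟩ := T.q.ff_eq_zero (pow_pos T.hN k) hSBn hne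
    have hint : IsIntegral ℤ (((M * T.N ^ k : ℕ) : L) * η') := by
      have hn' : ((T.N ^ k : ℕ) : L) ≠ 0 := by exact_mod_cast (pow_pos T.hN k).ne'
      have : ((M * T.N ^ k : ℕ) : L) * η' = ∑ i, (mm i : L) * (M * T.q.B0.b' i) := by
        rw [hmm, DB.el']
        rw [Nat.cast_mul, mul_assoc, mul_div_cancel₀ _ hn', Finset.mul_sum]
        apply Finset.sum_congr rfl
        intro i _
        rw [zsmul_eq_mul]; ring
      rw [this]
      apply IsIntegral.sum
      intro i _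
      exact (isIntegral_intCast' (mm i)).mul (hb i)
    have hη'L : (T.N : L) ^ (k + d) * η' ∈ LI T.N L := by
      refine ⟨m₁, h2, ?_⟩
      have e' : (T.N : L) ^ d = m₂ * c := by exact_mod_cast congrArg (fun z : ℕ => (z : L)) h3
      have : (m₁ : L) * ((T.N : L) ^ (k + d) * η') = c * (((M * T.N ^ k : ℕ) : L) * η') := by
        rw [pow_add, e', h1]; push_cast; ring
      rw [this]
      exact (isIntegral_natCast' c).mul hint
    have : (T.N : L) ^ (k + d) * η = (T.N : L) ^ (k + d) * η' +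
        (T.N : L) ^ (k + d) * ((T.N : L) ^ k * y) := by rw [hη']; ring
    rw [this]
    exact (LI T.N L).add_mem hη'L ((LI T.N L).mul_mem (pow_mem_LI _)
      ((LI T.N L).mul_mem (pow_mem_LI _) hy))

end T4D

end Fermat.Agent.LT.T4
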