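import Fermat.Agent.LT.Theta.Props
import Fermat.Agent.LT.Sp.Cover

set_option autoImplicit false

/-! # Whittaker series: functions `∑ A(ξ) W(p, ξ)` on `∏ H³` with coefficients of polynomial growth -/

namespace Fermat.Agent.LT.T4

open Complex MeasureTheory NumberField Module Matrix Filter Topology
open Fermat.Agent.LT.Fou Fermat.Agent.LT.Theta
open scoped Real ComplexConjugate ENNReal ContDiff

set_option linter.unusedSectionVars false

section

variable {E : Type*} [Field E] [NumberField E] [IsTotallyComplex E]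

/-- the absolute norm, as a real number -/
noncomputable def an (ξ : E) : ℝ := |((Algebra.norm ℚ ξ : ℚ) : ℝ)|

theorem an_nonneg (ξ : E) : 0 ≤ an ξ := abs_nonneg _

theorem an_mul (ξ η : E) : an (ξ * η) = an ξ * an η := by
  unfold an
  rw [map_mul]
  push_cast
  rw [abs_mul]

theorem an_pos {ξ : E} (h : ξ ≠ 0) : 0 < an ξ := by
  unfold an
  rw [abs_pos]
  have : Algebra.norm ℚ ξ ≠ 0 := Algebra.norm_ne_zero_iff.mpr h
  exact_mod_cast this

/-- coefficients of Whittaker series: bounded denominators and polynomial growth -/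
structure IsW (A : E → ℂ) : Prop where
  zero : A 0 = 0
  bd : ∃ (M : ℕ) (C : ℝ) (m : ℕ), 0 < M ∧ 0 ≤ C ∧
    (∀ ξ, A ξ ≠ 0 → IsIntegral ℤ ((M : E) * ξ)) ∧ ∀ ξ, ‖A ξ‖ ≤ C * an ξ ^ m

/-- the Whittaker series -/
noncomputable def wser (A : E → ℂ) (p : HF E) : ℂ := ∑' ξ : E, A ξ * bw p ξ

theorem IsW.ne_zero {A : E → ℂ} (h : IsW A) {ξ : E} (hξ : A ξ ≠ 0) : ξ ≠ 0 := by
  rintro rfl
  exact hξ h.zero

/-- **Majorants.** -/
theorem IsW.maj {A : E → ℂ} (h : IsW A) : ∃ j0 : ℕ, ∀ ε : ℝ, 0 < ε → ∀ j : ℕ, j0 ≤ j →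
    ∃ u : E → ℝ, Summable u ∧ (∀ ξ, 0 ≤ u ξ) ∧ ∀ p : HF E, (∀ v, ε ≤ (p v).y) →
      ∀ ξ, ‖A ξ * bw p ξ‖ ≤ u ξ * (ht p ^ (2 * j + 1))⁻¹ := by
  classical
  obtain ⟨M, C, m, hM, hC, hint, hbd⟩ := h.bd
  refine ⟨m, fun ε hε j hj => ?_⟩
  set n := finrank ℚ E with hn
  have hMr : (0 : ℝ) < M := by exact_mod_cast hM
  have hME : (M : E) ≠ 0 := by exact_mod_cast hM.ne'
  set K1 : ℝ := (2 * ((2 * (j + 1)).factorial : ℝ)) ^ Fintype.card (InfinitePlace E) with hK1
  have hK1pos : 0 ≤ K1 := by positivity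
  let R : E → ℝ := fun ξ => Real.exp (-(2 * π * ε * ∑ v : InfinitePlace E, ‖v.embedding ξ‖))
  let u : E → ℝ := fun ξ => if A ξ ≠ 0 then C * K1 * ((M : ℝ) ^ n) ^ (j + 1 - m) * R ξ else 0
  have hu0 : ∀ ξ, 0 ≤ u ξ := by
    intro ξ
    show 0 ≤ (if A ξ ≠ 0 then C * K1 * ((M : ℝ) ^ n) ^ (j + 1 - m) * R ξ else 0)
    split_ifs
    · have := (Real.exp_pos (-(2 * π * ε * ∑ v : InfinitePlace E, ‖v.embedding ξ‖))).le
      have h1 : 0 ≤ R ξ := this
      positivity
    · exact le_refl _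
  refine ⟨u, ?_, hu0, ?_⟩
  · -- summability
    have ha : (0 : ℝ) < 2 * π * ε / M := by have := Real.pi_pos; positivity
    have h1 := summable_exp_int (E := E) ha
    let P := {ξ : E // A ξ ≠ 0}
    let g : P → 𝓞 E := fun ξ => ⟨(M : E) * ξ.1, hint _ ξ.2⟩
    have hg : Function.Injective g := by
      intro a b hab
      have : (M : E) * a.1 = (M : E) * b.1 := congrArg (fun z : 𝓞 E => (z : E)) hab
      exact Subtype.ext (mul_left_cancel₀ hME this)
    have h2 := (h1.comp_injective hg).mul_left (C * K1 * ((M : ℝ) ^ n) ^ (j + 1 - m))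
    have h3 : Summable (fun ξ : P => u ξ.1) := by
      refine h2.congr fun ξ => ?_
      have e1 : u ξ.1 = C * K1 * ((M : ℝ) ^ n) ^ (j + 1 - m) * R ξ.1 := if_pos ξ.2
      rw [e1]
      congr 1
      show Real.exp _ = Real.exp _
      congr 2
      have e3 : ∀ v : InfinitePlace E, ‖v.embedding ((g ξ : 𝓞 E) : E)‖ =
          M * ‖v.embedding ξ.1‖ := by
        intro v
        show ‖v.embedding ((M : E) * ξ.1)‖ = _
        rw [map_mul, norm_mul, map_natCast, Complex.norm_natCast]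
      simp only [e3]
      rw [← Finset.mul_sum]
      field_simp
    have h4 := (summable_subtype_iff_indicator (f := u) (s := {ξ | A ξ ≠ 0})).mp h3
    refine h4.congr fun ξ => ?_
    by_cases h : A ξ ≠ 0
    · rw [Set.indicator_of_mem (show ξ ∈ {ξ | A ξ ≠ 0} from h)]
    · rw [Set.indicator_of_notMem (show ξ ∉ {ξ | A ξ ≠ 0} from h)]
      have : u ξ = 0 := if_neg h
      exact this.symm
  · intro p hp ξ
    have hht := ht_pos p
    rw [norm_mul, norm_bw]
    by_cases hξ : A ξ ≠ 0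
    · have h0 := h.ne_zero hξ
      have e1 : u ξ = C * K1 * ((M : ℝ) ^ n) ^ (j + 1 - m) * R ξ := if_pos hξ
      have hlow : ((M : ℝ) ^ n)⁻¹ ≤ an ξ := norm_lower hM h0 (hint _ hξ)
      have hpos : 0 < an ξ := an_pos h0
      have hinv : (an ξ)⁻¹ ≤ (M : ℝ) ^ n := by
        rw [inv_le_comm₀ hpos (by positivity)]; exact hlow
      have h1 : bwn p ξ ≤ K1 * (ht p ^ (2 * j + 1))⁻¹ * (an ξ ^ (j + 1))⁻¹ * R ξ :=
        bwn_le j p hp h0
      have hR : 0 ≤ R ξ := (Real.exp_pos _).le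
      have h2 : an ξ ^ m * (an ξ ^ (j + 1))⁻¹ ≤ ((M : ℝ) ^ n) ^ (j + 1 - m) := by
        have : an ξ ^ m * (an ξ ^ (j + 1))⁻¹ = ((an ξ)⁻¹) ^ (j + 1 - m) := by
          obtain ⟨d, rfl⟩ := Nat.exists_eq_add_of_le hj
          rw [show m + d + 1 - m = d + 1 by omega, inv_pow,
            show m + d + 1 = m + (d + 1) by ring, pow_add (an ξ) m (d + 1)]
          field_simp
        rw [this]
        have h0' : 0 ≤ (an ξ)⁻¹ := by positivity
        gcongr
      calc ‖A ξ‖ * bwn p ξ ≤ (C * an ξ ^ m) *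
            (K1 * (ht p ^ (2 * j + 1))⁻¹ * (an ξ ^ (j + 1))⁻¹ * R ξ) :=
            mul_le_mul (hbd ξ) h1 (bwn_nonneg _ _) (by positivity)
        _ = C * K1 * (an ξ ^ m * (an ξ ^ (j + 1))⁻¹) * R ξ * (ht p ^ (2 * j + 1))⁻¹ := by ring
        _ ≤ C * K1 * ((M : ℝ) ^ n) ^ (j + 1 - m) * R ξ * (ht p ^ (2 * j + 1))⁻¹ := by
            gcongr
        _ = _ := by rw [e1]
    · rw [not_not.mp hξ, norm_zero, zero_mul]
      exact mul_nonneg (hu0 ξ) (by positivity)

/-- majorants, in the uniform form -/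
theorem IsW.unif {A : E → ℂ} (h : IsW A) {ε : ℝ} (hε : 0 < ε) :
    ∃ u : E → ℝ, Summable u ∧ (∀ ξ, 0 ≤ u ξ) ∧ ∀ p : HF E, (∀ v, ε ≤ (p v).y) →
      ∀ ξ, ‖A ξ * bw p ξ‖ ≤ u ξ := by
  obtain ⟨j0, hj0⟩ := h.maj
  obtain ⟨u, hu, hu0, hb⟩ := hj0 ε hε j0 le_rfl
  set r := Fintype.card (InfinitePlace E) with hr
  refine ⟨fun o => u o * ((ε ^ r) ^ (2 * j0 + 1))⁻¹, hu.mul_right _,
    fun o => mul_nonneg (hu0 o) (by positivity), ?_⟩
  intro p hp o
  refine (hb p hp o).trans ?_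
  apply mul_le_mul_of_nonneg_left _ (hu0 o)
  have h1 : ε ^ r ≤ ht p := ht_ge hε hp
  have h2 : 0 < ε ^ r := by positivity
  gcongr

theorem IsW.summable_norm {A : E → ℂ} (h : IsW A) (p : HF E) :
    Summable fun ξ : E => ‖A ξ * bw p ξ‖ := by
  obtain ⟨ε, hε, hp⟩ := exists_eps p
  obtain ⟨u, hu, hu0, hb⟩ := h.unif hε
  exact Summable.of_nonneg_of_le (fun ξ => norm_nonneg _) (hb p hp) hu

theorem IsW.summable {A : E → ℂ} (h : IsW A) (p : HF E) :
    Summable fun ξ : E => A ξ * bw p ξ := (h.summable_norm p).of_norm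

theorem IsW.bdd {A : E → ℂ} (h : IsW A) {ε : ℝ} (hε : 0 < ε) :
    ∃ C : ℝ, 0 ≤ C ∧ ∀ p : HF E, (∀ v, ε ≤ (p v).y) → ‖wser A p‖ ≤ C := by
  obtain ⟨u, hu, hu0, hb⟩ := h.unif hε
  refine ⟨∑' o, u o, tsum_nonneg hu0, fun p hp => ?_⟩
  unfold wser
  exact (norm_tsum_le_tsum_norm (h.summable_norm p)).trans
    ((h.summable_norm p).tsum_le_tsum (hb p hp) hu)

/-- **Decay at the cusp.** -/
theorem IsW.decay {A : E → ℂ} (h : IsW A) : ∃ j0 : ℕ, ∀ ε : ℝ, 0 < ε → ∀ j : ℕ, j0 ≤ j →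
    ∃ C : ℝ, 0 ≤ C ∧ ∀ p : HF E, (∀ v, ε ≤ (p v).y) → ‖wser A p‖ ≤ C * (ht p ^ (2 * j + 1))⁻¹ := by
  obtain ⟨j0, hj0⟩ := h.maj
  refine ⟨j0, fun ε hε j hj => ?_⟩
  obtain ⟨u, hu, hu0, hb⟩ := hj0 ε hε j hj
  refine ⟨∑' o, u o, tsum_nonneg hu0, fun p hp => ?_⟩
  unfold wser
  refine (norm_tsum_le_tsum_norm (h.summable_norm p)).trans ?_
  rw [← tsum_mul_right]
  exact (h.summable_norm p).tsum_le_tsum (hb p hp) (hu.mul_right _)

/-- **Continuity.** -/
theorem IsW.continuous {A : E → ℂ} (h : IsW A) : Continuous fun p : HF E => wser A p := by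
  rw [continuous_iff_continuousAt]
  intro p0
  obtain ⟨ε, hε, hp0⟩ := exists_eps p0
  obtain ⟨u, hu, hu0, hb⟩ := h.unif (half_pos hε)
  have hopen : IsOpen {p : HF E | ∀ v, ε / 2 < (p v).y} := by
    have : {p : HF E | ∀ v, ε / 2 < (p v).y} = ⋂ v, {p : HF E | ε / 2 < (p v).y} := by
      ext p; simp
    rw [this]
    apply isOpen_iInter_of_finite
    intro v
    exact isOpen_lt continuous_const (H3.continuous_y.comp (continuous_apply v))
  have hmem : p0 ∈ {p : HF E | ∀ v, ε / 2 < (p v).y} := fun v =>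
    lt_of_lt_of_le (half_lt_self hε) (hp0 v)
  apply ContinuousOn.continuousAt (s := {p : HF E | ∀ v, ε / 2 < (p v).y}) _ (hopen.mem_nhds hmem)
  unfold wser
  apply continuousOn_tsum (u := u) _ hu
  · intro o p hp
    exact hb p (fun v => (hp v).le) o
  · intro ξ
    apply Continuous.continuousOn
    by_cases hξ : A ξ = 0
    · simp only [hξ, zero_mul]; exact continuous_const
    · exact continuous_const.mul (continuous_bw (h.ne_zero hξ))

/-- **Eigenfunction equation.** -/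
theorem IsW.eig {A : E → ℂ} (h : IsW A) {k : ℝ → ℝ}
    (hk : Continuous k) (hks : HasCompactSupport k) (p : HF E) (w : InfinitePlace E) :
    ∫ q : H3, k (H3.cd (p w) q) • wser A (upd p w q) = (H3.khat k : ℂ) * wser A p := by
  obtain ⟨R, hR1, hR⟩ := H3.exists_R hks
  obtain ⟨ε0, hε0, hp0⟩ := exists_eps p
  set ε : ℝ := ε0 / (2 * R) with hε
  have hεpos : 0 < ε := by positivity
  have hεle : ε ≤ ε0 := by
    rw [hε]
    apply div_le_self hε0.le
    linarith
  obtain ⟨u, hu, hu0, hb⟩ := h.unif hεpos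
  have hy : ∀ q : H3, H3.cd (p w) q ≤ R → ∀ v, ε ≤ (upd p w q v).y := by
    intro q hq v
    by_cases hv : v = w
    · subst hv
      rw [upd_same]
      have h1 := H3.y_le q (p v)
      rw [H3.cd_symm] at h1
      have h2 := q.pos
      have h3 : (p v).y ≤ 2 * R * q.y := h1.trans (by gcongr)
      rw [hε, div_le_iff₀ (by positivity)]
      calc ε0 ≤ (p v).y := hp0 v
        _ ≤ _ := by linarith
    · rw [upd_ne p hv]
      exact hεle.trans (hp0 v)
  have hint : ∀ ξ : E, Integrable (fun q : H3 => k (H3.cd (p w) q) •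
      (A ξ * bw (upd p w q) ξ)) := by
    intro ξ
    by_cases hξ : A ξ = 0
    · simp only [hξ, zero_mul, smul_zero]
      exact integrable_zero _ _ _
    apply H3.integrable_cd hk hks
    exact continuous_const.mul ((continuous_bw (h.ne_zero hξ)).comp
      ((continuous_upd w).comp (by fun_prop : Continuous fun q : H3 => (p, q))))
  have hkint : Integrable (fun q : H3 => ‖k (H3.cd (p w) q)‖) := by
    have := H3.integrable_cd hk hks (f := fun _ : H3 => (1 : ℝ)) continuous_const (p w)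
    simp only [smul_eq_mul, mul_one] at this
    exact this.norm
  have hbound : ∀ (ξ : E) (q : H3), ‖k (H3.cd (p w) q) •
      (A ξ * bw (upd p w q) ξ)‖ ≤ ‖k (H3.cd (p w) q)‖ * u ξ := by
    intro ξ q
    rw [norm_smul]
    by_cases hq : H3.cd (p w) q ≤ R
    · exact mul_le_mul_of_nonneg_left (hb _ (hy q hq) ξ) (norm_nonneg _)
    · rw [hR _ (not_le.mp hq)]
      simp
  have hsum : Summable fun ξ : E => ∫ q : H3, ‖k (H3.cd (p w) q) •
      (A ξ * bw (upd p w q) ξ)‖ := by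
    refine Summable.of_nonneg_of_le (fun ξ => integral_nonneg fun q => norm_nonneg _)
      (fun ξ => ?_) (hu.mul_left (∫ q : H3, ‖k (H3.cd (p w) q)‖))
    rw [← integral_mul_const]
    exact integral_mono (hint ξ).norm (hkint.mul_const _) (hbound ξ)
  have : Countable E := Countable.of_equiv _ (Module.finBasis ℚ E).equivFun.toEquiv.symm
  have hs := hasSum_integral_of_summable_integral_norm hint hsum
  have e1 : ∀ q : H3, ∑' ξ : E, k (H3.cd (p w) q) • (A ξ * bw (upd p w q) ξ) =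
      k (H3.cd (p w) q) • wser A (upd p w q) := by
    intro q
    unfold wser
    simp only [Complex.real_smul]
    rw [tsum_mul_left]
  simp only [e1] at hs
  rw [← hs.tsum_eq]
  unfold wser
  rw [← tsum_mul_left]
  apply tsum_congr
  intro ξ
  by_cases hξ : A ξ = 0
  · simp only [hξ, zero_mul, smul_zero, integral_zero, mul_zero]
  have e2 : ∀ q : H3, k (H3.cd (p w) q) • (A ξ * bw (upd p w q) ξ) =
      A ξ * (k (H3.cd (p w) q) • bw (upd p w q) ξ) := by
    intro q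
    rw [mul_smul_comm]
  simp only [e2]
  rw [integral_const_mul, bw_eig hk hks (h.ne_zero hξ)]
  ring

theorem isDual_of_integral {N : ℕ} {ξ : E} (h : IsIntegral ℤ ((N : E) * ξ)) : IsDual N ξ := by
  intro a
  have h1 : IsIntegral ℤ (ξ * ((N : E) * a)) := by
    have : ξ * ((N : E) * a) = ((N : E) * ξ) * a := by ring
    rw [this]
    exact h.mul a.isIntegral_coe
  obtain ⟨n, hn⟩ := isIntegral_rat (Algebra.isIntegral_trace (L := ℚ) h1)
  exact ⟨n, hn⟩

/-- **The Fourier coefficients.** -/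
theorem IsW.fc {A : E → ℂ} (h : IsW A) (p : HF E) (η : E) :
    fc (fun v => wser A (tra v p)) η = A η * bw p η := by
  obtain ⟨M, C, m, hM, hC, hint, hbd⟩ := h.bd
  have e1 : (fun v => wser A (tra v p)) = fun v => ∑' ξ : E, (A ξ * bw p ξ) * ev ξ v := by
    funext v
    unfold wser
    apply tsum_congr
    intro ξ
    rw [bw_tra]
    ring
  rw [e1]
  apply fc_tsum (N := M) hM.ne' _ (h.summable_norm p)
  intro ξ hξ
  exact isDual_of_integral (hint _ (left_ne_zero_of_mul hξ))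

/-! ### Operations -/

theorem IsW.zero_fun : IsW (fun _ : E => (0 : ℂ)) :=
  ⟨rfl, 1, 0, 0, one_pos, le_rfl, fun ξ h => absurd rfl h, fun ξ => by simp⟩

theorem IsW.const_mul {A : E → ℂ} (h : IsW A) (c : ℂ) : IsW fun ξ => c * A ξ := by
  obtain ⟨M, C, m, hM, hC, hint, hbd⟩ := h.bd
  refine ⟨by rw [h.zero, mul_zero], M, ‖c‖ * C, m, hM, by positivity,
    fun ξ hξ => hint ξ (right_ne_zero_of_mul hξ), fun ξ => ?_⟩
  rw [norm_mul, mul_assoc]
  exact mul_le_mul_of_nonneg_left (hbd ξ) (norm_nonneg c)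

theorem isIntegral_nat_mul {M N : ℕ} {ξ : E} (h : IsIntegral ℤ ((M : E) * ξ)) :
    IsIntegral ℤ (((M * N : ℕ) : E) * ξ) := by
  have : ((M * N : ℕ) : E) * ξ = (N : E) * ((M : E) * ξ) := by push_cast; ring
  rw [this]
  have hN : IsIntegral ℤ (N : E) := by
    have := isIntegral_algebraMap (R := ℤ) (A := E) (x := (N : ℤ))
    simpa using this
  exact hN.mul h

/-- the exponent of growth can be increased -/
theorem pow_an_le {M : ℕ} (hM : 0 < M) {ξ : E} (h0 : ξ ≠ 0) (h : IsIntegral ℤ ((M : E) * ξ))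
    {m m' : ℕ} (hm : m ≤ m') : an ξ ^ m ≤ (((M : ℝ) ^ finrank ℚ E) ^ (m' - m)) * an ξ ^ m' := by
  have hlow : ((M : ℝ) ^ finrank ℚ E)⁻¹ ≤ an ξ := norm_lower hM h0 h
  have hMr : (0 : ℝ) < (M : ℝ) ^ finrank ℚ E := by
    have : (0 : ℝ) < M := by exact_mod_cast hM
    positivity
  have hpos : 0 < an ξ := an_pos h0
  obtain ⟨d, rfl⟩ := Nat.exists_eq_add_of_le hm
  rw [show m + d - m = d by omega, pow_add (an ξ) m d]
  have h1 : 1 ≤ (M : ℝ) ^ finrank ℚ E * an ξ := by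
    rw [inv_le_iff_one_le_mul₀ hMr, mul_comm] at hlow
    exact hlow
  have h2 : 1 ≤ ((M : ℝ) ^ finrank ℚ E * an ξ) ^ d := one_le_pow₀ h1
  have h3 : 0 ≤ an ξ ^ m := by positivity
  calc an ξ ^ m = an ξ ^ m * 1 := (mul_one _).symm
    _ ≤ an ξ ^ m * ((M : ℝ) ^ finrank ℚ E * an ξ) ^ d := mul_le_mul_of_nonneg_left h2 h3
    _ = _ := by rw [mul_pow]; ring

theorem IsW.add {A B : E → ℂ} (hA : IsW A) (hB : IsW B) : IsW fun ξ => A ξ + B ξ := by
  obtain ⟨M, C, m, hM, hC, hint, hbd⟩ := hA.bd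
  obtain ⟨M', C', m', hM', hC', hint', hbd'⟩ := hB.bd
  have hsupp : ∀ ξ, A ξ + B ξ ≠ 0 → IsIntegral ℤ (((M * M' : ℕ) : E) * ξ) := by
    intro ξ hξ
    by_cases h : A ξ = 0
    · rw [h, zero_add] at hξ
      rw [mul_comm M M']
      exact isIntegral_nat_mul (hint' ξ hξ)
    · exact isIntegral_nat_mul (hint ξ h)
  set K1 : ℝ := (((M : ℝ) ^ finrank ℚ E) ^ (m + m' - m)) with hK1
  set K2 : ℝ := (((M' : ℝ) ^ finrank ℚ E) ^ (m + m' - m')) with hK2
  refine ⟨by rw [hA.zero, hB.zero, add_zero], M * M', C * K1 + C' * K2, m + m',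
    Nat.mul_pos hM hM', by positivity, hsupp, fun ξ => ?_⟩
  have h1 : ‖A ξ‖ ≤ C * K1 * an ξ ^ (m + m') := by
    by_cases h : A ξ = 0
    · rw [h, norm_zero]
      have := an_nonneg ξ
      positivity
    · refine (hbd ξ).trans ?_
      rw [mul_assoc]
      exact mul_le_mul_of_nonneg_left
        (pow_an_le hM (hA.ne_zero h) (hint ξ h) (Nat.le_add_right m m')) hC
  have h2 : ‖B ξ‖ ≤ C' * K2 * an ξ ^ (m + m') := by
    by_cases h : B ξ = 0
    · rw [h, norm_zero]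
      have := an_nonneg ξ
      positivity
    · refine (hbd' ξ).trans ?_
      rw [mul_assoc]
      exact mul_le_mul_of_nonneg_left
        (pow_an_le hM' (hB.ne_zero h) (hint' ξ h) (Nat.le_add_left m' m)) hC'
  calc ‖A ξ + B ξ‖ ≤ ‖A ξ‖ + ‖B ξ‖ := norm_add_le _ _
    _ ≤ _ := by rw [add_mul]; exact add_le_add h1 h2

theorem IsW.sum {ι : Type*} (s : Finset ι) {A : ι → E → ℂ} (h : ∀ i ∈ s, IsW (A i)) :
    IsW fun ξ => ∑ i ∈ s, A i ξ := by
  classical
  induction s using Finset.induction_on with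
  | empty => simpa using IsW.zero_fun
  | insert a s ha ih =>
    simp only [Finset.sum_insert ha]
    exact (h a (Finset.mem_insert_self a s)).add (ih fun i hi => h i (Finset.mem_insert_of_mem hi))

theorem IsW.mono {A B : E → ℂ} (hA : IsW A) {C : ℝ} (h : ∀ ξ, ‖B ξ‖ ≤ C * ‖A ξ‖) : IsW B := by
  obtain ⟨M, C', m, hM, hC', hint, hbd⟩ := hA.bd
  have h0 : ∀ ξ, A ξ = 0 → B ξ = 0 := by
    intro ξ hξ
    have := h ξ
    rw [hξ, norm_zero, mul_zero] at this
    exact norm_le_zero_iff.mp this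
  refine ⟨h0 0 hA.zero, M, |C| * C', m, hM, by positivity,
    fun ξ hξ => hint ξ fun h' => hξ (h0 ξ h'), fun ξ => ?_⟩
  calc ‖B ξ‖ ≤ C * ‖A ξ‖ := h ξ
    _ ≤ |C| * ‖A ξ‖ := mul_le_mul_of_nonneg_right (le_abs_self C) (norm_nonneg _)
    _ ≤ |C| * (C' * an ξ ^ m) := mul_le_mul_of_nonneg_left (hbd ξ) (abs_nonneg C)
    _ = _ := by ring

theorem exists_nat_int (a : E) : ∃ m : ℕ, 0 < m ∧ IsIntegral ℤ ((m : E) * a) := by
  have hal : IsAlgebraic ℤ a :=
    (IsFractionRing.isAlgebraic_iff ℤ ℚ E).mpr (Algebra.IsAlgebraic.isAlgebraic (R := ℚ) a)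
  obtain ⟨y, hy, h⟩ := hal.exists_integral_multiple
  refine ⟨y.natAbs, Int.natAbs_pos.mpr hy, ?_⟩
  rcases Int.natAbs_eq y with e | e
  · rw [e, natCast_zsmul, nsmul_eq_mul] at h
    exact h
  · rw [e, neg_smul, natCast_zsmul, nsmul_eq_mul] at h
    simpa using h.neg

/-- scaling of the argument -/
theorem IsW.comp_mul {A : E → ℂ} (h : IsW A) {a : E} (ha : a ≠ 0) : IsW fun ξ => A (a * ξ) := by
  obtain ⟨M, C, m, hM, hC, hint, hbd⟩ := h.bd
  obtain ⟨m1, hm1, hi⟩ := exists_nat_int (a⁻¹)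
  refine ⟨by rw [mul_zero]; exact h.zero, M * m1, C * an a ^ m, m, Nat.mul_pos hM hm1, by
    have := an_nonneg a
    positivity, fun ξ hξ => ?_, fun ξ => ?_⟩
  · have h1 := hint _ hξ
    have : ((M * m1 : ℕ) : E) * ξ = ((m1 : E) * a⁻¹) * ((M : E) * (a * ξ)) := by
      push_cast
      field_simp
    rw [this]
    exact hi.mul h1
  · refine (hbd _).trans (le_of_eq ?_)
    rw [an_mul, mul_pow, mul_assoc]

theorem wser_add {A B : E → ℂ} (hA : IsW A) (hB : IsW B) (p : HF E) :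
    wser (fun ξ => A ξ + B ξ) p = wser A p + wser B p := by
  unfold wser
  rw [← (hA.summable p).tsum_add (hB.summable p)]
  exact tsum_congr fun ξ => add_mul _ _ _

theorem wser_const_mul (A : E → ℂ) (c : ℂ) (p : HF E) :
    wser (fun ξ => c * A ξ) p = c * wser A p := by
  unfold wser
  rw [← tsum_mul_left]
  exact tsum_congr fun ξ => mul_assoc _ _ _

theorem wser_sum {ι : Type*} (s : Finset ι) {A : ι → E → ℂ} (h : ∀ i ∈ s, IsW (A i)) (p : HF E) :
    wser (fun ξ => ∑ i ∈ s, A i ξ) p = ∑ i ∈ s, wser (A i) p := by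
  unfold wser
  rw [← Summable.tsum_finsetSum fun i hi => (h i hi).summable p]
  exact tsum_congr fun ξ => Finset.sum_mul _ _ _

theorem wser_aMat (A : E → ℂ) (a : Eˣ) (p : HF E) :
    wser A (Sp.aMat a • p) = wser (fun ξ => (∏ v : InfinitePlace E, (‖v.embedding (a : E)‖ : ℂ)) *
      A (((a⁻¹ : Eˣ) : E) * ξ)) p := by
  unfold wser
  rw [← (Equiv.mulLeft₀ (a : E) a.ne_zero).tsum_eq (fun ξ =>
    (∏ v : InfinitePlace E, (‖v.embedding (a : E)‖ : ℂ)) * A (((a⁻¹ : Eˣ) : E) * ξ) * bw p ξ)]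
  apply tsum_congr
  intro ξ
  show A ξ * bw (Sp.aMat a • p) ξ = _ * A (((a⁻¹ : Eˣ) : E) * ((a : E) * ξ)) * bw p ((a : E) * ξ)
  rw [bw_aMat, Units.inv_mul_cancel_left]
  ring

theorem wser_tra (A : E → ℂ) (v : InfinitePlace E → ℂ) (p : HF E) :
    wser A (tra v p) = wser (fun ξ => ev ξ v * A ξ) p := by
  unfold wser
  apply tsum_congr
  intro ξ
  rw [bw_tra]
  ring

theorem wser_nMat (A : E → ℂ) (b : E) (p : HF E) :
    wser A (nMat b • p) = wser (fun ξ => ev ξ (emb b) * A ξ) p := by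
  rw [nMat_smul_HF, wser_tra]

theorem IsW.mul_ev {A : E → ℂ} (h : IsW A) (v : InfinitePlace E → ℂ) :
    IsW fun ξ => ev ξ v * A ξ :=
  h.mono (C := 1) fun ξ => by rw [norm_mul, norm_ev]

/-- **Whittaker series** as functions -/
def WSF (f : HF E → ℂ) : Prop := ∃ A, IsW A ∧ ∀ p, f p = wser A p

theorem WSF.of_eq {f g : HF E → ℂ} (h : WSF f) (e : ∀ p, g p = f p) : WSF g := by
  obtain ⟨A, hA, hf⟩ := h
  exact ⟨A, hA, fun p => (e p).trans (hf p)⟩

theorem WSF.const_mul {f : HF E → ℂ} (h : WSF f) (c : ℂ) : WSF fun p => c * f p := by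
  obtain ⟨A, hA, hf⟩ := h
  exact ⟨_, hA.const_mul c, fun p => by
    show c * f p = _
    rw [wser_const_mul, hf]⟩

theorem WSF.add {f g : HF E → ℂ} (h : WSF f) (h' : WSF g) : WSF fun p => f p + g p := by
  obtain ⟨A, hA, hf⟩ := h
  obtain ⟨B, hB, hg⟩ := h'
  exact ⟨_, hA.add hB, fun p => by
    show f p + g p = _
    rw [wser_add hA hB, hf, hg]⟩

theorem WSF.zero : WSF fun _ : HF E => (0 : ℂ) :=
  ⟨_, IsW.zero_fun, fun p => by simp [wser]⟩

theorem WSF.sum {ι : Type*} (s : Finset ι) {f : ι → HF E → ℂ} (h : ∀ i ∈ s, WSF (f i)) :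
    WSF fun p => ∑ i ∈ s, f i p := by
  classical
  induction s using Finset.induction_on with
  | empty => simpa using WSF.zero
  | insert a s ha ih =>
    simp only [Finset.sum_insert ha]
    exact (h a (Finset.mem_insert_self a s)).add (ih fun i hi => h i (Finset.mem_insert_of_mem hi))

theorem WSF.aMat {f : HF E → ℂ} (h : WSF f) (a : Eˣ) : WSF fun p => f (Sp.aMat a • p) := by
  obtain ⟨A, hA, hf⟩ := h
  exact ⟨_, (hA.comp_mul (a⁻¹ : Eˣ).ne_zero).const_mul _, fun p => by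
    show f (Sp.aMat a • p) = _
    rw [hf, wser_aMat]⟩

theorem WSF.nMat {f : HF E → ℂ} (h : WSF f) (b : E) : WSF fun p => f (nMat b • p) := by
  obtain ⟨A, hA, hf⟩ := h
  exact ⟨_, hA.mul_ev (emb b), fun p => by
    show f (LT.nMat b • p) = _
    rw [hf, wser_nMat]⟩

theorem WSF.continuous {f : HF E → ℂ} (h : WSF f) : Continuous f := by
  obtain ⟨A, hA, hf⟩ := h
  rw [show f = fun p => wser A p from funext hf]
  exact hA.continuous

theorem WSF.bdd {f : HF E → ℂ} (h : WSF f) {ε : ℝ} (hε : 0 < ε) :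
    ∃ C : ℝ, 0 ≤ C ∧ ∀ p : HF E, (∀ v, ε ≤ (p v).y) → ‖f p‖ ≤ C := by
  obtain ⟨A, hA, hf⟩ := h
  obtain ⟨C, hC, hb⟩ := hA.bdd hε
  exact ⟨C, hC, fun p hp => by rw [hf]; exact hb p hp⟩

theorem WSF.eig {f : HF E → ℂ} (h : WSF f) {k : ℝ → ℝ}
    (hk : Continuous k) (hks : HasCompactSupport k) (p : HF E) (w : InfinitePlace E) :
    ∫ q : H3, k (H3.cd (p w) q) • f (upd p w q) = (H3.khat k : ℂ) * f p := by
  obtain ⟨A, hA, hf⟩ := h
  simp only [hf]
  exact hA.eig hk hks p w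

theorem WSF.fc_zero {f : HF E → ℂ} (h : WSF f) (p : HF E) :
    Fou.fc (fun v => f (tra v p)) 0 = 0 := by
  obtain ⟨A, hA, hf⟩ := h
  simp only [hf]
  rw [hA.fc, hA.zero, zero_mul]

/-- **Automorphic forms from Whittaker series.** -/
theorem autForm_of_WSF {D : Type*} [MulAction (GL (Fin 2) E) D] [Sp.FinPart E D]
    {φ : HF E × D → ℂ} (hinv : ∀ (g : GL (Fin 2) E) (p : HF E) (d : D),
      φ (g • p, g • d) = φ (p, d)) (hW : ∀ d, WSF fun p => φ (p, d)) : AutForm φ where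
  cont d := (hW d).continuous
  inv := hinv
  bdd := by
    obtain ⟨R, D₁, hR, hcov⟩ := Sp.exists_cover E D
    have hR0 : 0 < R⁻¹ := by positivity
    choose C hC hb using fun d => (hW d).bdd hR0
    refine ⟨∑ d ∈ D₁, C d, ?_⟩
    rintro ⟨p, d⟩
    obtain ⟨g, h1, h2⟩ := hcov (p, d)
    have h3 : φ (p, d) = φ ((g • (p, d)).1, (g • (p, d)).2) := (hinv g p d).symm
    rw [h3]
    refine (hb _ _ fun v => (h1 v).2.1).trans ?_
    exact Finset.single_le_sum (f := C) (fun d _ => hC d) h2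
  eig w k hk hks p d := (hW d).eig hk.continuous hks p w
  cusp p d := (hW d).fc_zero p

end

section ser

variable {E L : Type*} [Field E] [NumberField E] [Field L] [NumberField L] [Algebra E L]
  [IsTotallyComplex E] {G S : Type*} [Group G] [Countable G] [Countable S]
  [MulAction G S] {i : G →* Lˣ}

/-- the series of theta type are Whittaker series -/
theorem WSF_ser {Ψ : S → L → ℂ} (hW : IsW (coe E i Ψ)) (hs : ∀ p : HF E, SerConv i Ψ p) :
    WSF fun p : HF E => ser i Ψ p :=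
  ⟨_, hW, fun p => (ser_eq_tsum (hs p)).2⟩

end ser

end Fermat.Agent.LT.T4
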