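import Fermat.Agent.LT.T4.Reg3
import Fermat.Agent.LT.T4.Lvl
import Fermat.Agent.LT.T4.WS

set_option autoImplicit false

/-!
# Regrouping of the theta form: comparison of notations
-/

namespace Fermat.Agent.LT.T4

open Fermat.Agent.LT.Theta NumberField Module Ideal
open scoped Real

theorem nrm_eq_an {N : ℕ} {K : Type*} [Field K] [NumberField K] (hN : 0 < N) {u : Kˣ}
    (hu : u ∈ UL N K) : nrm N (u : K) = an (u : K) := nrm_of_UL hN hu

namespace T4D

variable {E L : Type*} [Field E] [NumberField E] [Field L] [NumberField L] [Algebra E L]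
  (T : T4D E L)

theorem Ph1_eq_Phi1 (n : ℕ) : T.Ph1 n = T.Phi1 n := by
  funext x
  by_cases h : T.PhiS n x
  · rw [T.Phi1_pos h]
    obtain ⟨h0, h1, h2, y, hy, h3⟩ := h
    have := T.Ph1_of (n := n) (u := Units.mk0 x h0) ⟨h1, by
      rw [Units.val_inv_eq_inv_val]; exact h2⟩ ⟨y, hy, h3⟩
    exact this
  · rw [T.Phi1_neg h]
    by_cases h0 : x = 0
    · rw [h0, T.Ph1_zero]
    · by_contra h1
      obtain ⟨h2, y, hy, h3⟩ := T.Ph1_ne (n := n) (u := Units.mk0 x h0) h1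
      refine h ⟨h0, h2.1, ?_, y, hy, h3⟩
      have := h2.2
      rwa [Units.val_inv_eq_inv_val] at this

/-- **The theta form as a sum over norm classes**, in the notation of `Lvl`. -/
theorem f_eq_sum_Phi1 [IsTotallyComplex E] {n : ℕ} (hn : 1 ≤ n) {ι : Type*} (κ : ι → Eˣ)
    (hκ : ∀ i, κ i ∈ T.A1 n)
    (hrep : ∀ ξ ∈ T.A1 n, ∃! i, ∃ u ∈ UL T.N L, nmU E L u * κ i = ξ) (p : HF E) (c : Eˣ) (s : E) :
    Summable (fun i => T.fPhi (T.Phi1 n) (Sp.aMat (κ i) • p) (κ i * c) ((κ i : E) * s)) ∧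
    T.f n p c s = ∑' i, T.fPhi (T.Phi1 n) (Sp.aMat (κ i) • p) (κ i * c) ((κ i : E) * s) := by
  rw [← T.Ph1_eq_Phi1]
  exact T.f_eq_sum hn κ hκ hrep p c s

end T4D

end Fermat.Agent.LT.T4
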