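import Fermat.Agent.LT.T4.Lvl
import Fermat.Agent.LT.T4.Eqv
import Fermat.Agent.LT.T4.Fn
import Fermat.Agent.LT.T4.Reg4

set_option autoImplicit false

/-!
# The invariance of the theta form under lower unipotent matrices
-/

namespace Fermat.Agent.LT.T4

open Fermat.Agent.LT.Theta Ideal Matrix
open scoped MatrixGroups

section geom

variable {N : ℕ} {E : Type*} [Field E] [NumberField E]

/-- coordinates of a point in terms of a greatest common divisor -/
theorem exists_gcd_coord (hpid : IsPrincipalIdealRing (SI N E)) (c : Eˣ) (s : E) :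
    ∃ (g : Eˣ) (l a a2 : SI N E), l ≠ 0 ∧ l ∣ 1 + a * a2 ∧ (c : E) = g * l ∧ s = g * a := by
  obtain ⟨m1, hm1, hc⟩ := exists_nat_integral (c : E)
  obtain ⟨m2, hm2, hs⟩ := exists_nat_integral s
  have hm : ((m1 * m2 : ℕ) : E) ≠ 0 := by exact_mod_cast mul_ne_zero hm1 hm2
  set c' : SI N E := ⟨((m1 * m2 : ℕ) : E) * c, SI_of_isIntegral (by
    have : ((m1 * m2 : ℕ) : E) * c = (m2 : E) * ((m1 : E) * c) := by push_cast; ring
    rw [this]; exact (isIntegral_natCast' m2).mul hc)⟩ with hc'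
  set s' : SI N E := ⟨((m1 * m2 : ℕ) : E) * s, SI_of_isIntegral (by
    have : ((m1 * m2 : ℕ) : E) * s = (m1 : E) * ((m2 : E) * s) := by push_cast; ring
    rw [this]; exact (isIntegral_natCast' m1).mul hs)⟩ with hs'
  have hc0 : c' ≠ 0 := fun h => mul_ne_zero hm c.ne_zero (congrArg Subtype.val h)
  obtain ⟨d, hd⟩ := (hpid.principal (span {c', s'}))
  rw [submodule_span_eq] at hd
  have hcd : d ∣ c' := by
    rw [← mem_span_singleton, ← hd]
    exact subset_span (by simp)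
  have hsd : d ∣ s' := by
    rw [← mem_span_singleton, ← hd]
    exact subset_span (by simp)
  obtain ⟨l, hl⟩ := hcd
  obtain ⟨a, ha⟩ := hsd
  have hd0 : d ≠ 0 := by rintro rfl; rw [zero_mul] at hl; exact hc0 hl
  have hl0 : l ≠ 0 := by rintro rfl; rw [mul_zero] at hl; exact hc0 hl
  have hdm : d ∈ span {c', s'} := by rw [hd]; exact mem_span_singleton_self d
  obtain ⟨x, y, hxy⟩ := mem_span_pair.1 hdm
  have h1 : x * l + y * a = 1 := by
    apply mul_left_cancel₀ hd0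
    rw [hl, ha] at hxy
    linear_combination hxy
  have hdE : (d : E) ≠ 0 := coe_ne_zero hd0
  refine ⟨Units.mk0 ((d : E) / ((m1 * m2 : ℕ) : E)) (div_ne_zero hdE hm), l, a, -y, hl0,
    ⟨x, by linear_combination (-1 : SI N E) * h1⟩, ?_, ?_⟩
  · have h2 : ((m1 * m2 : ℕ) : E) * c = d * l := congrArg Subtype.val hl
    rw [Units.val_mk0]
    field_simp
    linear_combination h2
  · have h2 : ((m1 * m2 : ℕ) : E) * s = d * a := congrArg Subtype.val ha
    rw [Units.val_mk0]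
    field_simp
    linear_combination h2

variable {Ω : Type*} [MulAction (GL (Fin 2) E) Ω]

omit [NumberField E] in
/-- the matrix in `GL₂(𝓞[1/N])`, up to the scalar `g` -/
def wM (g : Eˣ) (l a a2 y : E) (h : 1 + a * a2 = l * y) : GL (Fin 2) E where
  val := !![-((g : E) * a2), -((g : E) * y); (g : E) * l, (g : E) * a]
  inv := !![((g⁻¹ : Eˣ) : E) * a, ((g⁻¹ : Eˣ) : E) * y;
    -(((g⁻¹ : Eˣ) : E) * l), -(((g⁻¹ : Eˣ) : E) * a2)]
  val_inv := by
    have hg : (g : E) * ((g⁻¹ : Eˣ) : E) = 1 := Units.mul_inv g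
    ext i j
    fin_cases i <;> fin_cases j <;>
      simp only [Matrix.mul_apply, Fin.sum_univ_two, Fin.zero_eta, Fin.mk_one, Matrix.of_apply,
        Matrix.cons_val', Matrix.cons_val_zero, Matrix.cons_val_one, Matrix.cons_val_fin_one,
        Matrix.one_apply_eq, ne_eq, zero_ne_one, one_ne_zero, not_false_eq_true,
        Matrix.one_apply_ne]
    · linear_combination (l * y - a * a2) * hg - h
    · ring
    · ring
    · linear_combination (l * y - a * a2) * hg - h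
  inv_val := by
    have hg : (g : E) * ((g⁻¹ : Eˣ) : E) = 1 := Units.mul_inv g
    ext i j
    fin_cases i <;> fin_cases j <;>
      simp only [Matrix.mul_apply, Fin.sum_univ_two, Fin.zero_eta, Fin.mk_one, Matrix.of_apply,
        Matrix.cons_val', Matrix.cons_val_zero, Matrix.cons_val_one, Matrix.cons_val_fin_one,
        Matrix.one_apply_eq, ne_eq, zero_ne_one, one_ne_zero, not_false_eq_true,
        Matrix.one_apply_ne]
    · linear_combination (l * y - a * a2) * hg - h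
    · ring
    · ring
    · linear_combination (l * y - a * a2) * hg - h

omit [NumberField E] in
theorem wM_coe (g : Eˣ) (l a a2 y : E) (h : 1 + a * a2 = l * y) :
    ((wM g l a a2 y h : GL (Fin 2) E) : Matrix (Fin 2) (Fin 2) E) =
      !![-((g : E) * a2), -((g : E) * y); (g : E) * l, (g : E) * a] := rfl

omit [NumberField E] in
theorem wM_inv_coe (g : Eˣ) (l a a2 y : E) (h : 1 + a * a2 = l * y) :
    (((wM g l a a2 y h)⁻¹ : GL (Fin 2) E) : Matrix (Fin 2) (Fin 2) E) =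
      !![((g⁻¹ : Eˣ) : E) * a, ((g⁻¹ : Eˣ) : E) * y;
        -(((g⁻¹ : Eˣ) : E) * l), -(((g⁻¹ : Eˣ) : E) * a2)] := rfl

theorem wM_smul (om : Om N E Ω) (g : Eˣ) (l a a2 y : SI N E)
    (h : (1 : E) + a * a2 = l * y) : wM g l a a2 y h • om.base = om.base := by
  have hg : (g : E) * ((g⁻¹ : Eˣ) : E) = 1 := Units.mul_inv g
  rw [om.stab]
  refine ⟨g⁻¹, fun i j => ?_⟩
  rw [wM_coe, wM_inv_coe, inv_inv]
  have e : ∀ z : E, ((g⁻¹ : Eˣ) : E) * ((g : E) * z) = z := fun z => by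
    linear_combination z * hg
  have e' : ∀ z : E, (g : E) * (((g⁻¹ : Eˣ) : E) * z) = z := fun z => by
    linear_combination z * hg
  fin_cases i <;> fin_cases j <;>
    simp only [Fin.zero_eta, Fin.mk_one, Matrix.of_apply, Matrix.cons_val', Matrix.cons_val_zero,
      Matrix.cons_val_one, Matrix.cons_val_fin_one, mul_neg, e, e']
  · exact ⟨(SI N E).neg_mem a2.2, a.2⟩
  · exact ⟨(SI N E).neg_mem y.2, y.2⟩
  · exact ⟨l.2, (SI N E).neg_mem l.2⟩
  · exact ⟨a.2, (SI N E).neg_mem a2.2⟩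

omit [NumberField E] in
theorem w_mul (c g : Eˣ) (l a a2 y s : E) (h : 1 + a * a2 = l * y) (hc : (c : E) = g * l)
    (hs : s = g * a) :
    wMat E * nMat s * Sp.aMat c = nMat (a2 / (g : E)) * Sp.aMat (c / g ^ 2) * wM g l a a2 y h := by
  have hgE : (g : E) ≠ 0 := g.ne_zero
  have hcc : (((c / g ^ 2 : Eˣ)) : E) = l / g := by
    rw [Units.val_div_eq_div_val, Units.val_pow_eq_pow_val, hc]
    field_simp
  apply Units.ext
  rw [Units.val_mul, Units.val_mul, Units.val_mul, Units.val_mul, wMat_coe, nMat_coe, nMat_coe,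
    Sp.aMat_coe, Sp.aMat_coe, wM_coe, hcc, hc, hs]
  ext i j
  fin_cases i <;> fin_cases j <;>
    simp only [Matrix.mul_apply, Fin.sum_univ_two, Fin.zero_eta, Fin.mk_one, Matrix.of_apply,
      Matrix.cons_val', Matrix.cons_val_zero, Matrix.cons_val_one, Matrix.cons_val_fin_one]
  · field_simp
    ring
  · field_simp
    linear_combination (-1 : E) * h
  · ring
  · ring

/-- the Weyl element on `Ω` -/
theorem Om.w_smul (om : Om N E Ω) {c g : Eˣ} {l a a2 : SI N E}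
    (hdvd : l ∣ 1 + a * a2) (hc : (c : E) = g * l) {s : E} (hs : s = g * a) :
    wMat E • nMat s • Sp.aMat c • om.base =
      nMat ((a2 : E) / g) • Sp.aMat (c / g ^ 2) • om.base := by
  obtain ⟨y, hy⟩ := hdvd
  have hy' : (1 : E) + a * a2 = l * y := congrArg Subtype.val hy
  rw [← mul_smul, ← mul_smul, w_mul c g l a a2 y s hy' hc hs, mul_smul, mul_smul, wM_smul]

/-- lower unipotent matrices are conjugate to upper unipotent matrices -/
theorem nLow_eq (c : E) : nLow c = (wMat E)⁻¹ * nMat (-c) * wMat E := by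
  rw [mul_assoc, eq_inv_mul_iff_mul_eq]
  apply Units.ext
  rw [Units.val_mul, Units.val_mul, wMat_coe, nMat_coe, nLow_coe]
  ext i j
  fin_cases i <;> fin_cases j <;> simp [Matrix.mul_apply, Fin.sum_univ_two]

theorem aMat_nLow (κ : Eˣ) (c : E) :
    Sp.aMat κ * nLow c = nLow (((κ⁻¹ : Eˣ) : E) * c) * Sp.aMat κ := by
  apply Units.ext
  rw [Units.val_mul, Units.val_mul, Sp.aMat_coe, nLow_coe, nLow_coe]
  ext i j
  fin_cases i <;> fin_cases j <;> simp [Matrix.mul_apply, Fin.sum_univ_two]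
  field_simp

end geom

namespace T4D

variable {E L : Type*} [Field E] [NumberField E] [Field L] [NumberField L] [Algebra E L]
  (T : T4D E L) [NumberField.IsTotallyComplex E]

/-- the laws of the theta functions attached to test functions -/
structure PhiLaws : Prop where
  cinv : ∀ {Φ : L → ℂ}, T.Eqv Φ → CInv T.N (T.fPhi Φ)
  uni : ∀ (Φ : L → ℂ) (b : E) (p : HF E) (c : Eˣ) (s : E),
    T.fPhi Φ (nMat b • p) c (b + s) =
      T.fPhi (fun x => (T.ψB (b * Algebra.norm E x))⁻¹ * Φ x) p c s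
  wey : ∀ {k : ℕ} {Φ : L → ℂ}, BSch T.N k Φ → T.Eqv Φ → ∀ {c g : Eˣ} {l a a2 : SI T.N E},
    l ≠ 0 → l ∣ 1 + a * a2 → (c : E) = g * l → ∀ {s : E}, s = g * a → ∀ p : HF E,
    T.fPhi Φ p c s = (T.q.cst : ℂ) * T.fPhi (T.ftB Φ) (wMat E • p) (c / g ^ 2) ((a2 : E) / g)

variable {T} (H : T.PhiLaws) {Ω : Type*} [MulAction (GL (Fin 2) E) Ω] (om : Om T.N E Ω)

include H

/-- the Weyl element -/
theorem PhiLaws.fn_w {k : ℕ} {Φ : L → ℂ} (hΦ : BSch T.N k Φ) (hE : T.Eqv Φ) (x : HF E × Ω) :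
    om.fn (T.fPhi Φ) x = (T.q.cst : ℂ) * om.fn (T.fPhi (T.ftB Φ)) (wMat E • x) := by
  obtain ⟨p, ω⟩ := x
  obtain ⟨c, s, rfl⟩ := om.iwa ω
  obtain ⟨g, l, a, a2, hl, hdvd, hc, hs⟩ := exists_gcd_coord T.pidE c s
  have e : wMat E • ((p, nMat s • Sp.aMat c • om.base) : HF E × Ω) =
      (wMat E • p, nMat ((a2 : E) / g) • Sp.aMat (c / g ^ 2) • om.base) := by
    rw [← om.w_smul hdvd hc hs]; rfl
  rw [e, om.fn_apply (H.cinv hE), om.fn_apply (H.cinv (T.ftB_Eqv hΦ hE)),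
    H.wey hΦ hE hl hdvd hc hs]

/-- upper unipotent matrices -/
theorem PhiLaws.fn_n {Φ : L → ℂ} (hE : T.Eqv Φ) {b : E}
    (hb : ∀ x, Φ x ≠ 0 → T.ψB (b * Algebra.norm E x) = 1) (x : HF E × Ω) :
    om.fn (T.fPhi Φ) (nMat b • x) = om.fn (T.fPhi Φ) x := by
  have e : (fun x => (T.ψB (b * Algebra.norm E x))⁻¹ * Φ x) = Φ := by
    funext x
    by_cases h : Φ x = 0
    · rw [h, mul_zero]
    · rw [hb x h, inv_one, one_mul]
  have := om.fn_nMat (H.cinv hE) (H.cinv hE) b 1 (fun p c s => by rw [H.uni, e, one_mul]) x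
  rwa [one_mul] at this

/-- lower unipotent matrices -/
theorem PhiLaws.fn_low {k d : ℕ} {Φ : L → ℂ} (hΦ : BSch T.N k Φ) (hE : T.Eqv Φ)
    (hd : BSch T.N (k + d) (T.ftB Φ)) {c : E}
    (hc : ∃ y ∈ LI T.N E, c = (T.N : E) ^ (2 * (k + d)) * y) (x : HF E × Ω) :
    om.fn (T.fPhi Φ) (nLow c • x) = om.fn (T.fPhi Φ) x := by
  obtain ⟨y, hy, hc⟩ := hc
  have hb : ∀ η, T.ftB Φ η ≠ 0 → T.ψB ((-c) * Algebra.norm E η) = 1 := by
    intro η hη
    have h1 := hd.2 η hη
    have h2 := nm_mem_LI (E := E) h1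
    have h3 : Algebra.norm E ((T.N : L) ^ (k + d) * η) =
        (T.N : E) ^ (2 * (k + d)) * Algebra.norm E η := by
      have e2 : (T.N : L) ^ (k + d) = algebraMap E L ((T.N : E) ^ (k + d)) := by simp
      rw [map_mul, e2, Algebra.norm_algebraMap, T.q.two]
      ring
    rw [h3] at h2
    have e : (-c) * Algebra.norm E η =
        -(y * ((T.N : E) ^ (2 * (k + d)) * Algebra.norm E η)) := by rw [hc]; ring
    rw [e]
    exact T.ψB_LI ((LI T.N E).neg_mem ((LI T.N E).mul_mem hy h2))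
  rw [nLow_eq, mul_smul, mul_smul, H.fn_w om hΦ hE, smul_inv_smul, H.fn_n om (T.ftB_Eqv hΦ hE) hb,
    ← H.fn_w om hΦ hE]

/-- **(I3)** -/
theorem PhiLaws.fn_I3 {n d : ℕ} (hn : 1 ≤ n) (hk : T.k0 ≤ n)
    (hd : ∀ (k : ℕ) (Φ : L → ℂ), BSch T.N k Φ → BSch T.N (k + d) (T.ftB Φ)) {c : E}
    (hc : ∃ y ∈ LI T.N E, c = (T.N : E) ^ (2 * (n + d)) * y) (x : HF E × Ω) :
    om.fn (T.f n) (nLow c • x) = om.fn (T.f n) x := by
  obtain ⟨κ, hκ, hrep⟩ := T.exists_reps hn
  have key : ∀ x : HF E × Ω, om.fn (T.f n) x =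
      ∑' i, om.fn (T.fPhi (T.Phi1 n)) (Sp.aMat (κ i) • x) := by
    intro x
    obtain ⟨p, ω⟩ := x
    obtain ⟨c, s, rfl⟩ := om.iwa ω
    rw [om.fn_apply (T.cInv_f n), (T.f_eq_sum_Phi1 hn κ hκ hrep p c s).2]
    refine tsum_congr fun i => ?_
    have e : Sp.aMat (κ i) • ((p, nMat s • Sp.aMat c • om.base) : HF E × Ω) =
        (Sp.aMat (κ i) • p, nMat ((κ i : E) * s) • Sp.aMat (κ i * c) • om.base) := by
      rw [← aMat_mul, mul_smul (Sp.aMat (κ i)) (Sp.aMat c), ← mul_smul (nMat _) (Sp.aMat (κ i)),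
        ← aMat_mul_nMat, mul_smul]
      rfl
    rw [e, om.fn_apply (H.cinv (T.Phi1_Eqv n))]
  rw [key, key]
  refine tsum_congr fun i => ?_
  rw [← mul_smul, aMat_nLow, mul_smul]
  refine H.fn_low om (T.Phi1_BSch hn hk) (T.Phi1_Eqv n) (hd _ _ (T.Phi1_BSch hn hk)) ?_ _
  obtain ⟨y, hy, rfl⟩ := hc
  refine ⟨(((κ i)⁻¹ : Eˣ) : E) * y, (LI T.N E).mul_mem (T.A1_le_UL hn (hκ i)).2 hy, by ring⟩

end T4D

end Fermat.Agent.LT.T4
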