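import Fermat.Agent.LT.T4.Reg3
import Fermat.Agent.LT.T4.OmI
import Fermat.Agent.LT.T4.Bd
import Fermat.Agent.LT.T4.Lvl
import Fermat.Agent.LT.T4.Fn

set_option autoImplicit false

/-!
# Transformation laws of the theta functions `T.fPhi`
-/

namespace Fermat.Agent.LT.T4

open Fermat.Agent.LT.Theta Fermat.Agent.LT.Fou NumberField
open scoped Real

theorem inS_mk_mul {N : ℕ} {K : Type*} [Field K] (μ : Kˣ) (b : Idl N K) (x : K) :
    InS ((QuotientGroup.mk μ : Idl N K) * b) ((μ : K)⁻¹ * x) ↔ InS b x := by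
  obtain ⟨β, rfl⟩ := QuotientGroup.mk_surjective b
  rw [← QuotientGroup.mk_mul, inS_mk, inS_mk, Units.val_mul]
  have : (μ : K) * β * ((μ : K)⁻¹ * x) = β * x := by
    field_simp
  rw [this]

theorem norm_mem_LI {N : ℕ} {E L : Type*} [Field E] [NumberField E] [Field L] [NumberField L]
    [Algebra E L] {x : L} (hx : x ∈ LI N L) : Algebra.norm E x ∈ LI N E := by
  obtain ⟨m, hm, hmi⟩ := mem_LI.mp hx
  rw [mem_LI]
  refine ⟨m ^ Module.finrank E L, Nat.Coprime.pow_left _ hm, ?_⟩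
  have h1 := Algebra.isIntegral_norm E hmi
  have e : Algebra.norm E ((m : L) * x) =
      ((m ^ Module.finrank E L : ℕ) : E) * Algebra.norm E x := by
    rw [map_mul]
    congr 1
    have : ((m : L)) = algebraMap E L (m : E) := by simp
    rw [this, Algebra.norm_algebraMap]
    push_cast
    rfl
  rw [e] at h1
  exact h1

theorem nmU_mem_UL {N : ℕ} {E L : Type*} [Field E] [NumberField E] [Field L] [NumberField L]
    [Algebra E L] {μ : Lˣ} (h : μ ∈ UL N L) : nmU E L μ ∈ UL N E :=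
  ⟨norm_mem_LI h.1, by
    rw [← map_inv]
    exact norm_mem_LI h.2⟩

theorem nrm_one_US {N : ℕ} (hN : 0 < N) {K : Type*} [Field K] [NumberField K] {u : Kˣ}
    (hu : u ∈ US N K) : nrm N (u : K) = 1 := by
  have h0 : (⟨(u : K), hu.1⟩ : SI N K) ≠ 0 := fun h => u.ne_zero (congrArg Subtype.val h)
  have h1 := nrm_coe hN h0
  have h2 : IsUnit (⟨(u : K), hu.1⟩ : SI N K) := by
    refine ⟨⟨⟨(u : K), hu.1⟩, ⟨((u⁻¹ : Kˣ) : K), hu.2⟩, ?_, ?_⟩, rfl⟩
    · exact Subtype.ext (Units.mul_inv u)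
    · exact Subtype.ext (Units.inv_mul u)
  have h3 : Ideal.span {(⟨(u : K), hu.1⟩ : SI N K)} = ⊤ := Ideal.span_singleton_eq_top.mpr h2
  rw [h3] at h1
  have h4 : Nat.card (SI N K ⧸ (⊤ : Ideal (SI N K))) = 1 := by
    rw [Nat.card_eq_one_iff_unique]
    exact ⟨Ideal.Quotient.subsingleton_iff.mpr rfl, ⟨0⟩⟩
  rw [h4] at h1
  simpa using h1

namespace T4D

variable {E L : Type*} [Field E] [NumberField E] [Field L] [NumberField L] [Algebra E L]
  (T : T4D E L)

theorem psiI_mul (μ : Lˣ) (b : Idl T.N L) : ((T.psiI (QuotientGroup.mk μ * b) : ℂˣ) : ℂ) =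
    T.psi (μ : L) * ((T.psiI b : ℂˣ) : ℂ) := by
  rw [map_mul, Units.val_mul, psiI_mk]

/-- the terms of the theta series are invariant -/
theorem Psi_smul {Φ : L → ℂ} (hE : T.Eqv Φ) (s : E) {c : Eˣ} (g : T.H) (b : T.SS c)
    (x : XL T.H.subtype) : T.Psi Φ s (g • b) (g • x).val = T.Psi Φ s b x.val := by
  classical
  have h1 : (g • x).val = ((g : Lˣ) : L)⁻¹ * x.val := XL.smul_val _ g x
  have h2 := hE _ (T.H.inv_mem g.2) x.val
  rw [Units.val_inv_eq_inv_val] at h2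
  have h3 : Algebra.norm E (((g : Lˣ) : L)⁻¹ * x.val) = Algebra.norm E x.val := by
    have h4 : Algebra.norm E (((g : Lˣ) : L)⁻¹) = 1 := by
      have h5 := (T.mem_H.mp (T.H.inv_mem g.2)).1
      have h6 := congrArg (Units.val : Eˣ → E) h5
      rw [nmU_coe, Units.val_inv_eq_inv_val, Units.val_one] at h6
      exact h6
    rw [map_mul, h4, one_mul]
  unfold Psi
  rw [h1, T.smul_SS_val, T.psiI_mul, h2, h3, inS_mk_mul]
  have h7 : T.psi ((g : Lˣ) : L) * T.psi (((g : Lˣ) : L)⁻¹) = 1 := by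
    rw [← map_mul, mul_inv_cancel₀ (Units.ne_zero _), map_one]
  linear_combination ((T.psiI b.1 : ℂˣ) : ℂ) * Φ x.val * (if InS b.1 x.val then 1 else 0) *
    T.ψ (s * Algebra.norm E x.val) * h7

/-- the bijection of `(b, x) ↦ (μ b, μ⁻¹ x)` -/
noncomputable def mvE {c c' : Eˣ} (μ : Lˣ)
    (h : (QuotientGroup.mk c' : Idl T.N E) = QuotientGroup.mk (nmU E L μ * c)) :
    T.SS c × XL T.H.subtype ≃ T.SS c' × XL T.H.subtype where
  toFun z := (⟨QuotientGroup.mk μ * z.1.1, by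
    rw [map_mul, z.1.2, nmI_mk, h, QuotientGroup.mk_mul]⟩, (show Lˣ from μ⁻¹ * (show Lˣ from z.2)))
  invFun z := (⟨QuotientGroup.mk μ⁻¹ * z.1.1, by
    rw [map_mul, z.1.2, nmI_mk, h, ← QuotientGroup.mk_mul, ← mul_assoc, ← map_mul,
      inv_mul_cancel, map_one, one_mul]⟩, (show Lˣ from μ * (show Lˣ from z.2)))
  left_inv z := by
    refine Prod.ext (Subtype.ext ?_) ?_
    · show QuotientGroup.mk μ⁻¹ * (QuotientGroup.mk μ * z.1.1) = z.1.1
      rw [← mul_assoc, ← QuotientGroup.mk_mul, inv_mul_cancel, QuotientGroup.mk_one]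
      exact one_mul (M := Idl T.N L) _
    · show μ * (μ⁻¹ * (show Lˣ from z.2)) = z.2
      rw [mul_inv_cancel_left]
  right_inv z := by
    refine Prod.ext (Subtype.ext ?_) ?_
    · show QuotientGroup.mk μ * (QuotientGroup.mk μ⁻¹ * z.1.1) = z.1.1
      rw [← mul_assoc, ← QuotientGroup.mk_mul, mul_inv_cancel, QuotientGroup.mk_one]
      exact one_mul (M := Idl T.N L) _
    · show μ⁻¹ * (μ * (show Lˣ from z.2)) = z.2
      rw [inv_mul_cancel_left]

theorem mvE_fst {c c' : Eˣ} (μ : Lˣ)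
    (h : (QuotientGroup.mk c' : Idl T.N E) = QuotientGroup.mk (nmU E L μ * c))
    (z : T.SS c × XL T.H.subtype) : (T.mvE μ h z).1.1 = QuotientGroup.mk μ * z.1.1 := rfl

theorem mvE_snd {c c' : Eˣ} (μ : Lˣ)
    (h : (QuotientGroup.mk c' : Idl T.N E) = QuotientGroup.mk (nmU E L μ * c))
    (z : T.SS c × XL T.H.subtype) : (T.mvE μ h z).2.val = (μ : L)⁻¹ * z.2.val := by
  rw [← Units.val_inv_eq_inv_val]
  rfl

theorem mvE_smul {c c' : Eˣ} (μ : Lˣ)
    (h : (QuotientGroup.mk c' : Idl T.N E) = QuotientGroup.mk (nmU E L μ * c)) (g : T.H)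
    (z : T.SS c × XL T.H.subtype) : T.mvE μ h (g • z) = g • T.mvE μ h z := by
  refine Prod.ext (Subtype.ext ?_) ?_
  · show (QuotientGroup.mk μ : Idl T.N L) * (QuotientGroup.mk (g : Lˣ) * z.1.1) =
      QuotientGroup.mk (g : Lˣ) * (QuotientGroup.mk μ * z.1.1)
    rw [← mul_assoc, ← mul_assoc, mul_comm (QuotientGroup.mk μ : Idl T.N L)]
  · show μ⁻¹ * ((g : Lˣ)⁻¹ * (show Lˣ from z.2)) = (g : Lˣ)⁻¹ * (μ⁻¹ * (show Lˣ from z.2))
    rw [← mul_assoc, ← mul_assoc, mul_comm μ⁻¹]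

/-- transport of the series along `(b, x) ↦ (μ b, μ⁻¹ x)` -/
theorem ser_move {Φ : L → ℂ} (hE : T.Eqv Φ) {c c' : Eˣ} (μ : Lˣ)
    (h : (QuotientGroup.mk c' : Idl T.N E) = QuotientGroup.mk (nmU E L μ * c)) (s : E) (p : HF E) :
    ser T.H.subtype (fun b : T.SS c' => T.Psi Φ s b) p =
      ∑' o : Orb T.H.subtype (T.SS c), T.Psi Φ s (T.mvE μ h (rep o)).1 ((μ : L)⁻¹ * (rep o).2.val) *
        bw p (Algebra.norm E ((μ : L)⁻¹ * (rep o).2.val)) := by
  have h1 := tsum_orb_equiv (G := T.H) (T.mvE μ h) (T.mvE_smul μ h)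
    (F := fun z => T.Psi Φ s z.1 z.2.val * bw p (Algebra.norm E z.2.val)) (by
      intro g z
      have h2 : T.Psi Φ s (g • z).1 (g • z).2.val = T.Psi Φ s z.1 z.2.val := T.Psi_smul hE s g z.1 z.2
      have h3 : Algebra.norm E (g • z).2.val = Algebra.norm E z.2.val := by
        have h4 : (g • z).2.val = ((g : Lˣ) : L)⁻¹ * z.2.val := XL.smul_val _ g z.2
        have h5 := (T.mem_H.mp (T.H.inv_mem g.2)).1
        have h6 := congrArg (Units.val : Eˣ → E) h5
        rw [nmU_coe, Units.val_inv_eq_inv_val, Units.val_one] at h6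
        rw [h4, map_mul, h6, one_mul]
      rw [h2, h3])
  unfold ser
  rw [← h1]
  refine tsum_congr fun o => ?_
  rw [T.mvE_snd]

/-- the twisted function is equivariant -/
theorem Eqv.ψB_mul {Φ : L → ℂ} (hE : T.Eqv Φ) (b : E) :
    T.Eqv (fun x => (T.ψB (b * Algebra.norm E x))⁻¹ * Φ x) := by
  intro u hu x
  have h5 := (T.mem_H.mp hu).1
  have h6 := congrArg (Units.val : Eˣ → E) h5
  rw [nmU_coe, Units.val_one] at h6
  have h7 : Algebra.norm E ((u : L) * x) = Algebra.norm E x := by rw [map_mul, h6, one_mul]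
  simp only
  rw [hE u hu x, h7]
  ring

set_option linter.unusedSectionVars false

variable [IsTotallyComplex E]

/-- **The law under `n(b)`.** -/
theorem fPhi_nMat (Φ : L → ℂ) (b : E) (p : HF E) (c : Eˣ) (s : E) :
    T.fPhi Φ (nMat b • p) c (s + b) =
      T.fPhi (fun x => (T.ψB (b * Algebra.norm E x))⁻¹ * Φ x) p c s := by
  classical
  unfold fPhi
  rw [ser_nMat]
  congr 1
  refine ser_congr (fun b' x _ => ?_) p
  have h1 : ev (Algebra.norm E x) (emb b) = (e0 E (b * Algebra.norm E x))⁻¹ := by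
    rw [ev_eq_one, mul_comm]
    have h2 := e0_eq_ev (-(b * Algebra.norm E x))
    rw [neg_neg] at h2
    rw [← h2, AddChar.map_neg_eq_inv]
  unfold Psi
  rw [h1, ← T.ψ_mul_ψB, mul_inv, add_mul, AddChar.map_add_eq_mul]
  have h3 : T.ψ (b * Algebra.norm E x) ≠ 0 := by
    intro h0
    have := T.norm_ψ (b * Algebra.norm E x)
    rw [h0, norm_zero] at this
    exact zero_ne_one this
  field_simp

/-- **The law under `n(b)`**, for small `b` -/
theorem fPhi_nMat_small {Φ : L → ℂ} {b : E}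
    (hb : ∀ x, Φ x ≠ 0 → b * Algebra.norm E x ∈ LI T.N E) (p : HF E) (c : Eˣ) (s : E) :
    T.fPhi Φ (nMat b • p) c (s + b) = T.fPhi Φ p c s := by
  rw [T.fPhi_nMat]
  congr 1
  funext x
  by_cases h : Φ x = 0
  · rw [h, mul_zero]
  · have h1 : T.ψB (b * Algebra.norm E x) = 1 := at_LI _ _ _ (hb x h)
    rw [h1, inv_one, one_mul]

/-- **The law under `a(N μ)`.** -/
theorem fPhi_aMat_norm {Φ : L → ℂ} (hE : T.Eqv Φ) (μ : Lˣ) (p : HF E) (c : Eˣ) (s : E) :
    T.fPhi Φ (Sp.aMat (nmU E L μ) • p) (nmU E L μ * c) (Algebra.norm E (μ : L) * s) =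
      (((nrm T.N (Algebra.norm E (μ : L)) : ℝ) : ℂ) ^ (-(1 / 2) : ℂ) *
        ((∏ v : InfinitePlace E, ‖v.embedding (Algebra.norm E (μ : L))‖ : ℝ) : ℂ)) *
        T.fPhi (fun x => T.psi (μ : L) * Φ ((μ : L)⁻¹ * x)) p c s := by
  classical
  have hN0 : Algebra.norm E (μ : L) ≠ 0 := (nmU E L μ).ne_zero
  unfold fPhi
  rw [T.ser_move hE μ (c := c) rfl, Units.val_mul, nmU_coe, nrm_mul T.hN hN0 c.ne_zero,
    pow_half_mul (nrm_pos T.hN hN0) (nrm_pos T.hN c.ne_zero)]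
  have h1 : ∀ o : Orb T.H.subtype (T.SS c),
      T.Psi Φ (Algebra.norm E (μ : L) * s) (T.mvE μ rfl (rep o)).1 ((μ : L)⁻¹ * (rep o).2.val) *
        bw (Sp.aMat (nmU E L μ) • p) (Algebra.norm E ((μ : L)⁻¹ * (rep o).2.val)) =
      ((∏ v : InfinitePlace E, ‖v.embedding (Algebra.norm E (μ : L))‖ : ℝ) : ℂ) *
        (T.Psi (fun x => T.psi (μ : L) * Φ ((μ : L)⁻¹ * x)) s (rep o).1 (rep o).2.val *
          bw p (Algebra.norm E (rep o).2.val)) := by
    intro o
    have h2 : Algebra.norm E (μ : L) * Algebra.norm E ((μ : L)⁻¹ * (rep o).2.val) =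
        Algebra.norm E (rep o).2.val := by
      rw [← map_mul, mul_inv_cancel_left₀ μ.ne_zero]
    have h3 : Algebra.norm E (μ : L) * s * Algebra.norm E ((μ : L)⁻¹ * (rep o).2.val) =
        s * Algebra.norm E (rep o).2.val := by
      rw [← h2]; ring
    rw [bw_aMat, nmU_coe, h2]
    unfold Psi
    rw [T.mvE_fst, T.psiI_mul, inS_mk_mul, h3]
    push_cast
    ring
  simp_rw [h1]
  rw [tsum_mul_left]
  unfold ser
  ring

/-- the constant is `1` for units at `N` -/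
theorem cst_UL {μ : Lˣ} (hμ : μ ∈ UL T.N L) :
    ((nrm T.N (Algebra.norm E (μ : L)) : ℝ) : ℂ) ^ (-(1 / 2) : ℂ) *
        ((∏ v : InfinitePlace E, ‖v.embedding (Algebra.norm E (μ : L))‖ : ℝ) : ℂ) = 1 := by
  have hP : (0 : ℝ) < ∏ v : InfinitePlace E, ‖v.embedding (Algebra.norm E (μ : L))‖ :=
    Finset.prod_pos fun v _ => norm_pos_iff.mpr (emb_ne (nmU E L μ).ne_zero v)
  have h1 : nrm T.N (Algebra.norm E (μ : L)) =
      (∏ v : InfinitePlace E, ‖v.embedding (Algebra.norm E (μ : L))‖) ^ 2 := by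
    have h2 := nrm_of_UL T.hN (nmU_mem_UL (E := E) hμ)
    rw [nmU_coe] at h2
    rw [h2, prod_sq_eq]
  rw [h1, pow_half_sq hP]
  have hP' : ((∏ v : InfinitePlace E, ‖v.embedding (Algebra.norm E (μ : L))‖ : ℝ) : ℂ) ≠ 0 := by
    exact_mod_cast hP.ne'
  exact inv_mul_cancel₀ hP'

/-- **The law under `a(N μ)`** for `μ` a unit at `N` -/
theorem fPhi_aMat_UL {Φ : L → ℂ} (hE : T.Eqv Φ) {μ : Lˣ} (hμ : μ ∈ UL T.N L) (p : HF E) (c : Eˣ)
    (s : E) :
    T.fPhi Φ (Sp.aMat (nmU E L μ) • p) (nmU E L μ * c) (Algebra.norm E (μ : L) * s) =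
        T.fPhi (fun x => T.psi (μ : L) * Φ ((μ : L)⁻¹ * x)) p c s := by
  rw [T.fPhi_aMat_norm hE, T.cst_UL hμ, one_mul]

/-- the set of ideals of given norm -/
def SSm (m : Idl T.N E) : Type _ := {b : Idl T.N L // nmI T.N E L b = m}

noncomputable instance (m : Idl T.N E) : MulAction T.H (T.SSm m) where
  smul g b := ⟨QuotientGroup.mk (g : Lˣ) * b.1, by
    have h1 : (QuotientGroup.mk (nmU E L (g : Lˣ)) : Idl T.N E) = 1 := by
      rw [(T.mem_H.mp g.2).1]; rfl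
    rw [map_mul, b.2, nmI_mk, h1]
    exact one_mul (M := Idl T.N E) _⟩
  one_smul b := Subtype.ext (by
    show (QuotientGroup.mk ((1 : T.H) : Lˣ) : Idl T.N L) * b.1 = b.1
    exact one_mul (M := Idl T.N L) _)
  mul_smul g h b := Subtype.ext (by
    show (QuotientGroup.mk ((g * h : T.H) : Lˣ) : Idl T.N L) * b.1 =
      QuotientGroup.mk (g : Lˣ) * (QuotientGroup.mk (h : Lˣ) * b.1)
    exact mul_assoc (G := Idl T.N L) (QuotientGroup.mk (g : Lˣ)) (QuotientGroup.mk (h : Lˣ)) b.1)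

instance (m : Idl T.N E) : Countable (T.SSm m) := by
  have h1 : Countable (Idl T.N L) := by
    unfold Idl
    infer_instance
  exact Subtype.countable

/-- the function `Psi` for all ideals -/
noncomputable def Psi0 (Φ : L → ℂ) (s : E) (b : Idl T.N L) (x : L) : ℂ := by
  classical
  exact (T.psiI b : ℂ) * (Φ x * ((if InS b x then 1 else 0) * T.ψ (s * Algebra.norm E x)))

/-- the series for all ideals of given norm -/
noncomputable def serm (m : Idl T.N E) (Ψ : Idl T.N L → L → ℂ) (p : HF E) : ℂ :=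
  ser T.H.subtype (fun b : T.SSm m => Ψ b.1) p

theorem ser_eq_serm (Φ : L → ℂ) (s : E) (c : Eˣ) (p : HF E) :
    ser T.H.subtype (fun b : T.SS c => T.Psi Φ s b) p =
      T.serm (QuotientGroup.mk c) (T.Psi0 Φ s) p := rfl

/-- **Independence of the coordinates.** -/
theorem fPhi_cinv_all (Φ : L → ℂ) (p : HF E) (c u : Eˣ) (hu : u ∈ US T.N E) (s : E)
    {r : E} (hr : r ∈ SI T.N E) : T.fPhi Φ p (c * u) (s + c * r) = T.fPhi Φ p c s := by
  classical
  unfold fPhi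
  rw [T.ser_eq_serm, T.ser_eq_serm, QuotientGroup.mk_mul_of_mem _ hu, Units.val_mul,
    nrm_mul T.hN c.ne_zero u.ne_zero, nrm_one_US T.hN hu, mul_one]
  congr 1
  unfold serm
  refine ser_congr (fun b x _ => ?_) p
  unfold Psi0
  by_cases hi : InS b.1 x
  · -- `c r N(x)` is integral
    have h3 : (c : E) * r * Algebra.norm E x ∈ SI T.N E := by
      obtain ⟨β, hβ, hβx⟩ := hi
      have h4 : (QuotientGroup.mk c : Idl T.N E) = QuotientGroup.mk (nmU E L β) := by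
        rw [← nmI_mk, hβ]
        exact b.2.symm
      have h5 : (c : E) / (nmU E L β : Eˣ) ∈ SI T.N E := div_mem_SI h4
      have h6 : Algebra.norm E ((β : L) * x) ∈ SI T.N E := norm_mem_SI hβx
      have h7 : (c : E) * r * Algebra.norm E x =
          (c : E) / (nmU E L β : Eˣ) * r * Algebra.norm E ((β : L) * x) := by
        have h8 : ((nmU E L β : Eˣ) : E) ≠ 0 := Units.ne_zero _
        rw [map_mul, nmU_coe]
        rw [nmU_coe] at h8
        field_simp
      rw [h7]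
      exact (SI T.N E).mul_mem ((SI T.N E).mul_mem h5 hr) h6
    have h9 : T.ψ ((c : E) * r * Algebra.norm E x) = 1 := away_SI _ _ _ h3
    rw [add_mul, AddChar.map_add_eq_mul, h9, mul_one]
  · have e : (if InS b.1 x then (1 : ℂ) else 0) = 0 := if_neg hi
    rw [e, zero_mul, zero_mul]

theorem cInv_fPhi (Φ : L → ℂ) : CInv T.N (T.fPhi Φ) := fun p c s u _ hu hr =>
  T.fPhi_cinv_all Φ p c u hu s hr

/-- **Independence of the coordinates.** -/
theorem fPhi_cinv {Φ : L → ℂ} (_hE : T.Eqv Φ) (p : HF E) (c u : Eˣ) (hu : u ∈ US T.N E) (s : E)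
    {r : E} (hr : r ∈ SI T.N E) : T.fPhi Φ p (c * u) (s + c * r) = T.fPhi Φ p c s :=
  T.fPhi_cinv_all Φ p c u hu s hr

/-- **The law under `n(b)`.** -/
theorem fPhi_nMat' (Φ : L → ℂ) (b : E) (p : HF E) (c : Eˣ) (s : E) :
    T.fPhi Φ (nMat b • p) c (b + s) =
      T.fPhi (fun x => (T.ψB (b * Algebra.norm E x))⁻¹ * Φ x) p c s := by
  rw [add_comm, T.fPhi_nMat]

end T4D

end Fermat.Agent.LT.T4
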