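import Fermat.Agent.LT.T4.Bd
import Fermat.Agent.LT.T4.Lvl

set_option autoImplicit false
set_option linter.unusedSectionVars false

/-! # The functional equation of the theta functions under the Weyl element -/

namespace Fermat.Agent.LT.T4

open Fermat.Agent.LT.Theta Fermat.Agent.LT.Fou NumberField Ideal

section bsch

variable {N : ℕ} {L : Type*} [Field L] [NumberField L]

theorem BSch.wy_const_mul {k : ℕ} {Φ : L → ℂ} (h : BSch N k Φ) (a : ℂ) :
    BSch N k (fun x => a * Φ x) := by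
  refine ⟨fun x y hy => ?_, fun x hx => h.2 x (right_ne_zero_of_mul hx)⟩
  show a * Φ _ = a * Φ x
  rw [h.1 x y hy]

theorem BSch.wy_add {k k' : ℕ} {Φ Φ' : L → ℂ} (h : BSch N k Φ) (h' : BSch N k' Φ') :
    BSch N (max k k') (fun x => Φ x + Φ' x) := by
  have h1 := h.mono (le_max_left k k')
  have h2 := h'.mono (le_max_right k k')
  refine ⟨fun x y hy => ?_, fun x hx => ?_⟩
  · show Φ _ + Φ' _ = Φ x + Φ' x
    rw [h1.1 x y hy, h2.1 x y hy]
  · by_cases h0 : Φ x = 0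
    · apply h2.2
      intro h3
      apply hx
      show Φ x + Φ' x = 0
      rw [h0, h3, add_zero]
    · exact h1.2 x h0

theorem BSch.wy_comp_mul (hN : 0 < N) {k : ℕ} {Φ : L → ℂ} (h : BSch N k Φ) (u : Lˣ) :
    ∃ k', BSch N k' (fun x => Φ ((u : L) * x)) := by
  obtain ⟨i, hi⟩ := pow_mul_mem_LI hN (u : L)
  obtain ⟨j, hj⟩ := pow_mul_mem_LI hN ((u⁻¹ : Lˣ) : L)
  refine ⟨max (k + i) (k + j), ?_⟩
  have h1 : BSch N (k + max i j) (fun x => Φ ((u : L) * x)) := by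
    refine ⟨fun x y hy => ?_, fun x hx => ?_⟩
    · obtain ⟨m, hm⟩ := Nat.exists_eq_add_of_le (Nat.le_max_left i j)
      have e : (u : L) * (x + (N : L) ^ (k + max i j) * y) =
          (u : L) * x + (N : L) ^ k * ((N : L) ^ m * (((N : L) ^ i * u) * y)) := by
        rw [hm]; ring
      show Φ _ = Φ _
      rw [e]
      exact h.1 _ _ ((LI N L).mul_mem (pow_mem_LI m) ((LI N L).mul_mem hi hy))
    · obtain ⟨m, hm⟩ := Nat.exists_eq_add_of_le (Nat.le_max_right i j)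
      have h2 := h.2 _ hx
      have e : (N : L) ^ (k + max i j) * x =
          (N : L) ^ m * ((((N : L) ^ j * ((u⁻¹ : Lˣ) : L))) * ((N : L) ^ k * ((u : L) * x))) := by
        have hu : ((u⁻¹ : Lˣ) : L) * (u : L) = 1 := Units.inv_mul u
        rw [hm]
        linear_combination (-(N : L) ^ (k + (j + m)) * x) * hu
      rw [e]
      exact (LI N L).mul_mem (pow_mem_LI m) ((LI N L).mul_mem hj h2)
  have : k + max i j = max (k + i) (k + j) := by
    rcases le_total i j with h | h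
    · rw [max_eq_right h, max_eq_right (by omega)]
    · rw [max_eq_left h, max_eq_left (by omega)]
  rw [← this]
  exact h1

end bsch

namespace T4D

variable {E L : Type*} [Field E] [NumberField E] [Field L] [NumberField L] [Algebra E L]
  (T : T4D E L)

local notation "nm" => Algebra.norm E (S := L)

theorem wy_H_norm (g : T.H) : nm ((T.H.subtype g : Lˣ) : L) = 1 := congrArg Units.val g.2.1

theorem wy_InS_smul (u : Lˣ) (b : Idl T.N L) (x : L) :
    InS (QuotientGroup.mk u * b) x ↔ InS b ((u : L) * x) := by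
  induction b using QuotientGroup.induction_on with
  | H β =>
    rw [show (QuotientGroup.mk u * QuotientGroup.mk β : Idl T.N L) = QuotientGroup.mk (u * β)
      from rfl, inS_mk, inS_mk, Units.val_mul]
    rw [show (u : L) * β * x = β * (u * x) by ring]

theorem wy_psiI_smul (u : Lˣ) (b : Idl T.N L) :
    ((T.psiI (QuotientGroup.mk u * b) : ℂˣ) : ℂ) = T.psi (u : L) * (T.psiI b : ℂ) := by
  rw [map_mul, Units.val_mul, psiI_mk]

/-- the action of an element of norm one -/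
noncomputable def smN {c : Eˣ} (u : Lˣ) (hu : nmU E L u = 1) (b : T.SS c) : T.SS c :=
  ⟨QuotientGroup.mk u * b.1, by
    rw [map_mul, b.2, nmI_mk, hu]
    exact one_mul (M := Idl T.N E) _⟩

theorem Psi_smN {Φ Φ' : L → ℂ} {u : Lˣ} (hu : nmU E L u = 1) (s : E) {c : Eˣ} (b : T.SS c) {x : L}
    (h : T.psi (u : L) * Φ x = Φ' ((u : L) * x)) :
    T.Psi Φ s (T.smN u hu b) x = T.Psi Φ' s b ((u : L) * x) := by
  classical
  unfold Psi
  have hn : nm ((u : L) * x) = nm x := by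
    have : nm (u : L) = 1 := congrArg Units.val hu
    rw [map_mul, this, one_mul]
  show ((T.psiI (QuotientGroup.mk u * b.1) : ℂˣ) : ℂ) * _ = _
  rw [T.wy_psiI_smul, hn, ← h]
  have h2 : (if InS (T.smN u hu b).1 x then (1 : ℂ) else 0) =
      if InS b.1 ((u : L) * x) then 1 else 0 := by
    have : InS (T.smN u hu b).1 x ↔ InS b.1 ((u : L) * x) := T.wy_InS_smul u b.1 x
    by_cases h3 : InS b.1 ((u : L) * x)
    · rw [if_pos h3, if_pos (this.mpr h3)]
    · rw [if_neg h3, if_neg (fun h4 => h3 (this.mp h4))]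
  rw [h2]
  ring

theorem wy_Psi_smul {Φ : L → ℂ} (hE : T.Eqv Φ) (s : E) {c : Eˣ} (g : T.H) (b : T.SS c) (x : L) :
    T.Psi Φ s (g • b) x = T.Psi Φ s b ((T.H.subtype g : Lˣ) * x) :=
  T.Psi_smN (T.mem_H.mp g.2).1 s b (hE g g.2 x).symm

/-! ### Twisting -/

/-- dilation by an element of norm one -/
noncomputable def dl1 (u : Lˣ) (Φ : L → ℂ) (x : L) : ℂ :=
  T.psi (u : L) * Φ (((u⁻¹ : Lˣ) : L) * x)

theorem dl1_BSch (u : Lˣ) {k : ℕ} {Φ : L → ℂ} (h : BSch T.N k Φ) :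
    ∃ k', BSch T.N k' (T.dl1 u Φ) := by
  obtain ⟨k', hk'⟩ := h.wy_comp_mul T.hN u⁻¹
  exact ⟨k', hk'.wy_const_mul _⟩

theorem dl1_Eqv (u : Lˣ) {Φ : L → ℂ} (hE : T.Eqv Φ) : T.Eqv (T.dl1 u Φ) := by
  intro g hg x
  unfold dl1
  have e : ((u⁻¹ : Lˣ) : L) * ((g : L) * x) = (g : L) * (((u⁻¹ : Lˣ) : L) * x) := by ring
  rw [e, hE g hg]
  ring

theorem ser_dl1 (u : Lˣ) (hu : nmU E L u = 1) (Φ : L → ℂ) (hE : T.Eqv Φ) (c : Eˣ) (s : E)
    (p : HF E) :
    ser T.H.subtype (fun b : T.SS c => T.Psi (T.dl1 u Φ) s b) p =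
      ser T.H.subtype (fun b : T.SS c => T.Psi Φ s b) p := by
  have hE' := T.dl1_Eqv u hE
  -- the bijection
  have hu' : nmU E L u⁻¹ = 1 := by rw [map_inv, hu, inv_one]
  let e : (T.SS c × XL T.H.subtype) ≃ (T.SS c × XL T.H.subtype) :=
    { toFun := fun z => (T.smN u⁻¹ hu' z.1,
        (show XL T.H.subtype from (u * (show Lˣ from z.2) : Lˣ)))
      invFun := fun z => (T.smN u hu z.1,
        (show XL T.H.subtype from (u⁻¹ * (show Lˣ from z.2) : Lˣ)))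
      left_inv := by
        rintro ⟨b, x⟩
        refine Prod.ext (Subtype.ext ?_) ?_
        · show (QuotientGroup.mk u : Idl T.N L) * (QuotientGroup.mk u⁻¹ * b.1) = b.1
          rw [← mul_assoc, ← QuotientGroup.mk_mul, mul_inv_cancel]
          exact one_mul (M := Idl T.N L) _
        · show (u⁻¹ * (u * (show Lˣ from x)) : Lˣ) = _
          rw [inv_mul_cancel_left]
      right_inv := by
        rintro ⟨b, x⟩
        refine Prod.ext (Subtype.ext ?_) ?_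
        · show (QuotientGroup.mk u⁻¹ : Idl T.N L) * (QuotientGroup.mk u * b.1) = b.1
          rw [← mul_assoc, ← QuotientGroup.mk_mul, inv_mul_cancel]
          exact one_mul (M := Idl T.N L) _
        · show (u * (u⁻¹ * (show Lˣ from x)) : Lˣ) = _
          rw [mul_inv_cancel_left] }
  let F : T.SS c × XL T.H.subtype → ℂ := fun z =>
    T.Psi (T.dl1 u Φ) s z.1 z.2.val * bw p (Algebra.norm E z.2.val)
  have hev : ∀ z : T.SS c × XL T.H.subtype, (e z).2.val = (u : L) * z.2.val := fun z => by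
    show ((u * (show Lˣ from z.2) : Lˣ) : L) = _
    rw [Units.val_mul]; rfl
  have he : ∀ (g : T.H) z, e (g • z) = g • e z := by
    rintro g ⟨b, x⟩
    refine Prod.ext (Subtype.ext ?_) ?_
    · show (QuotientGroup.mk u⁻¹ : Idl T.N L) * (QuotientGroup.mk (g : Lˣ) * b.1) =
        QuotientGroup.mk (g : Lˣ) * (QuotientGroup.mk u⁻¹ * b.1)
      rw [← mul_assoc, ← mul_assoc]
      congr 1
      rw [← QuotientGroup.mk_mul, ← QuotientGroup.mk_mul, mul_comm]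
    · show (u * ((g : Lˣ)⁻¹ * (show Lˣ from x)) : Lˣ) = ((g : Lˣ)⁻¹ * (u * (show Lˣ from x)) : Lˣ)
      exact mul_left_comm _ _ _
  have hF : ∀ (g : T.H) z, F (g • z) = F z := by
    rintro g ⟨b, x⟩
    have hx : (g • x).val = (((T.H.subtype g : Lˣ) : L))⁻¹ * x.val := XL.smul_val _ g x
    have hne : ((T.H.subtype g : Lˣ) : L) ≠ 0 := Units.ne_zero _
    have hx' : ((T.H.subtype g : Lˣ) : L) * (g • x).val = x.val := by
      rw [hx, mul_inv_cancel_left₀ hne]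
    show T.Psi (T.dl1 u Φ) s (g • b) (g • x).val * bw p (Algebra.norm E (g • x).val) = 
      T.Psi (T.dl1 u Φ) s b x.val * bw p (Algebra.norm E x.val)
    rw [T.wy_Psi_smul hE', hx']
    congr 2
    rw [← hx', map_mul, T.wy_H_norm, one_mul]
  have key := tsum_orb_equiv (G := T.H) e he (F := F) hF
  have h2 : ∀ o : Orb T.H.subtype (T.SS c), F (e (rep o)) =
      T.Psi Φ s (rep o).1 (rep o).2.val * bw p (Algebra.norm E (rep o).2.val) := by
    intro o
    show T.Psi (T.dl1 u Φ) s (T.smN u⁻¹ hu' (rep o).1) (e (rep o)).2.val *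
      bw p (Algebra.norm E (e (rep o)).2.val) = _
    rw [hev]
    have hn : nm ((u : L) * (rep o).2.val) = nm (rep o).2.val := by
      have : nm (u : L) = 1 := congrArg Units.val hu
      rw [map_mul, this, one_mul]
    rw [hn]
    congr 1
    have h3 : ((u⁻¹ : Lˣ) : L) * ((u : L) * (rep o).2.val) = (rep o).2.val := by
      rw [← mul_assoc, Units.inv_mul, one_mul]
    have h4 := T.Psi_smN (Φ := T.dl1 u Φ) (Φ' := Φ) hu' s (rep o).1
      (x := (u : L) * (rep o).2.val) (by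
        unfold dl1
        rw [h3, ← mul_assoc, ← map_mul, Units.inv_mul, map_one, one_mul])
    rw [h4, h3]
  have e3 : ser T.H.subtype (fun b : T.SS c => T.Psi (T.dl1 u Φ) s b) p =
      ∑' o : MulAction.orbitRel.Quotient T.H (T.SS c × XL T.H.subtype), F (rep o) := rfl
  rw [e3, ← key]
  exact tsum_congr h2

/-- the regularisation, vanishing at `0` -/
noncomputable def rg (u : Lˣ) (Φ : L → ℂ) (x : L) : ℂ :=
  (1 - T.psi (u : L))⁻¹ * (T.dl1 u Φ x + (-T.psi (u : L)) * Φ x)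

theorem rg_zero (u : Lˣ) (Φ : L → ℂ) : T.rg u Φ 0 = 0 := by
  unfold rg dl1
  rw [mul_zero]
  ring

theorem rg_BSch (u : Lˣ) {k : ℕ} {Φ : L → ℂ} (h : BSch T.N k Φ) :
    ∃ k', BSch T.N k' (T.rg u Φ) := by
  obtain ⟨k', hk'⟩ := T.dl1_BSch u h
  exact ⟨_, (hk'.wy_add (h.wy_const_mul _)).wy_const_mul _⟩

theorem rg_Eqv (u : Lˣ) {Φ : L → ℂ} (hE : T.Eqv Φ) : T.Eqv (T.rg u Φ) := by
  intro g hg x
  unfold rg
  rw [T.dl1_Eqv u hE g hg, hE g hg]
  ring

theorem ftB_rg (u : Lˣ) (hu : nmU E L u = 1) {k : ℕ} {Φ : L → ℂ} (h : BSch T.N k Φ) (η : L) :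
    T.ftB (T.rg u Φ) η = T.rg u (T.ftB Φ) η := by
  obtain ⟨k1, hk1⟩ := h.wy_comp_mul T.hN u⁻¹
  obtain ⟨k2, hk2⟩ := T.dl1_BSch u h
  have h1 := hk2.mono (le_max_left k2 k)
  have h2 := (h.wy_const_mul (-T.psi (u : L))).mono (le_max_right k2 k)
  have h3 : BSch T.N (max k2 k) (fun x => T.dl1 u Φ x + (-T.psi (u : L)) * Φ x) := by
    have := h1.wy_add h2
    rwa [max_self] at this
  have e1 : T.ftB (T.rg u Φ) η =
      (1 - T.psi (u : L))⁻¹ * T.ftB (fun x => T.dl1 u Φ x + (-T.psi (u : L)) * Φ x) η :=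
    T.ftB_const_mul h3 _ η
  rw [e1, T.ftB_add h1 h2, T.ftB_const_mul h]
  have e2 : T.ftB (T.dl1 u Φ) η = T.dl1 u (T.ftB Φ) η := by
    have : T.ftB (T.dl1 u Φ) η = T.psi (u : L) * T.ftB (fun x => Φ (((u⁻¹ : Lˣ) : L) * x)) η :=
      T.ftB_const_mul hk1 _ η
    rw [this, T.ftB_dil h hu]
    rfl
  rw [e2]
  rfl

theorem wy_Psi_add (Φ Φ' : L → ℂ) (s : E) {c : Eˣ} (b : T.SS c) (x : L) :
    T.Psi (fun x => Φ x + Φ' x) s b x = T.Psi Φ s b x + T.Psi Φ' s b x := by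
  unfold Psi; ring

theorem wy_Psi_const_mul (a : ℂ) (Φ : L → ℂ) (s : E) {c : Eˣ} (b : T.SS c) (x : L) :
    T.Psi (fun x => a * Φ x) s b x = a * T.Psi Φ s b x := by
  unfold Psi; ring

variable [IsTotallyComplex E]

theorem ser_rg (u : Lˣ) (hu : nmU E L u = 1) (hne : T.psi (u : L) ≠ 1) {k : ℕ} {Φ : L → ℂ}
    (h : BSch T.N k Φ) (hE : T.Eqv Φ) (c : Eˣ) (s : E) (p : HF E) :
    ser T.H.subtype (fun b : T.SS c => T.Psi (T.rg u Φ) s b) p =
      ser T.H.subtype (fun b : T.SS c => T.Psi Φ s b) p := by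
  obtain ⟨k2, hk2⟩ := T.dl1_BSch u h
  have h0 : (1 : ℂ) - T.psi (u : L) ≠ 0 := sub_ne_zero.mpr (Ne.symm hne)
  have e1 : ∀ (b : T.SS c) (x : L), T.Psi (T.rg u Φ) s b x = (1 - T.psi (u : L))⁻¹ *
      (T.Psi (T.dl1 u Φ) s b x + (-T.psi (u : L)) * T.Psi Φ s b x) := by
    intro b x
    have : T.Psi (T.rg u Φ) s b x = (1 - T.psi (u : L))⁻¹ *
        T.Psi (fun x => T.dl1 u Φ x + (-T.psi (u : L)) * Φ x) s b x := T.wy_Psi_const_mul _ _ s b x
    rw [this, T.wy_Psi_add, T.wy_Psi_const_mul]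
  have e2 : (fun b : T.SS c => T.Psi (T.rg u Φ) s b) = fun (b : T.SS c) x =>
      (1 - T.psi (u : L))⁻¹ * (T.Psi (T.dl1 u Φ) s b x + (-T.psi (u : L)) * T.Psi Φ s b x) := by
    funext b x; exact e1 b x
  rw [e2, ser_const_mul]
  have hc1 := T.serConv_Psi hk2 c s p
  have hc2 : SerConv T.H.subtype (fun (b : T.SS c) x => (-T.psi (u : L)) * T.Psi Φ s b x) p := by
    have := T.serConv_Psi (h.wy_const_mul (-T.psi (u : L))) c s p
    have e3 : (fun b : T.SS c => T.Psi (fun x => -T.psi (u : L) * Φ x) s b) =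
      fun (b : T.SS c) x => (-T.psi (u : L)) * T.Psi Φ s b x := by
      funext b x; exact T.wy_Psi_const_mul _ _ s b x
    rwa [e3] at this
  rw [ser_add hc1 hc2, ser_const_mul, T.ser_dl1 u hu Φ hE]
  field_simp
  ring

/-! ### The functional equation -/

include T in
theorem nm_aMU (g : Eˣ) : nmU E L (Units.map (algebraMap E L : E →* L) g) = g ^ 2 := by
  apply Units.ext
  rw [nmU_coe, Units.coe_map, MonoidHom.coe_coe, Algebra.norm_algebraMap, T.q.two]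
  rfl

/-- division by an element of `E` -/
noncomputable def eqE (c g : Eˣ) : T.SS c ≃ T.SS (c / g ^ 2) where
  toFun b := ⟨(QuotientGroup.mk (Units.map (algebraMap E L : E →* L) g) : Idl T.N L)⁻¹ * b.1, by
    rw [map_mul, map_inv, b.2, nmI_mk, T.nm_aMU]
    rw [div_eq_mul_inv, mul_comm c]
    rfl⟩
  invFun b := ⟨(QuotientGroup.mk (Units.map (algebraMap E L : E →* L) g) : Idl T.N L) * b.1, by
    rw [map_mul, b.2, nmI_mk, T.nm_aMU]
    rw [← QuotientGroup.mk_mul, mul_div_cancel]⟩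
  left_inv b := Subtype.ext (by
    show (QuotientGroup.mk (Units.map (algebraMap E L : E →* L) g) : Idl T.N L) *
      ((QuotientGroup.mk (Units.map (algebraMap E L : E →* L) g) : Idl T.N L)⁻¹ * b.1) = b.1
    exact mul_inv_cancel_left _ _)
  right_inv b := Subtype.ext (by
    show (QuotientGroup.mk (Units.map (algebraMap E L : E →* L) g) : Idl T.N L)⁻¹ *
      ((QuotientGroup.mk (Units.map (algebraMap E L : E →* L) g) : Idl T.N L) * b.1) = b.1
    exact inv_mul_cancel_left _ _)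

theorem eqE_smul (c g : Eˣ) (h : T.H) (b : T.SS c) : T.eqE c g (h • b) = h • T.eqE c g b := by
  apply Subtype.ext
  show (QuotientGroup.mk (Units.map (algebraMap E L : E →* L) g) : Idl T.N L)⁻¹ *
      (QuotientGroup.mk (h : Lˣ) * b.1) = QuotientGroup.mk (h : Lˣ) *
      ((QuotientGroup.mk (Units.map (algebraMap E L : E →* L) g) : Idl T.N L)⁻¹ * b.1)
  exact mul_left_comm (G := Idl T.N L) _ _ _

theorem nrm_aM {z : E} (hz : z ≠ 0) : nrm T.N (algebraMap E L z) = nrm T.N z ^ 2 := by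
  obtain ⟨b, b', hb, hb', rfl⟩ := exists_frac (N := T.N) z hz
  have e : algebraMap E L ((b : E) / b') = ((T.incl b : SI T.N L) : L) / (T.incl b' : SI T.N L) := by
    rw [map_div₀]; rfl
  rw [e, nrm_eq T.hN (T.incl_ne hb) (T.incl_ne hb'), nrm_eq T.hN hb hb']
  have h1 : (Nat.card (SI T.N L ⧸ span {T.incl b}) : ℝ) =
      (Nat.card (SI T.N E ⧸ span {b}) : ℝ) ^ 2 := by exact_mod_cast T.card_incl hb
  have h2 : (Nat.card (SI T.N L ⧸ span {T.incl b'}) : ℝ) =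
      (Nat.card (SI T.N E ⧸ span {b'}) : ℝ) ^ 2 := by exact_mod_cast T.card_incl hb'
  rw [h1, h2, div_pow]

theorem nrm_nm (β : Lˣ) : nrm T.N (β : L) = nrm T.N (nm (β : L)) := by
  have hb : (β : L) ≠ 0 := β.ne_zero
  have hcb : T.q.c (β : L) ≠ 0 := by rw [Ne, map_eq_zero_iff _ T.q.c.injective]; exact hb
  have hn := T.nm_ne β
  have h1 := T.nrm_aM hn
  rw [T.nm_eq, nrm_mul T.hN hb hcb, T.nrm_c hb] at h1
  have h2 := nrm_pos T.hN hb
  have h3 := nrm_pos T.hN hn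
  nlinarith [sq_nonneg (nrm T.N (β : L) - nrm T.N (nm (β : L))), h1, h2, h3]

theorem psi_nm (β : Lˣ) : T.psi (algebraMap E L (nm (β : L))) = 1 := by
  rw [T.nm_eq, map_mul, mul_comm]
  exact T.psi_c _ β.ne_zero

theorem wy_Psi_mk (Φ : L → ℂ) (s : E) {c : Eˣ} (b : T.SS c) {β : Lˣ}
    (hb : b.1 = QuotientGroup.mk β) (x : L) :
    T.Psi Φ s b x = T.psi (β : L) * Φ x * (ind T.N ((β : L)⁻¹) 0 x * T.ψ (s * nm x)) := by
  classical
  unfold Psi
  rw [hb, psiI_mk, T.ind_inv]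
  have : InS (QuotientGroup.mk β : Idl T.N L) x ↔ (β : L) * x ∈ SI T.N L := inS_mk _ _
  by_cases h : (β : L) * x ∈ SI T.N L
  · rw [if_pos h, if_pos (this.mpr h)]; ring
  · rw [if_neg h, if_neg (fun h' => h (this.mp h'))]; ring

theorem ff_Psi {k : ℕ} {Φ : L → ℂ} (hΦ : BSch T.N k Φ) {c g : Eˣ} {l a a2 : SI T.N E} (hl : l ≠ 0)
    (hdvd : l ∣ 1 + a * a2) (hc : (c : E) = g * l) {s : E} (hs : s = g * a) (b : T.SS c) (η : L) :
    T.q.ff (T.Psi Φ s b) η = ((nrm T.N (g : E) : ℝ) : ℂ) *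
      T.Psi (T.ftB Φ) ((a2 : E) / g) (T.eqE c g b) η := by
  obtain ⟨β, hβ⟩ := QuotientGroup.mk_surjective b.1
  have hb2 := b.2
  rw [← hβ, nmI_mk, eq_comm, QuotientGroup.eq] at hb2
  -- `nm β = c w`
  set w : Eˣ := c⁻¹ * nmU E L β with hw
  have hwS : (w : E) ∈ SI T.N E := hb2.1
  have hwS' : ((w⁻¹ : Eˣ) : E) ∈ SI T.N E := hb2.2
  have hnm : nm (β : L) = (g : E) * ((l : E) * w) := by
    rw [← mul_assoc, ← hc, ← nmU_coe, ← Units.val_mul, hw, mul_inv_cancel_left]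
  set l0 : SI T.N E := l * ⟨(w : E), hwS⟩ with hl0
  have hw0 : (⟨(w : E), hwS⟩ : SI T.N E) ≠ 0 := by
    intro h
    exact w.ne_zero (congrArg (fun z : SI T.N E => (z : E)) h)
  have hl0' : l0 ≠ 0 := mul_ne_zero hl hw0
  have hd0 : l0 ∣ 1 + a * a2 := by
    refine dvd_trans ?_ hdvd
    refine ⟨⟨((w⁻¹ : Eˣ) : E), hwS'⟩, ?_⟩
    apply Subtype.ext
    show (l : E) = (l : E) * w * ((w⁻¹ : Eˣ) : E)
    rw [mul_assoc, Units.mul_inv, mul_one]
  have hg : (g : E) ≠ 0 := g.ne_zero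
  have hmain := T.ff_main (hΦ.wy_const_mul (T.psi (β : L))) (g := g) hl0' hd0 hnm hs η
  have e1 : T.Psi Φ s b = fun x => (T.psi (β : L) * Φ x) *
      (ind T.N ((β : L)⁻¹) 0 x * T.ψ (s * nm x)) := by
    funext x
    exact T.wy_Psi_mk Φ s b hβ.symm x
  rw [e1, hmain, T.ftB_const_mul hΦ]
  set gL : Lˣ := Units.map (algebraMap E L : E →* L) g with hgL
  have hgLv : (gL : L) = algebraMap E L (g : E) := rfl
  have h2 : (T.eqE c g b).1 = QuotientGroup.mk (β * gL⁻¹) := by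
    show (QuotientGroup.mk gL : Idl T.N L)⁻¹ * b.1 = _
    rw [← hβ, mul_comm, ← QuotientGroup.mk_inv, ← QuotientGroup.mk_mul]
  rw [T.wy_Psi_mk _ _ _ h2]
  have e3 : ((β * gL⁻¹ : Lˣ) : L) = (β : L) * (algebraMap E L (g : E))⁻¹ := by
    rw [Units.val_mul, Units.val_inv_eq_inv_val, hgLv]
  rw [e3]
  -- the constants
  have h4 : ((nrm T.N (β : L) : ℝ) : ℂ) * (Nat.card (SI T.N E ⧸ span {l0}) : ℂ)⁻¹ =
      ((nrm T.N (g : E) : ℝ) : ℂ) := by
    have k1 := nrm_coe T.hN hl0'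
    have hlE : (l0 : E) ≠ 0 := coe_ne_zero hl0'
    have k2 : nrm T.N (β : L) = nrm T.N (g : E) * nrm T.N (l0 : E) := by
      rw [T.nrm_nm, hnm]
      exact nrm_mul T.hN hg hlE
    have k3 := nrm_pos T.hN hlE
    have k4 : (Nat.card (SI T.N E ⧸ span {l0}) : ℂ) = ((nrm T.N (l0 : E) : ℝ) : ℂ) := by
      rw [k1]; push_cast; rfl
    rw [k4, k2]
    have k5 : ((nrm T.N (l0 : E) : ℝ) : ℂ) ≠ 0 := by exact_mod_cast k3.ne'
    push_cast
    field_simp
  have h5 : T.psi ((β : L) * (algebraMap E L (g : E))⁻¹) =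
      T.psi (β : L) * T.psi (algebraMap E L (l0 : E)) := by
    have k1 := T.psi_nm β
    rw [hnm, map_mul (algebraMap E L), map_mul] at k1
    rw [map_mul, map_inv₀]
    congr 1
    exact (eq_inv_of_mul_eq_one_right k1).symm
  rw [h5, h4]
  ring

theorem hst_SS (c : Eˣ) (b : T.SS c) : ∃ n : ℕ, 0 < n ∧ ∀ g : T.H, g • b = b →
    IsIntegral ℤ ((n : L) * ((T.H.subtype g : Lˣ) : L)) := by
  refine ⟨1, one_pos, fun g hg => ?_⟩
  rw [Nat.cast_one, one_mul]
  have h1 : (QuotientGroup.mk (g : Lˣ) : Idl T.N L) * b.1 = b.1 := congrArg Subtype.val hg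
  have h2 : (QuotientGroup.mk (g : Lˣ) : Idl T.N L) = 1 := by
    have h3 : (QuotientGroup.mk (g : Lˣ) : Idl T.N L) * b.1 * (b.1)⁻¹ = b.1 * (b.1)⁻¹ := by
      rw [h1]
    rw [mul_assoc, mul_inv_cancel] at h3
    rw [← h3]
    exact (mul_one (M := Idl T.N L) _).symm
  rw [QuotientGroup.eq_one_iff] at h2
  exact isIntegral_of_SI_LI h2.1 g.2.2.1

theorem wy_SB_Psi {k : ℕ} {Φ : L → ℂ} (hΦ : BSch T.N k Φ) {c : Eˣ} {s : E} {g : Eˣ} {l a : SI T.N E}
    (hl : l ≠ 0) (hc : (c : E) = g * l) (hs : s = g * a) (b : T.SS c) : SB (T.Psi Φ s b) := by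
  obtain ⟨β, hβ⟩ := QuotientGroup.mk_surjective b.1
  have hb2 := b.2
  rw [← hβ, nmI_mk, eq_comm, QuotientGroup.eq] at hb2
  set w : Eˣ := c⁻¹ * nmU E L β with hw
  have hwS : (w : E) ∈ SI T.N E := hb2.1
  have hnm : nm (β : L) = (g : E) * ((l : E) * w) := by
    rw [← mul_assoc, ← hc, ← nmU_coe, ← Units.val_mul, hw, mul_inv_cancel_left]
  set l0 : SI T.N E := l * ⟨(w : E), hwS⟩ with hl0
  have hw0 : (⟨(w : E), hwS⟩ : SI T.N E) ≠ 0 := by
    intro h
    exact w.ne_zero (congrArg (fun z : SI T.N E => (z : E)) h)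
  have hl0' : l0 ≠ 0 := mul_ne_zero hl hw0
  have e1 : T.Psi Φ s b = fun x => (T.psi (β : L) * Φ x) * T.Fa β s 0 x := by
    funext x
    rw [T.wy_Psi_mk Φ s b hβ.symm x]
    unfold Fa
    rw [map_zero, mul_zero, map_zero, sub_zero]
  rw [e1]
  refine SB_mul T.hN (inv_ne_zero β.ne_zero) (coe_ne_zero (T.incl_ne
    (mul_ne_zero hl0' (one_ne_zero)))) (hΦ.wy_const_mul _) ?_
  have := T.Fa_ASch hl0' hnm hs (η := 0) 1 one_ne_zero (by
    rw [mul_zero, mul_zero]; exact (SI T.N L).zero_mem)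
  rw [Nat.cast_one] at this
  exact this

/-- **The functional equation under the Weyl element.** -/
theorem fPhi_wMat {k : ℕ} {Φ : L → ℂ} (hΦ : BSch T.N k Φ) (hE : T.Eqv Φ) {c g : Eˣ}
    {l a a2 : SI T.N E} (hl : l ≠ 0) (hdvd : l ∣ 1 + a * a2) (hc : (c : E) = g * l) {s : E}
    (hs : s = g * a) (p : HF E) :
    T.fPhi Φ p c s = (T.q.cst : ℂ) *
      T.fPhi (T.ftB Φ) (wMat E • p) (c / g ^ 2) ((a2 : E) / g) := by
  -- an element of norm one with `psi ≠ 1`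
  obtain ⟨x, hx, hxne⟩ := T.psi_ne
  have hcx : T.q.c x ≠ 0 := by rw [Ne, map_eq_zero_iff _ T.q.c.injective]; exact hx
  set u : Lˣ := Units.mk0 (x / T.q.c x) (div_ne_zero hx hcx) with hu
  have hu1 : nmU E L u = 1 := by
    apply Units.ext
    rw [nmU_coe, hu, Units.val_mk0, div_eq_mul_inv, map_mul, T.nm_inv _ hcx, T.nm_c,
      Units.val_one]
    exact mul_inv_cancel₀ (T.nm_ne (Units.mk0 x hx))
  have hune : T.psi (u : L) ≠ 1 := by
    rw [hu, Units.val_mk0, map_div₀]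
    have h1 := T.psi_c x hx
    intro h2
    apply hxne
    have h3 : T.psi (T.q.c x) ≠ 0 := left_ne_zero_of_mul_eq_one h1
    rw [div_eq_one_iff_eq h3] at h2
    rw [sq]
    nth_rewrite 1 [h2]
    exact h1
  obtain ⟨k1, hk1⟩ := T.rg_BSch u hΦ
  obtain ⟨d, hd⟩ := T.exists_ftB_supp
  have hF := hd k Φ hΦ
  have hEF := T.ftB_Eqv hΦ hE
  have hfr : T.ftB (T.rg u Φ) = T.rg u (T.ftB Φ) := funext fun η => T.ftB_rg u hu1 hΦ η
  have key := ser_wMat T.q T.H.subtype (S := T.SS c) (S' := T.SS (c / g ^ 2))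
    (Subgroup.subtype_injective _) T.wy_H_norm (T.hst_SS c)
    (Ψ := fun b : T.SS c => T.Psi (T.rg u Φ) s b)
    (Ψ' := fun b : T.SS (c / g ^ 2) => T.Psi (T.rg u (T.ftB Φ)) ((a2 : E) / g) b)
    (fun b => T.wy_SB_Psi hk1 hl hc hs b)
    (fun b => by
      show T.Psi (T.rg u Φ) s b 0 = 0
      unfold Psi
      rw [T.rg_zero, zero_mul, mul_zero])
    (fun b => by
      show T.Psi (T.rg u (T.ftB Φ)) ((a2 : E) / g) b 0 = 0
      unfold Psi
      rw [T.rg_zero, zero_mul, mul_zero])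
    (fun h b x => T.wy_Psi_smul (T.rg_Eqv u hE) s h b x)
    (fun h b x => T.wy_Psi_smul (T.rg_Eqv u hEF) _ h b x)
    (T.eqE c g) (T.eqE_smul c g) ((nrm T.N (g : E) : ℝ) : ℂ)
    (fun b η => by
      show T.q.ff (T.Psi (T.rg u Φ) s b) η = _
      rw [T.ff_Psi hk1 hl hdvd hc hs, hfr])
    p (T.serConv_Psi hk1 c s p) (by
      obtain ⟨k2, hk2⟩ := T.rg_BSch u hF
      exact T.serConv_Psi hk2 _ _ _)
  rw [T.ser_rg u hu1 hune hΦ hE, T.ser_rg u hu1 hune hF hEF] at key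
  unfold fPhi
  rw [key]
  have hg : (g : E) ≠ 0 := g.ne_zero
  have hpg := nrm_pos T.hN hg
  have hpc := nrm_pos T.hN c.ne_zero
  have e1 : nrm T.N ((c / g ^ 2 : Eˣ) : E) = nrm T.N (c : E) * ((nrm T.N (g : E)) ^ 2)⁻¹ := by
    have : ((c / g ^ 2 : Eˣ) : E) = (c : E) * ((g : E) * g)⁻¹ := by
      rw [Units.val_div_eq_div_val, Units.val_pow_eq_pow_val, sq, div_eq_mul_inv]
    rw [this, nrm_mul T.hN c.ne_zero (inv_ne_zero (mul_ne_zero hg hg)),
      nrm_inv T.hN (mul_ne_zero hg hg), nrm_mul T.hN hg hg, sq]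
  have e2 : ((nrm T.N ((c / g ^ 2 : Eˣ) : E) : ℝ) : ℂ) ^ (-(1 / 2) : ℂ) =
      ((nrm T.N (c : E) : ℝ) : ℂ) ^ (-(1 / 2) : ℂ) * ((nrm T.N (g : E) : ℝ) : ℂ) := by
    rw [e1, Complex.ofReal_mul, Complex.mul_cpow_ofReal_nonneg hpc.le (by positivity)]
    congr 1
    have h1 : (((nrm T.N (g : E)) ^ 2)⁻¹ : ℝ) ^ (-(1 / 2) : ℝ) = nrm T.N (g : E) := by
      rw [Real.inv_rpow (by positivity), Real.rpow_neg (by positivity), inv_inv,
        ← Real.sqrt_eq_rpow, Real.sqrt_sq hpg.le]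
    have h2 : (((((nrm T.N (g : E)) ^ 2)⁻¹ : ℝ) ^ (-(1 / 2) : ℝ) : ℝ) : ℂ) =
        ((nrm T.N (g : E) : ℝ) : ℂ) := by rw [h1]
    rw [Complex.ofReal_cpow (by positivity)] at h2
    rw [← h2]
    congr 1
    push_cast
    rfl
  rw [e2]
  ring

end T4D

end Fermat.Agent.LT.T4
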