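import Fermat.Agent.LT.T4.I3
import Fermat.Agent.LT.T4.Laws
import Fermat.Agent.LT.T4.Wey

set_option autoImplicit false

/-!
# The laws of the theta functions
-/

namespace Fermat.Agent.LT.T4

open Fermat.Agent.LT.Theta

namespace T4D

variable {E L : Type*} [Field E] [NumberField E] [Field L] [NumberField L] [Algebra E L]
  (T : T4D E L) [NumberField.IsTotallyComplex E]

/-- **The laws of the theta functions.** -/
theorem phiLaws : T.PhiLaws where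
  cinv := fun _ => T.cInv_fPhi _
  uni := T.fPhi_nMat'
  wey := fun hΦ hE _ _ _ _ _ hl hdvd hc _ hs p => T.fPhi_wMat hΦ hE hl hdvd hc hs p

variable {Ω : Type*} [MulAction (GL (Fin 2) E) Ω] (om : Om T.N E Ω)

/-- the Weyl element -/
theorem fn_w {k : ℕ} {Φ : L → ℂ} (hΦ : BSch T.N k Φ) (hE : T.Eqv Φ) (x : HF E × Ω) :
    om.fn (T.fPhi Φ) x = (T.q.cst : ℂ) * om.fn (T.fPhi (T.ftB Φ)) (wMat E • x) :=
  T.phiLaws.fn_w om hΦ hE x

/-- **(I3)** -/
theorem fn_I3 {n d : ℕ} (hn : 1 ≤ n) (hk : T.k0 ≤ n)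
    (hd : ∀ (k : ℕ) (Φ : L → ℂ), BSch T.N k Φ → BSch T.N (k + d) (T.ftB Φ)) {c : E}
    (hc : ∃ y ∈ LI T.N E, c = (T.N : E) ^ (2 * (n + d)) * y) (x : HF E × Ω) :
    om.fn (T.f n) (nLow c • x) = om.fn (T.f n) x :=
  T.phiLaws.fn_I3 om hn hk hd hc x

end T4D

end Fermat.Agent.LT.T4
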