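import Fermat.Agent.LT.T4.WKc
import Fermat.Agent.LT.T4.Fn
import Fermat.Agent.LT.T4.Reg4
import Fermat.Agent.LT.T4.PhiL

set_option autoImplicit false

/-! # The theta form is a Whittaker series at every cusp -/

namespace Fermat.Agent.LT.T4

open Complex MeasureTheory NumberField Module Matrix Filter Topology
open Fermat.Agent.LT.Fou Fermat.Agent.LT.Theta
open scoped Real ComplexConjugate ENNReal

set_option linter.unusedSectionVars false

section matrices

variable {E : Type*} [Field E]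

theorem aMat_mul_wMat [NumberField E] (a : Eˣ) : Sp.aMat a * wMat E =
    GeneralLinearGroup.scalar (Fin 2) a * (wMat E * Sp.aMat a⁻¹) := by
  apply Units.ext
  rw [Units.val_mul, Units.val_mul, Units.val_mul, Sp.aMat_coe, Sp.aMat_coe, wMat_coe,
    GeneralLinearGroup.coe_scalar]
  ext i j
  fin_cases i <;> fin_cases j <;> simp [Matrix.mul_apply, Fin.sum_univ_two]

theorem wMat_mul_wMat : wMat E * wMat E = GeneralLinearGroup.scalar (Fin 2) (-1 : Eˣ) := by
  apply Units.ext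
  rw [Units.val_mul, wMat_coe, GeneralLinearGroup.coe_scalar]
  ext i j
  fin_cases i <;> fin_cases j <;> simp [Matrix.mul_apply, Fin.sum_univ_two]

/-- upper triangular matrices -/
theorem upper_decomp [NumberField E] (g : GL (Fin 2) E) (h : g 1 0 = 0) :
    ∃ (z a : Eˣ) (b : E), g = GeneralLinearGroup.scalar (Fin 2) z * (nMat b * Sp.aMat a) := by
  have hdet : g 0 0 * g 1 1 - g 0 1 * g 1 0 ≠ 0 := by
    have := g.det_ne_zero
    rwa [Matrix.det_fin_two] at this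
  rw [h, mul_zero, sub_zero] at hdet
  have h0 : g 0 0 ≠ 0 := left_ne_zero_of_mul hdet
  have h1 : g 1 1 ≠ 0 := right_ne_zero_of_mul hdet
  refine ⟨Units.mk0 _ h1, Units.mk0 (g 0 0 / g 1 1) (div_ne_zero h0 h1), g 0 1 / g 1 1, ?_⟩
  apply Units.ext
  rw [Units.val_mul, Units.val_mul, nMat_coe, Sp.aMat_coe, GeneralLinearGroup.coe_scalar]
  ext i j
  fin_cases i <;> fin_cases j
  · simp [Matrix.mul_apply, Fin.sum_univ_two]; field_simp
  · simp [Matrix.mul_apply, Fin.sum_univ_two]; field_simp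
  · simp [Matrix.mul_apply, Fin.sum_univ_two]; exact h
  · simp [Matrix.mul_apply, Fin.sum_univ_two]

/-- Bruhat decomposition -/
theorem bruhat_decomp [NumberField E] (g : GL (Fin 2) E) (h : g 1 0 ≠ 0) :
    ∃ (b : E) (g' : GL (Fin 2) E), g' 1 0 = 0 ∧ g = nMat b * (wMat E * g') := by
  refine ⟨g 0 0 / g 1 0, (wMat E)⁻¹ * ((nMat (g 0 0 / g 1 0))⁻¹ * g), ?_, by group⟩
  rw [nMat_neg_inv]
  have hw : (wMat E)⁻¹ = GeneralLinearGroup.scalar (Fin 2) (-1 : Eˣ) * wMat E := by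
    rw [inv_eq_iff_mul_eq_one, ← mul_assoc]
    have : wMat E * GeneralLinearGroup.scalar (Fin 2) (-1 : Eˣ) * wMat E =
        GeneralLinearGroup.scalar (Fin 2) (-1 : Eˣ) * (wMat E * wMat E) := by
      rw [← mul_assoc]
      congr 1
      apply Units.ext
      rw [Units.val_mul, Units.val_mul, wMat_coe, GeneralLinearGroup.coe_scalar]
      ext i j
      fin_cases i <;> fin_cases j <;> simp [Matrix.mul_apply, Fin.sum_univ_two]
    rw [this, wMat_mul_wMat, ← map_mul]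
    simp
  rw [hw]
  show ((GeneralLinearGroup.scalar (Fin 2) (-1 : Eˣ) * wMat E *
    (nMat (-(g 0 0 / g 1 0)) * g) : GL (Fin 2) E) : Matrix (Fin 2) (Fin 2) E) 1 0 = 0
  rw [Units.val_mul, Units.val_mul, Units.val_mul, nMat_coe, wMat_coe,
    GeneralLinearGroup.coe_scalar]
  simp only [Matrix.mul_apply, Fin.sum_univ_two, Matrix.scalar_apply, Matrix.diagonal_apply,
    Matrix.of_apply, Matrix.cons_val', Matrix.cons_val_zero, Matrix.cons_val_one,
    Matrix.cons_val_fin_one]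
  simp
  field_simp
  ring

end matrices

section om

variable {N : ℕ} {E : Type*} [Field E] [NumberField E] {Ω : Type*} [MulAction (GL (Fin 2) E) Ω]

/-- scalars act trivially -/
theorem Om.scalar_smul (om : Om N E Ω) (z : Eˣ) (ω : Ω) :
    GeneralLinearGroup.scalar (Fin 2) z • ω = ω := by
  obtain ⟨c, s, rfl⟩ := om.iwa ω
  have hcomm : ∀ g : GL (Fin 2) E, GeneralLinearGroup.scalar (Fin 2) z * g =
      g * GeneralLinearGroup.scalar (Fin 2) z := by
    intro g
    apply Units.ext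
    rw [Units.val_mul, Units.val_mul, GeneralLinearGroup.coe_scalar]
    ext i j
    rw [Matrix.scalar_apply, Matrix.diagonal_mul, Matrix.mul_diagonal, mul_comm]
  have hbase : GeneralLinearGroup.scalar (Fin 2) z • om.base = om.base := by
    rw [om.stab]
    refine ⟨z⁻¹, fun i j => ?_⟩
    have e1 : (GeneralLinearGroup.scalar (Fin 2) z : GL (Fin 2) E) i j =
        if i = j then (z : E) else 0 := by
      show ((GeneralLinearGroup.scalar (Fin 2) z : GL (Fin 2) E) : Matrix (Fin 2) (Fin 2) E) i j = _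
      rw [GeneralLinearGroup.coe_scalar, Matrix.scalar_apply, Matrix.diagonal_apply]
    have e2 : ((GeneralLinearGroup.scalar (Fin 2) z)⁻¹ : GL (Fin 2) E) i j =
        if i = j then ((z⁻¹ : Eˣ) : E) else 0 := by
      rw [← map_inv]
      show ((GeneralLinearGroup.scalar (Fin 2) z⁻¹ : GL (Fin 2) E) :
        Matrix (Fin 2) (Fin 2) E) i j = _
      rw [GeneralLinearGroup.coe_scalar, Matrix.scalar_apply, Matrix.diagonal_apply]
    rw [e1, e2, inv_inv]
    split_ifs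
    · rw [Units.inv_mul, Units.mul_inv]
      exact ⟨(SI N E).one_mem, (SI N E).one_mem⟩
    · rw [mul_zero, mul_zero]
      exact ⟨(SI N E).zero_mem, (SI N E).zero_mem⟩
  have h1 : GeneralLinearGroup.scalar (Fin 2) z • Sp.aMat c • om.base = Sp.aMat c • om.base := by
    rw [← mul_smul, hcomm, mul_smul, hbase]
  rw [← mul_smul, hcomm, mul_smul, h1]

theorem Om.scalar_smul_pt (om : Om N E Ω) (z : Eˣ) (x : HF E × Ω) :
    GeneralLinearGroup.scalar (Fin 2) z • x = x := by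
  obtain ⟨p, ω⟩ := x
  exact Prod.ext (Sp.scalar_smul_HF z p) (om.scalar_smul z ω)

end om

namespace T4D

variable {E L : Type*} [Field E] [NumberField E] [Field L] [NumberField L] [Algebra E L]
  (T : T4D E L) [IsTotallyComplex E] {Ω : Type*} [MulAction (GL (Fin 2) E) Ω] (om : Om T.N E Ω)

/-- the transformation laws of the theta functions -/
structure FLaws : Prop where
  inv : ∀ Φ : L → ℂ, T.Eqv Φ → CInv T.N (T.fPhi Φ)
  nM : ∀ (Φ : L → ℂ), T.Eqv Φ → ∀ (b : E) (x : HF E × Ω),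
    om.fn (T.fPhi Φ) (nMat b • x) = om.fn (T.fPhi (T.twn b Φ)) x
  wM : ∀ (k : ℕ) (Φ : L → ℂ), BSch T.N k Φ → T.Eqv Φ → ∀ x : HF E × Ω,
    om.fn (T.fPhi Φ) (wMat E • x) = (T.q.cst : ℂ) * om.fn (T.fPhi (T.ftB Φ)) x

variable {T} in
/-- the laws, from the laws of helper5 -/
theorem PhiLaws.fLaws (H : T.PhiLaws) : T.FLaws om where
  inv := fun _ hE => H.cinv hE
  nM := fun Φ hE b x => by
    have h := om.fn_nMat (H.cinv hE) (H.cinv (T.twn_Eqv (b := b) hE)) b 1
      (fun p c s => by rw [H.uni, one_mul]; rfl) x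
    rwa [one_mul] at h
  wM := fun k Φ hΦ hE x => by
    rw [H.fn_w om hΦ hE, ← mul_smul, wMat_mul_wMat, om.scalar_smul_pt]

/-- the class of functions `x ↦ C ∑ F_{Φ_i}(a(κ_i) a(v) x)` -/
def InCls (K : Type*) (G : HF E × Ω → ℂ) : Prop :=
  ∃ (κ : K → Eˣ) (Φ : K → L → ℂ) (v : Eˣ) (C : ℂ), T.KFE κ Φ ∧
    ∀ x, G x = C * ∑' i, om.fn (T.fPhi (Φ i)) (Sp.aMat (κ i) • Sp.aMat v • x)

variable {T om} {K : Type*}

theorem InCls.wM (hL : T.FLaws om) {G : HF E × Ω → ℂ} (h : T.InCls om K G) :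
    T.InCls om K (fun x => G (wMat E • x)) := by
  obtain ⟨κ, Φ, v, C, hK, hG⟩ := h
  obtain ⟨k, hk⟩ := hK.sch
  refine ⟨fun i => (κ i)⁻¹, fun i => T.ftB (Φ i), v⁻¹, C * (T.q.cst : ℂ), hK.inv, fun x => ?_⟩
  show G (wMat E • x) = _
  rw [hG, mul_assoc, ← tsum_mul_left (a := (T.q.cst : ℂ))]
  congr 1
  apply tsum_congr
  intro i
  have e1 : Sp.aMat (κ i) • Sp.aMat v • wMat E • x =
      GeneralLinearGroup.scalar (Fin 2) (κ i * v) •
        (wMat E • Sp.aMat (κ i)⁻¹ • Sp.aMat v⁻¹ • x) := by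
    simp only [← mul_smul]
    congr 1
    rw [← mul_assoc, aMat_mul, aMat_mul_wMat, aMat_mul, mul_inv]
  rw [e1, om.scalar_smul_pt, hL.wM k _ (hk i) (hK.eqv i)]

theorem InCls.nM (hL : T.FLaws om) {G : HF E × Ω → ℂ} (h : T.InCls om K G) (b : E) :
    T.InCls om K (fun x => G (nMat b • x)) := by
  obtain ⟨κ, Φ, v, C, hK, hG⟩ := h
  refine ⟨κ, fun i => T.twn (κ i * (v * b)) (Φ i), v, C, hK.twn (v * b), fun x => ?_⟩
  show G (nMat b • x) = _
  rw [hG]
  congr 1
  apply tsum_congr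
  intro i
  have e1 : Sp.aMat (κ i) • Sp.aMat v • nMat b • x =
      nMat (κ i * (v * b)) • Sp.aMat (κ i) • Sp.aMat v • x := by
    simp only [← mul_smul]
    congr 1
    rw [aMat_mul_nMat, ← mul_assoc, aMat_mul_nMat, mul_assoc]
  rw [e1, hL.nM _ (hK.eqv i)]

theorem InCls.aM {G : HF E × Ω → ℂ} (h : T.InCls om K G) (a : Eˣ) :
    T.InCls om K (fun x => G (Sp.aMat a • x)) := by
  obtain ⟨κ, Φ, v, C, hK, hG⟩ := h
  refine ⟨κ, Φ, v * a, C, hK, fun x => ?_⟩
  show G (Sp.aMat a • x) = _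
  rw [hG]
  congr 1
  apply tsum_congr
  intro i
  rw [← mul_smul (Sp.aMat v), aMat_mul]

theorem InCls.sM {G : HF E × Ω → ℂ} (h : T.InCls om K G) (z : Eˣ) :
    T.InCls om K (fun x => G (GeneralLinearGroup.scalar (Fin 2) z • x)) := by
  simpa only [om.scalar_smul_pt] using h

theorem InCls.upper (hL : T.FLaws om) {G : HF E × Ω → ℂ} (h : T.InCls om K G)
    (g : GL (Fin 2) E) (hg : g 1 0 = 0) : T.InCls om K (fun x => G (g • x)) := by
  obtain ⟨z, a, b, rfl⟩ := upper_decomp g hg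
  have h1 := ((h.sM z).nM hL b).aM a
  simpa only [mul_smul] using h1

/-- **Stability under `GL₂(E)`.** -/
theorem InCls.all (hL : T.FLaws om) {G : HF E × Ω → ℂ} (h : T.InCls om K G)
    (g : GL (Fin 2) E) : T.InCls om K (fun x => G (g • x)) := by
  by_cases hg : g 1 0 = 0
  · exact h.upper hL g hg
  · obtain ⟨b, g', h', rfl⟩ := bruhat_decomp g hg
    have h1 := ((h.nM hL b).wM hL).upper hL g' h'
    simpa only [mul_smul] using h1

/-- the functions of the class are Whittaker series -/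
theorem InCls.wsf (hL : T.FLaws om) {G : HF E × Ω → ℂ} (h : T.InCls om K G) (ω : Ω) :
    WSF fun p : HF E => G (p, ω) := by
  obtain ⟨κ, Φ, v, C, hK, hG⟩ := h
  obtain ⟨c, s, rfl⟩ := om.iwa ω
  have h1 := (T.wsf_GK hK.toKF (fun u hu => nrm_of_UL T.hN hu) (v * c) (v * s)).aMat v
  refine (h1.const_mul C).of_eq fun p => ?_
  rw [hG]
  congr 1
  unfold GK
  apply tsum_congr
  intro i
  have e1 : Sp.aMat (κ i) • Sp.aMat v • ((p, nMat s • Sp.aMat c • om.base) : HF E × Ω) =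
      (Sp.aMat (κ i) • Sp.aMat v • p, nMat ((κ i : E) * (v * s)) • Sp.aMat (κ i * (v * c)) •
        om.base) := by
    apply Prod.ext
    · rfl
    · show Sp.aMat (κ i) • Sp.aMat v • nMat s • Sp.aMat c • om.base = _
      simp only [← mul_smul]
      congr 1
      rw [← aMat_mul, ← aMat_mul]
      simp only [← mul_assoc]
      rw [mul_assoc (Sp.aMat (κ i)) (Sp.aMat v), aMat_mul_nMat, ← mul_assoc, aMat_mul_nMat]
      simp only [mul_assoc]
  rw [e1, om.fn_apply (hL.inv _ (hK.eqv i))]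

/-- the theta form belongs to the class -/
theorem inCls_f (hL : T.FLaws om) {n : ℕ} (hn : 1 ≤ n) (hk : T.k0 ≤ n) :
    T.InCls om (T.G1 n hn ⧸ ((UL T.N L).map (nmU E L)).subgroupOf (T.G1 n hn))
      (om.fn (T.f n)) := by
  obtain ⟨κ, hκ, hrep⟩ := T.exists_reps hn
  have hΦ : BSch T.N n (T.Phi1 n) := T.Phi1_BSch hn hk
  obtain ⟨C, hC⟩ := hΦ.bdd T.hN
  refine ⟨κ, fun _ => T.Phi1 n, 1, 1, ⟨⟨fun i => T.A1_UL hn (hκ i), fun i j => ?_, ⟨n, fun _ => hΦ⟩,
    ⟨C, fun _ => hC⟩⟩, fun _ => T.Phi1_Eqv n⟩, fun x => ?_⟩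
  · rintro ⟨u, hu, h⟩
    obtain ⟨i0, -, hi0⟩ := hrep (κ i) (hκ i)
    rw [hi0 i ⟨1, (UL T.N L).one_mem, by rw [map_one, one_mul]⟩, hi0 j ⟨u, hu, h⟩]
  · obtain ⟨p, ω⟩ := x
    obtain ⟨c, s, rfl⟩ := om.iwa ω
    have hPh : T.Ph1 n = T.Phi1 n := T.Ph1_eq_Phi1 n
    rw [om.fn_apply (T.cInv_f n), (T.f_eq_sum hn κ hκ hrep p c s).2, one_mul]
    apply tsum_congr
    intro i
    have e1 : Sp.aMat (κ i) • Sp.aMat (1 : Eˣ) • ((p, nMat s • Sp.aMat c • om.base) : HF E × Ω) =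
        (Sp.aMat (κ i) • p, nMat ((κ i : E) * s) • Sp.aMat (κ i * c) • om.base) := by
      have h1 : Sp.aMat (1 : Eˣ) = 1 := by
        apply Units.ext
        rw [Sp.aMat_coe]
        ext i j
        fin_cases i <;> fin_cases j <;> simp
      rw [h1, one_smul]
      apply Prod.ext
      · rfl
      · show Sp.aMat (κ i) • nMat s • Sp.aMat c • om.base = _
        simp only [← mul_smul]
        congr 1
        rw [← aMat_mul, ← mul_assoc, aMat_mul_nMat, mul_assoc]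
    rw [e1, om.fn_apply (hL.inv _ (T.Phi1_Eqv n)), hPh]

/-- **The theta form is a Whittaker series at every cusp.** (conditional form) -/
theorem wsf_f_of_laws (hL : T.FLaws om) {n : ℕ} (hn : 1 ≤ n) (hk : T.k0 ≤ n) (g : GL (Fin 2) E)
    (ω : Ω) : WSF fun p : HF E => om.fn (T.f n) (g • (p, ω)) :=
  ((inCls_f hL hn hk).all hL g).wsf hL ω

/-- **The theta form is a Whittaker series at every cusp.** -/
theorem wsf_f_all (T : T4D E L) (om : Om T.N E Ω) {n : ℕ} (hn : 1 ≤ n) (hk : T.k0 ≤ n)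
    (g : GL (Fin 2) E) (ω : Ω) : WSF fun p : HF E => om.fn (T.f n) (g • (p, ω)) :=
  wsf_f_of_laws (T.phiLaws.fLaws om) hn hk g ω

end T4D

end Fermat.Agent.LT.T4
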