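import Fermat.Agent.LT.T4.Main2
import Fermat.Agent.LT.T4.WSFG
import Fermat.Agent.LT.T4.PhiL
import Fermat.Agent.LT.T4.Lvl

set_option autoImplicit false
set_option linter.unusedSectionVars false

/-!
# T4: the theta form over `E` is automorphic

The output of T4 for every `T : T4D E L'`, every `P : Par E` with `P.N = T.N`, `δ` and `j` large,
and every level which is maximal away from `N` and small enough at `N`.
-/

namespace Fermat.Agent.LT.T4

open Matrix Filter NumberField IsDedekindDomain IsDedekindDomain.HeightOneSpectrum WithZero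
open Fermat.Agent.LT.Glob
open Fermat.Agent.LT.Glob.LocFam
open Fermat.Agent.LT.Fou Fermat.Agent.LT.Theta
open Fermat.Agent.LT.Ty
open scoped MatrixGroups

variable {k E L' : Type} [Field k] [NumberField k] [Field E] [NumberField E] [Algebra k E]
  [Field L'] [NumberField L'] [Algebra E L'] [IsTotallyComplex E]

/-- the explicit form -/
theorem t4Out_tf (T : T4D E L') {d : ℕ}
    (hd : ∀ (k : ℕ) (Φ : L' → ℂ), BSch T.N k Φ → BSch T.N (k + d) (T.ftB Φ))
    {P : Par E} (hPN : P.N = T.N) (hδ : 2 * d ≤ P.δ) (hk : T.k0 ≤ 2 * P.j) (hj : P.j ≠ 0)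
    (hcl : ClassOne (locE k E) (plN k T.N)) {U : (locE k E).Level}
    (hU : ∀ v ∉ plN k T.N, U.U v = PO (OE E v)) {m : ℕ} (hm : 3 * P.j + P.δ ≤ m)
    (hU' : ∀ v ∈ plN k T.N, U.U v ≤ PK (OE E v) (P.N ^ m)) :
    T4Out T P U (form P (tf T (adic_locE k E T.hN) hcl hU (2 * P.j))) := by
  have hn : 1 ≤ 2 * P.j := by omega
  refine t4Out_of T hPN hj hcl hU hm hU' (fun c hc x => ?_) (fun γ ω => ?_)
  · refine T.fn_I3 _ hn hk hd ?_ x
    obtain ⟨y, hy, rfl⟩ := hc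
    refine ⟨(T.N : E) ^ (P.δ - 2 * d) * y, (LI T.N E).mul_mem (pow_mem_LI _) hy, ?_⟩
    rw [← mul_assoc, ← pow_add]
    congr 2
    omega
  · exact T.wsf_f_all _ hn hk γ ω

/-- **T4.** -/
theorem t4_main (T : T4D E L') :
    ∃ δ0 j0 : ℕ, ∀ P : Par E, P.N = T.N → δ0 ≤ P.δ → j0 ≤ P.j → P.j ≠ 0 →
      ClassOne (locE k E) (plN k T.N) →
      ∀ U : (locE k E).Level, (∀ v ∉ plN k T.N, U.U v = PO (OE E v)) →
        ∀ m, 3 * P.j + P.δ ≤ m → (∀ v ∈ plN k T.N, U.U v ≤ PK (OE E v) (P.N ^ m)) →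
        ∃ φ : HF E × D U → ℂ, T4Out T P U φ := by
  obtain ⟨d, hd⟩ := T.exists_ftB_supp
  refine ⟨2 * d, T.k0, fun P hPN hδ hk hj hcl U hU m hm hU' => ?_⟩
  exact ⟨_, t4Out_tf T hd hPN hδ (by omega) hj hcl hU hm hU'⟩

end Fermat.Agent.LT.T4
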