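import Fermat.Agent.LT.T4.Bd

set_option autoImplicit false

/-! # Sums of theta functions over classes of elements are Whittaker series -/

namespace Fermat.Agent.LT.T4

open Complex MeasureTheory NumberField Module Matrix Filter Topology
open Fermat.Agent.LT.Fou Fermat.Agent.LT.Theta
open scoped Real ComplexConjugate ENNReal ContDiff

set_option linter.unusedSectionVars false

section fam

variable {E L : Type*} [Field E] [NumberField E] [Field L] [NumberField L]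
  [IsTotallyComplex E] {O : Type*}

/-- the coefficients attached to a family -/
noncomputable def famc (ξ : O → E) (a : O → ℂ) (η : E) : ℂ := by
  classical
  exact ∑' o, if ξ o = η then a o else 0

theorem famc_ne_zero {ξ : O → E} {a : O → ℂ} {η : E} (h : famc ξ a η ≠ 0) :
    ∃ o, ξ o = η ∧ a o ≠ 0 := by
  classical
  by_contra hne
  push Not at hne
  apply h
  unfold famc
  have : ∀ o, (if ξ o = η then a o else 0) = 0 := by
    intro o
    split_ifs with h1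
    · exact hne o h1
    · rfl
  simp only [this, tsum_zero]

/-- the coefficients of a family indexed by elements and ideals are of polynomial growth -/
theorem isW_fam {ξ : O → E} {a : O → ℂ} {𝔞 : O → Ideal (𝓞 L)} {M : ℕ} {C1 : ℝ} (hM : 0 < M)
    (hC1 : 0 ≤ C1) (h0 : ∀ o, a o ≠ 0 → ξ o ≠ 0)
    (h1 : ∀ o o', a o ≠ 0 → a o' ≠ 0 → ξ o = ξ o' → 𝔞 o = 𝔞 o' → o = o')
    (h2 : ∀ o, a o ≠ 0 → IsIntegral ℤ ((M : E) * ξ o))
    (h3 : ∀ o, a o ≠ 0 → (Ideal.absNorm (𝔞 o) : ℝ) ≤ C1 * an (ξ o) ^ 2)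
    {C2 : ℝ} (hC2 : ∀ o, ‖a o‖ ≤ C2) : IsW (famc ξ a) := by
  classical
  obtain ⟨Cc, hCc, hcard⟩ := exists_card_ideals_le L
  set K : ℝ := (M : ℝ) ^ finrank ℚ E with hK
  have hMr : (0 : ℝ) < M := by exact_mod_cast hM
  have hKpos : 0 < K := by positivity
  have hsupp : ∀ η, famc ξ a η ≠ 0 → η ≠ 0 ∧ IsIntegral ℤ ((M : E) * η) := by
    intro η hη
    obtain ⟨o, ho, hne⟩ := famc_ne_zero hη
    rw [← ho]
    exact ⟨h0 o hne, h2 o hne⟩
  refine ⟨?_, M, Cc * (C1 + K ^ 2) * |C2|, 2, hM, by positivity, fun η hη => (hsupp η hη).2,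
    fun η => ?_⟩
  · by_contra h
    exact (hsupp 0 h).1 rfl
  by_cases hη : famc ξ a η = 0
  · rw [hη, norm_zero]
    have := an_nonneg η
    positivity
  obtain ⟨hη0, hηi⟩ := hsupp η hη
  have hpos := an_pos hη0
  have hlow : K⁻¹ ≤ an η := norm_lower hM hη0 hηi
  have hone : 1 ≤ K * an η := by
    rw [inv_le_iff_one_le_mul₀ hKpos, mul_comm] at hlow
    exact hlow
  let F : Set O := {o | ξ o = η ∧ a o ≠ 0}
  have hfin := finite_ideals L (C1 * an η ^ 2)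
  let g : F → {I : Ideal (𝓞 L) // (Ideal.absNorm I : ℝ) ≤ C1 * an η ^ 2} := fun o =>
    ⟨𝔞 o.1, by
      have := h3 o.1 o.2.2
      rw [o.2.1] at this
      exact this⟩
  have hg : Function.Injective g := by
    intro o o' h
    have h' : 𝔞 o.1 = 𝔞 o'.1 := congrArg (fun x => x.1) h
    exact Subtype.ext (h1 _ _ o.2.2 o'.2.2 (o.2.1.trans o'.2.1.symm) h')
  have hF : Finite F := Finite.of_injective g hg
  have hFf : F.Finite := F.toFinite
  have hcF : (hFf.toFinset.card : ℝ) ≤ Cc * (C1 * an η ^ 2 + 1) := by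
    have e1 : hFf.toFinset.card = Nat.card F := by
      rw [Nat.card_coe_set_eq, Set.ncard_eq_toFinset_card F hFf]
    rw [e1]
    refine le_trans ?_ (hcard (C1 * an η ^ 2) (by positivity))
    exact Nat.cast_le.mpr (Nat.card_le_card_of_injective g hg)
  have hsum : famc ξ a η = ∑ o ∈ hFf.toFinset, (if ξ o = η then a o else 0) := by
    unfold famc
    apply tsum_eq_sum
    intro o ho
    split_ifs with h
    · by_contra hne
      apply ho
      rw [Set.Finite.mem_toFinset]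
      exact ⟨h, hne⟩
    · rfl
  rw [hsum]
  have hterm : ∀ o ∈ hFf.toFinset, ‖(if ξ o = η then a o else 0 : ℂ)‖ ≤ |C2| := by
    intro o _
    split_ifs
    · exact (hC2 _).trans (le_abs_self _)
    · rw [norm_zero]; exact abs_nonneg _
  refine (norm_sum_le_of_le _ hterm).trans ?_
  rw [Finset.sum_const, nsmul_eq_mul]
  have h5 : C1 * an η ^ 2 + 1 ≤ (C1 + K ^ 2) * an η ^ 2 := by
    have : 1 ≤ (K * an η) ^ 2 := one_le_pow₀ hone
    rw [add_mul]
    rw [mul_pow] at this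
    linarith
  calc (hFf.toFinset.card : ℝ) * |C2| ≤ Cc * (C1 * an η ^ 2 + 1) * |C2| :=
        mul_le_mul_of_nonneg_right hcF (abs_nonneg _)
    _ ≤ Cc * ((C1 + K ^ 2) * an η ^ 2) * |C2| := by gcongr
    _ = _ := by ring

/-- regrouping of a family -/
theorem fam_eq {ξ : O → E} {a : O → ℂ} {p : HF E}
    (h : Summable fun o => ‖a o * bw p (ξ o)‖) :
    ∑' o, a o * bw p (ξ o) = wser (famc ξ a) p := by
  classical
  have hs' : Summable fun z : (Σ y, {x // ξ x = y}) =>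
      ‖a (Equiv.sigmaFiberEquiv ξ z) * bw p (ξ (Equiv.sigmaFiberEquiv ξ z))‖ :=
    (Equiv.sigmaFiberEquiv ξ).summable_iff.mpr h
  have key : ∀ η : E, ∑' o : {x // ξ x = η}, (a (Equiv.sigmaFiberEquiv ξ ⟨η, o⟩) *
      bw p (ξ (Equiv.sigmaFiberEquiv ξ ⟨η, o⟩))) = famc ξ a η * bw p η := by
    intro η
    have e1 : ∀ o : {x // ξ x = η}, (a (Equiv.sigmaFiberEquiv ξ ⟨η, o⟩) *
        bw p (ξ (Equiv.sigmaFiberEquiv ξ ⟨η, o⟩))) = a o.1 * bw p η := by
      intro o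
      show a o.1 * bw p (ξ o.1) = _
      rw [o.2]
    simp only [e1]
    rw [tsum_mul_right]
    congr 1
    unfold famc
    rw [show (fun o : O => if ξ o = η then a o else 0) =
      Set.indicator {o | ξ o = η} a from by
        funext o
        by_cases h : ξ o = η
        · rw [Set.indicator_of_mem (show o ∈ {o | ξ o = η} from h), if_pos h]
        · rw [Set.indicator_of_notMem (show o ∉ {o | ξ o = η} from h), if_neg h]]
    rw [← tsum_subtype]
    rfl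
  have h1 : ∑' o, a o * bw p (ξ o) = ∑' z : (Σ y, {x // ξ x = y}),
      (a (Equiv.sigmaFiberEquiv ξ z) * bw p (ξ (Equiv.sigmaFiberEquiv ξ z))) :=
    ((Equiv.sigmaFiberEquiv ξ).tsum_eq (fun o => a o * bw p (ξ o))).symm
  rw [h1, Summable.tsum_sigma (Summable.of_norm hs')]
  exact tsum_congr key

theorem summable_fam {ξ : O → E} {a : O → ℂ} {𝔞 : O → Ideal (𝓞 L)} {M : ℕ} {C1 : ℝ} (hM : 0 < M)
    (hC1 : 0 ≤ C1) (h0 : ∀ o, a o ≠ 0 → ξ o ≠ 0)
    (h1 : ∀ o o', a o ≠ 0 → a o' ≠ 0 → ξ o = ξ o' → 𝔞 o = 𝔞 o' → o = o')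
    (h2 : ∀ o, a o ≠ 0 → IsIntegral ℤ ((M : E) * ξ o))
    (h3 : ∀ o, a o ≠ 0 → (Ideal.absNorm (𝔞 o) : ℝ) ≤ C1 * an (ξ o) ^ 2)
    {C2 : ℝ} (hC2 : ∀ o, ‖a o‖ ≤ C2) (p : HF E) : Summable fun o => ‖a o * bw p (ξ o)‖ := by
  obtain ⟨ε, hε, hp⟩ := exists_eps p
  obtain ⟨u, hu, hu0, hb⟩ := conv_main (ξ := ξ) (𝔞 := 𝔞) (A := fun o => ‖a o‖)
    (fun o o' h h' => h1 o o' (norm_ne_zero_iff.mp h) (norm_ne_zero_iff.mp h')) hM
    (fun o h => h2 o (norm_ne_zero_iff.mp h)) (fun o h => h0 o (norm_ne_zero_iff.mp h)) hC1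
    (m := 2) (fun o h => h3 o (norm_ne_zero_iff.mp h)) (le_max_right C2 0)
    (fun o => (hC2 o).trans (le_max_left _ _)) hε (le_refl 2)
  refine Summable.of_nonneg_of_le (fun o => norm_nonneg _) (fun o => ?_)
    (hu.mul_right ((ht p ^ (2 * 2 + 1))⁻¹))
  rw [norm_mul, norm_bw]
  exact hb p hp o

end fam

namespace T4D

variable {E L : Type*} [Field E] [NumberField E] [Field L] [NumberField L] [Algebra E L]
  (T : T4D E L) [IsTotallyComplex E] {K : Type*} (κ : K → Eˣ) (Φ : K → L → ℂ)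

/-- families of theta functions -/
structure KF : Prop where
  unit : ∀ i, κ i ∈ UL T.N E
  inj : ∀ i j, (∃ u ∈ UL T.N L, nmU E L u * κ j = κ i) → i = j
  sch : ∃ k, ∀ i, BSch T.N k (Φ i)
  bdd : ∃ C : ℝ, ∀ i x, ‖Φ i x‖ ≤ C

/-- the index set -/
abbrev KO (c : Eˣ) : Type _ := Σ i : K, Orb T.H.subtype (T.SS (κ i * c))

/-- the elements `κ N(x)` -/
noncomputable def kξ (c : Eˣ) (o : T.KO κ c) : E :=
  (κ o.1 : E) * Algebra.norm E (rep o.2).2.val

/-- the coefficients -/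
noncomputable def ka (c : Eˣ) (s : E) (o : T.KO κ c) : ℂ :=
  T.Psi (Φ o.1) (κ o.1 * s) (rep o.2).1 (rep o.2).2.val

variable {κ Φ}

theorem exists_KF_data (h : T.KF κ Φ) (c : Eˣ) (s : E) :
    ∃ (𝔞 : T.KO κ c → Ideal (𝓞 L)) (M : ℕ) (C1 C2 : ℝ), 0 < M ∧ 0 ≤ C1 ∧
      (∀ o, T.ka κ Φ c s o ≠ 0 → T.kξ κ c o ≠ 0) ∧
      (∀ o o', T.ka κ Φ c s o ≠ 0 → T.ka κ Φ c s o' ≠ 0 → T.kξ κ c o = T.kξ κ c o' →
        𝔞 o = 𝔞 o' → o = o') ∧
      (∀ o, T.ka κ Φ c s o ≠ 0 → IsIntegral ℤ ((M : E) * T.kξ κ c o)) ∧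
      (∀ o, T.ka κ Φ c s o ≠ 0 → (Ideal.absNorm (𝔞 o) : ℝ) ≤ C1 * an (T.kξ κ c o) ^ 2) ∧
      (∀ o, ‖T.ka κ Φ c s o‖ ≤ C2) := by
  classical
  have hfin := T.q.finDim
  obtain ⟨k, hk⟩ := h.sch
  obtain ⟨C2, hC2⟩ := h.bdd
  have hN' : (T.N : L) ≠ 0 := by exact_mod_cast T.hN.ne'
  have hNE : (T.N : E) ≠ 0 := by exact_mod_cast T.hN.ne'
  obtain ⟨m0, hm0, hm0i⟩ := exists_nat_integral ((c : E)⁻¹)
  have hm0' : (m0 : E) ≠ 0 := by exact_mod_cast hm0
  have hnx : ∀ x : L, x ≠ 0 → Algebra.norm E x ≠ 0 := fun x hx => Algebra.norm_ne_zero_iff.mpr hx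
  have hcne : (c : E) ≠ 0 := c.ne_zero
  -- notation
  let b : T.KO κ c → L := fun o => (T.bd_gen (rep o.2).1.1 : L)
  let x : T.KO κ c → L := fun o => (rep o.2).2.val
  have hb0 : ∀ o, b o ≠ 0 := fun o => Units.ne_zero _
  have hx0 : ∀ o, x o ≠ 0 := fun o => XL.val_ne _ _
  have hξ0 : ∀ o, T.kξ κ c o ≠ 0 := fun o => mul_ne_zero (κ o.1).ne_zero (hnx _ (hx0 o))
  have hbx : ∀ o, T.ka κ Φ c s o ≠ 0 → b o * x o ∈ SI T.N L := fun o ho => (T.Psi_ne ho).2
  have hNx : ∀ o, T.ka κ Φ c s o ≠ 0 → (T.N : L) ^ k * x o ∈ LI T.N L := fun o ho =>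
    (hk o.1).2 _ (T.Psi_ne ho).1
  have hnb : ∀ o, ((κ o.1 * c : Eˣ) : E) / Algebra.norm E (b o) ∈ SI T.N E := by
    intro o
    have e1 : (QuotientGroup.mk (κ o.1 * c) : Idl T.N E) =
        QuotientGroup.mk (nmU E L (T.bd_gen (rep o.2).1.1)) := by
      rw [← nmI_mk, T.bd_mk_gen]
      exact (rep o.2).1.2.symm
    exact div_mem_SI e1
  let M : ℕ := m0 * T.N ^ (2 * k)
  have hM : 0 < M := Nat.mul_pos (Nat.pos_of_ne_zero hm0) (pow_pos T.hN _)
  have hMc : (M : E) = (m0 : E) * (T.N : E) ^ (2 * k) := by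
    show ((m0 * T.N ^ (2 * k) : ℕ) : E) = _
    push_cast; rfl
  have g1 : ∀ o, T.ka κ Φ c s o ≠ 0 →
      algebraMap E L ((M : E) * T.kξ κ c o) / (b o * x o) ∈ SI T.N L := by
    intro o ho
    have h3 : algebraMap E L (Algebra.norm E (b o * x o)) = (b o * x o) * T.q.c (b o * x o) :=
      T.q.norm_eq _
    have hn0 := hnx _ (hb0 o)
    have e1 : (M : E) * T.kξ κ c o = ((m0 : E) * (c : E)⁻¹) * (T.N : E) ^ (2 * k) *
        (((κ o.1 * c : Eˣ) : E) / Algebra.norm E (b o)) * Algebra.norm E (b o * x o) := by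
      rw [hMc, map_mul (Algebra.norm E), Units.val_mul]
      show _ * ((κ o.1 : E) * Algebra.norm E (x o)) = _
      field_simp
    have e2 : algebraMap E L ((M : E) * T.kξ κ c o) / (b o * x o) =
        algebraMap E L ((m0 : E) * (c : E)⁻¹) * algebraMap E L ((T.N : E) ^ (2 * k)) *
        algebraMap E L (((κ o.1 * c : Eˣ) : E) / Algebra.norm E (b o)) *
          T.q.c (b o * x o) := by
      rw [e1, map_mul (algebraMap E L), map_mul (algebraMap E L), map_mul (algebraMap E L), h3]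
      have h4 := hb0 o
      have h5 := hx0 o
      field_simp
    rw [e2]
    refine (SI T.N L).mul_mem ((SI T.N L).mul_mem ((SI T.N L).mul_mem ?_ ?_) ?_)
      (SI_c T.q (hbx o ho))
    · exact SI_algebraMap (SI_of_isIntegral hm0i)
    · exact SI_algebraMap (SI_of_isIntegral ((isIntegral_natCast' T.N).pow _))
    · exact SI_algebraMap (hnb o)
  have g2 : ∀ o, T.ka κ Φ c s o ≠ 0 →
      algebraMap E L ((M : E) * T.kξ κ c o) / ((T.N : L) ^ k * x o) ∈ LI T.N L := by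
    intro o ho
    have h1 := LI_c T.q (hNx o ho)
    have e2 : algebraMap E L ((M : E) * T.kξ κ c o) / ((T.N : L) ^ k * x o) =
        (m0 : L) * algebraMap E L (κ o.1 : E) * T.q.c ((T.N : L) ^ k * x o) := by
      rw [hMc]
      show algebraMap E L (_ * ((κ o.1 : E) * Algebra.norm E (x o))) / _ = _
      have hx := hx0 o
      simp only [map_mul, map_pow, map_natCast, T.q.norm_eq]
      rw [two_mul, pow_add]
      field_simp
    rw [e2]
    exact (LI T.N L).mul_mem ((LI T.N L).mul_mem (LI_of_isIntegral (isIntegral_natCast' m0))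
      (LI_algebraMap (h.unit o.1).1)) h1
  have g3 : ∀ o, T.ka κ Φ c s o ≠ 0 → IsIntegral ℤ (algebraMap E L ((M : E) * T.kξ κ c o)) := by
    intro o ho
    apply isIntegral_of_SI_LI (N := T.N)
    · have := (SI T.N L).mul_mem (g1 o ho) (hbx o ho)
      rwa [div_mul_cancel₀ _ (mul_ne_zero (hb0 o) (hx0 o))] at this
    · have := (LI T.N L).mul_mem (g2 o ho) (hNx o ho)
      rwa [div_mul_cancel₀ _ (mul_ne_zero (pow_ne_zero _ hN') (hx0 o))] at this
  refine ⟨fun o => mixId T.N (b o * x o) ((T.N : L) ^ k * x o), M, (M : ℝ) ^ finrank ℚ L, C2,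
    hM, by positivity, fun o _ => hξ0 o, ?_, ?_, ?_, ?_⟩
  · -- injectivity
    intro o o' ho ho' hξ ha
    have n1 : b o * x o ≠ 0 := mul_ne_zero (hb0 _) (hx0 _)
    have n1' : b o' * x o' ≠ 0 := mul_ne_zero (hb0 _) (hx0 _)
    have n2 : (T.N : L) ^ k * x o ≠ 0 := mul_ne_zero (pow_ne_zero _ hN') (hx0 _)
    have n2' : (T.N : L) ^ k * x o' ≠ 0 := mul_ne_zero (pow_ne_zero _ hN') (hx0 _)
    have ha' : mixId T.N (b o * x o) ((T.N : L) ^ k * x o) =
      mixId T.N (b o' * x o') ((T.N : L) ^ k * x o') := ha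
    have e1 := mixId_SI T.hN n1 (hbx _ ho) ha'.le
    have e2 := mixId_SI T.hN n1' (hbx _ ho') ha'.ge
    have e3 := mixId_LI T.hN n1 n2 (hbx _ ho) (hNx _ ho) ha'.le
    have e4 := mixId_LI T.hN n1' n2' (hbx _ ho') (hNx _ ho') ha'.ge
    have hxo := hx0 o
    have hxo' := hx0 o'
    have e5 : (T.N : L) ^ k * x o / ((T.N : L) ^ k * x o') = x o / x o' := by field_simp
    have e6 : (T.N : L) ^ k * x o' / ((T.N : L) ^ k * x o) = x o' / x o := by field_simp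
    rw [e5] at e3
    rw [e6] at e4
    let u : Lˣ := Units.mk0 (x o / x o') (div_ne_zero hxo hxo')
    have huU : u ∈ UL T.N L := ⟨e3, by
      rw [Units.val_inv_eq_inv_val]
      show (x o / x o')⁻¹ ∈ _
      rw [inv_div]; exact e4⟩
    have hnu : nmU E L u * κ o.1 = κ o'.1 := by
      apply Units.ext
      rw [Units.val_mul, nmU_coe]
      show Algebra.norm E (x o / x o') * _ = _
      have e8 : Algebra.norm E (x o / x o') * Algebra.norm E (x o') = Algebra.norm E (x o) := by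
        rw [← map_mul, div_mul_cancel₀ _ hxo']
      have e9 : (κ o.1 : E) * Algebra.norm E (x o) = κ o'.1 * Algebra.norm E (x o') := hξ
      apply mul_right_cancel₀ (hnx _ hxo')
      rw [← e9, ← e8]
      ring
    have hij : o'.1 = o.1 := h.inj _ _ ⟨u, huU, hnu⟩
    obtain ⟨i, o1⟩ := o
    obtain ⟨j, o2⟩ := o'
    simp only at hij
    subst hij
    congr 1
    have hnu1 : nmU E L u = 1 := by
      have h5 : nmU E L u * κ j = κ j := hnu
      exact mul_eq_right.mp h5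
    let g : T.H := ⟨u, T.mem_H.mpr ⟨hnu1, huU⟩⟩
    have hgu : ((g : Lˣ) : L) = x ⟨j, o1⟩ / x ⟨j, o2⟩ := rfl
    have hss : g • (rep o1).1 = (rep o2).1 := by
      apply Subtype.ext
      rw [T.smul_SS_val, ← T.bd_mk_gen (rep o1).1.1, ← T.bd_mk_gen (rep o2).1.1,
        ← QuotientGroup.mk_mul]
      apply mk_eq_mk_of_div
      · have : (((g : Lˣ) * T.bd_gen (rep o1).1.1 : Lˣ) : L) / (T.bd_gen (rep o2).1.1 : L) =
            b ⟨j, o1⟩ * x ⟨j, o1⟩ / (b ⟨j, o2⟩ * x ⟨j, o2⟩) := by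
          rw [Units.val_mul, hgu]
          show x ⟨j, o1⟩ / x ⟨j, o2⟩ * b ⟨j, o1⟩ / b ⟨j, o2⟩ = _
          field_simp
        rw [this]; exact e1
      · have : (T.bd_gen (rep o2).1.1 : L) / (((g : Lˣ) * T.bd_gen (rep o1).1.1 : Lˣ) : L) =
            b ⟨j, o2⟩ * x ⟨j, o2⟩ / (b ⟨j, o1⟩ * x ⟨j, o1⟩) := by
          rw [Units.val_mul, hgu]
          show b ⟨j, o2⟩ / (x ⟨j, o1⟩ / x ⟨j, o2⟩ * b ⟨j, o1⟩) = _
          field_simp
        rw [this]; exact e2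
    rw [← rep_eq T.H.subtype o1, ← rep_eq T.H.subtype o2]
    symm
    apply Quotient.sound
    refine MulAction.orbitRel_apply.mpr ⟨g, ?_⟩
    show g • rep o1 = rep o2
    apply Prod.ext
    · exact hss
    · apply Units.ext
      show ((g • (rep o1).2 : XL T.H.subtype)).val = (rep o2).2.val
      rw [XL.smul_val]
      show (((g : Lˣ) : L))⁻¹ * (rep o1).2.val = (rep o2).2.val
      rw [hgu]
      show (x ⟨j, o1⟩ / x ⟨j, o2⟩)⁻¹ * x ⟨j, o1⟩ = x ⟨j, o2⟩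
      field_simp
  · intro o ho
    have := g3 o ho
    rwa [isIntegral_algebraMap_iff (FaithfulSMul.algebraMap_injective E L)] at this
  · -- norm bound
    intro o ho
    have hint := g3 o ho
    let t : 𝓞 L := ⟨_, hint⟩
    have ht : t ∈ mixId T.N (b o * x o) ((T.N : L) ^ k * x o) := ⟨g1 o ho, g2 o ho⟩
    have hMne : (M : E) ≠ 0 := by exact_mod_cast hM.ne'
    have ht0 : t ≠ 0 := by
      intro h
      have h2 : (t : L) = 0 := by rw [h]; rfl
      have h3 : algebraMap E L ((M : E) * T.kξ κ c o) = 0 := h2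
      rw [map_eq_zero] at h3
      exact mul_ne_zero hMne (hξ0 o) h3
    have h2 := absNorm_mixId_le ht ht0
    refine h2.trans (le_of_eq ?_)
    have e0 : (t : L) = algebraMap E L (((M : ℚ) : E) * T.kξ κ c o) := by
      show algebraMap E L ((M : E) * T.kξ κ c o) = _
      congr 2
      exact (Rat.cast_natCast M).symm
    rw [e0, ← Algebra.norm_norm (S := E), Algebra.norm_algebraMap, T.q.two, mul_pow, map_mul]
    have e7 : Algebra.norm ℚ ((((M : ℚ) : E)) ^ 2) = ((M : ℚ) ^ finrank ℚ L) := by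
      rw [map_pow]
      have : Algebra.norm ℚ (((M : ℚ) : E)) = (M : ℚ) ^ finrank ℚ E := by
        have := Algebra.norm_algebraMap (S := E) (M : ℚ)
        rw [← this]
        simp
      rw [this, ← pow_mul]
      congr 1
      rw [← T.q.two, Module.finrank_mul_finrank]
    rw [e7, map_pow]
    unfold an
    push_cast
    rw [abs_mul, abs_pow, abs_pow, Nat.abs_cast]
  · intro o
    exact T.norm_Psi_le (hC2 o.1) _ _

/-- the product of the absolute values -/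
theorem prod_norm_eq_sqrt (ξ : E) :
    (∏ v : InfinitePlace E, ‖v.embedding ξ‖) = Real.sqrt (an ξ) := by
  rw [show an ξ = (∏ v : InfinitePlace E, ‖v.embedding ξ‖) ^ 2 from (prod_sq_eq ξ).symm]
  exact (Real.sqrt_sq (Finset.prod_nonneg fun v _ => norm_nonneg _)).symm

theorem cpow_mul_prod {r : ℝ} {ξ : E} (h0 : ξ ≠ 0) (hr : r = an ξ) :
    ((r : ℝ) : ℂ) ^ (-(1 / 2) : ℂ) * (∏ v : InfinitePlace E, (‖v.embedding ξ‖ : ℂ)) = 1 := by
  have hpos : 0 < an ξ := an_pos h0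
  have e1 : (∏ v : InfinitePlace E, (‖v.embedding ξ‖ : ℂ)) = ((Real.sqrt (an ξ) : ℝ) : ℂ) := by
    rw [← prod_norm_eq_sqrt]; push_cast; rfl
  rw [e1, hr]
  have e2 : ((an ξ : ℝ) : ℂ) ^ (-(1 / 2) : ℂ) = (((an ξ) ^ (-(1 / 2) : ℝ) : ℝ) : ℂ) := by
    rw [Complex.ofReal_cpow hpos.le]
    push_cast
    rfl
  rw [e2, ← Complex.ofReal_mul, Real.sqrt_eq_rpow, ← Real.rpow_add hpos]
  norm_num

/-- the theta function at `a(κ) x`, for `κ` a unit at `N` -/
theorem fPhi_aMat_of_nrm (Φ : L → ℂ) {κ : Eˣ} (hn : nrm T.N (κ : E) = an (κ : E)) (p : HF E) (c : Eˣ)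
    (s : E) :
    T.fPhi Φ (Sp.aMat κ • p) (κ * c) (κ * s) = ((nrm T.N (c : E) : ℝ) : ℂ) ^ (-(1 / 2) : ℂ) *
      ∑' o : Orb T.H.subtype (T.SS (κ * c)), T.Psi Φ (κ * s) (rep o).1 (rep o).2.val *
        bw p ((κ : E) * Algebra.norm E (rep o).2.val) := by
  unfold fPhi ser
  rw [Units.val_mul, nrm_mul T.hN κ.ne_zero c.ne_zero]
  have h1 : ((nrm T.N (κ : E) * nrm T.N (c : E) : ℝ) : ℂ) ^ (-(1 / 2) : ℂ) =
      ((nrm T.N (κ : E) : ℝ) : ℂ) ^ (-(1 / 2) : ℂ) *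
        ((nrm T.N (c : E) : ℝ) : ℂ) ^ (-(1 / 2) : ℂ) := by
    push_cast
    exact Complex.mul_cpow_ofReal_nonneg (nrm_pos T.hN κ.ne_zero).le
      (nrm_pos T.hN c.ne_zero).le _
  rw [h1, mul_comm (((nrm T.N (κ : E) : ℝ) : ℂ) ^ (-(1 / 2) : ℂ)), mul_assoc]
  congr 1
  rw [← tsum_mul_left]
  apply tsum_congr
  intro o
  rw [bw_aMat]
  have h2 := cpow_mul_prod κ.ne_zero hn
  calc ((nrm T.N (κ : E) : ℝ) : ℂ) ^ (-(1 / 2) : ℂ) *
        (T.Psi Φ (κ * s) (rep o).1 (rep o).2.val *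
        ((∏ v : InfinitePlace E, (‖v.embedding (κ : E)‖ : ℂ)) *
          bw p ((κ : E) * Algebra.norm E (rep o).2.val))) =
      (((nrm T.N (κ : E) : ℝ) : ℂ) ^ (-(1 / 2) : ℂ) *
        (∏ v : InfinitePlace E, (‖v.embedding (κ : E)‖ : ℂ))) *
        (T.Psi Φ (κ * s) (rep o).1 (rep o).2.val *
          bw p ((κ : E) * Algebra.norm E (rep o).2.val)) := by ring
    _ = _ := by rw [h2, one_mul]

/-- the sum over `K` of theta functions -/
noncomputable def GK (κ : K → Eˣ) (Φ : K → L → ℂ) (p : HF E) (c : Eˣ) (s : E) : ℂ :=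
  ∑' i, T.fPhi (Φ i) (Sp.aMat (κ i) • p) (κ i * c) (κ i * s)

/-- **Absolute convergence and Whittaker expansion of sums of theta functions.** -/
theorem GK_eq (h : T.KF κ Φ) (hn : ∀ u : Eˣ, u ∈ UL T.N E → nrm T.N (u : E) = an (u : E))
    (p : HF E) (c : Eˣ) (s : E) :
    Summable (fun i => T.fPhi (Φ i) (Sp.aMat (κ i) • p) (κ i * c) (κ i * s)) ∧
      T.GK κ Φ p c s = ((nrm T.N (c : E) : ℝ) : ℂ) ^ (-(1 / 2) : ℂ) *
        wser (famc (T.kξ κ c) (T.ka κ Φ c s)) p := by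
  obtain ⟨𝔞, M, C1, C2, hM, hC1, h0, h1, h2, h3, h4⟩ := T.exists_KF_data h c s
  have hsum := summable_fam hM hC1 h0 h1 h2 h3 h4 p
  have hs := hsum.of_norm
  have e1 : ∀ i, T.fPhi (Φ i) (Sp.aMat (κ i) • p) (κ i * c) (κ i * s) =
      ((nrm T.N (c : E) : ℝ) : ℂ) ^ (-(1 / 2) : ℂ) *
      ∑' o : Orb T.H.subtype (T.SS (κ i * c)), T.ka κ Φ c s ⟨i, o⟩ * bw p (T.kξ κ c ⟨i, o⟩) :=
    fun i => T.fPhi_aMat_of_nrm (Φ i) (hn _ (h.unit i)) p c s
  constructor
  · simp only [e1]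
    exact hs.sigma.mul_left _
  · unfold GK
    simp only [e1]
    rw [tsum_mul_left, ← fam_eq hsum, hs.tsum_sigma]

/-- **Sums of theta functions are Whittaker series.** -/
theorem wsf_GK (h : T.KF κ Φ) (hn : ∀ u : Eˣ, u ∈ UL T.N E → nrm T.N (u : E) = an (u : E))
    (c : Eˣ) (s : E) : WSF fun p : HF E => T.GK κ Φ p c s := by
  obtain ⟨𝔞, M, C1, C2, hM, hC1, h0, h1, h2, h3, h4⟩ := T.exists_KF_data h c s
  have hW : IsW (famc (T.kξ κ c) (T.ka κ Φ c s)) := isW_fam hM hC1 h0 h1 h2 h3 h4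
  have h5 : WSF fun p : HF E => wser (famc (T.kξ κ c) (T.ka κ Φ c s)) p := ⟨_, hW, fun p => rfl⟩
  exact (h5.const_mul (((nrm T.N (c : E) : ℝ) : ℂ) ^ (-(1 / 2) : ℂ))).of_eq
    fun p => (T.GK_eq h hn p c s).2

end T4D

end Fermat.Agent.LT.T4
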