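import Fermat.Agent.LT.T4.HkE
import Fermat.Agent.LT.T4.Reg4
import Fermat.Agent.LT.T4.WK

set_option autoImplicit false
set_option linter.unusedSectionVars false

/-!
# The automorphic form on `HF E × D U` attached to the theta form
-/

namespace Fermat.Agent.LT.T4

open Matrix Filter NumberField
open Fermat.Agent.LT.Glob
open Fermat.Agent.LT.Glob.LocFam
open Fermat.Agent.LT.Fou Fermat.Agent.LT.Theta
open Fermat.Agent.LT.Ty
open scoped MatrixGroups

universe w u i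

section I2

variable {E L : Type*} [Field E] [NumberField E] [Field L] [NumberField L] [Algebra E L]
  (T : T4D E L) [IsTotallyComplex E]

/-- **(I2) in coordinates** -/
theorem T4D.f_aMat {n : ℕ} (hn : 1 ≤ n) {a : Eˣ} (ha : a ∈ T.A1 n) (p : HF E) (c : Eˣ) (s : E) :
    T.f n (Sp.aMat a • p) (a * c) ((a : E) * s) = T.f n p c s := by
  unfold T4D.f
  rw [Units.val_mul, nrm_mul T.hN a.ne_zero c.ne_zero]
  have h1 : ((nrm T.N (a : E) * nrm T.N (c : E) : ℝ) : ℂ) ^ (-(1 / 2) : ℂ) =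
      ((nrm T.N (c : E) : ℝ) : ℂ) ^ (-(1 / 2) : ℂ) *
        ((nrm T.N (a : E) : ℝ) : ℂ) ^ (-(1 / 2) : ℂ) := by
    push_cast
    rw [Complex.mul_cpow_ofReal_nonneg (nrm_pos T.hN a.ne_zero).le (nrm_pos T.hN c.ne_zero).le,
      mul_comm]
  have h2 := cpow_mul_prod a.ne_zero (nrm_eq_an T.hN (T.A1_UL hn ha))
  rw [h1, mul_assoc]
  congr 1
  let e : T.A1 n ≃ T.A1 n :=
    { toFun := fun ξ => ⟨ξ.1 * a, (T.G1 n hn).mul_mem ξ.2 ha⟩
      invFun := fun ξ => ⟨ξ.1 * a⁻¹, (T.G1 n hn).mul_mem ξ.2 ((T.G1 n hn).inv_mem ha)⟩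
      left_inv := fun ξ => Subtype.ext (mul_inv_cancel_right _ _)
      right_inv := fun ξ => Subtype.ext (inv_mul_cancel_right _ _) }
  rw [← e.tsum_eq (fun ξ : T.A1 n => T.A ((ξ : Eˣ) * c) * T.ψ (((ξ : Eˣ) : E) * s) *
    bw p ((ξ : Eˣ) : E)), ← tsum_mul_left]
  apply tsum_congr
  intro ξ
  have e1 : (ξ : Eˣ) * (a * c) = ((e ξ : T.A1 n) : Eˣ) * c := (mul_assoc _ _ _).symm
  have e2 : ((ξ : Eˣ) : E) * ((a : E) * s) = (((e ξ : T.A1 n) : Eˣ) : E) * s := by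
    show _ = (((ξ : Eˣ) * a : Eˣ) : E) * s
    rw [Units.val_mul]; ring
  have e3 : (a : E) * ((ξ : Eˣ) : E) = (((e ξ : T.A1 n) : Eˣ) : E) := by
    show _ = (((ξ : Eˣ) * a : Eˣ) : E)
    rw [Units.val_mul]; ring
  rw [e1, e2, bw_aMat, e3]
  linear_combination (T.A (((e ξ : T.A1 n) : Eˣ) * c) * T.ψ ((((e ξ : T.A1 n) : Eˣ) : E) * s) *
    bw p (((e ξ : T.A1 n) : Eˣ) : E)) * h2

variable {Ω : Type*} [MulAction (GL (Fin 2) E) Ω] (om : Om T.N E Ω)

/-- **(I2)** -/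
theorem T4D.fn_I2 {n : ℕ} (hn : 1 ≤ n) {a : Eˣ} (ha : a ∈ T.A1 n) (x : HF E × Ω) :
    om.fn (T.f n) (Sp.aMat a • x) = om.fn (T.f n) x := by
  have := om.fn_aMat (T.cInv_f n) (T.cInv_f n) a 1 (fun p c s => by
    rw [one_mul]; exact T.f_aMat hn ha p c s) x
  rwa [one_mul] at this

end I2

variable {E : Type u} {L' : Type*} [Field E] [NumberField E] [Field L'] [NumberField L']
  [Algebra E L'] (T : T4D E L') [IsTotallyComplex E] {ι : Type i} {L : LocFam.{w} E ι}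
  {U : L.Level} {B : Finset ι}

/-- the theta form away from the bad places -/
noncomputable def tf (hA : Adic L B T.N) (hB : ClassOne L B) (hU : ∀ v ∉ B, U.U v = PO (L.O v))
    (n : ℕ) : HF E × OmB U B → ℂ := (omB hA hB hU).fn (T.f n)

/-- **The laws.** -/
theorem laws_tf {P : Par E} (hPN : P.N = T.N) (hj : P.j ≠ 0) (hA : Adic L B T.N)
    (hB : ClassOne L B) (hU : ∀ v ∉ B, U.U v = PO (L.O v))
    (I3 : ∀ c : E, (∃ y ∈ LI T.N E, c = (T.N : E) ^ (4 * P.j + P.δ) * y) → ∀ x,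
      tf T hA hB hU (2 * P.j) (nLow c • x) = tf T hA hB hU (2 * P.j) x) (hN : 0 < P.N) :
    Laws P hN (tf T hA hB hU (2 * P.j)) := by
  obtain ⟨N, j, δ, hN', hdual⟩ := P
  dsimp only at hPN hj I3 hN
  subst hPN
  exact ⟨fun b hb x => T.fn_I1 (omB hA hB hU) (2 * j) hb x,
    fun a ha x => T.fn_I2 (omB hA hB hU) (n := 2 * j) (by omega) ha x, I3⟩

/-- the level structure at the bad places -/
theorem levChar_le {P : Par E} {m : ℕ} (hm : 3 * P.j + P.δ ≤ m)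
    (hU : ∀ v ∈ B, U.U v ≤ PK (L.O v) (P.N ^ m)) :
    LevChar U B (fun v => P.J L v) (fun v g => (P.psi L v g)⁻¹) where
  le v hv := (hU v hv).trans (Par.PK_le_J hm)
  triv v hv g hg := by rw [Par.psi_PK hm (hU v hv hg), inv_one]
  mul v hv g hg h hh := by rw [Par.psi_mul hg hh, mul_inv]

variable {P : Par E} {n : ℕ} {f : HF E × OmB U B → ℂ}

/-- the form is of the given type at the bad places -/
theorem form_eqvAt_le {hN : 0 < P.N} (hf : Laws P hN f) (hA : Adic L B P.N) (hB : B.Nonempty)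
    (hj : P.j ≠ 0) {m : ℕ} (hm : 3 * P.j + P.δ ≤ m)
    (hU : ∀ v ∈ B, U.U v ≤ PK (L.O v) (P.N ^ m)) {v : ι} (hv : v ∈ B) :
    Fou.EqvAt v (P.J L v) (P.psi L v) (form P f) := by
  have := autExt_eqvAt hA.badPlaces (levChar_le (B := B) (P := P) hm hU) (hf.awayEqv hA hB hj) hv
  intro p d g j hj hd
  have h1 := this p d g j hj hd
  simp only [inv_inv] at h1
  exact h1

/-- **The form is automorphic.** -/
theorem form_autForm {hN : 0 < P.N} (hf : Laws P hN f) (hA : Adic L B P.N) (hB : B.Nonempty)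
    (hj : P.j ≠ 0) {m : ℕ} (hm : 3 * P.j + P.δ ≤ m)
    (hU : ∀ v ∈ B, U.U v ≤ PK (L.O v) (P.N ^ m))
    (hW : ∀ (γ : GL (Fin 2) E) (ω : OmB U B), WSF fun p : HF E => f (γ • (p, ω))) :
    AutForm (form P f) := by
  have hc := levChar_le (B := B) (P := P) hm hU
  have he := hf.awayEqv hA hB hj
  refine autForm_of_WSF (fun g p d => autExt_smul hA.badPlaces hc he g (p, d)) fun d => ?_
  obtain ⟨γ, hγ⟩ := exists_autExt_eq hA.badPlaces hc he d
  refine (hW (Sp.aMat P.a0 * γ) (away B d)).of_eq fun p => ?_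
  show autExt B _ (p, d) = _
  rw [hγ, mul_smul]

/-- **Hecke eigenvalues of the form** -/
theorem form_heckeAt {hN : 0 < P.N} (hf : Laws P hN f) (hA : Adic L B P.N) (hB : B.Nonempty)
    (hj : P.j ≠ 0) {m : ℕ} (hm : 3 * P.j + P.δ ≤ m)
    (hU : ∀ v ∈ B, U.U v ≤ PK (L.O v) (P.N ^ m)) {v : ι} (hv : v ∉ B) {H : HData L v} {lam : ℂ}
    (h : HeckeB H lam f) : HeckeAt H lam (form P f) :=
  (h.smul (Sp.aMat P.a0)).autExt hv hA.badPlaces (levChar_le (B := B) (P := P) hm hU)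
    (hf.awayEqv hA hB hj)

theorem a0_mem_US {P : Par E} : P.a0 ∈ US P.N E := by
  have hN : 0 < P.N := Nat.pos_of_ne_zero P.hN
  constructor
  · have h : (P.a0 : E) = ((P.N : E)⁻¹) ^ (3 * P.j) := by
      rw [inv_pow]
      exact eq_inv_of_mul_eq_one_left P.a0_mul
    rw [h]
    exact (SI P.N E).pow_mem (inv_mem_SI hN) _
  · have h : ((P.a0⁻¹ : Eˣ) : E) = (P.N : E) ^ (3 * P.j) := by
      rw [Units.val_inv_eq_inv_val, inv_eq_iff_eq_inv]
      exact eq_inv_of_mul_eq_one_left P.a0_mul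
    rw [h]
    exact (SI P.N E).pow_mem (SI_of_isIntegral (isIntegral_natCast' P.N)) _

/-- the values at the base point -/
theorem form_base (hPN : P.N = T.N) (hA : Adic L B T.N) (hB : ClassOne L B)
    (hU : ∀ v ∉ B, U.U v = PO (L.O v)) {hN : 0 < P.N} (hf : Laws P hN (tf T hA hB hU n))
    (hBn : B.Nonempty) (hj : P.j ≠ 0) {m : ℕ} (hm : 3 * P.j + P.δ ≤ m)
    (hU' : ∀ v ∈ B, U.U v ≤ PK (L.O v) (P.N ^ m)) (p : HF E) :
    form P (tf T hA hB hU n) (p, D.base U) = T.f n (Sp.aMat P.a0 • p) 1 0 := by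
  have hA' : Adic L B P.N := by rw [hPN]; exact hA
  have hc := levChar_le (B := B) (P := P) hm hU'
  have he := hf.awayEqv hA' hBn hj
  show autExt B _ (p, D.base U) = _
  rw [autExt_base hc he (fun v _ => rfl)]
  have e : Sp.aMat P.a0 • OmB.base U B = OmB.base U B := by
    rw [OmB.smul_base_iff_PO hU]
    intro v hv
    have h0 : Sp.aMat P.a0 = nMat 0 * Sp.aMat P.a0 := by
      have : nMat (0 : E) = 1 := by
        apply Units.ext
        rw [nMat_coe]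
        ext i j
        fin_cases i <;> fin_cases j <;> simp
      rw [this, one_mul]
    rw [h0, emb_nMat_aMat, map_zero]
    refine mk_mem_PO (tri_mem ⟨?_, ?_⟩ (one_mem _) (L.O v).zero_mem)
    · exact hA'.mem_SI_iff.mp a0_mem_US.1 v hv
    · have := hA'.mem_SI_iff.mp a0_mem_US.2 v hv
      rw [loc_un_inv]
      exact this
  show tf T hA hB hU n (Sp.aMat P.a0 • p, Sp.aMat P.a0 • away B (D.base U)) = _
  rw [show away B (D.base U) = OmB.base U B from rfl, e]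
  exact (omB hA hB hU).fn_base (T.cInv_f n) _

/-- **The first Fourier coefficient.** -/
theorem form_cof (hPN : P.N = T.N) (hA : Adic L B T.N) (hB : ClassOne L B)
    (hU : ∀ v ∉ B, U.U v = PO (L.O v)) {hN : 0 < P.N} (hf : Laws P hN (tf T hA hB hU n))
    (hBn : B.Nonempty) (hj : P.j ≠ 0) {m : ℕ} (hm : 3 * P.j + P.δ ≤ m)
    (hU' : ∀ v ∈ B, U.U v ≤ PK (L.O v) (P.N ^ m)) (p : HF E) :
    cof (form P (tf T hA hB hU n)) (P.a0 : E) p (D.base U) ≠ 0 := by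
  have hfun : ∀ q : HF E, form P (tf T hA hB hU n) (q, D.base U) =
      ((nrm T.N ((1 : Eˣ) : E) : ℝ) : ℂ) ^ (-(1 / 2) : ℂ) *
        wser (fun ξ => (∏ v : InfinitePlace E, (‖v.embedding (P.a0 : E)‖ : ℂ)) *
          T.Af n 1 0 (((P.a0⁻¹ : Eˣ) : E) * ξ)) q := by
    intro q
    rw [form_base T hPN hA hB hU hf hBn hj hm hU' q, T.f_eq, wser_aMat]
  have hW : IsW (fun ξ => (∏ v : InfinitePlace E, (‖v.embedding (P.a0 : E)‖ : ℂ)) *
      T.Af n 1 0 (((P.a0⁻¹ : Eˣ) : E) * ξ)) :=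
    ((T.isW_Af n 1 0).comp_mul (P.a0⁻¹).ne_zero).const_mul _
  set K : ℂ := ((nrm T.N ((1 : Eˣ) : E) : ℝ) : ℂ) ^ (-(1 / 2) : ℂ) with hK
  have hK0 : K ≠ 0 := by
    rw [hK, Ne, Complex.cpow_eq_zero_iff]
    rintro ⟨h, -⟩
    exact (nrm_pos T.hN (1 : Eˣ).ne_zero).ne' (by exact_mod_cast h)
  have hc : cof (form P (tf T hA hB hU n)) (P.a0 : E) p (D.base U) =
      K * ((∏ v : InfinitePlace E, (‖v.embedding (P.a0 : E)‖ : ℂ)) *
        T.Af n 1 0 (((P.a0⁻¹ : Eˣ) : E) * (P.a0 : E)) * bw p (P.a0 : E)) := by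
    unfold cof
    simp only [hfun]
    have h1 := (hW.const_mul K).fc p (P.a0 : E)
    rw [mul_assoc] at h1
    rw [← h1]
    congr 1
    funext v
    exact (wser_const_mul _ K _).symm
  rw [hc, Units.inv_mul]
  have h1 : T.Af n 1 0 (1 : E) = 1 := by
    have h2 := T.Af_coe n 1 0 (1 : Eˣ) ⟨0, (LI T.N E).zero_mem, by simp⟩
    rw [Units.val_one] at h2
    rw [h2, one_mul, T.A_one, mul_zero, AddChar.map_zero_eq_one, mul_one]
  rw [h1, mul_one]
  refine mul_ne_zero hK0 (mul_ne_zero (Finset.prod_ne_zero_iff.mpr fun v _ => ?_)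
    (bw_ne_zero P.a0.ne_zero p))
  rw [Ne, Complex.ofReal_eq_zero, norm_eq_zero, map_eq_zero]
  exact P.a0.ne_zero

end Fermat.Agent.LT.T4
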