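import Mathlib

set_option autoImplicit false

/-! # Sums of periodic functions over residue rings -/

namespace Fermat.Agent.LT.T4

open Ideal

section qs

variable {R : Type*} [CommRing R]

/-- `f` is periodic modulo `l` -/
def PerM (l : R) (f : R → ℂ) : Prop := ∀ x y, f (x + l * y) = f x

/-- the sum of a periodic function over `R / l R` -/
noncomputable def qs (l : R) (f : R → ℂ) : ℂ := ∑ᶠ x : R ⧸ span {l}, f x.out

theorem PerM.eq_of_mk {l : R} {f : R → ℂ} (hf : PerM l f) {x y : R}
    (h : (Ideal.Quotient.mk (span {l}) x) = Ideal.Quotient.mk (span {l}) y) : f x = f y := by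
  rw [Ideal.Quotient.eq, mem_span_singleton] at h
  obtain ⟨z, hz⟩ := h
  have : x = y + l * z := by rw [← hz]; ring
  rw [this, hf]

theorem mk_out (l : R) (x : R ⧸ span {l}) : Ideal.Quotient.mk (span {l}) x.out = x :=
  Quotient.out_eq x

theorem exists_out (l : R) (x : R) :
    ∃ t, x = (Ideal.Quotient.mk (span {l}) x).out + l * t := by
  have := mk_out l (Ideal.Quotient.mk (span {l}) x)
  rw [Ideal.Quotient.eq, mem_span_singleton] at this
  obtain ⟨z, hz⟩ := this
  exact ⟨-z, by rw [mul_neg, ← hz]; ring⟩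

theorem mk_eq_mk {l x y : R} : Ideal.Quotient.mk (span {l}) x = Ideal.Quotient.mk (span {l}) y ↔
    l ∣ x - y := by
  rw [Ideal.Quotient.eq, mem_span_singleton]

/-- the master lemma: a system of representatives computes the sum -/
theorem qs_eq_sum {l : R} {f : R → ℂ} (hf : PerM l f) {ι : Type*} [Fintype ι] (φ : ι → R)
    (hφ : Function.Bijective (fun i => Ideal.Quotient.mk (span {l}) (φ i))) :
    qs l f = ∑ i, f (φ i) := by
  unfold qs
  rw [← finsum_eq_sum_of_fintype]
  symm
  refine finsum_eq_of_bijective _ hφ fun i => ?_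
  exact hf.eq_of_mk (mk_out l _).symm

theorem qs_congr {l : R} {f g : R → ℂ} (h : ∀ x, f x = g x) : qs l f = qs l g := by
  unfold qs
  exact finsum_congr fun x => h _

theorem qs_eq_univ {l : R} [Fintype (R ⧸ span {l})] (f : R → ℂ) :
    qs l f = ∑ x : R ⧸ span {l}, f x.out := by
  unfold qs
  rw [finsum_eq_sum_of_fintype]

theorem qs_mul_left {l : R} (f : R → ℂ) (c : ℂ) (h : Finite (R ⧸ span {l})) :
    qs l (fun x => c * f x) = c * qs l f := by
  have := Fintype.ofFinite (R ⧸ span {l})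
  rw [qs_eq_univ, qs_eq_univ, Finset.mul_sum]

theorem qs_mul_right {l : R} (f : R → ℂ) (c : ℂ) (h : Finite (R ⧸ span {l})) :
    qs l (fun x => f x * c) = qs l f * c := by
  have := Fintype.ofFinite (R ⧸ span {l})
  rw [qs_eq_univ, qs_eq_univ, Finset.sum_mul]

theorem qs_const {l : R} (c : ℂ) (h : Finite (R ⧸ span {l})) :
    qs l (fun _ => c) = Nat.card (R ⧸ span {l}) * c := by
  have := Fintype.ofFinite (R ⧸ span {l})
  rw [qs_eq_univ, Nat.card_eq_fintype_card]
  simp

/-- translation -/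
theorem qs_add {l : R} {f : R → ℂ} (hf : PerM l f) (h : Finite (R ⧸ span {l})) (c : R) :
    qs l (fun x => f (x + c)) = qs l f := by
  have := Fintype.ofFinite (R ⧸ span {l})
  rw [qs_eq_univ, qs_eq_sum hf (fun x : R ⧸ span {l} => x.out + c)]
  refine ⟨fun x y hxy => ?_, fun x => ⟨x - Ideal.Quotient.mk _ c, ?_⟩⟩
  · simp only [map_add, mk_out] at hxy
    exact add_right_cancel hxy
  · simp only [map_add, mk_out]; ring

/-- scaling by a unit modulo `l` -/
theorem qs_smul {l : R} {f : R → ℂ} (hf : PerM l f) (h : Finite (R ⧸ span {l})) {u : R}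
    (hu : IsCoprime u l) : qs l (fun x => f (u * x)) = qs l f := by
  have := Fintype.ofFinite (R ⧸ span {l})
  obtain ⟨a, b, hab⟩ := hu
  have hinv : Ideal.Quotient.mk (span {l}) a * Ideal.Quotient.mk (span {l}) u = 1 := by
    rw [← map_mul, ← map_one (Ideal.Quotient.mk (span {l})), mk_eq_mk]
    exact ⟨-b, by rw [← hab]; ring⟩
  rw [qs_eq_univ, qs_eq_sum hf (fun x : R ⧸ span {l} => u * x.out)]
  refine ⟨fun x y hxy => ?_, fun x => ⟨Ideal.Quotient.mk _ a * x, ?_⟩⟩
  · simp only [map_mul, mk_out] at hxy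
    calc x = (Ideal.Quotient.mk (span {l}) a * Ideal.Quotient.mk (span {l}) u) * x := by
          rw [hinv, one_mul]
      _ = (Ideal.Quotient.mk (span {l}) a * Ideal.Quotient.mk (span {l}) u) * y := by
          rw [mul_assoc, hxy, mul_assoc]
      _ = y := by rw [hinv, one_mul]
  · simp only [map_mul, mk_out]
    rw [← mul_assoc, mul_comm (Ideal.Quotient.mk (span {l}) u), hinv, one_mul]

theorem finite_of_mul_left {l l' : R} (h : Finite (R ⧸ span {l * l'})) :
    Finite (R ⧸ span {l}) := by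
  refine Finite.of_surjective (Ideal.Quotient.factor (S := span {l * l'}) (T := span {l}) ?_)
    (Ideal.Quotient.factor_surjective _)
  rw [span_singleton_le_span_singleton]
  exact Dvd.intro _ rfl

theorem finite_of_mul_right {l l' : R} (h : Finite (R ⧸ span {l * l'})) :
    Finite (R ⧸ span {l'}) := by
  rw [mul_comm] at h
  exact finite_of_mul_left h

/-- the tower formula -/
theorem qs_tower [IsDomain R] {l l' : R} (hl : l ≠ 0) {f : R → ℂ} (hf : PerM (l * l') f)
    (h : Finite (R ⧸ span {l})) (h' : Finite (R ⧸ span {l'})) :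
    qs (l * l') f = qs l (fun x => qs l' (fun y => f (x + l * y))) := by
  have := Fintype.ofFinite (R ⧸ span {l})
  have := Fintype.ofFinite (R ⧸ span {l'})
  simp only [qs_eq_univ (l := l), qs_eq_univ (l := l')]
  rw [qs_eq_sum hf (fun p : (R ⧸ span {l}) × (R ⧸ span {l'}) => p.1.out + l * p.2.out),
    Fintype.sum_prod_type]
  refine ⟨fun x y hxy => ?_, fun x => ?_⟩
  · have h1 := mk_eq_mk.mp hxy
    have h2 : l ∣ x.1.out - y.1.out := by
      obtain ⟨z, hz⟩ := h1
      exact ⟨l' * z - x.2.out + y.2.out, by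
        have : x.1.out - y.1.out = l * l' * z - l * x.2.out + l * y.2.out := by
          rw [← hz]; ring
        rw [this]; ring⟩
    have e1 : x.1 = y.1 := by
      have := mk_eq_mk.mpr h2
      rwa [mk_out, mk_out] at this
    have h3 : l' ∣ x.2.out - y.2.out := by
      obtain ⟨z, hz⟩ := h1
      rw [e1] at hz
      exact ⟨z, mul_left_cancel₀ hl (by rw [← mul_assoc, ← hz]; ring)⟩
    have e2 : x.2 = y.2 := by
      have := mk_eq_mk.mpr h3
      rwa [mk_out, mk_out] at this
    exact Prod.ext e1 e2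
  · obtain ⟨r, hr⟩ := Ideal.Quotient.mk_surjective x
    obtain ⟨t, ht⟩ := exists_out l r
    obtain ⟨s, hs⟩ := exists_out l' t
    refine ⟨(Ideal.Quotient.mk _ r, Ideal.Quotient.mk _ t), ?_⟩
    rw [← hr]
    apply mk_eq_mk.mpr
    refine ⟨-s, ?_⟩
    simp only
    linear_combination (-1 : R) * ht - l * hs

/-- the Chinese remainder formula -/
theorem qs_crt {l l' : R} (hc : IsCoprime l l') {f : R → ℂ} (hf : PerM (l * l') f)
    (h : Finite (R ⧸ span {l})) (h' : Finite (R ⧸ span {l'})) :
    qs (l * l') f = qs l (fun x => qs l' (fun y => f (l' * x + l * y))) := by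
  have := Fintype.ofFinite (R ⧸ span {l})
  have := Fintype.ofFinite (R ⧸ span {l'})
  simp only [qs_eq_univ (l := l), qs_eq_univ (l := l')]
  rw [qs_eq_sum hf (fun p : (R ⧸ span {l}) × (R ⧸ span {l'}) => l' * p.1.out + l * p.2.out),
    Fintype.sum_prod_type]
  refine ⟨fun x y hxy => ?_, fun x => ?_⟩
  · have h1 := mk_eq_mk.mp hxy
    obtain ⟨z, hz⟩ := h1
    have h2 : l ∣ x.1.out - y.1.out := by
      apply hc.dvd_of_dvd_mul_left
      exact ⟨l' * z - x.2.out + y.2.out, by
        linear_combination hz⟩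
    have h3 : l' ∣ x.2.out - y.2.out := by
      apply hc.symm.dvd_of_dvd_mul_left
      exact ⟨l * z - x.1.out + y.1.out, by
        linear_combination hz⟩
    have e1 : x.1 = y.1 := by
      have := mk_eq_mk.mpr h2
      rwa [mk_out, mk_out] at this
    have e2 : x.2 = y.2 := by
      have := mk_eq_mk.mpr h3
      rwa [mk_out, mk_out] at this
    exact Prod.ext e1 e2
  · obtain ⟨r, hr⟩ := Ideal.Quotient.mk_surjective x
    obtain ⟨a, b, hab⟩ := hc
    obtain ⟨t, ht⟩ := exists_out l (b * r)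
    obtain ⟨s, hs⟩ := exists_out l' (a * r)
    refine ⟨(Ideal.Quotient.mk _ (b * r), Ideal.Quotient.mk _ (a * r)), ?_⟩
    rw [← hr]
    apply mk_eq_mk.mpr
    refine ⟨- t - s, ?_⟩
    simp only
    linear_combination (-l') * ht - l * hs + r * hab

theorem finite_mul {l l' : R} (h : Finite (R ⧸ span {l}))
    (h' : Finite (R ⧸ span {l'})) : Finite (R ⧸ span {l * l'}) := by
  refine Finite.of_surjective (fun p : (R ⧸ span {l}) × (R ⧸ span {l'}) =>
    Ideal.Quotient.mk (span {l * l'}) (p.1.out + l * p.2.out)) fun x => ?_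
  obtain ⟨r, hr⟩ := Ideal.Quotient.mk_surjective x
  obtain ⟨t, ht⟩ := exists_out l r
  obtain ⟨s, hs⟩ := exists_out l' t
  refine ⟨(Ideal.Quotient.mk _ r, Ideal.Quotient.mk _ t), ?_⟩
  rw [← hr]
  apply mk_eq_mk.mpr
  refine ⟨-s, ?_⟩
  simp only
  linear_combination (-1 : R) * ht - l * hs

theorem card_mul [IsDomain R] {l l' : R} (hl : l ≠ 0) (h : Finite (R ⧸ span {l}))
    (h' : Finite (R ⧸ span {l'})) :
    (Nat.card (R ⧸ span {l * l'}) : ℂ) = Nat.card (R ⧸ span {l}) * Nat.card (R ⧸ span {l'}) := by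
  have hf : PerM (l * l') (fun _ : R => (1 : ℂ)) := fun _ _ => rfl
  have hF : Finite (R ⧸ span {l * l'}) := finite_mul h h'
  have h1 := qs_tower hl hf h h'
  rw [qs_const _ hF] at h1
  simp only [qs_const _ h', qs_const _ h] at h1
  rw [mul_one, mul_one] at h1
  exact h1

theorem qs_supp {l : R} (h : Finite (R ⧸ span {l})) {f : R → ℂ} (hf : PerM l f)
    (h0 : ∀ x, ¬ l ∣ x → f x = 0) : qs l f = f 0 := by
  have := Fintype.ofFinite (R ⧸ span {l})
  rw [qs_eq_univ, Finset.sum_eq_single (0 : R ⧸ span {l})]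
  · apply hf.eq_of_mk
    rw [mk_out, map_zero]
  · intro b _ hb
    apply h0
    intro hd
    apply hb
    rw [← mk_out l b]
    have : l ∣ b.out - 0 := by rwa [sub_zero]
    rw [mk_eq_mk.mpr this, map_zero]
  · intro h
    exact absurd (Finset.mem_univ _) h

end qs

end Fermat.Agent.LT.T4
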