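import Fermat.Agent.LT.T4.Char
import Fermat.Agent.LT.T4.QSum
import Fermat.Agent.LT.Theta.SB

set_option autoImplicit false

/-! # The mean of a product of a function at `N` and a function away from `N` -/

namespace Fermat.Agent.LT.T4

open Fermat.Agent.LT.Theta Ideal

variable {N : ℕ} {L : Type*} [Field L] [NumberField L]

/-- Schwartz–Bruhat functions at the primes dividing `N` -/
def BSch (N k : ℕ) (Φ : L → ℂ) : Prop :=
  (∀ x y, y ∈ LI N L → Φ (x + (N : L) ^ k * y) = Φ x) ∧ ∀ x, Φ x ≠ 0 → (N : L) ^ k * x ∈ LI N L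

/-- functions supported on `a 𝓞[1/N]` and periodic modulo `a l 𝓞[1/N]` -/
def ASch (N : ℕ) (a l : L) (F : L → ℂ) : Prop :=
  (∀ x y, y ∈ SI N L → F (x + a * l * y) = F x) ∧ ∀ x, F x ≠ 0 → x / a ∈ SI N L

theorem SB_mul (hN : 0 < N) {k : ℕ} {Φ F : L → ℂ} {a l : L} (ha : a ≠ 0) (hl : l ≠ 0)
    (hΦ : BSch N k Φ) (hF : ASch N a l F) : SB (fun x => Φ x * F x) := by
  obtain ⟨m, hm, hma⟩ := exists_nat_integral a
  obtain ⟨m', hm', hma'⟩ := exists_nat_integral ((a * l)⁻¹)
  have hN' : (N : L) ≠ 0 := by exact_mod_cast hN.ne'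
  refine ⟨m' * (N ^ k * m), by positivity, fun x hx => ?_, fun x y hy => ?_⟩
  · have h1 := hΦ.2 x (left_ne_zero_of_mul hx)
    have h2 := hF.2 x (right_ne_zero_of_mul hx)
    have h3 : IsIntegral ℤ (((N ^ k * m : ℕ) : L) * x) := by
      apply isIntegral_of_SI_LI (N := N)
      · have : ((N ^ k * m : ℕ) : L) * x = (N : L) ^ k * (m * a) * (x / a) := by
          push_cast; field_simp
        rw [this]
        exact (SI N L).mul_mem ((SI N L).mul_mem (SI_of_isIntegral
          ((isIntegral_natCast' N).pow k)) (SI_of_isIntegral hma)) h2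
      · have : ((N ^ k * m : ℕ) : L) * x = m * ((N : L) ^ k * x) := by push_cast; ring
        rw [this]
        exact (LI N L).mul_mem (LI_of_isIntegral (isIntegral_natCast' m)) h1
    have : ((m' * (N ^ k * m) : ℕ) : L) * x = m' * (((N ^ k * m : ℕ) : L) * x) := by
      push_cast; ring
    rw [this]
    exact (isIntegral_natCast' m').mul h3
  · have e1 : x + ((m' * (N ^ k * m) : ℕ) : L) * y = x + (N : L) ^ k * (m' * m * y) := by
      push_cast; ring
    have e2 : x + ((m' * (N ^ k * m) : ℕ) : L) * y =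
        x + a * l * ((m' * (a * l)⁻¹) * ((N : L) ^ k * m * y)) := by
      push_cast; field_simp
    have h1 : Φ (x + ((m' * (N ^ k * m) : ℕ) : L) * y) = Φ x := by
      rw [e1]
      apply hΦ.1
      exact LI_of_isIntegral (((isIntegral_natCast' m').mul (isIntegral_natCast' m)).mul hy)
    have h2 : F (x + ((m' * (N ^ k * m) : ℕ) : L) * y) = F x := by
      rw [e2]
      apply hF.1
      exact SI_of_isIntegral (hma'.mul ((((isIntegral_natCast' N).pow k).mul
        (isIntegral_natCast' m)).mul hy))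
    show Φ _ * F _ = Φ x * F x
    rw [h1, h2]

/-- the indicator function of `c + a 𝓞[1/N]` -/
noncomputable def ind (N : ℕ) (a c x : L) : ℂ := by
  classical
  exact if (x - c) / a ∈ SI N L then 1 else 0

omit [NumberField L] in
theorem ind_pos {a c x : L} (h : (x - c) / a ∈ SI N L) : ind N a c x = 1 := by
  unfold ind; rw [if_pos h]

omit [NumberField L] in
theorem ind_neg {a c x : L} (h : (x - c) / a ∉ SI N L) : ind N a c x = 0 := by
  unfold ind; rw [if_neg h]

omit [NumberField L] in
theorem ind_congr {a c x a' c' x' : L}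
    (h : (x - c) / a ∈ SI N L ↔ (x' - c') / a' ∈ SI N L) : ind N a c x = ind N a' c' x' := by
  by_cases h1 : (x - c) / a ∈ SI N L
  · rw [ind_pos h1, ind_pos (h.mp h1)]
  · rw [ind_neg h1, ind_neg (fun h2 => h1 (h.mpr h2))]

omit [NumberField L] in
theorem ind_ASch {a l : L} (ha : a ≠ 0) (hl : l ∈ SI N L) {c : L} (hc : c / a ∈ SI N L) :
    ASch N a l (ind N a c) := by
  constructor
  · intro x y hy
    apply ind_congr
    have : (x + a * l * y - c) / a ∈ SI N L ↔ (x - c) / a ∈ SI N L := by
      have e : (x + a * l * y - c) / a = (x - c) / a + l * y := by field_simp; ring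
      rw [e]
      exact ⟨fun h => by
        have := (SI N L).sub_mem h ((SI N L).mul_mem hl hy)
        rwa [add_sub_cancel_right] at this, fun h => (SI N L).add_mem h ((SI N L).mul_mem hl hy)⟩
    exact this
  · intro x hx
    unfold ind at hx
    split_ifs at hx with h
    · have : x / a = (x - c) / a + c / a := by field_simp; ring
      rw [this]
      exact (SI N L).add_mem h hc
    · exact absurd rfl hx

omit [NumberField L] in
theorem ind_ASch' {a c : L} (ha : a ≠ 0) {l : SI N L} (hl : l ≠ 0) (hc : c / a ∈ SI N L) :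
    ASch N a l (ind N (a * l) c) := by
  have hl' : (l : L) ≠ 0 := coe_ne_zero hl
  constructor
  · intro x y hy
    apply ind_congr
    have : (x + a * l * y - c) / (a * l) ∈ SI N L ↔ (x - c) / (a * l) ∈ SI N L := by
      have e : (x + a * l * y - c) / (a * l) = (x - c) / (a * l) + y := by field_simp; ring
      rw [e]
      exact ⟨fun h => by
        have := (SI N L).sub_mem h hy
        rwa [add_sub_cancel_right] at this, fun h => (SI N L).add_mem h hy⟩
    exact this
  · intro x hx
    unfold ind at hx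
    split_ifs at hx with h
    · have : x / a = (x - c) / (a * l) * l + c / a := by field_simp; ring
      rw [this]
      exact (SI N L).add_mem ((SI N L).mul_mem h l.2) hc
    · exact absurd rfl hx

/-- `mean (Φ 1_{aS})` -/
noncomputable def mB (N : ℕ) (Φ : L → ℂ) (a : L) : ℂ := mean (fun x => Φ x * ind N a 0 x)

theorem mean_ind (hN : 0 < N) {k : ℕ} {Φ : L → ℂ} (hΦ : BSch N k Φ) {a : L} (ha : a ≠ 0) (c : L) :
    mean (fun x => Φ x * ind N a c x) = mB N Φ a := by
  obtain ⟨y, hy, hc⟩ := exists_decomp_deep hN k ha c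
  have h1 : ∀ x, Φ x * ind N a c x = (fun x => Φ x * ind N a 0 x) (x + (-((N : L) ^ k * y))) := by
    intro x
    have e1 : Φ (x + (-((N : L) ^ k * y))) = Φ x := by
      have := hΦ.1 x (-y) ((LI N L).neg_mem hy)
      rw [← this]; congr 1; ring
    show _ = Φ _ * ind N a 0 _
    rw [e1]
    congr 1
    apply ind_congr
    have : (x - c) / a ∈ SI N L ↔ (x + -((N : L) ^ k * y) - 0) / a ∈ SI N L := by
      have e : (x - c) / a = (x + -((N : L) ^ k * y) - 0) / a - (c - (N : L) ^ k * y) / a := by
        field_simp; ring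
      rw [e]
      exact ⟨fun h => by
        have := (SI N L).add_mem h hc
        rwa [sub_add_cancel] at this, fun h => (SI N L).sub_mem h hc⟩
    exact this
  have h2 : SB (fun x => Φ x * ind N a 0 x) := by
    refine SB_mul hN ha one_ne_zero hΦ (ind_ASch ha (SI N L).one_mem ?_)
    rw [zero_div]
    exact (SI N L).zero_mem
  rw [mB, ← mean_comp_add h2 (-((N : L) ^ k * y))]
  congr 1
  funext x
  exact h1 x

omit [NumberField L] in
theorem ASch.perM {a : L} {l : SI N L} {F : L → ℂ} (hF : ASch N a (l : L) F) :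
    PerM l (fun r : SI N L => F (a * r)) := by
  intro x y
  show F (a * ((x + l * y : SI N L) : L)) = F (a * x)
  have : a * ((x + l * y : SI N L) : L) = a * x + a * l * y := by push_cast; ring
  rw [this]
  exact hF.1 _ _ y.2

theorem mean_mul (hN : 0 < N) {k : ℕ} {Φ : L → ℂ} (hΦ : BSch N k Φ) {a : L} (ha : a ≠ 0)
    {l : SI N L} (hl : l ≠ 0) {F : L → ℂ} (hF : ASch N a (l : L) F) :
    mean (fun x => Φ x * F x) = mB N Φ (a * l) * qs l (fun r : SI N L => F (a * r)) := by
  classical
  have hfin := finite_quot hN l hl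
  have := Fintype.ofFinite (SI N L ⧸ span {l})
  have hl' : (l : L) ≠ 0 := coe_ne_zero hl
  have hal : a * (l : L) ≠ 0 := mul_ne_zero ha hl'
  -- the decomposition of `F`
  have h1 : ∀ x, Φ x * F x = ∑ r : SI N L ⧸ span {l}, F (a * (r.out : SI N L)) *
      (Φ x * ind N (a * l) (a * (r.out : SI N L)) x) := by
    intro x
    by_cases hx : x / a ∈ SI N L
    · set s : SI N L := ⟨x / a, hx⟩ with hs
      rw [Finset.sum_eq_single (Ideal.Quotient.mk (span {l}) s)]
      · obtain ⟨t, ht⟩ := exists_out l s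
        set o := (Ideal.Quotient.mk (span {l}) s).out with ho
        have ht' : x / a = (o : L) + l * t := by
          have := congrArg (fun z : SI N L => (z : L)) ht
          simpa [hs] using this
        have hxe : x = a * o + a * l * t := by
          field_simp at ht'
          linear_combination ht'
        have e1 : F x = F (a * o) := by
          rw [hxe]; exact hF.1 _ _ t.2
        have e2 : ind N (a * l) (a * (o : L)) x = 1 := by
          unfold ind
          rw [if_pos]
          have : (x - a * o) / (a * l) = t := by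
            rw [hxe]; field_simp; ring
          rw [this]; exact t.2
        rw [e1, e2]; ring
      · intro r _ hr
        have : ind N (a * l) (a * (r.out : SI N L)) x = 0 := by
          unfold ind
          rw [if_neg]
          intro h
          apply hr
          rw [← mk_out l r, eq_comm, mk_eq_mk]
          refine ⟨⟨_, h⟩, ?_⟩
          apply Subtype.ext
          show x / a - (r.out : SI N L) = l * ((x - a * (r.out : SI N L)) / (a * l))
          field_simp
        rw [this]; ring
      · intro h; exact absurd (Finset.mem_univ _) h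
    · have e1 : F x = 0 := by
        by_contra h
        exact hx (hF.2 x h)
      rw [e1, mul_zero]
      symm
      apply Finset.sum_eq_zero
      intro r _
      have : ind N (a * l) (a * (r.out : SI N L)) x = 0 := by
        unfold ind
        rw [if_neg]
        intro h
        apply hx
        have : x / a = (x - a * (r.out : SI N L)) / (a * l) * l + (r.out : SI N L) := by
          field_simp; ring
        rw [this]
        exact (SI N L).add_mem ((SI N L).mul_mem h l.2) (r.out : SI N L).2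
      rw [this]; ring
  have h2 : ∀ c : L, c / a ∈ SI N L → SB (fun x => Φ x * ind N (a * l) c x) := fun c hc =>
    SB_mul hN ha hl' hΦ (ind_ASch' ha hl hc)
  have h3 : ∀ r : SI N L, (a * (r : L)) / a ∈ SI N L := by
    intro r
    rw [mul_div_cancel_left₀ _ ha]
    exact r.2
  have h4 : (fun x => Φ x * F x) = fun x => ∑ r : SI N L ⧸ span {l}, F (a * (r.out : SI N L)) *
      (Φ x * ind N (a * l) (a * (r.out : SI N L)) x) := funext h1
  rw [h4, mean_sum _ fun r _ => (h2 _ (h3 _)).const_mul _, qs_eq_univ, Finset.mul_sum]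
  apply Finset.sum_congr rfl
  intro r _
  rw [mean_const_mul (h2 _ (h3 _)), mean_ind hN hΦ hal]
  ring

theorem mB_mul (hN : 0 < N) {k : ℕ} {Φ : L → ℂ} (hΦ : BSch N k Φ) {a : L} (ha : a ≠ 0)
    {l : SI N L} (hl : l ≠ 0) :
    mB N Φ a = Nat.card (SI N L ⧸ span {l}) * mB N Φ (a * l) := by
  have hfin := finite_quot hN l hl
  have h0 : (0 : L) / a ∈ SI N L := by rw [zero_div]; exact (SI N L).zero_mem
  have h1 := mean_mul hN hΦ ha hl (ind_ASch ha l.2 h0)
  have h2 : ∀ r : SI N L, ind N a 0 (a * (r : L)) = 1 := by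
    intro r
    unfold ind
    rw [if_pos]
    rw [sub_zero, mul_div_cancel_left₀ _ ha]
    exact r.2
  rw [qs_congr h2, qs_const _ hfin] at h1
  rw [mB, h1]
  ring

theorem card_mul_nat (hN : 0 < N) {l l' : SI N L} (hl : l ≠ 0) (hl' : l' ≠ 0) :
    Nat.card (SI N L ⧸ span {l * l'}) = Nat.card (SI N L ⧸ span {l}) *
      Nat.card (SI N L ⧸ span {l'}) := by
  have := card_mul hl (finite_quot hN l hl) (finite_quot hN l' hl')
  exact_mod_cast this

theorem card_pos (hN : 0 < N) {l : SI N L} (hl : l ≠ 0) : 0 < Nat.card (SI N L ⧸ span {l}) := by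
  have := finite_quot hN l hl
  exact Nat.card_pos

theorem exists_frac (x : L) (hx : x ≠ 0) :
    ∃ b b' : SI N L, b ≠ 0 ∧ b' ≠ 0 ∧ x = (b : L) / b' := by
  obtain ⟨m, hm, hz⟩ := exists_nat_integral x
  have hm' : (m : L) ≠ 0 := by exact_mod_cast hm
  refine ⟨⟨m * x, SI_of_isIntegral hz⟩, ⟨m, SI_of_isIntegral (isIntegral_natCast' m)⟩, ?_, ?_, ?_⟩
  · intro h
    have := congrArg (fun z : SI N L => (z : L)) h
    simp only [ZeroMemClass.coe_zero, mul_eq_zero] at this
    rcases this with h | h
    · exact hm' h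
    · exact hx h
  · intro h
    have := congrArg (fun z : SI N L => (z : L)) h
    exact hm' this
  · show x = (m : L) * x / m
    field_simp

/-- the away-from-`N` norm -/
noncomputable def nrm (N : ℕ) (x : L) : ℝ := by
  classical
  exact if h : ∃ p : SI N L × SI N L, p.1 ≠ 0 ∧ p.2 ≠ 0 ∧ x = (p.1 : L) / p.2 then
    (Nat.card (SI N L ⧸ span {h.choose.1}) : ℝ) / Nat.card (SI N L ⧸ span {h.choose.2}) else 0

theorem nrm_eq (hN : 0 < N) {b b' : SI N L} (hb : b ≠ 0) (hb' : b' ≠ 0) :
    nrm N ((b : L) / b') =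
      (Nat.card (SI N L ⧸ span {b}) : ℝ) / Nat.card (SI N L ⧸ span {b'}) := by
  classical
  have h : ∃ p : SI N L × SI N L, p.1 ≠ 0 ∧ p.2 ≠ 0 ∧ (b : L) / b' = (p.1 : L) / p.2 :=
    ⟨(b, b'), hb, hb', rfl⟩
  unfold nrm
  rw [dif_pos h]
  obtain ⟨h1, h2, h3⟩ := h.choose_spec
  set p := h.choose
  have e : b * p.2 = p.1 * b' := by
    apply Subtype.ext
    show (b : L) * p.2 = p.1 * b'
    have := coe_ne_zero h2
    have := coe_ne_zero hb'
    field_simp at h3
    linear_combination h3
  have e1 := card_mul_nat hN hb h2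
  have e2 := card_mul_nat hN h1 hb'
  rw [e, e2] at e1
  have p1 : (Nat.card (SI N L ⧸ span {p.2}) : ℝ) ≠ 0 := by exact_mod_cast (card_pos hN h2).ne'
  have p2 : (Nat.card (SI N L ⧸ span {b'}) : ℝ) ≠ 0 := by exact_mod_cast (card_pos hN hb').ne'
  rw [div_eq_div_iff p1 p2]
  exact_mod_cast e1

theorem nrm_coe (hN : 0 < N) {b : SI N L} (hb : b ≠ 0) :
    nrm N (b : L) = Nat.card (SI N L ⧸ span {b}) := by
  have h := nrm_eq hN hb (one_ne_zero (α := SI N L))
  have e1 : ((b : L) / ((1 : SI N L) : L)) = b := by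
    show (b : L) / 1 = b
    rw [div_one]
  have e2 : Nat.card (SI N L ⧸ span {(1 : SI N L)}) = 1 := by
    have h1 := card_mul_nat hN (one_ne_zero (α := SI N L)) (one_ne_zero (α := SI N L))
    have h2 := card_pos hN (one_ne_zero (α := SI N L))
    rw [mul_one] at h1
    exact (Nat.eq_of_mul_eq_mul_left h2 (by rw [mul_one]; exact h1)).symm
  rw [e1, e2, Nat.cast_one, div_one] at h
  exact h

theorem nrm_pos (hN : 0 < N) {x : L} (hx : x ≠ 0) : 0 < nrm N x := by
  obtain ⟨b, b', hb, hb', rfl⟩ := exists_frac (N := N) x hx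
  rw [nrm_eq hN hb hb']
  have p1 : (0 : ℝ) < Nat.card (SI N L ⧸ span {b}) := by exact_mod_cast card_pos hN hb
  have p2 : (0 : ℝ) < Nat.card (SI N L ⧸ span {b'}) := by exact_mod_cast card_pos hN hb'
  positivity

theorem nrm_mul (hN : 0 < N) {x y : L} (hx : x ≠ 0) (hy : y ≠ 0) :
    nrm N (x * y) = nrm N x * nrm N y := by
  obtain ⟨b, b', hb, hb', rfl⟩ := exists_frac (N := N) x hx
  obtain ⟨d, d', hd, hd', rfl⟩ := exists_frac (N := N) y hy
  rw [nrm_eq hN hb hb', nrm_eq hN hd hd']
  have e : (b : L) / b' * ((d : L) / d') = ((b * d : SI N L) : L) / ((b' * d' : SI N L) : L) := by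
    push_cast
    rw [div_mul_div_comm]
  rw [e, nrm_eq hN (mul_ne_zero hb hd) (mul_ne_zero hb' hd'), card_mul_nat hN hb hd,
    card_mul_nat hN hb' hd']
  push_cast
  rw [div_mul_div_comm]

theorem nrm_inv (hN : 0 < N) {x : L} (hx : x ≠ 0) : nrm N x⁻¹ = (nrm N x)⁻¹ := by
  have h := nrm_mul hN hx (inv_ne_zero hx)
  rw [mul_inv_cancel₀ hx] at h
  have h1 : nrm N (1 : L) = 1 := by
    have h2 := nrm_mul hN (one_ne_zero (α := L)) (one_ne_zero (α := L))
    rw [mul_one] at h2
    have h3 := (nrm_pos hN (one_ne_zero (α := L))).ne'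
    have : nrm N (1 : L) * (nrm N (1 : L) - 1) = 0 := by linear_combination -h2
    rcases mul_eq_zero.mp this with h | h
    · exact absurd h h3
    · linarith
  rw [h1] at h
  exact (eq_inv_of_mul_eq_one_right h.symm)

/-- the modulus of dilation is the away norm -/
theorem mB_inv (hN : 0 < N) {k : ℕ} {Φ : L → ℂ} (hΦ : BSch N k Φ) {x : L} (hx : x ≠ 0) :
    mB N Φ x⁻¹ = nrm N x * mB N Φ 1 := by
  obtain ⟨b, b', hb, hb', rfl⟩ := exists_frac (N := N) x hx
  rw [nrm_eq hN hb hb']
  have hbl := coe_ne_zero hb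
  have hbl' := coe_ne_zero hb'
  have h1 := mB_mul hN hΦ (one_ne_zero (α := L)) hb'
  have h2 := mB_mul hN hΦ (a := ((b : L) / b')⁻¹) (inv_ne_zero (div_ne_zero hbl hbl')) hb
  have e : ((b : L) / b')⁻¹ * b = b' := by field_simp
  rw [e] at h2
  rw [one_mul] at h1
  have p2 : (Nat.card (SI N L ⧸ span {b'}) : ℂ) ≠ 0 := by exact_mod_cast (card_pos hN hb').ne'
  rw [h2, h1]
  push_cast
  field_simp

end Fermat.Agent.LT.T4
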