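import Mathlib

set_option autoImplicit false

/-! # The rings `𝓞[1/N]` and `𝓞_(N)` of a number field -/

namespace Fermat.Agent.LT.T4

open Ideal

section basic

variable (N : ℕ) (K : Type*) [Field K]

/-- `𝓞_K[1/N]` -/
def SI : Subring K where
  carrier := {x | ∃ k : ℕ, IsIntegral ℤ ((N : K) ^ k * x)}
  mul_mem' := by
    rintro a b ⟨k, hk⟩ ⟨j, hj⟩
    exact ⟨k + j, by
      have : (N : K) ^ (k + j) * (a * b) = ((N : K) ^ k * a) * ((N : K) ^ j * b) := by ring
      rw [this]; exact hk.mul hj⟩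
  one_mem' := ⟨0, by simpa using isIntegral_one⟩
  add_mem' := by
    rintro a b ⟨k, hk⟩ ⟨j, hj⟩
    have hN : IsIntegral ℤ (N : K) := by
      have := isIntegral_algebraMap (R := ℤ) (A := K) (x := (N : ℤ))
      simpa using this
    exact ⟨k + j, by
      have : (N : K) ^ (k + j) * (a + b) = (N : K) ^ j * ((N : K) ^ k * a) +
        (N : K) ^ k * ((N : K) ^ j * b) := by ring
      rw [this]; exact ((hN.pow j).mul hk).add ((hN.pow k).mul hj)⟩
  zero_mem' := ⟨0, by simpa using isIntegral_zero⟩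
  neg_mem' := by
    rintro a ⟨k, hk⟩
    exact ⟨k, by rw [mul_neg]; exact hk.neg⟩

theorem mem_SI {N : ℕ} {K : Type*} [Field K] {x : K} :
    x ∈ SI N K ↔ ∃ k : ℕ, IsIntegral ℤ ((N : K) ^ k * x) := Iff.rfl

/-- the semilocalisation of `𝓞_K` at the primes dividing `N` -/
def LI : Subring K where
  carrier := {x | ∃ m : ℕ, m.Coprime N ∧ IsIntegral ℤ ((m : K) * x)}
  mul_mem' := by
    rintro a b ⟨k, hk0, hk⟩ ⟨j, hj0, hj⟩
    exact ⟨k * j, Nat.Coprime.mul_left hk0 hj0, by
      have : ((k * j : ℕ) : K) * (a * b) = ((k : K) * a) * ((j : K) * b) := by push_cast; ring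
      rw [this]; exact hk.mul hj⟩
  one_mem' := ⟨1, Nat.coprime_one_left N, by simpa using isIntegral_one⟩
  add_mem' := by
    rintro a b ⟨k, hk0, hk⟩ ⟨j, hj0, hj⟩
    have hN : ∀ n : ℕ, IsIntegral ℤ (n : K) := by
      intro n
      have := isIntegral_algebraMap (R := ℤ) (A := K) (x := (n : ℤ))
      simpa using this
    exact ⟨k * j, Nat.Coprime.mul_left hk0 hj0, by
      have : ((k * j : ℕ) : K) * (a + b) = (j : K) * ((k : K) * a) + (k : K) * ((j : K) * b) := by
        push_cast; ring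
      rw [this]; exact ((hN j).mul hk).add ((hN k).mul hj)⟩
  zero_mem' := ⟨1, Nat.coprime_one_left N, by simpa using isIntegral_zero⟩
  neg_mem' := by
    rintro a ⟨k, hk0, hk⟩
    exact ⟨k, hk0, by rw [mul_neg]; exact hk.neg⟩

theorem mem_LI {N : ℕ} {K : Type*} [Field K] {x : K} :
    x ∈ LI N K ↔ ∃ m : ℕ, m.Coprime N ∧ IsIntegral ℤ ((m : K) * x) := Iff.rfl

end basic

section

variable {N : ℕ} {K : Type*} [Field K]

theorem isIntegral_natCast' (n : ℕ) : IsIntegral ℤ (n : K) := by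
  have := isIntegral_algebraMap (R := ℤ) (A := K) (x := (n : ℤ))
  simpa using this

theorem isIntegral_intCast' (n : ℤ) : IsIntegral ℤ (n : K) := by
  have := isIntegral_algebraMap (R := ℤ) (A := K) (x := n)
  simpa using this

theorem SI_of_isIntegral {x : K} (h : IsIntegral ℤ x) : x ∈ SI N K := ⟨0, by simpa using h⟩

theorem LI_of_isIntegral {x : K} (h : IsIntegral ℤ x) : x ∈ LI N K :=
  ⟨1, Nat.coprime_one_left N, by simpa using h⟩

theorem isIntegral_of_SI_LI {x : K} (h : x ∈ SI N K) (h' : x ∈ LI N K) : IsIntegral ℤ x := by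
  obtain ⟨k, hk⟩ := h
  obtain ⟨m, hm, hx⟩ := h'
  have hc : IsCoprime (m : ℤ) ((N ^ k : ℕ) : ℤ) :=
    Nat.isCoprime_iff_coprime.mpr (Nat.Coprime.pow_right k hm)
  obtain ⟨a, b, hab⟩ := hc
  have hab' : (a : K) * m + b * (N : K) ^ k = 1 := by
    have := congrArg (fun z : ℤ => (z : K)) hab
    push_cast at this
    exact this
  have : x = a * ((m : K) * x) + b * ((N : K) ^ k * x) := by
    linear_combination (-x) * hab'
  rw [this]
  exact ((isIntegral_intCast' a).mul hx).add ((isIntegral_intCast' b).mul hk)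

variable [CharZero K]

theorem inv_mem_SI (hN : 0 < N) : (N : K)⁻¹ ∈ SI N K := by
  have : (N : K) ≠ 0 := by exact_mod_cast hN.ne'
  exact ⟨1, by rw [pow_one, mul_inv_cancel₀ this]; exact isIntegral_one⟩

theorem inv_mem_LI {m : ℕ} (hm0 : m ≠ 0) (hm : m.Coprime N) : (m : K)⁻¹ ∈ LI N K := by
  have : (m : K) ≠ 0 := by exact_mod_cast hm0
  exact ⟨m, hm, by rw [mul_inv_cancel₀ this]; exact isIntegral_one⟩

/-- splitting off the part of a natural number supported at the primes of `N` -/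
theorem exists_coprime_part (hN : 0 < N) (m : ℕ) (hm : m ≠ 0) :
    ∃ m₁ m₂ k : ℕ, m = m₁ * m₂ ∧ m₁.Coprime N ∧ m₂ ∣ N ^ k := by
  induction m using Nat.strong_induction_on with
  | _ m ih =>
    by_cases h : m.Coprime N
    · exact ⟨m, 1, 0, by simp, h, by simp⟩
    · have hg : 1 < m.gcd N := by
        have h0 : 0 < m.gcd N := Nat.gcd_pos_of_pos_right _ hN
        have h1 : m.gcd N ≠ 1 := h
        omega
      obtain ⟨m', hm'⟩ := Nat.gcd_dvd_left m N
      have hm'0 : m' ≠ 0 := by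
        rintro rfl
        rw [mul_zero] at hm'
        exact hm hm'
      have hlt : m' < m := by
        calc m' < m.gcd N * m' := by
              have : 1 * m' < m.gcd N * m' := Nat.mul_lt_mul_of_pos_right hg (Nat.pos_of_ne_zero hm'0)
              rwa [one_mul] at this
          _ = m := hm'.symm
      obtain ⟨m₁, m₂, k, h1, h2, h3⟩ := ih m' hlt hm'0
      refine ⟨m₁, m.gcd N * m₂, k + 1, ?_, h2, ?_⟩
      · rw [hm', h1]; 
        have : (m.gcd N * (m₁ * m₂)) = m₁ * (m.gcd N * m₂) := by ring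
        rw [h1] at hm'
        rw [← hm']
        rw [← this, ← hm']
      · rw [pow_succ, mul_comm (N ^ k)]
        exact mul_dvd_mul (Nat.gcd_dvd_right m N) h3

end

section numberField

variable {N : ℕ} {K : Type*} [Field K] [NumberField K]

theorem exists_nat_integral (a : K) : ∃ m : ℕ, m ≠ 0 ∧ IsIntegral ℤ ((m : K) * a) := by
  have hal : IsAlgebraic ℤ a :=
    (IsFractionRing.isAlgebraic_iff ℤ ℚ K).mpr (Algebra.IsAlgebraic.isAlgebraic (R := ℚ) a)
  obtain ⟨y, hy, h⟩ := hal.exists_integral_multiple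
  refine ⟨y.natAbs, Int.natAbs_ne_zero.mpr hy, ?_⟩
  rcases Int.natAbs_eq y with e | e
  · rw [e, natCast_zsmul, nsmul_eq_mul] at h
    exact h
  · rw [e, neg_smul, natCast_zsmul, nsmul_eq_mul] at h
    simpa using h.neg

/-- partial fractions -/
theorem exists_decomp (hN : 0 < N) (x : K) : ∃ y ∈ LI N K, x - y ∈ SI N K := by
  obtain ⟨m, hm, hx⟩ := exists_nat_integral x
  obtain ⟨m₁, m₂, k, h1, h2, h3⟩ := exists_coprime_part hN m hm
  have hc : IsCoprime (m₁ : ℤ) (m₂ : ℤ) :=
    Nat.isCoprime_iff_coprime.mpr (Nat.Coprime.coprime_dvd_right h3 (Nat.Coprime.pow_right k h2))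
  obtain ⟨a, b, hab⟩ := hc
  have hab' : (a : K) * m₁ + b * m₂ = 1 := by
    have := congrArg (fun z : ℤ => (z : K)) hab
    push_cast at this
    exact this
  rw [h1] at hx
  push_cast at hx
  refine ⟨b * (m₂ * x), ?_, ?_⟩
  · refine ⟨m₁, h2, ?_⟩
    have : (m₁ : K) * (b * (m₂ * x)) = b * (m₁ * m₂ * x) := by ring
    rw [this]
    exact (isIntegral_intCast' b).mul hx
  · have : x - b * (m₂ * x) = a * (m₁ * x) := by linear_combination (-x) * hab'
    rw [this]
    obtain ⟨c, hc⟩ := h3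
    refine ⟨k, ?_⟩
    have e : (N : K) ^ k = m₂ * c := by exact_mod_cast congrArg (fun z : ℕ => (z : K)) hc
    have : (N : K) ^ k * (a * (m₁ * x)) = c * a * (m₁ * m₂ * x) := by rw [e]; ring
    rw [this]
    exact ((isIntegral_natCast' c).mul (isIntegral_intCast' a)).mul hx

/-- strong approximation: `K = N ^ k 𝓞_(N) + a 𝓞[1/N]` -/
theorem exists_decomp_deep (hN : 0 < N) (k : ℕ) {a : K} (ha : a ≠ 0) (x : K) :
    ∃ y ∈ LI N K, (x - (N : K) ^ k * y) / a ∈ SI N K := by
  obtain ⟨m, hm, hma⟩ := exists_nat_integral (a⁻¹)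
  obtain ⟨m₁, m₂, i, h1, h2, h3⟩ := exists_coprime_part hN m hm
  have hN' : (N : K) ≠ 0 := by exact_mod_cast hN.ne'
  have hm₁ : m₁ ≠ 0 := by rintro rfl; simp at h1; exact hm h1
  have hm₁' : (m₁ : K) ≠ 0 := by exact_mod_cast hm₁
  obtain ⟨y, hy, hxy⟩ := exists_decomp hN (x / ((N : K) ^ k * m₁))
  refine ⟨m₁ * y, (LI N K).mul_mem (LI_of_isIntegral (isIntegral_natCast' m₁)) hy, ?_⟩
  have e1 : (x - (N : K) ^ k * (m₁ * y)) / a =
      (N : K) ^ k * (m₁ * a⁻¹) * (x / ((N : K) ^ k * m₁) - y) := by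
    field_simp
  rw [e1]
  refine (SI N K).mul_mem ((SI N K).mul_mem (SI_of_isIntegral ((isIntegral_natCast' N).pow k)) ?_)
    hxy
  obtain ⟨c, hc⟩ := h3
  refine ⟨i, ?_⟩
  have e : (N : K) ^ i = m₂ * c := by exact_mod_cast congrArg (fun z : ℕ => (z : K)) hc
  have : (N : K) ^ i * (m₁ * a⁻¹) = c * ((m : K) * a⁻¹) := by
    rw [e, h1]; push_cast; ring
  rw [this]
  exact (isIntegral_natCast' c).mul hma

omit [NumberField K] in
theorem coe_ne_zero {S : Subring K} {l : S} (hl : l ≠ 0) : (l : K) ≠ 0 := by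
  intro h
  apply hl
  exact Subtype.ext h

instance isFractionRing_SI : IsFractionRing (SI N K) K := by
  apply IsFractionRing.of_field
  intro z
  obtain ⟨m, hm, hz⟩ := exists_nat_integral z
  have hm' : (m : K) ≠ 0 := by exact_mod_cast hm
  refine ⟨⟨m * z, SI_of_isIntegral hz⟩, ⟨m, SI_of_isIntegral (isIntegral_natCast' m)⟩, ?_⟩
  show z = (m : K) * z / m
  field_simp

theorem finite_quot (hN : 0 < N) (l : SI N K) (hl : l ≠ 0) :
    Finite (SI N K ⧸ span {l}) := by
  have hl' : (l : K) ≠ 0 := coe_ne_zero hl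
  -- a positive integer in `l 𝓞`
  obtain ⟨m, hm, hml⟩ := exists_nat_integral ((l : K)⁻¹)
  have hfin : Finite (NumberField.RingOfIntegers K ⧸
      span {((m : ℕ) : NumberField.RingOfIntegers K)}) := by
    apply Ideal.finiteQuotientOfFreeOfNeBot
    rw [Ne, span_singleton_eq_bot]
    exact_mod_cast hm
  let emb : NumberField.RingOfIntegers K → SI N K := fun z =>
    ⟨z, SI_of_isIntegral (NumberField.RingOfIntegers.isIntegral_coe z)⟩
  refine Finite.of_surjective (fun z : NumberField.RingOfIntegers K ⧸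
      span {((m : ℕ) : NumberField.RingOfIntegers K)} =>
      Ideal.Quotient.mk (span {l}) (emb z.out)) fun x => ?_
  obtain ⟨s, rfl⟩ := Ideal.Quotient.mk_surjective x
  -- approximate `s` by an integral element modulo `l`
  obtain ⟨y, hy, hsy⟩ := exists_decomp_deep hN 0 hl' (s : K)
  rw [pow_zero, one_mul] at hsy
  have hyi : IsIntegral ℤ y := by
    apply isIntegral_of_SI_LI _ hy
    have : y = s - l * ((s - y) / l) := by field_simp; ring
    rw [this]
    exact (SI N K).sub_mem s.2 ((SI N K).mul_mem l.2 hsy)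
  let y' : NumberField.RingOfIntegers K := ⟨y, hyi⟩
  refine ⟨Ideal.Quotient.mk _ y', ?_⟩
  have hq : Ideal.Quotient.mk (span {((m : ℕ) : NumberField.RingOfIntegers K)})
      ((Ideal.Quotient.mk (span {((m : ℕ) : NumberField.RingOfIntegers K)}) y').out) =
      Ideal.Quotient.mk (span {((m : ℕ) : NumberField.RingOfIntegers K)}) y' :=
    Quotient.out_eq _
  rw [Ideal.Quotient.eq, mem_span_singleton] at hq
  obtain ⟨w, hw⟩ := hq
  show Ideal.Quotient.mk (span {l}) (emb ((Ideal.Quotient.mk _ y').out)) = _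
  rw [Ideal.Quotient.eq, mem_span_singleton]
  set z := (Ideal.Quotient.mk (span {((m : ℕ) : NumberField.RingOfIntegers K)}) y').out
  have hw' : (z : K) - y = m * (w : K) := by
    have := congrArg (fun t : NumberField.RingOfIntegers K => (t : K)) hw
    simp only [map_sub, map_mul, map_natCast] at this
    exact this
  refine ⟨⟨((m : K) * (l : K)⁻¹) * w - (s - y) / l, (SI N K).sub_mem ((SI N K).mul_mem
    (SI_of_isIntegral hml) (SI_of_isIntegral (NumberField.RingOfIntegers.isIntegral_coe w)))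
    hsy⟩, ?_⟩
  apply Subtype.ext
  show (z : K) - s = l * (((m : K) * (l : K)⁻¹) * w - (s - y) / l)
  field_simp
  linear_combination hw'

end numberField

end Fermat.Agent.LT.T4
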