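import Fermat.Agent.LT.T4.Aut
import Fermat.Agent.LT.T4.SInt
import Fermat.Agent.LT.T4.GenE

set_option autoImplicit false

/-!
# The places away from a natural number `N`
-/

namespace Fermat.Agent.LT.T4

open Matrix Filter
open Fermat.Agent.LT.Glob
open Fermat.Agent.LT.Glob.LocFam
open scoped MatrixGroups

universe w u i

variable {F : Type u} [Field F] {ι : Type i}

/-- `B` is the set of the places above `N` -/
structure Adic (L : LocFam.{w} F ι) (B : Finset ι) (N : ℕ) : Prop where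
  pos : 0 < N
  unit : ∀ v ∉ B, L.loc v ((N : F)⁻¹) ∈ L.O v
  nil : ∀ v ∈ B, ∀ x : L.R v, ∃ k : ℕ, (N : L.R v) ^ k * x ∈ L.O v
  deep : ∀ v ∈ B, ∀ x ∈ L.O v, ∃ y ∈ L.O v, (1 + (N : L.R v) * x) * y = 1
  nt : ∀ v ∈ B, Nontrivial (L.R v)

namespace Adic

variable {L : LocFam.{w} F ι} {B : Finset ι} {N : ℕ} (h : Adic L B N)

include h

theorem badPlaces : BadPlaces L B where
  deep v hv := ⟨N, h.pos.ne', h.deep v hv⟩
  nt := h.nt

/-- natural numbers prime to `N` are units at `B` -/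
theorem coprime {v : ι} (hv : v ∈ B) {m : ℕ} (hm : m.Coprime N) :
    ∃ y ∈ L.O v, (m : L.R v) * y = 1 := by
  obtain ⟨a, b, hab⟩ := Nat.isCoprime_iff_coprime.mpr hm
  obtain ⟨y, hy, e⟩ := h.deep v hv (-(b : L.R v)) ((L.O v).neg_mem (intCast_mem _ b))
  refine ⟨a * y, (L.O v).mul_mem (intCast_mem _ a) hy, ?_⟩
  have e1 : (a : L.R v) * m + b * N = 1 := by exact_mod_cast congrArg (Int.cast : ℤ → L.R v) hab
  linear_combination e + y * e1

variable [CharZero F]

theorem loc_N (v : ι) : L.loc v ((N : F)⁻¹) * (N : L.R v) = 1 := by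
  have h1 : (N : F) ≠ 0 := by exact_mod_cast h.pos.ne'
  rw [← map_natCast (L.loc v) N, ← map_mul, inv_mul_cancel₀ h1, map_one]

/-- **(LF1)** -/
theorem mem_SI_iff {a : F} : a ∈ SI N F ↔ ∀ v ∉ B, L.loc v a ∈ L.O v := by
  classical
  have hN0 : (N : F) ≠ 0 := by exact_mod_cast h.pos.ne'
  constructor
  · rintro ⟨k, hk⟩ v hv
    have h1 := (L.isIntegral_iff _).mp hk v
    have e : a = ((N : F)⁻¹) ^ k * ((N : F) ^ k * a) := by
      rw [← mul_assoc, ← mul_pow, inv_mul_cancel₀ hN0, one_pow, one_mul]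
    rw [e, map_mul, map_pow]
    exact (L.O v).mul_mem (pow_mem (h.unit v hv) k) h1
  · intro ha
    have h1 : ∀ v, ∃ k : ℕ, v ∈ B → (N : L.R v) ^ k * L.loc v a ∈ L.O v := by
      intro v
      by_cases hv : v ∈ B
      · obtain ⟨k, hk⟩ := h.nil v hv (L.loc v a)
        exact ⟨k, fun _ => hk⟩
      · exact ⟨0, fun h => absurd h hv⟩
    choose k hk using h1
    refine ⟨B.sup k, (L.isIntegral_iff _).mpr fun v => ?_⟩
    rw [map_mul, map_pow, map_natCast]
    by_cases hv : v ∈ B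
    · have h2 : k v ≤ B.sup k := Finset.le_sup hv
      have e : (N : L.R v) ^ (B.sup k) * L.loc v a =
          (N : L.R v) ^ (B.sup k - k v) * ((N : L.R v) ^ (k v) * L.loc v a) := by
        rw [← mul_assoc, ← pow_add, Nat.sub_add_cancel h2]
      rw [e]
      exact (L.O v).mul_mem (pow_mem (natCast_mem _ _) _) (hk v hv)
    · exact (L.O v).mul_mem (pow_mem (natCast_mem _ _) _) (ha v hv)

/-- **(LF2)** -/
theorem mem_LI_iff [NumberField F] {a : F} : a ∈ LI N F ↔ ∀ v ∈ B, L.loc v a ∈ L.O v := by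
  constructor
  · rintro ⟨m, hm, hi⟩ v hv
    have h1 := (L.isIntegral_iff _).mp hi v
    obtain ⟨y, hy, e⟩ := h.coprime hv hm
    have e1 : L.loc v a = y * L.loc v ((m : F) * a) := by
      rw [map_mul, map_natCast]; linear_combination (-L.loc v a) * e
    rw [e1]; exact (L.O v).mul_mem hy h1
  · intro ha
    obtain ⟨m, hm, hi⟩ := exists_nat_integral a
    obtain ⟨m₁, m₂, k, rfl, h1, h2⟩ := exists_coprime_part h.pos m hm
    refine ⟨m₁, h1, (L.isIntegral_iff _).mpr fun v => ?_⟩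
    by_cases hv : v ∈ B
    · rw [map_mul, map_natCast]
      exact (L.O v).mul_mem (natCast_mem _ _) (ha v hv)
    · obtain ⟨c, hc⟩ := h2
      have h3 := (L.isIntegral_iff _).mp hi v
      have h4 : (L.loc v ((N : F)⁻¹)) ^ k * (c : L.R v) * m₂ = 1 := by
        have e : ((m₂ : ℕ) : L.R v) * c = (N : L.R v) ^ k := by exact_mod_cast congrArg _ hc.symm
        have e2 : (L.loc v ((N : F)⁻¹) * (N : L.R v)) ^ k = 1 := by rw [h.loc_N v, one_pow]
        rw [mul_pow, ← e] at e2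
        linear_combination e2
      have e : L.loc v ((m₁ : F) * a) = (L.loc v ((N : F)⁻¹)) ^ k * (c : L.R v) *
          L.loc v (((m₁ * m₂ : ℕ) : F) * a) := by
        rw [map_mul, map_mul, map_natCast, map_natCast]
        push_cast
        linear_combination (-(m₁ : L.R v) * L.loc v a) * h4
      rw [e]
      exact (L.O v).mul_mem ((L.O v).mul_mem (pow_mem (h.unit v hv) k) (natCast_mem _ _)) h3

/-- matrices over `SI` -/
theorem mem_GLO_iff_SI {g : GL (Fin 2) F} :
    (∀ v ∉ B, GeneralLinearGroup.map (L.loc v) g ∈ GLO (L.O v)) ↔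
      (∀ i j, g i j ∈ SI N F) ∧ ∀ i j, g⁻¹ i j ∈ SI N F := by
  constructor
  · intro hg
    exact ⟨fun i j => h.mem_SI_iff.mpr fun v hv => (hg v hv).1 i j, fun i j =>
      h.mem_SI_iff.mpr fun v hv => by
        have := (hg v hv).2 i j
        rwa [← map_inv] at this⟩
  · rintro ⟨h1, h2⟩ v hv
    refine ⟨fun i j => h.mem_SI_iff.mp (h1 i j) v hv, fun i j => ?_⟩
    rw [← map_inv]
    exact h.mem_SI_iff.mp (h2 i j) v hv

end Adic

variable {L : LocFam.{w} F ι} {B : Finset ι} {N : ℕ} {U : L.Level}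

theorem tri_eq (c : Fˣ) (s : F) : tri c 1 s = nMat s * Sp.aMat c := by
  apply Units.ext
  rw [Units.val_mul, tri_coe, nMat_coe, Sp.aMat_coe]
  ext i j
  fin_cases i <;> fin_cases j <;> simp [Matrix.mul_apply, Fin.sum_univ_two]

/-- **Iwasawa coordinates.** -/
theorem OmB.exists_iwa (hB : ClassOne L B) (hU : ∀ v ∉ B, U.U v = PO (L.O v)) (x : OmB U B) :
    ∃ (c : Fˣ) (s : F), x = nMat s • Sp.aMat c • OmB.base U B := by
  obtain ⟨d, rfl⟩ := away_surjective x
  obtain ⟨c, s, h⟩ := exists_coord hB hU d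
  refine ⟨c, s, ?_⟩
  rw [← mul_smul, ← tri_eq]
  apply OmB.ext
  intro v
  exact h v.1 v.2

/-- **The stabiliser of the base point.** -/
theorem OmB.smul_base_iff_PO (hU : ∀ v ∉ B, U.U v = PO (L.O v)) (g : GL (Fin 2) F) :
    g • OmB.base U B = OmB.base U B ↔ ∀ v ∉ B, L.emb v g ∈ PO (L.O v) := by
  constructor
  · intro h v hv
    have h1 : L.emb v g • X.base U v = X.base U v := congrArg (fun x : OmB U B => x.1 ⟨v, hv⟩) h
    rw [← hU v hv]
    exact LocFam.smul_base_iff.mp h1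
  · intro h
    apply OmB.ext
    intro v
    exact LocFam.smul_base (by rw [hU v.1 v.2]; exact h v.1 v.2)

theorem OmB.smul_base_iff [CharZero F] (hA : Adic L B N) (hB : ClassOne L B)
    (hU : ∀ v ∉ B, U.U v = PO (L.O v)) (g : GL (Fin 2) F) :
    g • OmB.base U B = OmB.base U B ↔ ∃ z : Fˣ, (∀ i j, (sc z * g) i j ∈ SI N F) ∧
      ∀ i j, (sc z * g)⁻¹ i j ∈ SI N F := by
  rw [OmB.smul_base_iff_PO hU]
  constructor
  · intro h
    obtain ⟨z, hz⟩ := exists_scalar hB h
    exact ⟨z, hA.mem_GLO_iff_SI.mp hz⟩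
  · rintro ⟨z, hz⟩ v hv
    have h1 := hA.mem_GLO_iff_SI.mpr hz v hv
    have h2 : L.emb v g = ProjGenLinGroup.mk (GeneralLinearGroup.map (L.loc v) (sc z * g)) := by
      rw [← emb_eq, map_mul]
      have : L.emb v (sc z) = 1 := by
        rw [LocFam.emb, MonoidHom.comp_apply, sc, ProjGenLinGroup.mk_scalar, map_one]
      rw [this, one_mul]
    rw [h2]
    exact mk_mem_PO h1

/-! ### existence of `N` -/

theorem exists_finset_place (L : LocFam.{w} F ι) (N : ℕ) : ∃ B : Finset ι, ∀ v, v ∈ B ↔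
    L.loc v ((N : F)⁻¹) ∉ L.O v := by
  have h := L.eventually_mem ((N : F)⁻¹)
  rw [eventually_cofinite] at h
  exact ⟨h.toFinset, fun v => by simp⟩

end Fermat.Agent.LT.T4
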