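import Fermat.Agent.LT.T4.Iface
import Fermat.Agent.LT.Theta.Props

set_option autoImplicit false

/-!
# Regrouping of the theta form: sums over pairs (element, ideal)
-/

namespace Fermat.Agent.LT.T4

open Fermat.Agent.LT.Theta NumberField Module
open scoped Real

section units

variable {N : ℕ} {K : Type*} [Field K] [NumberField K]

/-- `1 + N^n y` is a unit at `N` -/
theorem inv_one_add_mem (hN : 0 < N) {n : ℕ} (hn : 1 ≤ n) {y : K} (hy : y ∈ LI N K)
    (h0 : 1 + (N : K) ^ n * y ≠ 0) : (1 + (N : K) ^ n * y)⁻¹ ∈ LI N K := by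
  obtain ⟨m, hm, hx⟩ := hy
  have hN' : (N : K) ≠ 0 := by exact_mod_cast hN.ne'
  have hm0 : m ≠ 0 ∨ N = 1 := by
    by_cases h : m = 0
    · right
      subst h
      simpa using hm
    · exact Or.inl h
  -- the element `z = m (1 + N^n y)` is integral and congruent to `m` modulo `N`
  set z : K := (m : K) * (1 + (N : K) ^ n * y) with hz
  have hzint : IsIntegral ℤ z := by
    have : z = (m : K) + (N : K) ^ n * ((m : K) * y) := by rw [hz]; ring
    rw [this]
    exact (isIntegral_natCast' m).add (((isIntegral_natCast' N).pow n).mul hx)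
  rcases hm0 with hm0 | hN1
  · have hmK : (m : K) ≠ 0 := by exact_mod_cast hm0
    have hz0 : z ≠ 0 := mul_ne_zero hmK h0
    -- `z⁻¹ ∈ LI`
    have hzinv : z⁻¹ ∈ LI N K := by
      -- use the norm
      obtain ⟨M, hM, hMz⟩ := exists_nat_integral (z⁻¹)
      obtain ⟨m₁, m₂, k, h1, h2, c, h3⟩ := exists_coprime_part hN M hM
      refine ⟨m₁, h2, ?_⟩
      -- `N^k (m₁ z⁻¹)` is integral
      have hk : IsIntegral ℤ ((N : K) ^ k * ((m₁ : K) * z⁻¹)) := by
        have e' : (N : K) ^ k = m₂ * c := by exact_mod_cast congrArg (fun z : ℕ => (z : K)) h3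
        have : (N : K) ^ k * ((m₁ : K) * z⁻¹) = c * ((M : K) * z⁻¹) := by
          rw [e', h1]; push_cast; ring
        rw [this]
        exact (isIntegral_natCast' c).mul hMz
      -- descend: `N^(i+1) w` integral and `w z` integral ⇒ `N^i w` integral
      set w : K := (m₁ : K) * z⁻¹ with hw
      have hwz : w * z = m₁ := by rw [hw]; field_simp
      have hdesc : ∀ i : ℕ, IsIntegral ℤ ((N : K) ^ (i + 1) * w) → IsIntegral ℤ ((N : K) ^ i * w) := by
        intro i hi
        obtain ⟨u, v, huv⟩ := Nat.isCoprime_iff_coprime.mpr hm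
        -- `u m + v N = 1`; `m w = w z - m N^n y w`
        have e2 : (m : K) * w = m₁ - (N : K) ^ n * ((m : K) * y) * w := by
          have : w * z = (m : K) * w + (N : K) ^ n * ((m : K) * y) * w := by rw [hz]; ring
          rw [← hwz, this]; ring
        obtain ⟨n', rfl⟩ : ∃ n', n = n' + 1 := ⟨n - 1, by omega⟩
        have huv' : (u : K) * m + v * N = 1 := by exact_mod_cast congrArg (fun z : ℤ => (z : K)) huv
        have e3 : (N : K) ^ i * w = (u : K) * ((N : K) ^ i * m₁ -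
            (N : K) ^ n' * ((m : K) * y) * ((N : K) ^ (i + 1) * w)) + v * ((N : K) ^ (i + 1) * w) := by
          calc (N : K) ^ i * w = ((u : K) * m + v * N) * ((N : K) ^ i * w) := by rw [huv', one_mul]
            _ = u * ((N : K) ^ i * ((m : K) * w)) + v * ((N : K) ^ (i + 1) * w) := by ring
            _ = _ := by rw [e2]; ring
        rw [e3]
        refine ((isIntegral_intCast' u).mul (IsIntegral.sub ?_ ?_)).add
          ((isIntegral_intCast' v).mul hi)
        · exact ((isIntegral_natCast' N).pow i).mul (isIntegral_natCast' m₁)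
        · exact (((isIntegral_natCast' N).pow n').mul hx).mul hi
      have hall : ∀ i : ℕ, IsIntegral ℤ ((N : K) ^ i * w) → IsIntegral ℤ w := by
        intro i
        induction i with
        | zero => intro h; simpa using h
        | succ i ih => intro h; exact ih (hdesc i h)
      exact hall k hk
    have : (1 + (N : K) ^ n * y)⁻¹ = (m : K) * z⁻¹ := by rw [hz]; field_simp
    rw [this]
    exact (LI N K).mul_mem (LI_of_isIntegral (isIntegral_natCast' m)) hzinv
  · subst hN1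
    obtain ⟨M, hM, hMz⟩ := exists_nat_integral ((1 + ((1 : ℕ) : K) ^ n * y)⁻¹)
    exact ⟨M, Nat.coprime_one_right M, hMz⟩

end units

namespace T4D

variable {E L : Type*} [Field E] [NumberField E] [Field L] [NumberField L] [Algebra E L]
  (T : T4D E L)

theorem A1_mem_LI {n : ℕ} {ξ : Eˣ} (h : ξ ∈ T.A1 n) : (ξ : E) ∈ LI T.N E := by
  obtain ⟨y, hy, e⟩ := h
  rw [e]
  exact (LI T.N E).add_mem (LI T.N E).one_mem ((LI T.N E).mul_mem
    (LI_of_isIntegral ((isIntegral_natCast' T.N).pow n)) hy)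

/-- `A1 n` as a group -/
noncomputable def G1 (n : ℕ) (hn : 1 ≤ n) : Subgroup Eˣ where
  carrier := T.A1 n
  mul_mem' := by
    rintro a b ⟨y, hy, e⟩ ⟨y', hy', e'⟩
    refine ⟨y + y' + (T.N : E) ^ n * y * y', ?_, ?_⟩
    · exact (LI T.N E).add_mem ((LI T.N E).add_mem hy hy') ((LI T.N E).mul_mem
        ((LI T.N E).mul_mem (LI_of_isIntegral ((isIntegral_natCast' T.N).pow n)) hy) hy')
    · rw [Units.val_mul, e, e']; ring
  one_mem' := ⟨0, (LI T.N E).zero_mem, by simp⟩
  inv_mem' := by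
    rintro a ⟨y, hy, e⟩
    have h0 : 1 + (T.N : E) ^ n * y ≠ 0 := by rw [← e]; exact a.ne_zero
    have h1 := inv_one_add_mem T.hN hn hy h0
    refine ⟨-(y * (1 + (T.N : E) ^ n * y)⁻¹), (LI T.N E).neg_mem ((LI T.N E).mul_mem hy h1), ?_⟩
    rw [Units.val_inv_eq_inv_val, e]
    field_simp
    ring

theorem mem_G1 {n : ℕ} {hn : 1 ≤ n} {ξ : Eˣ} : ξ ∈ T.G1 n hn ↔ ξ ∈ T.A1 n := Iff.rfl

theorem A1_UL {n : ℕ} (hn : 1 ≤ n) {ξ : Eˣ} (h : ξ ∈ T.A1 n) : ξ ∈ UL T.N E :=
  ⟨T.A1_mem_LI h, T.A1_mem_LI ((T.G1 n hn).inv_mem h)⟩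

/-- the pairs (element of `A1 n`, integral ideal of norm `ξ c`) -/
def PI (n : ℕ) (c : Eˣ) : Type _ :=
  Σ ξ : T.A1 n, {b : Idl T.N L // nmI T.N E L b = QuotientGroup.mk ((ξ : Eˣ) * c) ∧ InS b 1}

/-- a generator -/
noncomputable def pgen (b : Idl T.N L) : Lˣ := Quotient.out b

theorem mk_pgen (b : Idl T.N L) : (QuotientGroup.mk (T.pgen b) : Idl T.N L) = b :=
  QuotientGroup.out_eq' b

variable [IsTotallyComplex E]

theorem exists_majPI (n : ℕ) (c : Eˣ) {ε : ℝ} (hε : 0 < ε) {j : ℕ} (hj : 2 ≤ j) :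
    ∃ u : T.PI n c → ℝ, Summable u ∧ (∀ o, 0 ≤ u o) ∧ ∀ p : HF E, (∀ v, ε ≤ (p v).y) →
      ∀ o, bwn p ((o.1 : Eˣ) : E) ≤ u o * (ht p ^ (2 * j + 1))⁻¹ := by
  classical
  have hfin := T.q.finDim
  have hN' : (T.N : L) ≠ 0 := by exact_mod_cast T.hN.ne'
  -- facts on the generators
  have hnm : ∀ o : T.PI n c, ∃ s : E, s ≠ 0 ∧ s ∈ SI T.N E ∧ s⁻¹ ∈ SI T.N E ∧
      ((o.1 : Eˣ) : E) * c = s * Algebra.norm E (T.pgen o.2.1 : L) := by
    intro o
    have h := o.2.2.1
    rw [← T.mk_pgen o.2.1, nmI_mk, QuotientGroup.eq] at h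
    refine ⟨_, Units.ne_zero _, h.1, ?_, ?_⟩
    · rw [← Units.val_inv_eq_inv_val]; exact h.2
    · rw [← nmU_coe, ← Units.val_mul, ← Units.val_mul, mul_comm ((nmU E L _)⁻¹ * _), mul_inv_cancel_left]
  have hint : ∀ o : T.PI n c, (T.pgen o.2.1 : L) ∈ SI T.N L := by
    intro o
    have h := o.2.2.2
    rw [← T.mk_pgen o.2.1, inS_mk, mul_one] at h
    exact h
  obtain ⟨m0, hm0, hm0i⟩ := exists_nat_integral ((c : E)⁻¹)
  have hm0' : (m0 : E) ≠ 0 := by exact_mod_cast hm0
  -- `m0 ξ / β ∈ SI`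
  have g1 : ∀ o : T.PI n c, (algebraMap E L ((m0 : E) * ((o.1 : Eˣ) : E))) / (T.pgen o.2.1 : L) ∈
      SI T.N L := by
    intro o
    obtain ⟨s, hs0, hs, hs', e⟩ := hnm o
    have hc := c.ne_zero
    have e1 : (m0 : E) * ((o.1 : Eˣ) : E) = ((m0 : E) * (c : E)⁻¹) * s *
        Algebra.norm E (T.pgen o.2.1 : L) := by
      rw [mul_assoc ((m0 : E) * (c : E)⁻¹), ← e]
      field_simp
    have e2 : algebraMap E L (Algebra.norm E (T.pgen o.2.1 : L)) = (T.pgen o.2.1 : L) *
        T.q.c (T.pgen o.2.1 : L) := T.q.norm_eq _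
    have hg := (T.pgen o.2.1).ne_zero
    rw [e1, map_mul, e2, map_mul]
    have e3 : algebraMap E L ((m0 : E) * (c : E)⁻¹) * algebraMap E L s * ((T.pgen o.2.1 : L) *
        T.q.c (T.pgen o.2.1 : L)) / (T.pgen o.2.1 : L) =
        algebraMap E L ((m0 : E) * (c : E)⁻¹) * algebraMap E L s * T.q.c (T.pgen o.2.1 : L) := by
      field_simp
    rw [e3]
    exact (SI T.N L).mul_mem ((SI T.N L).mul_mem (SI_algebraMap (SI_of_isIntegral hm0i))
      (SI_algebraMap hs)) (SI_c T.q (hint o))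
  have g2 : ∀ o : T.PI n c, IsIntegral ℤ (algebraMap E L ((m0 : E) * ((o.1 : Eˣ) : E))) := by
    intro o
    apply isIntegral_of_SI_LI (N := T.N)
    · have := (SI T.N L).mul_mem (g1 o) (hint o)
      rwa [div_mul_cancel₀ _ (T.pgen o.2.1).ne_zero] at this
    · exact LI_algebraMap ((LI T.N E).mul_mem (LI_of_isIntegral (isIntegral_natCast' m0))
        (T.A1_mem_LI o.1.2))
  have g3 : ∀ o : T.PI n c, IsIntegral ℤ ((m0 : E) * ((o.1 : Eˣ) : E)) := by
    intro o
    have := g2 o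
    rwa [isIntegral_algebraMap_iff (FaithfulSMul.algebraMap_injective E L)] at this
  obtain ⟨u, hu, hu0, hb⟩ := conv_main (E := E) (L := L) (O := T.PI n c)
    (ξ := fun o => ((o.1 : Eˣ) : E)) (𝔞 := fun o => mixId T.N (T.pgen o.2.1 : L) 1)
    (A := fun _ => 1) (by
      rintro ⟨ξ, b⟩ ⟨ξ', b'⟩ - - h1 h2
      have hξ : ξ = ξ' := Subtype.ext (Units.ext h1)
      subst hξ
      have e1 := mixId_SI T.hN (T.pgen b.1).ne_zero (by
        have h := b.2.2
        rw [← T.mk_pgen b.1, inS_mk, mul_one] at h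
        exact h) h2.le
      have e2 := mixId_SI T.hN (T.pgen b'.1).ne_zero (by
        have h := b'.2.2
        rw [← T.mk_pgen b'.1, inS_mk, mul_one] at h
        exact h) h2.ge
      have e3 : b.1 = b'.1 := by
        rw [← T.mk_pgen b.1, ← T.mk_pgen b'.1, QuotientGroup.eq]
        refine ⟨?_, ?_⟩
        · rw [Units.val_mul, Units.val_inv_eq_inv_val, mul_comm, ← div_eq_mul_inv]; exact e2
        · rw [_root_.mul_inv_rev, inv_inv, Units.val_mul, Units.val_inv_eq_inv_val, mul_comm,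
            ← div_eq_mul_inv]
          exact e1
      congr 1
      exact Subtype.ext e3) (M := m0) (Nat.pos_of_ne_zero hm0) (fun o _ => g3 o)
    (fun o _ => Units.ne_zero _) (C1 := (m0 : ℝ) ^ finrank ℚ L) (by positivity) (m := 2) (by
      intro o _
      have ht : (⟨_, g2 o⟩ : 𝓞 L) ∈ mixId T.N (T.pgen o.2.1 : L) 1 := by
        refine ⟨g1 o, ?_⟩
        show algebraMap E L _ / 1 ∈ _
        rw [div_one]
        exact LI_of_isIntegral (g2 o)
      have hne : (⟨_, g2 o⟩ : 𝓞 L) ≠ 0 := by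
        intro h
        have h1 : algebraMap E L ((m0 : E) * ((o.1 : Eˣ) : E)) = 0 := congrArg Subtype.val h
        rw [map_eq_zero, mul_eq_zero] at h1
        exact h1.elim hm0' (Units.ne_zero _)
      refine (absNorm_mixId_le ht hne).trans ?_
      have e1 : Algebra.norm ℚ (algebraMap E L ((m0 : E) * ((o.1 : Eˣ) : E))) =
          (m0 : ℚ) ^ finrank ℚ L * (Algebra.norm ℚ ((o.1 : Eˣ) : E)) ^ 2 := by
        rw [← Algebra.norm_norm (S := E), Algebra.norm_algebraMap, T.q.two, map_pow, map_mul,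
          mul_pow]
        have e2 : Algebra.norm ℚ ((m0 : ℕ) : E) = (m0 : ℚ) ^ finrank ℚ E := by
          have := Algebra.norm_algebraMap (S := E) (m0 : ℚ)
          simpa using this
        rw [e2, ← pow_mul, ← T.q.two, finrank_mul_finrank]
      show |((Algebra.norm ℚ (algebraMap E L ((m0 : E) * ((o.1 : Eˣ) : E))) : ℚ) : ℝ)| ≤ _
      rw [e1]
      push_cast
      rw [abs_mul, abs_pow, abs_pow, Nat.abs_cast]) (C2 := 1) (by norm_num) (fun _ => le_rfl) hε hj
  exact ⟨u, hu, hu0, fun p hp o => by simpa using hb p hp o⟩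

end T4D

end Fermat.Agent.LT.T4
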