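import Fermat.Agent.LT.T4.Reg1

set_option autoImplicit false

/-!
# Regrouping of the theta form: the series as a sum over pairs
-/

namespace Fermat.Agent.LT.T4

open Fermat.Agent.LT.Theta NumberField Module
open scoped Real

namespace T4D

variable {E L : Type*} [Field E] [NumberField E] [Field L] [NumberField L] [Algebra E L]
  (T : T4D E L)

theorem norm_ψ_one (x : E) : ‖T.ψ x‖ = 1 := by
  have h : T.ψ x = e0 E (lpart T.N x) := rfl
  rw [h, e0_apply]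
  rw [show -(2 * (π : ℂ) * Complex.I * ((Algebra.trace ℚ E (lpart T.N x) : ℚ) : ℂ)) =
    ((-(2 * π * ((Algebra.trace ℚ E (lpart T.N x) : ℚ) : ℝ)) : ℝ) : ℂ) * Complex.I by
      push_cast; ring]
  exact Complex.norm_exp_ofReal_mul_I _

theorem norm_psiI_one (b : Idl T.N L) : ‖((T.psiI b : ℂˣ) : ℂ)‖ = 1 := by
  rw [← T.mk_pgen b, psiI_mk]
  exact T.psi_norm _ (Units.ne_zero _)

theorem psi_ne_zero {x : L} (hx : x ≠ 0) : T.psi x ≠ 0 := by
  rw [← norm_ne_zero_iff, T.psi_norm x hx]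
  exact one_ne_zero

/-- the basic Schwartz function `psi(x) 1[x ∈ UL, N x ∈ A1 n]` -/
noncomputable def Ph1 (n : ℕ) (x : L) : ℂ := by
  classical
  exact if ∃ u : Lˣ, (u : L) = x ∧ u ∈ UL T.N L ∧ nmU E L u ∈ T.A1 n then T.psi x else 0

theorem Ph1_of {n : ℕ} {u : Lˣ} (h1 : u ∈ UL T.N L) (h2 : nmU E L u ∈ T.A1 n) :
    T.Ph1 n (u : L) = T.psi (u : L) := by
  classical
  unfold Ph1
  rw [if_pos ⟨u, rfl, h1, h2⟩]

theorem Ph1_ne {n : ℕ} {u : Lˣ} (h : T.Ph1 n (u : L) ≠ 0) :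
    u ∈ UL T.N L ∧ nmU E L u ∈ T.A1 n := by
  classical
  unfold Ph1 at h
  split_ifs at h with h1
  · obtain ⟨v, hv, h2, h3⟩ := h1
    have : v = u := Units.ext hv
    subst this
    exact ⟨h2, h3⟩
  · exact absurd rfl h

theorem Ph1_eq_zero {n : ℕ} {u : Lˣ} (h : ¬ (u ∈ UL T.N L ∧ nmU E L u ∈ T.A1 n)) :
    T.Ph1 n (u : L) = 0 := by
  by_contra h'
  exact h (T.Ph1_ne h')

theorem Ph1_mul {n : ℕ} {g : Lˣ} (hg : g ∈ T.H) (u : Lˣ) :
    T.Ph1 n ((g : L) * u) = T.psi (g : L) * T.Ph1 n (u : L) := by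
  have hg' := T.mem_H.mp hg
  by_cases h : u ∈ UL T.N L ∧ nmU E L u ∈ T.A1 n
  · have h1 : g * u ∈ UL T.N L := (UL T.N L).mul_mem hg'.2 h.1
    have h2 : nmU E L (g * u) ∈ T.A1 n := by rw [map_mul, hg'.1, one_mul]; exact h.2
    rw [← Units.val_mul, T.Ph1_of h1 h2, T.Ph1_of h.1 h.2, Units.val_mul, map_mul]
  · rw [T.Ph1_eq_zero h, mul_zero, ← Units.val_mul]
    apply T.Ph1_eq_zero
    rintro ⟨h1, h2⟩
    apply h
    constructor
    · have := (UL T.N L).mul_mem ((UL T.N L).inv_mem hg'.2) h1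
      rwa [inv_mul_cancel_left] at this
    · rwa [map_mul, hg'.1, one_mul] at h2

theorem Ph1_zero (n : ℕ) : T.Ph1 n 0 = 0 := by
  classical
  unfold Ph1
  rw [if_neg]
  rintro ⟨u, hu, -⟩
  exact u.ne_zero hu

theorem Ph1_eqv (n : ℕ) : T.Eqv (T.Ph1 n) := by
  intro u hu x
  by_cases hx : x = 0
  · rw [hx, mul_zero, T.Ph1_zero, mul_zero]
  · exact T.Ph1_mul hu (Units.mk0 x hx)

/-- the norms of the units at `N`, in `A1 n` -/
def MN (n : ℕ) : Set Eˣ := {ξ | ξ ∈ T.A1 n ∧ ∃ u ∈ UL T.N L, nmU E L u = ξ}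

/-- the pairs (norm in `A1 n`, integral ideal of norm `ξ c`) -/
def PM (n : ℕ) (c : Eˣ) : Type _ :=
  Σ ξ : T.MN n, {b : Idl T.N L // nmI T.N E L b = QuotientGroup.mk ((ξ : Eˣ) * c) ∧ InS b 1}

omit [NumberField E] [NumberField L] in
theorem inS_mul {N : ℕ} (γ : Lˣ) (b : Idl N L) (x : L) :
    InS (QuotientGroup.mk γ * b : Idl N L) x ↔ InS b ((γ : L) * x) := by
  obtain ⟨β, rfl⟩ := QuotientGroup.mk_surjective b
  rw [inS_mk]
  rw [show (QuotientGroup.mk γ * QuotientGroup.mk β : Idl N L) = QuotientGroup.mk (γ * β) from rfl]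
  rw [inS_mk, Units.val_mul]
  rw [mul_comm (γ : L) (β : L), mul_assoc]

/-- a chosen element of norm `ξ` -/
noncomputable def xn {n : ℕ} (ξ : T.MN n) : Lˣ := ξ.2.2.choose

theorem xn_mem {n : ℕ} (ξ : T.MN n) : T.xn ξ ∈ UL T.N L := ξ.2.2.choose_spec.1

theorem nm_xn {n : ℕ} (ξ : T.MN n) : nmU E L (T.xn ξ) = ξ := ξ.2.2.choose_spec.2

/-- the point attached to a pair -/
noncomputable def jp {n : ℕ} {c : Eˣ} (o : T.PM n c) : T.SS c × XL (T.H.subtype) :=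
  (⟨QuotientGroup.mk (T.xn o.1)⁻¹ * o.2.1, by
    rw [map_mul, nmI_mk, map_inv, T.nm_xn, o.2.2.1]
    rw [show ((QuotientGroup.mk ((o.1 : Eˣ)⁻¹) : Idl T.N E) * QuotientGroup.mk ((o.1 : Eˣ) * c)) =
      QuotientGroup.mk ((o.1 : Eˣ)⁻¹ * ((o.1 : Eˣ) * c)) from rfl, inv_mul_cancel_left]⟩,
    (T.xn o.1 : Lˣ))

/-- the summand on `S × L^*` -/
noncomputable def f0 (n : ℕ) (p : HF E) (c : Eˣ) (s : E) (z : T.SS c × XL (T.H.subtype)) : ℂ :=
  T.Psi (T.Ph1 n) s z.1 z.2.val * bw p (Algebra.norm E z.2.val)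

theorem countable_H : Countable T.H := by
  have h1 : Countable L :=
    Countable.of_equiv (IB L → ℚ) ((integralBasis L).equivFun).toEquiv.symm
  have h2 : Countable Lˣ := (Units.val_injective (α := L)).countable
  infer_instance

theorem f0_smul (n : ℕ) (p : HF E) (c : Eˣ) (s : E) (g : T.H) (z : T.SS c × XL (T.H.subtype)) :
    T.f0 n p c s (g • z) = T.f0 n p c s z := by
  classical
  have hcount := T.countable_H
  obtain ⟨b, x⟩ := z
  have hg := T.mem_H.mp g.2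
  have hgne : ((g : Lˣ) : L) ≠ 0 := Units.ne_zero _
  have e1 : (g • x).val = (((g : Lˣ) : L))⁻¹ * x.val := XL.smul_val _ g x
  have e2 : Algebra.norm E ((g • x).val) = Algebra.norm E x.val := by
    rw [e1, map_mul, ← Units.val_inv_eq_inv_val, ← nmU_coe, map_inv, hg.1, inv_one, Units.val_one,
      one_mul]
  have hx : x.val = ((show Lˣ from x : Lˣ) : L) := rfl
  have e3 : T.Ph1 n ((g • x).val) = (T.psi ((g : Lˣ) : L))⁻¹ * T.Ph1 n x.val := by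
    have h1 := T.Ph1_mul (n := n) g.2 ((g : Lˣ)⁻¹ * (show Lˣ from x))
    rw [Units.val_mul, Units.val_inv_eq_inv_val, mul_inv_cancel_left₀ hgne] at h1
    rw [e1, hx, h1, inv_mul_cancel_left₀ (T.psi_ne_zero hgne)]
  have e4 : InS ((g • b : T.SS c).1) ((g • x).val) ↔ InS b.1 x.val := by
    rw [T.smul_SS_val, inS_mul, e1, mul_inv_cancel_left₀ hgne]
  have e5 : ((T.psiI (g • b : T.SS c).1 : ℂˣ) : ℂ) = T.psi ((g : Lˣ) : L) * T.psiI b.1 := by
    rw [T.smul_SS_val, map_mul, Units.val_mul, psiI_mk]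
  show T.Psi (T.Ph1 n) s (g • b) ((g • x).val) * bw p (Algebra.norm E ((g • x).val)) = _
  unfold f0 Psi
  rw [e2, e3, e5]
  simp only [e4]
  have h0 := T.psi_ne_zero hgne
  field_simp

/-- the term attached to a pair -/
noncomputable def tm (p : HF E) (s : E) (ξ : Eˣ) (b : Idl T.N L) : ℂ :=
  (T.psiI b : ℂ) * T.ψ ((ξ : E) * s) * bw p (ξ : E)

theorem f0_jp (n : ℕ) (p : HF E) (c : Eˣ) (s : E) (o : T.PM n c) :
    T.f0 n p c s (T.jp o) = T.tm p s o.1 o.2.1 := by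
  classical
  obtain ⟨ξ, b, hb, hi⟩ := o
  have hv : (T.jp (⟨ξ, b, hb, hi⟩ : T.PM n c)).2.val = ((T.xn ξ : Lˣ) : L) := rfl
  have h1 : (T.jp (⟨ξ, b, hb, hi⟩ : T.PM n c)).1.1 = QuotientGroup.mk (T.xn ξ)⁻¹ * b := rfl
  have hne : ((T.xn ξ : Lˣ) : L) ≠ 0 := Units.ne_zero _
  have h2 : InS (QuotientGroup.mk (T.xn ξ)⁻¹ * b : Idl T.N L) ((T.xn ξ : Lˣ) : L) := by
    rw [inS_mul, Units.val_inv_eq_inv_val, inv_mul_cancel₀ hne]
    exact hi
  have h3 : Algebra.norm E ((T.xn ξ : Lˣ) : L) = ((ξ : Eˣ) : E) := by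
    rw [← nmU_coe, T.nm_xn]
  have h4 : ((T.psiI (QuotientGroup.mk (T.xn ξ)⁻¹ * b : Idl T.N L) : ℂˣ) : ℂ) =
      (T.psi ((T.xn ξ : Lˣ) : L))⁻¹ * T.psiI b := by
    rw [map_mul, Units.val_mul, psiI_mk, Units.val_inv_eq_inv_val, map_inv₀]
  unfold f0 Psi
  rw [hv, h1, if_pos h2, h3, h4, T.Ph1_of (T.xn_mem ξ) (by rw [T.nm_xn]; exact ξ.2.1)]
  have h0 := T.psi_ne_zero hne
  unfold tm
  rw [mul_comm s]
  field_simp

theorem jp_injective {n : ℕ} {c : Eˣ} : Function.Injective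
    (fun o : T.PM n c => (Quotient.mk (MulAction.orbitRel T.H (T.SS c × XL (T.H.subtype)))
      (T.jp o) : Orb T.H.subtype (T.SS c))) := by
  rintro ⟨ξ, b, hb, hi⟩ ⟨ξ', b', hb', hi'⟩ h
  have h1 : (MulAction.orbitRel T.H (T.SS c × XL (T.H.subtype))).r
      (T.jp (⟨ξ, b, hb, hi⟩ : T.PM n c)) (T.jp (⟨ξ', b', hb', hi'⟩ : T.PM n c)) :=
    Quotient.exact h
  obtain ⟨g, hg⟩ := MulAction.orbitRel_apply.mp h1
  have hg' := T.mem_H.mp g.2
  have e1 : (g : Lˣ)⁻¹ * T.xn ξ' = T.xn ξ := congrArg Prod.snd hg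
  have e2 : QuotientGroup.mk (g : Lˣ) * (QuotientGroup.mk (T.xn ξ')⁻¹ * b') =
      (QuotientGroup.mk (T.xn ξ)⁻¹ * b : Idl T.N L) := congrArg (fun z => z.1.1) hg
  have e3 : ξ = ξ' := by
    apply Subtype.ext
    rw [← T.nm_xn ξ, ← T.nm_xn ξ', ← e1, map_mul, map_inv, hg'.1, inv_one, one_mul]
  subst e3
  have e4 : (g : Lˣ) = 1 := by
    have : (g : Lˣ)⁻¹ = 1 := mul_eq_right.mp e1
    rwa [inv_eq_one] at this
  rw [e4] at e2
  have e6 : (QuotientGroup.mk (T.xn ξ)⁻¹ * b' : Idl T.N L) = QuotientGroup.mk (T.xn ξ)⁻¹ * b :=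
    (one_mul (M := Idl T.N L) _).symm.trans e2
  have e7 : b' = b := by
    have h5 : (QuotientGroup.mk (T.xn ξ) : Idl T.N L) * (QuotientGroup.mk (T.xn ξ)⁻¹ * b') =
        QuotientGroup.mk (T.xn ξ) * (QuotientGroup.mk (T.xn ξ)⁻¹ * b) := by rw [e6]
    rw [← mul_assoc, ← mul_assoc] at h5
    have h6 : (QuotientGroup.mk (T.xn ξ) : Idl T.N L) * QuotientGroup.mk (T.xn ξ)⁻¹ =
      (1 : Idl T.N L) := by
      show (QuotientGroup.mk (T.xn ξ * (T.xn ξ)⁻¹) : Idl T.N L) = _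
      rw [mul_inv_cancel]; rfl
    rw [h6] at h5
    exact ((one_mul (M := Idl T.N L) _).symm.trans h5).trans (one_mul (M := Idl T.N L) _)
  subst e7
  rfl

theorem f0_range (n : ℕ) (p : HF E) (c : Eˣ) (s : E) (z : T.SS c × XL (T.H.subtype))
    (h : T.f0 n p c s z ≠ 0) : ∃ o : T.PM n c,
    (Quotient.mk (MulAction.orbitRel T.H (T.SS c × XL (T.H.subtype))) (T.jp o) :
      Orb T.H.subtype (T.SS c)) = Quotient.mk _ z := by
  classical
  obtain ⟨b, x⟩ := z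
  set u : Lˣ := (show Lˣ from x) with hu
  have hx : x.val = (u : L) := rfl
  have h1 : T.Ph1 n (u : L) ≠ 0 := by
    intro h0
    apply h
    unfold f0 Psi
    rw [show ((b, x) : T.SS c × XL (T.H.subtype)).2.val = (u : L) from rfl, h0]
    ring
  have h2 : InS b.1 (u : L) := by
    by_contra h0
    apply h
    unfold f0 Psi
    rw [show ((b, x) : T.SS c × XL (T.H.subtype)).2.val = (u : L) from rfl,
      show ((b, x) : T.SS c × XL (T.H.subtype)).1 = b from rfl, if_neg h0]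
    ring
  obtain ⟨h3, h4⟩ := T.Ph1_ne h1
  let ξ : T.MN n := ⟨nmU E L u, h4, u, h3, rfl⟩
  have hb : nmI T.N E L (QuotientGroup.mk u * b.1) = QuotientGroup.mk ((ξ : Eˣ) * c) := by
    rw [map_mul, nmI_mk, b.2]
    rfl
  have hi : InS (QuotientGroup.mk u * b.1 : Idl T.N L) 1 := by
    rw [inS_mul, mul_one]; exact h2
  refine ⟨⟨ξ, QuotientGroup.mk u * b.1, hb, hi⟩, Quotient.sound ?_⟩
  -- the group element
  have hxm := T.xn_mem ξ
  have hgH : u * (T.xn ξ)⁻¹ ∈ T.H := by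
    rw [T.mem_H]
    refine ⟨?_, (UL T.N L).mul_mem h3 ((UL T.N L).inv_mem hxm)⟩
    rw [map_mul, map_inv, T.nm_xn]
    exact mul_inv_cancel _
  refine MulAction.orbitRel_apply.mpr ⟨⟨u * (T.xn ξ)⁻¹, hgH⟩, ?_⟩
  apply Prod.ext
  · apply Subtype.ext
    show QuotientGroup.mk (u * (T.xn ξ)⁻¹) * b.1 = QuotientGroup.mk (T.xn ξ)⁻¹ *
      (QuotientGroup.mk u * b.1)
    rw [← mul_assoc]
    congr 1
    show (QuotientGroup.mk (u * (T.xn ξ)⁻¹) : Idl T.N L) = QuotientGroup.mk ((T.xn ξ)⁻¹ * u)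
    rw [mul_comm]
  · show (u * (T.xn ξ)⁻¹)⁻¹ * u = T.xn ξ
    rw [_root_.mul_inv_rev, inv_inv, mul_assoc, inv_mul_cancel, mul_one]

/-- **The theta function of `Ph1` as a sum over pairs.** -/
theorem fPhi_eq (n : ℕ) (p : HF E) (c : Eˣ) (s : E) :
    T.fPhi (T.Ph1 n) p c s = ((nrm T.N (c : E) : ℝ) : ℂ) ^ (-(1 / 2) : ℂ) *
      ∑' o : T.PM n c, T.tm p s o.1 o.2.1 := by
  unfold fPhi
  congr 1
  have hF : ∀ z : T.SS c × XL (T.H.subtype),
      T.f0 n p c s (rep (Quotient.mk (MulAction.orbitRel T.H (T.SS c × XL (T.H.subtype))) z)) =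
        T.f0 n p c s z := by
    intro z
    have h1 : (MulAction.orbitRel T.H (T.SS c × XL (T.H.subtype))).r
        (rep (Quotient.mk (MulAction.orbitRel T.H (T.SS c × XL (T.H.subtype))) z)) z :=
      Quotient.exact (Quotient.out_eq _)
    obtain ⟨g, hg⟩ := MulAction.orbitRel_apply.mp h1
    rw [← hg]
    exact T.f0_smul n p c s g z
  have e1 : ∀ o : T.PM n c, T.tm p s o.1 o.2.1 = (fun o' : Orb T.H.subtype (T.SS c) =>
      T.f0 n p c s (rep o')) (Quotient.mk (MulAction.orbitRel T.H (T.SS c × XL (T.H.subtype)))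
        (T.jp o)) := by
    intro o
    simp only [hF, T.f0_jp]
  simp_rw [e1]
  rw [T.jp_injective.tsum_eq (f := fun o' : Orb T.H.subtype (T.SS c) => T.f0 n p c s (rep o'))]
  · rfl
  · intro o ho
    obtain ⟨o', ho'⟩ := T.f0_range n p c s (rep o) ho
    exact ⟨o', ho'.trans (Quotient.out_eq _)⟩

end T4D

end Fermat.Agent.LT.T4
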