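import Fermat.Agent.LT.T4.Reg2

set_option autoImplicit false

/-!
# Regrouping of the theta form: the sum over norm classes
-/

namespace Fermat.Agent.LT.T4

open Fermat.Agent.LT.Theta NumberField Module Ideal
open scoped Real

section nrm

variable {N : ℕ} {K : Type*} [Field K] [NumberField K]

/-- for an integral element which is a unit at `N`, the away norm is the norm -/
theorem nrm_integral (hN : 0 < N) {x : 𝓞 K} (hx : x ≠ 0) (hu : ((x : K))⁻¹ ∈ LI N K) :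
    nrm N (x : K) = |((Algebra.norm ℚ (x : K) : ℚ) : ℝ)| := by
  have hx' : (x : K) ≠ 0 := by
    intro h; apply hx; exact Subtype.ext h
  set b : SI N K := ⟨(x : K), SI_of_isIntegral x.isIntegral_coe⟩ with hb
  have hb0 : b ≠ 0 := fun h => hx' (congrArg Subtype.val h)
  have h1 : nrm N (x : K) = Nat.card (SI N K ⧸ span {b}) := nrm_coe hN hb0
  -- the map
  let i : 𝓞 K →+* SI N K :=
    { toFun := fun y => ⟨(y : K), SI_of_isIntegral y.isIntegral_coe⟩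
      map_one' := rfl
      map_mul' := fun _ _ => rfl
      map_zero' := rfl
      map_add' := fun _ _ => rfl }
  let f : 𝓞 K →+* SI N K ⧸ span {b} := (Ideal.Quotient.mk _).comp i
  have hf : Function.Surjective f := by
    intro z
    obtain ⟨s, rfl⟩ := Ideal.Quotient.mk_surjective z
    obtain ⟨y, hy, hs⟩ := exists_decomp_deep hN 0 hx' (s : K)
    rw [pow_zero, one_mul] at hs
    have hyS : y ∈ SI N K := by
      have : y = (s : K) - (x : K) * (((s : K) - y) / x) := by field_simp; ring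
      rw [this]
      exact (SI N K).sub_mem s.2 ((SI N K).mul_mem (SI_of_isIntegral x.isIntegral_coe) hs)
    refine ⟨⟨y, isIntegral_of_SI_LI hyS hy⟩, ?_⟩
    show Ideal.Quotient.mk _ (i _) = _
    rw [Ideal.Quotient.eq, Ideal.mem_span_singleton]
    refine ⟨-⟨((s : K) - y) / x, hs⟩, ?_⟩
    apply Subtype.ext
    show y - (s : K) = (x : K) * (-(((s : K) - y) / x))
    field_simp
    ring
  have hker : RingHom.ker f = span {x} := by
    ext y
    rw [RingHom.mem_ker, Ideal.mem_span_singleton]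
    show Ideal.Quotient.mk _ (i y) = 0 ↔ _
    rw [Ideal.Quotient.eq_zero_iff_mem, Ideal.mem_span_singleton]
    constructor
    · rintro ⟨t, ht⟩
      have ht' : (y : K) = (x : K) * (t : K) := congrArg Subtype.val ht
      have h2 : (t : K) ∈ LI N K := by
        have : (t : K) = (y : K) * (x : K)⁻¹ := by rw [ht']; field_simp
        rw [this]
        exact (LI N K).mul_mem (LI_of_isIntegral y.isIntegral_coe) hu
      refine ⟨⟨(t : K), isIntegral_of_SI_LI t.2 h2⟩, ?_⟩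
      exact Subtype.ext ht'
    · rintro ⟨t, rfl⟩
      exact ⟨i t, map_mul i x t⟩
  have h2 : Nat.card (SI N K ⧸ span {b}) = Nat.card (𝓞 K ⧸ span {x}) := by
    rw [← hker]
    exact (Nat.card_congr (RingHom.quotientKerEquivOfSurjective hf).toEquiv).symm
  have h3 : (Nat.card (𝓞 K ⧸ span {x}) : ℝ) = |((Algebra.norm ℚ (x : K) : ℚ) : ℝ)| := by
    have h4 : Nat.card (𝓞 K ⧸ span {x}) = (Algebra.norm ℤ x).natAbs := by
      rw [← Ideal.absNorm_span_singleton, Ideal.absNorm_apply]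
      rfl
    rw [h4, Nat.cast_natAbs, ← Algebra.coe_norm_int]
    push_cast
    rfl
  rw [h1, h2, h3]

theorem nrm_natCast (hN : 0 < N) {m : ℕ} (hm : m ≠ 0) (hc : m.Coprime N) :
    nrm N (m : K) = |((Algebra.norm ℚ (m : K) : ℚ) : ℝ)| := by
  have h := nrm_integral (K := K) hN (x := (m : 𝓞 K)) (by exact_mod_cast hm)
    (by simpa using inv_mem_LI hm hc)
  simpa using h

/-- for a unit at `N`, the away norm is the norm -/
theorem nrm_of_UL (hN : 0 < N) {u : Kˣ} (hu : u ∈ UL N K) :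
    nrm N (u : K) = |((Algebra.norm ℚ (u : K) : ℚ) : ℝ)| := by
  obtain ⟨m, hm0, hm, hmi⟩ : ∃ m : ℕ, m ≠ 0 ∧ m.Coprime N ∧ IsIntegral ℤ ((m : K) * u) := by
    obtain ⟨m, hm, hmi⟩ := hu.1
    by_cases h0 : m = 0
    · subst h0
      have hN1 : N = 1 := by simpa using hm
      subst hN1
      obtain ⟨M, hM, hMi⟩ := exists_nat_integral (u : K)
      exact ⟨M, hM, Nat.coprime_one_right M, hMi⟩
    · exact ⟨m, h0, hm, hmi⟩
  have hmK : (m : K) ≠ 0 := by exact_mod_cast hm0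
  have h1 : nrm N ((m : K) * u) = |((Algebra.norm ℚ ((m : K) * u) : ℚ) : ℝ)| := by
    refine nrm_integral (K := K) hN (x := ⟨(m : K) * u, hmi⟩) ?_ ?_
    · intro h
      have : (m : K) * u = 0 := congrArg Subtype.val h
      exact (mul_ne_zero hmK u.ne_zero) this
    · show ((m : K) * u)⁻¹ ∈ _
      rw [mul_inv, ← Units.val_inv_eq_inv_val u]
      exact (LI N K).mul_mem (inv_mem_LI hm0 hm) hu.2
  rw [nrm_mul hN hmK u.ne_zero, nrm_natCast hN hm0 hm, map_mul] at h1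
  push_cast at h1
  rw [abs_mul] at h1
  have h2 : |((Algebra.norm ℚ (m : K) : ℚ) : ℝ)| ≠ 0 := by
    rw [abs_ne_zero]
    exact_mod_cast Algebra.norm_ne_zero_iff.mpr hmK
  exact mul_left_cancel₀ h2 h1

end nrm

namespace T4D

variable {E L : Type*} [Field E] [NumberField E] [Field L] [NumberField L] [Algebra E L]
  (T : T4D E L) [IsTotallyComplex E]

theorem norm_tm (p : HF E) (s : E) (ξ : Eˣ) (b : Idl T.N L) : ‖T.tm p s ξ b‖ = bwn p (ξ : E) := by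
  unfold tm
  rw [norm_mul, norm_mul, T.norm_psiI_one, T.norm_ψ_one, norm_bw, one_mul, one_mul]

theorem summable_tm (n : ℕ) (p : HF E) (c : Eˣ) (s : E) :
    Summable fun o : T.PI n c => T.tm p s o.1 o.2.1 := by
  obtain ⟨ε, hε, hp⟩ := exists_eps p
  obtain ⟨u, hu, hu0, hb⟩ := T.exists_majPI n c hε (le_refl 2)
  apply Summable.of_norm
  refine Summable.of_nonneg_of_le (fun o => norm_nonneg _) (fun o => ?_)
    (hu.mul_right (ht p ^ (2 * 2 + 1))⁻¹)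
  rw [T.norm_tm]
  exact hb p hp o

theorem finite_fib (n : ℕ) (c : Eˣ) (ξ : T.A1 n) :
    Finite {b : Idl T.N L // nmI T.N E L b = QuotientGroup.mk ((ξ : Eˣ) * c) ∧ InS b 1} := by
  by_contra hinf
  rw [not_finite_iff_infinite] at hinf
  have p : HF E := fun _ => H3.j
  have h1 := (T.summable_tm n p c 0).norm
  have hinj : Function.Injective (fun b : {b : Idl T.N L //
      nmI T.N E L b = QuotientGroup.mk ((ξ : Eˣ) * c) ∧ InS b 1} => (⟨ξ, b⟩ : T.PI n c)) := by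
    intro b b' h
    exact Subtype.ext (congrArg (fun o : T.PI n c => o.2.1) h)
  have h2 : Summable fun b : {b : Idl T.N L //
      nmI T.N E L b = QuotientGroup.mk ((ξ : Eˣ) * c) ∧ InS b 1} => ‖T.tm p 0 ξ b.1‖ := by
    have := h1.comp_injective hinj
    exact this
  simp only [T.norm_tm] at h2
  rw [summable_const_iff] at h2
  have h4 := bw_ne_zero (E := E) (ξ : Eˣ).ne_zero p
  rw [← norm_ne_zero_iff, norm_bw] at h4
  exact h4 h2

/-- **The theta form as a sum over pairs.** -/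
theorem f_eq_PI (n : ℕ) (p : HF E) (c : Eˣ) (s : E) :
    T.f n p c s = ((nrm T.N (c : E) : ℝ) : ℂ) ^ (-(1 / 2) : ℂ) *
      ∑' o : T.PI n c, T.tm p s o.1 o.2.1 := by
  unfold f
  congr 1
  have hs := T.summable_tm n p c s
  have h1 : ∑' o : T.PI n c, T.tm p s o.1 o.2.1 = ∑' ξ : T.A1 n, ∑' b : {b : Idl T.N L //
      nmI T.N E L b = QuotientGroup.mk ((ξ : Eˣ) * c) ∧ InS b 1}, T.tm p s ξ b.1 :=
    hs.tsum_sigma
  rw [h1]
  refine tsum_congr fun ξ => ?_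
  have hfin := T.finite_fib n c ξ
  have h2 : ∑' b : {b : Idl T.N L //
      nmI T.N E L b = QuotientGroup.mk ((ξ : Eˣ) * c) ∧ InS b 1}, T.tm p s ξ b.1 =
      (∑' b : {b : Idl T.N L // nmI T.N E L b = QuotientGroup.mk ((ξ : Eˣ) * c) ∧ InS b 1},
        (T.psiI b.1 : ℂ)) * (T.ψ (((ξ : Eˣ) : E) * s) * bw p ((ξ : Eˣ) : E)) := by
    rw [← tsum_mul_right]
    refine tsum_congr fun b => ?_
    unfold tm
    ring
  rw [h2, tsum_eq_finsum (Set.toFinite _)]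
  unfold A
  ring

theorem pow_half_mul {a b : ℝ} (ha : 0 < a) (hb : 0 < b) :
    ((a * b : ℝ) : ℂ) ^ (-(1 / 2) : ℂ) = (a : ℂ) ^ (-(1 / 2) : ℂ) * (b : ℂ) ^ (-(1 / 2) : ℂ) := by
  rw [Complex.ofReal_mul, Complex.mul_cpow_ofReal_nonneg ha.le hb.le]

theorem pow_half_sq {a : ℝ} (ha : 0 < a) : ((a ^ 2 : ℝ) : ℂ) ^ (-(1 / 2) : ℂ) = ((a : ℂ))⁻¹ := by
  rw [show (-(1 / 2) : ℂ) = ((-(1 / 2) : ℝ) : ℂ) by push_cast; ring,
    ← Complex.ofReal_cpow (by positivity), ← Complex.ofReal_inv]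
  congr 1
  rw [← Real.rpow_natCast, ← Real.rpow_mul ha.le]
  norm_num [Real.rpow_neg_one]

/-- the theta function at a moved point -/
theorem fPhi_aMat {n : ℕ} (hn : 1 ≤ n) (p : HF E) (c : Eˣ) (s : E) {κ : Eˣ} (hκ : κ ∈ T.A1 n) :
    T.fPhi (T.Ph1 n) (Sp.aMat κ • p) (κ * c) ((κ : E) * s) =
      ((nrm T.N (c : E) : ℝ) : ℂ) ^ (-(1 / 2) : ℂ) *
        ∑' o : T.PM n (κ * c), T.tm p s ((o.1 : Eˣ) * κ) o.2.1 := by
  rw [T.fPhi_eq]
  have hP : (0 : ℝ) < ∏ v : InfinitePlace E, ‖v.embedding (κ : E)‖ :=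
    Finset.prod_pos fun v _ => norm_pos_iff.mpr (emb_ne κ.ne_zero v)
  have hκn : nrm T.N (κ : E) = (∏ v : InfinitePlace E, ‖v.embedding (κ : E)‖) ^ 2 := by
    rw [nrm_of_UL T.hN (T.A1_UL hn hκ), prod_sq_eq]
  have e1 : ∀ o : T.PM n (κ * c), T.tm (Sp.aMat κ • p) ((κ : E) * s) o.1 o.2.1 =
      ((∏ v : InfinitePlace E, ‖v.embedding (κ : E)‖ : ℝ) : ℂ) *
        T.tm p s ((o.1 : Eˣ) * κ) o.2.1 := by
    intro o
    unfold tm
    rw [bw_aMat, Units.val_mul, mul_assoc (((o.1 : Eˣ) : Eˣ) : E), mul_comm (κ : E) (((o.1 : Eˣ)) : E)]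
    push_cast
    ring
  simp_rw [e1]
  rw [tsum_mul_left, Units.val_mul, nrm_mul T.hN κ.ne_zero c.ne_zero,
    pow_half_mul (nrm_pos T.hN κ.ne_zero) (nrm_pos T.hN c.ne_zero), hκn, pow_half_sq hP]
  have hP' : ((∏ v : InfinitePlace E, ‖v.embedding (κ : E)‖ : ℝ) : ℂ) ≠ 0 := by
    exact_mod_cast hP.ne'
  field_simp

omit [IsTotallyComplex E] in
theorem PI_ext {n : ℕ} {c : Eˣ} {o o' : T.PI n c} (h1 : (o.1 : Eˣ) = o'.1)
    (h2 : o.2.1 = o'.2.1) : o = o' := by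
  obtain ⟨ξ, b⟩ := o
  obtain ⟨ξ', b'⟩ := o'
  have h3 : ξ = ξ' := Subtype.ext h1
  subst h3
  have h4 : b = b' := Subtype.ext h2
  subst h4
  rfl

omit [IsTotallyComplex E] in
theorem PM_ext {n : ℕ} {c : Eˣ} {o o' : T.PM n c} (h1 : (o.1 : Eˣ) = o'.1)
    (h2 : o.2.1 = o'.2.1) : o = o' := by
  obtain ⟨ξ, b⟩ := o
  obtain ⟨ξ', b'⟩ := o'
  have h3 : ξ = ξ' := Subtype.ext h1
  subst h3
  have h4 : b = b' := Subtype.ext h2
  subst h4
  rfl

/-- the reindexing -/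
noncomputable def reidx {n : ℕ} (hn : 1 ≤ n) {ι : Type*} (κ : ι → Eˣ) (hκ : ∀ i, κ i ∈ T.A1 n)
    (c : Eˣ) (z : Σ i, T.PM n (κ i * c)) : T.PI n c :=
  ⟨⟨(z.2.1 : Eˣ) * κ z.1, (T.G1 n hn).mul_mem z.2.1.2.1 (hκ z.1)⟩, z.2.2.1,
    z.2.2.2.1.trans (by
      show (QuotientGroup.mk ((z.2.1 : Eˣ) * (κ z.1 * c)) : Idl T.N E) =
        QuotientGroup.mk ((z.2.1 : Eˣ) * κ z.1 * c)
      rw [mul_assoc]), z.2.2.2.2⟩

omit [IsTotallyComplex E] in
theorem reidx_bijective {n : ℕ} (hn : 1 ≤ n) {ι : Type*} (κ : ι → Eˣ) (hκ : ∀ i, κ i ∈ T.A1 n)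
    (hrep : ∀ ξ ∈ T.A1 n, ∃! i, ∃ u ∈ UL T.N L, nmU E L u * κ i = ξ) (c : Eˣ) :
    Function.Bijective (T.reidx hn κ hκ c) := by
  constructor
  · rintro ⟨i, o⟩ ⟨i', o'⟩ h
    have h1 : (o.1 : Eˣ) * κ i = (o'.1 : Eˣ) * κ i' :=
      congrArg (fun o : T.PI n c => (o.1 : Eˣ)) h
    have h2 : o.2.1 = o'.2.1 := congrArg (fun o : T.PI n c => o.2.1) h
    obtain ⟨i0, -, hi0⟩ := hrep ((o.1 : Eˣ) * κ i) ((T.G1 n hn).mul_mem o.1.2.1 (hκ i))
    obtain ⟨u, hu, hun⟩ := o.1.2.2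
    obtain ⟨u', hu', hun'⟩ := o'.1.2.2
    have h3 : i = i' := by
      rw [hi0 i ⟨u, hu, by rw [hun]⟩, hi0 i' ⟨u', hu', by rw [hun', h1]⟩]
    subst h3
    have h4 : (o.1 : Eˣ) = o'.1 := mul_right_cancel h1
    rw [T.PM_ext h4 h2]
  · intro o
    obtain ⟨i, ⟨u, hu, hun⟩, -⟩ := hrep o.1 o.1.2
    have h1 : nmU E L u ∈ T.A1 n := by
      have : nmU E L u = (o.1 : Eˣ) * (κ i)⁻¹ := by rw [← hun, mul_inv_cancel_right]
      rw [this]
      exact (T.G1 n hn).mul_mem o.1.2 ((T.G1 n hn).inv_mem (hκ i))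
    refine ⟨⟨i, ⟨nmU E L u, h1, u, hu, rfl⟩, o.2.1, ?_, o.2.2.2⟩, ?_⟩
    · refine o.2.2.1.trans ?_
      show (QuotientGroup.mk ((o.1 : Eˣ) * c) : Idl T.N E) =
        QuotientGroup.mk (nmU E L u * (κ i * c))
      rw [← mul_assoc, hun]
    · exact T.PI_ext hun rfl

/-- **The theta form as a sum over norm classes.** -/
theorem f_eq_sum {n : ℕ} (hn : 1 ≤ n) {ι : Type*} (κ : ι → Eˣ) (hκ : ∀ i, κ i ∈ T.A1 n)
    (hrep : ∀ ξ ∈ T.A1 n, ∃! i, ∃ u ∈ UL T.N L, nmU E L u * κ i = ξ) (p : HF E) (c : Eˣ) (s : E) :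
    Summable (fun i => T.fPhi (T.Ph1 n) (Sp.aMat (κ i) • p) (κ i * c) ((κ i : E) * s)) ∧
    T.f n p c s = ∑' i, T.fPhi (T.Ph1 n) (Sp.aMat (κ i) • p) (κ i * c) ((κ i : E) * s) := by
  have hθ := T.reidx_bijective hn κ hκ hrep c
  let F : (Σ i, T.PM n (κ i * c)) → ℂ := fun z => T.tm p s ((z.2.1 : Eˣ) * κ z.1) z.2.2.1
  have hs : Summable F := by
    have := (T.summable_tm n p c s).comp_injective hθ.1
    exact this
  have h1 : ∑' o : T.PI n c, T.tm p s o.1 o.2.1 =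
      ∑' i, ∑' o : T.PM n (κ i * c), T.tm p s ((o.1 : Eˣ) * κ i) o.2.1 := by
    have e1 := (Equiv.ofBijective _ hθ).tsum_eq (fun o : T.PI n c => T.tm p s o.1 o.2.1)
    have e2 : ∑' z, F z = ∑' i, ∑' o : T.PM n (κ i * c), F ⟨i, o⟩ := hs.tsum_sigma
    exact e1.symm.trans e2
  have h2 : ∀ i, T.fPhi (T.Ph1 n) (Sp.aMat (κ i) • p) (κ i * c) ((κ i : E) * s) =
      ((nrm T.N (c : E) : ℝ) : ℂ) ^ (-(1 / 2) : ℂ) *
        ∑' o : T.PM n (κ i * c), T.tm p s ((o.1 : Eˣ) * κ i) o.2.1 := fun i =>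
    T.fPhi_aMat hn p c s (hκ i)
  have h3 : Summable fun i => ∑' o : T.PM n (κ i * c), T.tm p s ((o.1 : Eˣ) * κ i) o.2.1 := hs.sigma
  constructor
  · rw [summable_congr h2]
    exact h3.mul_left _
  · rw [T.f_eq_PI, h1, tsum_congr h2, tsum_mul_left]

omit [IsTotallyComplex E] in
/-- **Representatives of the norm classes.** -/
theorem exists_reps {n : ℕ} (hn : 1 ≤ n) : ∃ κ : (T.G1 n hn ⧸
      ((UL T.N L).map (nmU E L)).subgroupOf (T.G1 n hn)) → Eˣ,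
    (∀ i, κ i ∈ T.A1 n) ∧ ∀ ξ ∈ T.A1 n, ∃! i, ∃ u ∈ UL T.N L, nmU E L u * κ i = ξ := by
  set S := ((UL T.N L).map (nmU E L)).subgroupOf (T.G1 n hn) with hS
  refine ⟨fun i => (Quotient.out i : T.G1 n hn), fun i => (Quotient.out i : T.G1 n hn).2,
    fun ξ hξ => ?_⟩
  have key : ∀ i : T.G1 n hn ⧸ S, (∃ u ∈ UL T.N L, nmU E L u * ((Quotient.out i : T.G1 n hn) : Eˣ) =
      ξ) ↔ i = QuotientGroup.mk (⟨ξ, hξ⟩ : T.G1 n hn) := by
    intro i
    conv_rhs => rw [← QuotientGroup.out_eq' i]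
    rw [QuotientGroup.eq]
    have hmem : ∀ g : T.G1 n hn, g ∈ S ↔ (g : Eˣ) ∈ (UL T.N L).map (nmU E L) := fun g =>
      Subgroup.mem_subgroupOf
    rw [hmem]
    constructor
    · rintro ⟨u, hu, h⟩
      refine ⟨u, hu, ?_⟩
      show nmU E L u = ((Quotient.out i : T.G1 n hn) : Eˣ)⁻¹ * ξ
      rw [← h, mul_comm, mul_inv_cancel_right]
    · rintro ⟨u, hu, h⟩
      refine ⟨u, hu, ?_⟩
      have h' : nmU E L u = ((Quotient.out i : T.G1 n hn) : Eˣ)⁻¹ * ξ := h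
      rw [h', mul_comm, mul_inv_cancel_left]
  refine ⟨QuotientGroup.mk (⟨ξ, hξ⟩ : T.G1 n hn), (key _).mpr rfl, fun j hj => (key j).mp hj⟩

end T4D

end Fermat.Agent.LT.T4
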