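import Fermat.Agent.LT.T4.WK
import Fermat.Agent.LT.T4.Lvl
import Fermat.Agent.LT.T4.Reg3

set_option autoImplicit false

/-! # Closure of the families of theta functions under `GL₂(E)` -/

namespace Fermat.Agent.LT.T4

open Complex MeasureTheory NumberField Module Matrix Filter Topology
open Fermat.Agent.LT.Fou Fermat.Agent.LT.Theta
open scoped Real ComplexConjugate ENNReal ContDiff

set_option linter.unusedSectionVars false

section mean

variable {L : Type*} [Field L] [NumberField L]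

theorem norm_boxSum_le {d : Type*} [Fintype d] [DecidableEq d] (m : ℕ) {f : (d → ℤ) → ℂ} {C : ℝ}
    (h : ∀ k, ‖f k‖ ≤ C) : ‖boxSum m f‖ ≤ (m : ℝ) ^ Fintype.card d * C := by
  unfold boxSum
  refine (norm_sum_le_of_le _ fun r _ => h _).trans ?_
  rw [Finset.sum_const, nsmul_eq_mul, Finset.card_univ, Fintype.card_fun, Fintype.card_fin]
  push_cast
  exact le_rfl

theorem norm_mean_le {n : ℕ} (hn : 0 < n) {Ψ : L → ℂ} (h : SBn n Ψ) {C : ℝ}
    (hC : ∀ x, ‖Ψ x‖ ≤ C) : ‖mean Ψ‖ ≤ (n : ℝ) ^ finrank ℚ L * C := by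
  classical
  have hn' : (0 : ℝ) < n := by exact_mod_cast hn
  rw [mean_eq hn h]
  unfold meanN
  rw [norm_mul, norm_inv, norm_pow, Complex.norm_natCast]
  have h1 := norm_boxSum_le (n ^ 2) (f := fun k : IB L → ℤ => Ψ (el0 k / n)) (fun k => hC _)
  rw [card_IB] at h1
  have hC0 : 0 ≤ C := (norm_nonneg _).trans (hC 0)
  calc ((n : ℝ) ^ finrank ℚ L)⁻¹ * ‖boxSum (n ^ 2) (fun k : IB L → ℤ => Ψ (el0 k / n))‖
      ≤ ((n : ℝ) ^ finrank ℚ L)⁻¹ * (((n ^ 2 : ℕ) : ℝ) ^ finrank ℚ L * C) :=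
        mul_le_mul_of_nonneg_left h1 (by positivity)
    _ = _ := by
        push_cast
        rw [← pow_mul, two_mul, pow_add]
        field_simp

end mean

namespace T4D

variable {E L : Type*} [Field E] [NumberField E] [Field L] [NumberField L] [Algebra E L]
  (T : T4D E L)

local notation "tr" => Algebra.trace E L
local notation "nm" => Algebra.norm E (S := L)

/-- uniform bounds for the Fourier transforms at `N` -/
theorem norm_ftB_le [IsTotallyComplex E] {d : ℕ} (hd : ∀ (k : ℕ) (Φ : L → ℂ), BSch T.N k Φ →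
    BSch T.N (k + d) (T.ftB Φ)) (k : ℕ) (C : ℝ) : ∃ C' : ℝ, ∀ Φ : L → ℂ, BSch T.N k Φ →
    (∀ x, ‖Φ x‖ ≤ C) → ∀ η, ‖T.ftB Φ η‖ ≤ C' := by
  refine ⟨((T.N ^ (k + d) : ℕ) : ℝ) ^ finrank ℚ L * |C|, fun Φ hΦ hC η => ?_⟩
  by_cases h0 : T.ftB Φ η = 0
  · rw [h0, norm_zero]; positivity
  have hη := (hd k Φ hΦ).2 η h0
  have hη' : (T.N : L) ^ (k + d) * T.q.c η ∈ LI T.N L := by
    have := T.c_mem_LI hη
    rwa [map_mul, map_pow, map_natCast] at this
  unfold ftB mB
  apply norm_mean_le (pow_pos T.hN _)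
  · constructor
    · intro x hx
      have h1 : T.tw Φ η x ≠ 0 := left_ne_zero_of_mul hx
      have h2 : ind T.N 1 0 x ≠ 0 := right_ne_zero_of_mul hx
      have h3 : x ∈ SI T.N L := by
        by_contra h
        apply h2
        apply ind_neg
        rwa [sub_zero, div_one]
      have h4 := hΦ.2 x (left_ne_zero_of_mul h1)
      push_cast
      apply isIntegral_of_SI_LI (N := T.N)
      · exact (SI T.N L).mul_mem (SI_of_isIntegral ((isIntegral_natCast' T.N).pow _)) h3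
      · rw [add_comm, pow_add, mul_assoc]
        exact (LI T.N L).mul_mem (LI_of_isIntegral ((isIntegral_natCast' T.N).pow _)) h4
    · intro x y hy
      have hyL : y ∈ LI T.N L := LI_of_isIntegral hy
      have e1 : T.tw Φ η (x + ((T.N ^ (k + d) : ℕ) : L) * y) = T.tw Φ η x := by
        unfold tw
        push_cast
        have e2 : Φ (x + (T.N : L) ^ (k + d) * y) = Φ x := by
          rw [pow_add, mul_assoc]
          exact hΦ.1 x _ ((LI T.N L).mul_mem
            (LI_of_isIntegral ((isIntegral_natCast' T.N).pow _)) hyL)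
        rw [e2]
        congr 1
        have e3 : -(tr ((x + (T.N : L) ^ (k + d) * y) * T.q.c η)) =
            -(tr (x * T.q.c η)) + -(tr (y * ((T.N : L) ^ (k + d) * T.q.c η))) := by
          rw [← neg_add, ← map_add]
          congr 2
          ring
        rw [e3, AddChar.map_add_eq_mul, T.ψB_LI ((LI T.N E).neg_mem (T.tr_mem_LI
          ((LI T.N L).mul_mem hyL hη'))), mul_one]
      have e4 : ind T.N 1 0 (x + ((T.N ^ (k + d) : ℕ) : L) * y) = ind T.N 1 0 x := by
        apply ind_congr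
        rw [sub_zero, sub_zero, div_one, div_one]
        have hm : ((T.N ^ (k + d) : ℕ) : L) * y ∈ SI T.N L :=
          SI_of_isIntegral ((isIntegral_natCast' _).mul hy)
        exact ⟨fun h => by
          have := (SI T.N L).sub_mem h hm
          rwa [add_sub_cancel_right] at this, fun h => (SI T.N L).add_mem h hm⟩
      show T.tw Φ η _ * ind T.N 1 0 _ = _
      rw [e1, e4]
  · intro x
    rw [norm_mul]
    unfold tw
    rw [norm_mul, norm_ψB, mul_one]
    have h1 : ‖ind T.N 1 0 x‖ ≤ 1 := by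
      by_cases h : (x - 0) / 1 ∈ SI T.N L
      · rw [ind_pos h, norm_one]
      · rw [ind_neg h, norm_zero]; exact zero_le_one
    calc ‖Φ x‖ * ‖ind T.N 1 0 x‖ ≤ |C| * 1 :=
          mul_le_mul ((hC x).trans (le_abs_self C)) h1 (norm_nonneg _) (abs_nonneg _)
      _ = |C| := mul_one _

/-- the twist by a unipotent element -/
noncomputable def twn (b : E) (Φ : L → ℂ) (x : L) : ℂ := (T.ψB (b * nm x))⁻¹ * Φ x

theorem twn_BSch {k m : ℕ} {b : E} (hb : (T.N : E) ^ m * b ∈ LI T.N E) {Φ : L → ℂ}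
    (hΦ : BSch T.N k Φ) : BSch T.N (k + m) (T.twn b Φ) := by
  have hN' : (T.N : L) ≠ 0 := by exact_mod_cast T.hN.ne'
  constructor
  · intro x y hy
    have e2 : Φ (x + (T.N : L) ^ (k + m) * y) = Φ x := by
      rw [pow_add, mul_assoc]
      exact hΦ.1 x _ ((LI T.N L).mul_mem (pow_mem_LI m) hy)
    unfold twn
    rw [e2]
    by_cases h0 : Φ x = 0
    · rw [h0, mul_zero, mul_zero]
    congr 2
    have hx := hΦ.2 x h0
    have e3 : b * nm (x + (T.N : L) ^ (k + m) * y) = b * nm x +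
        (((T.N : E) ^ m * b) * tr ((T.N : L) ^ k * x * T.q.c y) +
          ((T.N : E) ^ m * b) * ((T.N : E) ^ (k + (k + m)) * nm y)) := by
      have e4 : (T.N : L) ^ (k + m) = algebraMap E L ((T.N : E) ^ (k + m)) := by simp
      have e5 : tr (x * T.q.c ((T.N : L) ^ (k + m) * y)) =
          (T.N : E) ^ m * tr ((T.N : L) ^ k * x * T.q.c y) := by
        rw [← T4D.tr_aM_mul]
        congr 1
        rw [map_mul T.q.c, map_pow, map_natCast]
        simp only [map_pow, map_natCast]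
        ring
      have e6 : nm ((T.N : L) ^ (k + m) * y) = (T.N : E) ^ (2 * (k + m)) * nm y := by
        rw [map_mul, e4, Algebra.norm_algebraMap, T.q.two]
        ring
      rw [T.nm_add, e5, e6]
      ring
    rw [e3, AddChar.map_add_eq_mul]
    have hmem : (((T.N : E) ^ m * b) * tr ((T.N : L) ^ k * x * T.q.c y) +
        ((T.N : E) ^ m * b) * ((T.N : E) ^ (k + (k + m)) * nm y)) ∈ LI T.N E := by
      apply (LI T.N E).add_mem
      · exact (LI T.N E).mul_mem hb (T.tr_mem_LI ((LI T.N L).mul_mem hx (T.c_mem_LI hy)))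
      · exact (LI T.N E).mul_mem hb ((LI T.N E).mul_mem (pow_mem_LI _) (nm_mem_LI hy))
    rw [T.ψB_LI hmem, mul_one]
  · intro x hx
    rw [add_comm, pow_add, mul_assoc]
    exact (LI T.N L).mul_mem (pow_mem_LI m) (hΦ.2 x (right_ne_zero_of_mul hx))

theorem twn_Eqv {b : E} {Φ : L → ℂ} (hΦ : T.Eqv Φ) : T.Eqv (T.twn b Φ) := by
  intro u hu x
  unfold twn
  have h1 : nm (u : L) = 1 := congrArg Units.val (T.mem_H.mp hu).1
  rw [hΦ u hu, map_mul (Algebra.norm E), h1, one_mul]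
  ring

theorem norm_twn (b : E) (Φ : L → ℂ) (x : L) : ‖T.twn b Φ x‖ = ‖Φ x‖ := by
  unfold twn
  rw [norm_mul, norm_inv, norm_ψB, inv_one, one_mul]

/-- families of equivariant functions -/
structure KFE {K : Type*} (κ : K → Eˣ) (Φ : K → L → ℂ) : Prop extends T.KF κ Φ where
  eqv : ∀ i, T.Eqv (Φ i)

variable {T}

theorem KFE.inv [IsTotallyComplex E] {K : Type*} {κ : K → Eˣ} {Φ : K → L → ℂ} (h : T.KFE κ Φ) :
    T.KFE (fun i => (κ i)⁻¹) (fun i => T.ftB (Φ i)) := by
  obtain ⟨k, hk⟩ := h.sch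
  obtain ⟨C, hC⟩ := h.bdd
  obtain ⟨d, hd⟩ := T.exists_ftB_supp
  obtain ⟨C', hC'⟩ := T.norm_ftB_le hd k C
  refine ⟨⟨fun i => (UL T.N E).inv_mem (h.unit i), fun i j => ?_, ⟨k + d,
    fun i => hd k _ (hk i)⟩, ⟨C', fun i x => hC' _ (hk i) (hC i) x⟩⟩, fun i =>
    T.ftB_Eqv (hk i) (h.eqv i)⟩
  rintro ⟨u, hu, hh⟩
  refine (h.inj j i ⟨u, hu, ?_⟩).symm
  have : nmU E L u = (κ i)⁻¹ * κ j := by rw [← hh]; group
  rw [this]
  rw [mul_assoc, mul_comm (κ j), inv_mul_cancel_left]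

theorem KFE.twn {K : Type*} {κ : K → Eˣ} {Φ : K → L → ℂ} (h : T.KFE κ Φ) (b : E) :
    T.KFE κ (fun i => T.twn (κ i * b) (Φ i)) := by
  obtain ⟨k, hk⟩ := h.sch
  obtain ⟨C, hC⟩ := h.bdd
  obtain ⟨m, hm⟩ := pow_mul_mem_LI T.hN b
  refine ⟨⟨h.unit, h.inj, ⟨k + m, fun i => T.twn_BSch ?_ (hk i)⟩,
    ⟨C, fun i x => by rw [norm_twn]; exact hC i x⟩⟩, fun i => T.twn_Eqv (h.eqv i)⟩
  have : (T.N : E) ^ m * (κ i * b) = κ i * ((T.N : E) ^ m * b) := by ring
  rw [this]
  exact (LI T.N E).mul_mem (h.unit i).1 hm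

end T4D

end Fermat.Agent.LT.T4
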